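import Fermat.Agent.MW.Inertia

/-!
# The weak Mordell-Weil theorem for `J₀(N)` (modulo the equality of genera)
-/

set_option autoImplicit false
set_option maxHeartbeats 400000

noncomputable section

open AlgebraicCurve Module ModularCurve

namespace Fermat.Agent.MW

open Fermat.Agent.Deuring Fermat.Agent.FunField Fermat.Agent.FunField.PlaceLemmas

local notation "Q̄" => AlgebraicClosure ℚ

theorem finite_torsion {K F : Type} [Field K] [Field F] [Algebra K F] [IsAlgClosed K]
    [CharZero K] [IsFF K F] {n : ℕ} (hn : 0 < n) : {y : Pic0 K F | n • y = 0}.Finite := by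
  have : IsCurveOver K F := isCurveOver_of_isFF
  have h1 := Fermat.Agent.BaseChangeFF.natCard_torsion_of_complex
    (fun E _ _ _ _ n hn => Fermat.Agent.S27C.natCard_torsion_complex n hn) K F n hn
  have h2 : Nat.card {x : Pic0 K F // (n : ℤ) • x = 0} ≠ 0 := by
    rw [h1]; exact (pow_pos hn _).ne'
  have h3 : Finite {x : Pic0 K F // (n : ℤ) • x = 0} := Nat.finite_of_card_ne_zero h2
  have h4 : {y : Pic0 K F | n • y = 0} = {y : Pic0 K F | (n : ℤ) • y = 0} := by
    ext y
    show n • y = 0 ↔ (n : ℤ) • y = 0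
    rw [natCast_zsmul]
  rw [h4]
  exact h3

/-- **Weak Mordell-Weil** for `J₀(N)`. -/
theorem weak_mw_JZero (N : ℕ) [NeZero N] :
    (nsmulAddMonoidHom (α := FixedPoints.addSubgroup (Q̄ ≃ₐ[ℚ] Q̄) (JZero N)) 2).range.FiniteIndex := by
  refine weak_mw (J := JZero N)
    (fun x => BaseChangeFF.pic0_divisible Q̄ (modularFunctionFieldBar N) 2 two_pos x)
    (finite_torsion two_pos) (fun x => ?_) (S := {ℓ | ℓ ∣ 2 * N}) ?_ ?_
  · obtain ⟨E, hE, h⟩ := GalJ.level_JZero N x
    exact ⟨E, hE, fun σ hσ => h σ ((IntermediateField.mem_fixingSubgroup_iff E σ).mp hσ)⟩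
  · exact Set.Finite.subset (Finset.finite_toSet (Nat.divisors (2 * N))) fun ℓ hℓ =>
      Nat.mem_divisors.mpr ⟨hℓ, mul_ne_zero two_ne_zero (NeZero.ne N)⟩
  · intro ℓ hℓ hS A hA τ hτ y hy
    have h1 : ¬ ℓ ∣ N := fun h => hS (h.mul_left 2)
    have h2 : ¬ ℓ ∣ 2 := fun h => hS (h.mul_right N)
    refine smul_eq_of_inertia N hℓ h1 h2 hA hτ y ?_
    have := hy τ
    rwa [smul_comm τ 2 y] at this

end Fermat.Agent.MW
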