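import Mathlib.NumberTheory.Padics.Complex
import Mathlib.FieldTheory.IsAlgClosed.AlgebraicClosure
import Mathlib.Analysis.Complex.Polynomial.Basic
import Mathlib.NumberTheory.Padics.PadicNumbers
import Mathlib.Algebra.BigOperators.Finprod
import Mathlib.Analysis.SpecialFunctions.Log.Basic
import Fermat.Agent.Frob.QbarInst

/-! # Absolute values on `ℚ̄` (one for each place of `ℚ`) and the product formula -/

set_option autoImplicit false

noncomputable section

open Polynomial

namespace Fermat.Agent.MW

/-- `ℚ̄` -/
abbrev Qb : Type := AlgebraicClosure ℚ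

/-- The places of `ℚ`: `none` is the archimedean one. -/
abbrev Pl : Type := Option Nat.Primes

/-- chosen embedding in `ℂ` -/
def embC : Qb →+* ℂ := (IsAlgClosed.lift : Qb →ₐ[ℚ] ℂ).toRingHom

instance factPrimes (p : Nat.Primes) : Fact (p : ℕ).Prime := ⟨p.2⟩

/-- chosen embedding in `PadicAlgCl p` -/
def embP (p : Nat.Primes) : Qb →+* PadicAlgCl p :=
  (IsAlgClosed.lift : Qb →ₐ[ℚ] PadicAlgCl p).toRingHom

/-- the absolute value attached to a ring hom to a normed field -/
def avOf {K L : Type*} [Field K] [NormedField L] (φ : K →+* L) : AbsoluteValue K ℝ where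
  toFun x := ‖φ x‖
  map_mul' x y := by simp
  nonneg' x := norm_nonneg _
  eq_zero' x := by simp
  add_le' x y := by rw [map_add]; exact norm_add_le _ _

/-- The chosen absolute value on `ℚ̄` above the place `v` of `ℚ`. -/
def av : Pl → AbsoluteValue Qb ℝ
  | none => avOf embC
  | some p => avOf (embP p)

theorem av_none (x : Qb) : av none x = ‖embC x‖ := rfl
theorem av_some (p : Nat.Primes) (x : Qb) : av (some p) x = ‖embP p x‖ := rfl

theorem av_add_le (p : Nat.Primes) (x y : Qb) :
    av (some p) (x + y) ≤ max (av (some p) x) (av (some p) y) := by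
  rw [av_some, av_some, av_some, map_add]
  exact PadicAlgCl.isNonarchimedean _ _ _

theorem av_nonarch (p : Nat.Primes) : IsNonarchimedean (av (some p)) := av_add_le p

theorem embC_rat (q : ℚ) : embC (algebraMap ℚ Qb q) = (q : ℂ) := by
  simp [embC]

theorem av_none_rat (q : ℚ) : av none (algebraMap ℚ Qb q) = |(q : ℝ)| := by
  rw [av_none, embC_rat, Complex.norm_ratCast]

theorem av_some_rat (p : Nat.Primes) (q : ℚ) :
    av (some p) (algebraMap ℚ Qb q) = ((padicNorm p q : ℚ) : ℝ) := by
  rw [av_some]
  have : embP p (algebraMap ℚ Qb q) = ((q : ℚ_[(p : ℕ)]) : PadicAlgCl p) := by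
    simp [embP]
  rw [this, PadicAlgCl.norm_extends, Padic.eq_padicNorm]

theorem av_pos {v : Pl} {a : Qb} (ha : a ≠ 0) : 0 < av v a := (av v).pos ha

/-- finite places with `|a|_p > 1` are finitely many. -/
theorem finite_one_lt (a : Qb) : {p : Nat.Primes | 1 < av (some p) a}.Finite := by
  -- a is a root of a monic rational polynomial
  have hint : IsIntegral ℚ a := Algebra.IsIntegral.isIntegral a
  obtain ⟨f, hf, hfa⟩ := hint
  let d : ℕ := ∏ i ∈ Finset.range (f.natDegree + 1), (f.coeff i).den
  have hd : d ≠ 0 := Finset.prod_ne_zero_iff.mpr fun i _ => (f.coeff i).den_nz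
  have hfin : {p : Nat.Primes | (p : ℕ) ∣ d}.Finite := by
    have h1 : {n : ℕ | n ∣ d}.Finite := by
      refine (Finset.finite_toSet d.divisors).subset fun n hn => ?_
      simp only [Finset.mem_coe, Nat.mem_divisors]
      exact ⟨hn, hd⟩
    exact Set.Finite.preimage (f := fun p : Nat.Primes => (p : ℕ))
      (fun x _ y _ h => Subtype.ext h) h1
  refine hfin.subset fun p hp => ?_
  by_contra hcon
  have hcon' : ¬ (p : ℕ) ∣ d := hcon
  have hcoef : ∀ i, av (some p) (algebraMap ℚ Qb (f.coeff i)) ≤ 1 := by
    intro i
    by_cases hi : i ∈ Finset.range (f.natDegree + 1)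
    · rw [av_some_rat, ← Padic.eq_padicNorm]
      apply Padic.norm_rat_le_one
      intro h
      exact hcon' (h.trans (Finset.dvd_prod_of_mem _ hi))
    · rw [Finset.mem_range, not_lt] at hi
      rw [Polynomial.coeff_eq_zero_of_natDegree_lt (by omega)]
      simp
  have hp' : 1 < av (some p) a := hp
  have hn : f.natDegree ≠ 0 := by
    intro h0
    have : f = 1 := by
      rw [Polynomial.eq_C_of_natDegree_eq_zero h0]
      have := hf.leadingCoeff
      rw [Polynomial.leadingCoeff, h0] at this
      rw [this]; simp
    rw [this] at hfa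
    simp at hfa
  -- a^n = - sum lower terms
  have hsum : a ^ f.natDegree = - ∑ i ∈ Finset.range f.natDegree,
      algebraMap ℚ Qb (f.coeff i) * a ^ i := by
    have h1 : ∑ i ∈ Finset.range (f.natDegree + 1), algebraMap ℚ Qb (f.coeff i) * a ^ i = 0 := by
      rw [← hfa, Polynomial.eval₂_eq_sum_range]
    rw [Finset.sum_range_succ] at h1
    have h2 : f.coeff f.natDegree = 1 := hf.leadingCoeff
    rw [h2, map_one, one_mul] at h1
    linear_combination h1
  have hle : av (some p) (a ^ f.natDegree) ≤ av (some p) a ^ (f.natDegree - 1) := by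
    rw [hsum, AbsoluteValue.map_neg]
    have hb : ∀ s : Finset ℕ, s ⊆ Finset.range f.natDegree →
        av (some p) (∑ i ∈ s, algebraMap ℚ Qb (f.coeff i) * a ^ i) ≤
          av (some p) a ^ (f.natDegree - 1) := by
      intro s
      induction s using Finset.induction_on with
      | empty => intro _; simp only [Finset.sum_empty, map_zero]; positivity
      | insert i s hi ih =>
        intro hs
        rw [Finset.sum_insert hi]
        refine (av_add_le p _ _).trans (max_le ?_ (ih fun j hj => hs (Finset.mem_insert_of_mem hj)))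
        rw [map_mul, map_pow]
        have hi' : i < f.natDegree := Finset.mem_range.mp (hs (Finset.mem_insert_self _ _))
        calc _ ≤ 1 * av (some p) a ^ i := by gcongr; exact hcoef i
          _ = av (some p) a ^ i := one_mul _
          _ ≤ _ := pow_le_pow_right₀ hp'.le (by omega)
    exact hb _ (Finset.Subset.refl _)
  rw [map_pow] at hle
  have : av (some p) a ^ (f.natDegree - 1) < av (some p) a ^ f.natDegree :=
    pow_lt_pow_right₀ hp' (by omega)
  linarith

/-- A nonzero algebraic number is a unit at almost all places. -/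
theorem av_finite {a : Qb} (ha : a ≠ 0) : {v : Pl | av v a ≠ 1}.Finite := by
  have h1 := finite_one_lt a
  have h2 := finite_one_lt a⁻¹
  refine ((Set.finite_singleton (none : Pl)).union
    ((h1.image some).union (h2.image some))).subset ?_
  rintro (_ | p) hp
  · left; rfl
  · right
    have hp' : av (some p) a ≠ 1 := hp
    rcases lt_or_gt_of_ne hp' with h | h
    · right
      refine ⟨p, ?_, rfl⟩
      show 1 < av (some p) a⁻¹
      rw [map_inv₀]
      exact (one_lt_inv₀ (av_pos ha)).mpr h
    · left
      exact ⟨p, h, rfl⟩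

end Fermat.Agent.MW
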