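import Mathlib

/-! # The local algebra behind the core lemma -/

set_option autoImplicit false
set_option linter.unusedSectionVars false

noncomputable section

open Polynomial IsLocalRing

namespace Fermat.Agent.MW

variable {O : Type*} [CommRing O] [IsLocalRing O] {ι : Type*} [Finite ι]

/-- A subalgebra generated by finitely many elements of `O^ι` is a finite module. -/
theorem fg_adjoin_pi {G : Set (ι → O)} (hG : G.Finite) :
    (Algebra.adjoin O G).toSubmodule.FG :=
  fg_adjoin_of_finite hG fun x _ => by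
    have : Module.Finite O (ι → O) := inferInstance
    exact Algebra.IsIntegral.isIntegral x

variable [Fintype ι]

theorem prod_sub_mem_map (R : Subalgebra O (ι → O)) (y : R) (a : ι → O)
    (h : ∀ i, (y : ι → O) i - a i ∈ maximalIdeal O) :
    ∏ i, (y - algebraMap O R (a i)) ∈ (maximalIdeal O).map (algebraMap O R) := by
  classical
  rw [← Ideal.Quotient.eq_zero_iff_mem, map_prod]
  have h1 : ∀ i, Ideal.Quotient.mk ((maximalIdeal O).map (algebraMap O R))
      (y - algebraMap O R (a i)) = Ideal.Quotient.mk ((maximalIdeal O).map (algebraMap O R))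
      (y - algebraMap O R ((y : ι → O) i)) := by
    intro i
    rw [Ideal.Quotient.eq]
    have : y - algebraMap O R (a i) - (y - algebraMap O R ((y : ι → O) i)) =
        algebraMap O R ((y : ι → O) i - a i) := by
      rw [map_sub]; ring
    rw [this]
    exact Ideal.mem_map_of_mem _ (h i)
  rw [Finset.prod_congr rfl fun i _ => h1 i, ← map_prod]
  have h2 : ∏ i, (y - algebraMap O R ((y : ι → O) i)) = 0 := by
    apply Subtype.ext
    funext j
    have h3 : ((∏ i, (y - algebraMap O R ((y : ι → O) i)) : R) : ι → O) =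
        ∏ i, ((y : ι → O) - algebraMap O (ι → O) ((y : ι → O) i)) := by
      push_cast
      rfl
    rw [h3, Finset.prod_apply]
    apply Finset.prod_eq_zero (Finset.mem_univ j)
    simp
  rw [h2, map_zero]

/-- The local algebra lemma. -/
theorem adjoin_le_adjoin_singleton {G : Set (ι → O)} (hG : G.Finite)
    {x : ι → O} (hx : x ∈ Algebra.adjoin O G) (a : ι → O)
    (hxa : ∀ i, x i - a i ∈ maximalIdeal O)
    (H : ∀ i, ∀ b ∈ G, ∃ c : O, ∃ s ∈ Algebra.adjoin O G, ∃ f ∈ Algebra.adjoin O G,
      (∀ j, 1 - s j ∈ maximalIdeal O) ∧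
        s * (b - algebraMap O (ι → O) c) = (x - algebraMap O (ι → O) (a i)) * f) :
    Algebra.adjoin O G ≤ Algebra.adjoin O {x} := by
  classical
  set R := Algebra.adjoin O G with hR
  set 𝔪R : Ideal R := (maximalIdeal O).map (algebraMap O R) with h𝔪R
  let x' : R := ⟨x, hx⟩
  let J : ι → Ideal R := fun i => 𝔪R ⊔ Ideal.span {x' - algebraMap O R (a i)}
  have hJ : ∀ i, ∀ y : R, ∃ c : O, y - algebraMap O R c ∈ J i := by
    intro i y
    obtain ⟨y, hy⟩ := y
    induction hy using Algebra.adjoin_induction with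
    | mem b hb =>
      obtain ⟨c, s, hs, f, hf, hs1, heq⟩ := H i b hb
      refine ⟨c, ?_⟩
      let b' : R := ⟨b, Algebra.subset_adjoin hb⟩
      let s' : R := ⟨s, hs⟩
      let f' : R := ⟨f, hf⟩
      have heq' : s' * (b' - algebraMap O R c) = (x' - algebraMap O R (a i)) * f' :=
        Subtype.ext heq
      have hμ : (1 - s') ^ Fintype.card ι ∈ 𝔪R := by
        have := prod_sub_mem_map R (1 - s') (fun _ => 0) (by
          intro j
          rw [sub_zero]
          exact hs1 j)
        simpa using this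
      have hdvd : s' ∣ 1 - (1 - s') ^ Fintype.card ι := by
        have h1 := sub_dvd_pow_sub_pow (1 : R) (1 - s') (Fintype.card ι)
        rwa [one_pow, sub_sub_cancel] at h1
      obtain ⟨t, ht⟩ := hdvd
      have key : b' - algebraMap O R c = (1 - s') ^ Fintype.card ι * (b' - algebraMap O R c) +
          t * ((x' - algebraMap O R (a i)) * f') := by
        rw [← heq']
        linear_combination (b' - algebraMap O R c) * ht
      show b' - algebraMap O R c ∈ J i
      rw [key]
      refine Ideal.add_mem _ ?_ ?_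
      · exact Ideal.mul_mem_right _ _ (Ideal.mem_sup_left hμ)
      · refine Ideal.mul_mem_left _ _ (Ideal.mul_mem_right _ _ (Ideal.mem_sup_right ?_))
        exact Ideal.mem_span_singleton_self _
    | algebraMap r =>
      refine ⟨r, ?_⟩
      have : (⟨algebraMap O (ι → O) r, Subalgebra.algebraMap_mem _ r⟩ : R) - algebraMap O R r = 0 :=
        sub_eq_zero.mpr rfl
      rw [this]
      exact Ideal.zero_mem _
    | add y z hy hz ihy ihz =>
      obtain ⟨c, hc⟩ := ihy
      obtain ⟨d, hd⟩ := ihz
      refine ⟨c + d, ?_⟩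
      have := Ideal.add_mem _ hc hd
      convert this using 1
      rw [map_add]
      have : (⟨y + z, Subalgebra.add_mem _ hy hz⟩ : R) = ⟨y, hy⟩ + ⟨z, hz⟩ := rfl
      rw [this]; ring
    | mul y z hy hz ihy ihz =>
      obtain ⟨c, hc⟩ := ihy
      obtain ⟨d, hd⟩ := ihz
      refine ⟨c * d, ?_⟩
      have h1 := Ideal.add_mem _ (Ideal.mul_mem_right (⟨z, hz⟩ : R) _ hc)
        (Ideal.mul_mem_left _ (algebraMap O R c) hd)
      convert h1 using 1
      rw [map_mul]
      have : (⟨y * z, Subalgebra.mul_mem _ hy hz⟩ : R) = ⟨y, hy⟩ * ⟨z, hz⟩ := rfl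
      rw [this]; ring
  have hS : ∀ T : Finset ι, ∀ y : R, ∃ s ∈ Algebra.adjoin O {x'},
      y - s ∈ 𝔪R ⊔ Ideal.span {∏ i ∈ T, (x' - algebraMap O R (a i))} := by
    intro T
    induction T using Finset.induction_on with
    | empty =>
      intro y
      refine ⟨0, Subalgebra.zero_mem _, ?_⟩
      rw [Finset.prod_empty, Ideal.span_singleton_one, sup_top_eq]
      exact Submodule.mem_top
    | insert i T hi ih =>
      intro y
      obtain ⟨s, hs, hys⟩ := ih y
      rw [Submodule.mem_sup] at hys
      obtain ⟨m, hm, z, hz, hmz⟩ := hys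
      rw [Ideal.mem_span_singleton'] at hz
      obtain ⟨y', rfl⟩ := hz
      obtain ⟨c, hc⟩ := hJ i y'
      have hc' : y' - algebraMap O R c ∈ 𝔪R ⊔ Ideal.span {x' - algebraMap O R (a i)} := hc
      rw [Submodule.mem_sup] at hc'
      obtain ⟨m', hm', z', hz', hmz'⟩ := hc'
      rw [Ideal.mem_span_singleton'] at hz'
      obtain ⟨y'', rfl⟩ := hz'
      refine ⟨s + algebraMap O R c * ∏ j ∈ T, (x' - algebraMap O R (a j)), ?_, ?_⟩
      · refine Subalgebra.add_mem _ hs (Subalgebra.mul_mem _ (Subalgebra.algebraMap_mem _ _) ?_)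
        refine Subalgebra.prod_mem _ fun j _ => ?_
        exact Subalgebra.sub_mem _ (Algebra.subset_adjoin rfl) (Subalgebra.algebraMap_mem _ _)
      · rw [Finset.prod_insert hi]
        have e1 : y = s + (m + y' * ∏ j ∈ T, (x' - algebraMap O R (a j))) := by
          rw [hmz]; ring
        have e2 : y' = algebraMap O R c + (m' + y'' * (x' - algebraMap O R (a i))) := by
          rw [hmz']; ring
        have e3 : y - (s + algebraMap O R c * ∏ j ∈ T, (x' - algebraMap O R (a j))) =
            (m + m' * ∏ j ∈ T, (x' - algebraMap O R (a j))) +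
              y'' * ((x' - algebraMap O R (a i)) * ∏ j ∈ T, (x' - algebraMap O R (a j))) := by
          conv_lhs => rw [e1, e2]
          ring
        rw [e3]
        refine Ideal.add_mem _ (Ideal.mem_sup_left (Ideal.add_mem _ hm
          (Ideal.mul_mem_right _ _ hm'))) ?_
        exact Ideal.mul_mem_left _ _ (Ideal.mem_sup_right (Ideal.mem_span_singleton_self _))
  have htop : (⊤ : Submodule O R) ≤ (Algebra.adjoin O {x'}).toSubmodule := by
    refine Submodule.le_of_le_smul_of_le_jacobson_bot (I := maximalIdeal O) ?_ ?_ ?_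
    · exact (Submodule.fg_top _).mpr (fg_adjoin_pi hG)
    · exact IsLocalRing.maximalIdeal_le_jacobson _
    · intro y _
      obtain ⟨s, hs, hys⟩ := hS Finset.univ y
      have h1 : Ideal.span {∏ i, (x' - algebraMap O R (a i))} ≤ 𝔪R := by
        rw [Ideal.span_singleton_le_iff_mem]
        exact prod_sub_mem_map R x' a hxa
      rw [sup_eq_left.mpr h1] at hys
      rw [Submodule.mem_sup]
      refine ⟨s, hs, y - s, ?_, by ring⟩
      rw [Ideal.smul_top_eq_map]
      exact hys
  intro y hy
  have h1 : (⟨y, hy⟩ : R) ∈ Algebra.adjoin O {x'} := htop Submodule.mem_top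
  have h2 : (Algebra.adjoin O {x'}).map R.val = Algebra.adjoin O {x} := by
    rw [AlgHom.map_adjoin, Set.image_singleton]
    rfl
  rw [← h2]
  exact ⟨⟨y, hy⟩, h1, rfl⟩

/-- Elements of `O[x] ⊂ O^ι` are polynomials in `x` of degree `< |ι|`. -/
theorem exists_coeffs_of_mem_adjoin {x y : ι → O} (hy : y ∈ Algebra.adjoin O {x}) :
    ∃ c : Fin (Fintype.card ι) → O, ∀ i, y i = ∑ j, c j * x i ^ (j : ℕ) := by
  classical
  rw [Algebra.adjoin_singleton_eq_range_aeval] at hy
  obtain ⟨q, rfl⟩ := hy
  set q₀ : O[X] := ∏ i, (X - C (x i)) with hq₀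
  have hmonic : q₀.Monic := monic_prod_of_monic _ _ fun i _ => monic_X_sub_C _
  have hdeg : q₀.natDegree = Fintype.card ι := by
    rw [hq₀, natDegree_prod_of_monic _ _ fun i _ => monic_X_sub_C _]
    simp
  have heval : ∀ i, q₀.eval (x i) = 0 := by
    intro i
    rw [hq₀, eval_prod]
    apply Finset.prod_eq_zero (Finset.mem_univ i)
    simp
  have h1 : ∀ i, (aeval x q) i = (q %ₘ q₀).eval (x i) := by
    intro i
    have h2 : (aeval x q) i = q.eval (x i) := by
      have := Polynomial.map_aeval_eq_aeval_map (S := ι → O) (T := O) (U := O)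
        (φ := RingHom.id O) (ψ := Pi.evalRingHom (fun _ : ι => O) i) (by rfl) q x
      simpa using this
    rw [h2]
    conv_lhs => rw [← modByMonic_add_div q q₀]
    rw [eval_add, eval_mul, heval, zero_mul, add_zero]
  refine ⟨fun j => (q %ₘ q₀).coeff j, fun i => ?_⟩
  show (aeval x q) i = _
  rw [h1]
  rcases isEmpty_or_nonempty ι with h | h
  · exact (h.false i).elim
  have hlt : (q %ₘ q₀).natDegree < Fintype.card ι := by
    rw [← hdeg]
    apply natDegree_modByMonic_lt _ hmonic
    intro h3
    rw [h3, natDegree_one] at hdeg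
    have := Fintype.card_pos (α := ι)
    omega
  rw [eval_eq_sum_range' hlt, ← Fin.sum_univ_eq_sum_range
    (fun j => (q %ₘ q₀).coeff j * x i ^ j)]

end Fermat.Agent.MW
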