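import Fermat.Agent.MW.Generic
import Fermat.Agent.MW.CoreAlg

/-! # The core lemma: values at `e` points are polynomials of degree `< e` in one section -/

set_option autoImplicit false
set_option linter.unusedSectionVars false

noncomputable section

open AlgebraicCurve Polynomial
open Fermat.Agent.FunField (IsFF divOf)
open Fermat.Agent.S27C

namespace Fermat.Agent.MW

variable {K F : Type*} [Field K] [Field F] [Algebra K F]
variable {Ω : Type*} [Field Ω] [Algebra K Ω] {O : ValuationSubring Ω} {P : Place K F} {N₀ : ℕ}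
variable [IsAlgClosed K] [IsCurveOver K F] [IsFF K F] {ι : Type*} [Fintype ι]
variable {p : ι → (affRing P →ₐ[K] Ω)} {Q : ι → Place K F} {u w : affRing P}

/-- `f / u^r` is given by an element of `R`. -/
def InR (p : ι → (affRing P →ₐ[K] Ω)) (u : affRing P) (R : Subalgebra O (ι → O)) (r : ℕ)
    (f : affRing P) : Prop :=
  ∃ y ∈ R, ∀ i, ((y i : O) : Ω) * (p i u) ^ r = p i f

theorem InR.mul {R : Subalgebra O (ι → O)} {r s : ℕ} {f g : affRing P} (hf : InR p u R r f)
    (hg : InR p u R s g) : InR p u R (r + s) (f * g) := by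
  obtain ⟨y, hy, hy'⟩ := hf
  obtain ⟨z, hz, hz'⟩ := hg
  refine ⟨y * z, R.mul_mem hy hz, fun i => ?_⟩
  rw [map_mul, ← hy', ← hz', pow_add, Pi.mul_apply]
  push_cast
  ring

theorem InR.add {R : Subalgebra O (ι → O)} {r : ℕ} {f g : affRing P} (hf : InR p u R r f)
    (hg : InR p u R r g) : InR p u R r (f + g) := by
  obtain ⟨y, hy, hy'⟩ := hf
  obtain ⟨z, hz, hz'⟩ := hg
  refine ⟨y + z, R.add_mem hy hz, fun i => ?_⟩
  rw [map_add, ← hy', ← hz', Pi.add_apply]
  push_cast
  ring

theorem InR.zero {R : Subalgebra O (ι → O)} {r : ℕ} : InR p u R r 0 :=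
  ⟨0, R.zero_mem, fun i => by simp⟩

/-- constants as elements of `O` -/
def cst (hO : ∀ c : K, algebraMap K Ω c ∈ O) (c : K) : O := ⟨algebraMap K Ω c, hO c⟩

theorem InR.smul (hO : ∀ c : K, algebraMap K Ω c ∈ O) {R : Subalgebra O (ι → O)} {r : ℕ}
    {f : affRing P} (c : K) (hf : InR p u R r f) : InR p u R r (c • f) := by
  obtain ⟨y, hy, hy'⟩ := hf
  refine ⟨cst hO c • y, R.smul_mem hy _, fun i => ?_⟩
  rw [map_smul, ← hy', Pi.smul_apply, smul_eq_mul, Algebra.smul_def c]
  push_cast
  show algebraMap K Ω c * _ * _ = _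
  ring

theorem InR.const (hO : ∀ c : K, algebraMap K Ω c ∈ O) {R : Subalgebra O (ι → O)}
    (c : K) : InR p u R 0 (algebraMap K (affRing P) c) := by
  refine ⟨algebraMap O (ι → O) (cst hO c), R.algebraMap_mem _, fun i => ?_⟩
  rw [pow_zero, mul_one, AlgHom.commutes]
  rfl

theorem InR.of_mem_V (hO : ∀ c : K, algebraMap K Ω c ∈ O) (hN₀ : Big P N₀)
    {R : Subalgebra O (ι → O)} (h1 : ∀ b ∈ V P N₀, InR p u R 1 b) {r : ℕ} {f : affRing P}
    (hf : f ∈ V P (r * N₀)) : InR p u R r f := by
  rcases r with _ | r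
  · rw [zero_mul] at hf
    obtain ⟨c, rfl⟩ := eq_algebraMap_of_mem_V_zero hf
    exact InR.const hO c
  · have h2 := V_pow hN₀ r hf
    clear hf
    induction r generalizing f with
    | zero =>
      rw [zero_add, pow_one] at h2
      exact h1 _ h2
    | succ r ih =>
      rw [pow_succ] at h2
      exact Submodule.mul_induction_on h2 (fun m hm n hn => (ih hm).mul (h1 n hn))
        (fun x y hx hy => hx.add hy)

variable (hO : IsResidual K O) (hN₀ : Big P N₀) (hg : Gen O N₀ p Q u w)

include hO hN₀ hg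

theorem Gen.core_aux : ∃ x : ι → O, (∀ i, ((x i : O) : Ω) * p i u = p i w) ∧
    ∀ (m : ℕ), ∀ f ∈ V P (m * N₀), InR p u (Algebra.adjoin O {x}) m f := by
  classical
  obtain ⟨N, hN2, hN⟩ := hN₀.prescribed
  -- the elements `z b`
  have hz : ∀ b ∈ V P N₀, ∃ z : ι → O, ∀ i, ((z i : O) : Ω) * p i u = p i b := by
    intro b hb
    have h1 : ∀ i, p i b / p i u ∈ O := by
      intro i
      rw [← O.valuation_le_one_iff, map_div₀]
      exact div_le_one_of_le₀ (hg.u_max i b hb) zero_le
    exact ⟨fun i => ⟨_, h1 i⟩, fun i => div_mul_cancel₀ _ (hg.u_ne i)⟩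
  choose! z hz' using hz
  obtain ⟨s, hs⟩ := (Submodule.fg_iff_finiteDimensional (V P N₀)).2 (finite_V N₀)
  have hsV : ∀ b ∈ s, b ∈ V P N₀ := fun b hb => by
    rw [← hs]; exact Submodule.subset_span hb
  set G : Set (ι → O) := z '' (s : Set (affRing P)) with hG
  have hGfin : G.Finite := s.finite_toSet.image z
  set R := Algebra.adjoin O G with hR
  have hR1 : ∀ b ∈ V P N₀, InR p u R 1 b := by
    intro b hb
    rw [← hs] at hb
    induction hb using Submodule.span_induction with
    | mem b hb =>
      exact ⟨z b, Algebra.subset_adjoin ⟨b, hb, rfl⟩, fun i => by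
        rw [pow_one]; exact hz' b (hsV b hb) i⟩
    | zero => exact InR.zero
    | add x y _ _ hx hy => exact hx.add hy
    | smul c x _ hx => exact hx.smul hO.mem c
  have hRm : ∀ (m : ℕ), ∀ f ∈ V P (m * N₀), InR p u R m f := fun m f hf =>
    InR.of_mem_V hO.mem hN₀ hR1 hf
  obtain ⟨x, hxR, hx⟩ := hR1 w hg.w_mem
  simp only [pow_one] at hx
  refine ⟨x, hx, ?_⟩
  suffices hle : R ≤ Algebra.adjoin O {x} by
    intro m f hf
    obtain ⟨y, hy, hy'⟩ := hRm m f hf
    exact ⟨y, hle hy, hy'⟩
  set a : ι → K := fun i => val (Q i) ((w : F) / u) with ha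
  -- mod 𝔪 congruences
  have hmod : ∀ (i : ι) (r : ℕ) (f : affRing P) (y : O) , (y : Ω) * (p i u) ^ r = p i f →
      ((f : F) / (u : F) ^ r ∈ (Q i).toValuationSubring) ∧
      y - cst hO.mem (val (Q i) ((f : F) / (u : F) ^ r)) ∈ IsLocalRing.maximalIdeal O := by
    intro i r f y hy
    have hur : p i (u ^ r) ≠ 0 := by rw [map_pow]; exact pow_ne_zero _ (hg.u_ne i)
    have hle : O.valuation (p i f) ≤ O.valuation (p i (u ^ r)) := by
      rw [map_pow (p i), ← hy, map_mul]
      calc _ ≤ 1 * O.valuation (p i u ^ r) :=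
            mul_le_mul' ((O.valuation_le_one_iff _).mpr y.2) le_rfl
        _ = _ := one_mul _
    have h1 := (hg.red i).spec hO hur hle
    have h2 : (((u ^ r : affRing P)) : F) = (u : F) ^ r := by push_cast; rfl
    rw [h2] at h1
    refine ⟨h1.1, ?_⟩
    have h3 := h1.2
    rw [← hy, map_pow, Algebra.smul_def, ← sub_mul, map_mul] at h3
    rw [O.valuation_lt_one_iff]
    have hpos : 0 < O.valuation (p i u ^ r) := zero_lt_iff.mpr
      ((Valuation.ne_zero_iff _).mpr (pow_ne_zero _ (hg.u_ne i)))
    have h4 : O.valuation ((y : Ω) - algebraMap K Ω (val (Q i) ((f : F) / (u : F) ^ r))) *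
        O.valuation (p i u ^ r) < 1 * O.valuation (p i u ^ r) := by rw [one_mul]; exact h3
    exact lt_of_mul_lt_mul_right' h4
  refine adjoin_le_adjoin_singleton hGfin hxR (fun i => cst hO.mem (a i)) ?_ ?_
  · intro i
    have := (hmod i 1 w (x i) (by rw [pow_one]; exact hx i)).2
    rwa [pow_one] at this
  · rintro i _ ⟨b, hb, rfl⟩
    have hbV := hsV b hb
    set c : K := val (Q i) ((b : F) / u) with hc
    set b' : affRing P := b - c • u with hb'
    have hu0 : (u : F) ≠ 0 := coe_ne_zero_of_map_ne (hg.u_ne i)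
    have hzb : ∀ j, (((z b - algebraMap O (ι → O) (cst hO.mem c)) j : O) : Ω) * p j u =
        p j b' := by
      intro j
      rw [hb', map_sub, map_smul, ← hz' b hbV j, Algebra.smul_def, ← sub_mul]
      rfl
    by_cases hb0 : b' = 0
    · refine ⟨cst hO.mem c, 1, R.one_mem, 0, R.zero_mem, fun j => ?_, ?_⟩
      · simp
      · rw [one_mul, mul_zero]
        funext j
        apply Subtype.ext
        have h1 := hzb j
        rw [hb0, map_zero] at h1
        exact (mul_eq_zero.mp h1).resolve_right (hg.u_ne j)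
    -- the function `g`
    set g : affRing P := w - a i • u with hgdef
    have hgcoe : (g : F) = (w : F) - a i • (u : F) := rfl
    have hbcoe : (b' : F) = (b : F) - c • (u : F) := rfl
    have hgu : (g : F) / u = (w : F) / u - algebraMap K F (a i) := by
      rw [hgcoe, Algebra.smul_def, sub_div, mul_div_assoc, div_self hu0, mul_one]
    have hbu : (b' : F) / u = (b : F) / u - algebraMap K F c := by
      rw [hbcoe, Algebra.smul_def, sub_div, mul_div_assoc, div_self hu0, mul_one]
    have hg0 : (g : F) ≠ 0 := by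
      intro h0
      have h1 := (hg.w_ord i).1
      rw [← hgu, h0, zero_div] at h1
      exact h1 rfl
    have hb0' : (b' : F) ≠ 0 := fun h0 => hb0 (Subtype.ext h0)
    have hgV : g ∈ V P N₀ := Submodule.sub_mem _ hg.w_mem (Submodule.smul_mem _ _ hg.u_mem)
    have hb'V : b' ∈ V P N₀ := Submodule.sub_mem _ hbV (Submodule.smul_mem _ _ hg.u_mem)
    set D₀ : Divisor K F := Finsupp.single P (N₀ : ℤ) with hD₀
    have hdegD₀ : Divisor.degree D₀ = N₀ := degree_single' P _
    set E : Divisor K F := divOf (g : F) + D₀ with hE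
    have hEapp : ∀ v, E v = v.ord (g : F) + D₀ v := by
      intro v
      rw [hE, Finsupp.add_apply, FunField.divOf_apply]
    have hEdeg : Divisor.degree E = N₀ := by
      rw [hE, map_add, FunField.degree_divOf, hdegD₀, zero_add]
    have hEQ : ∀ j, E (Q j) = if Q i = Q j then 1 else 0 := by
      intro j
      have h1 : E (Q j) = (Q j).ord ((g : F) / u) := by
        rw [hEapp, FunField.PlaceLemmas.ord_div _ hg0 hu0, hg.u_ord j]
        ring
      rw [h1, hgu]
      split_ifs with hij
      · rw [← hij]; exact (hg.w_ord i).2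
      · have h2 : val (Q j) ((w : F) / u - algebraMap K F (a i)) ≠ 0 := by
          rw [val_sub _ (hg.w_mem_val j) (mem_algebraMap _ _), val_algebraMap, sub_ne_zero]
          exact (hg.w_sep i j hij).symm
        exact (ord_eq_zero_of_val_ne _ (sub_mem (hg.w_mem_val j) (mem_algebraMap _ _)) h2).2
    set T : Finset (Place K F) := Finset.univ.image Q with hT
    obtain ⟨r, hr⟩ : ∃ r : ℕ, N + T.card ≤ (r : ℤ) * N₀ - N₀ + 1 := by
      refine ⟨1 + (N + T.card).toNat, ?_⟩
      have h1 := Int.self_le_toNat (N + T.card)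
      have h2 : (1 : ℤ) ≤ N₀ := by exact_mod_cast hN₀.pos
      push_cast at h1 ⊢
      nlinarith [Int.natCast_nonneg (N + (T.card : ℤ)).toNat]
    obtain ⟨t, ht, htv⟩ := hN (r • D₀ - (E - Finsupp.single (Q i) 1)) T ((u : F) ^ r)
      (fun _ => 1) (by
        rw [map_sub, map_sub, map_nsmul, hdegD₀, hEdeg, degree_single', nsmul_eq_mul]
        linarith) (pow_ne_zero _ hu0)
      (by
        intro R' hR'
        rw [hT, Finset.mem_image] at hR'
        obtain ⟨j, -, rfl⟩ := hR'
        rw [FunField.PlaceLemmas.ord_pow, hg.u_ord j, Finsupp.sub_apply,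
          sub_single_apply, hEQ j, sub_self, sub_zero, Finsupp.smul_apply, nsmul_eq_mul]
        ring)
    have hTj : ∀ j, Q j ∈ T := fun j => Finset.mem_image_of_mem _ (Finset.mem_univ j)
    have htord : ∀ v, (t : F) ≠ 0 → -(r * D₀ v) + E v - (if Q i = v then 1 else 0) ≤ v.ord t := by
      intro v ht0
      rw [mem_rr_iff] at ht
      have := ht.resolve_left ht0 v
      rw [Finsupp.sub_apply, sub_single_apply, Finsupp.smul_apply, nsmul_eq_mul] at this
      linarith
    have ht0 : t ≠ 0 := by
      rintro rfl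
      have := (htv (Q i) (hTj i)).2
      rw [zero_div, val_zero] at this
      exact zero_ne_one this
    have hEnn : ∀ v, 0 ≤ E v := by
      intro v
      have h1 : (g : F) ∈ riemannRochSpace D₀ := hgV
      rw [mem_rr_iff] at h1
      have := h1.resolve_left hg0 v
      rw [hEapp]; linarith
    -- orders
    have hmemaff : ∀ (f : F) (n : ℕ), (f ≠ 0 → ∀ v, -(n * D₀ v) ≤ v.ord f) →
        ∃ f' : affRing P, f' ∈ V P (n * N₀) ∧ (f' : F) = f := by
      intro f n hf
      have h1 : f ∈ riemannRochSpace (Finsupp.single P ((n * N₀ : ℕ) : ℤ) : Divisor K F) := by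
        rw [mem_rr_iff]
        by_cases hf0 : f = 0
        · exact Or.inl hf0
        · right
          intro v
          have := hf hf0 v
          rw [hD₀, Finsupp.single_apply] at this
          rw [Finsupp.single_apply]
          split_ifs at this ⊢ <;> push_cast <;> linarith
      have h2 : f ∈ affRing P := by
        intro v hv
        by_cases hf0 : f = 0
        · rw [hf0]; exact zero_mem _
        · apply mem_of_ord_nonneg
          have := hf hf0 v
          rwa [hD₀, Finsupp.single_apply, if_neg (Ne.symm hv), mul_zero, neg_zero] at this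
      exact ⟨⟨f, h2⟩, h1, rfl⟩
    obtain ⟨s', hs'V, hs'⟩ := hmemaff t r (by
      intro _ v
      have h1 := htord v ht0
      split_ifs at h1 with hv
      · rw [← hv, hEQ i, if_pos rfl] at h1
        rw [← hv]; linarith
      · have := hEnn v; linarith)
    have hb'ord : ∀ v, -D₀ v + (if Q i = v then 1 else 0) ≤ v.ord (b' : F) := by
      intro v
      split_ifs with hv
      · rw [← hv]
        have h1 : 0 < (Q i).ord ((b' : F) / u) := by
          have hmem := (hmod i 1 b (z b i) (by rw [pow_one]; exact hz' b hbV i)).1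
          rw [pow_one] at hmem
          have h2 : val (Q i) ((b' : F) / u) = 0 := by
            rw [hbu, val_sub _ hmem (mem_algebraMap _ _), val_algebraMap, hc, sub_self]
          have h3 : (b' : F) / u ∈ (Q i).toValuationSubring := by
            rw [hbu]; exact sub_mem hmem (mem_algebraMap _ _)
          exact ((val_eq_zero_iff_ord _ h3).1 h2).resolve_left (div_ne_zero hb0' hu0)
        rw [FunField.PlaceLemmas.ord_div _ hb0' hu0, hg.u_ord i] at h1
        linarith
      · have h1 : (b' : F) ∈ riemannRochSpace D₀ := hb'V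
        rw [mem_rr_iff] at h1
        have := h1.resolve_left hb0' v
        rw [add_zero]; exact this
    obtain ⟨f', hf'V, hf'⟩ := hmemaff (t * b' / g) r (by
      intro _ v
      rw [FunField.PlaceLemmas.ord_div _ (mul_ne_zero ht0 hb0') hg0,
        v.ord_mul ht0 hb0']
      have h1 := htord v ht0
      have h2 := hb'ord v
      have h3 := hEapp v
      split_ifs at h1 h2 <;> linarith)
    obtain ⟨ys, hys, hys'⟩ := hRm r s' hs'V
    obtain ⟨yf, hyf, hyf'⟩ := hRm r f' hf'V
    refine ⟨cst hO.mem c, ys, hys, yf, hyf, fun j => ?_, ?_⟩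
    · have h1 := (hmod j r s' (ys j) (hys' j)).2
      rw [hs', (htv (Q j) (hTj j)).2] at h1
      have h2 : cst hO.mem (1 : K) = (1 : O) := Subtype.ext (map_one _)
      rw [h2] at h1
      rw [← neg_sub]
      exact Ideal.neg_mem_iff _ |>.mpr h1
    · have hmul : s' * b' = g * f' := by
        apply Subtype.ext
        show (s' : F) * (b' : F) = (g : F) * (f' : F)
        rw [hs', hf']
        field_simp
      funext j
      apply Subtype.ext
      have huj := hg.u_ne j
      have h1 : p j s' * p j b' = p j g * p j f' := by rw [← map_mul, ← map_mul, hmul]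
      have h2 : (((x - algebraMap O (ι → O) (cst hO.mem (a i))) j : O) : Ω) * p j u = p j g := by
        rw [hgdef, map_sub, map_smul, ← hx j, Algebra.smul_def, ← sub_mul]
        rfl
      rw [← hys' j, ← hyf' j, ← hzb j, ← h2] at h1
      have h3 : p j u ^ (r + 1) ≠ 0 := pow_ne_zero _ huj
      apply mul_right_cancel₀ h3
      show (((ys j : O) : Ω) * (((z b - algebraMap O (ι → O) (cst hO.mem c)) j : O) : Ω)) *
        p j u ^ (r + 1) = ((((x - algebraMap O (ι → O) (cst hO.mem (a i))) j : O) : Ω) *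
          ((yf j : O) : Ω)) * p j u ^ (r + 1)
      rw [pow_succ]
      linear_combination h1

/-- **Core lemma.** -/
theorem Gen.core {e : ℕ} (he : Fintype.card ι = e) (m : ℕ) {f : affRing P}
    (hf : f ∈ V P (m * N₀)) :
    ∃ c : Fin e → Ω, (∀ j, O.valuation (c j) ≤ 1) ∧
      ∀ i, p i f = (p i u) ^ m * ∑ j, c j * (p i w / p i u) ^ (j : ℕ) := by
  subst he
  obtain ⟨x, hx, h⟩ := hg.core_aux hO hN₀
  obtain ⟨y, hy, hy'⟩ := h m f hf
  obtain ⟨c, hc⟩ := exists_coeffs_of_mem_adjoin hy
  refine ⟨fun j => (c j : Ω), fun j => (O.valuation_le_one_iff _).mpr (c j).2, fun i => ?_⟩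
  rw [← hy' i, hc i, mul_comm]
  congr 1
  push_cast
  refine Finset.sum_congr rfl fun j _ => ?_
  congr 2
  rw [eq_div_iff (hg.u_ne i)]
  exact hx i

end Fermat.Agent.MW
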