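import Fermat.Agent.MW.Homog
import Mathlib.LinearAlgebra.Basis.Basic
import Mathlib.LinearAlgebra.Basis.VectorSpace

/-! # Domination of families of norms, linear and bilinear maps (block [C]) -/

set_option autoImplicit false
set_option linter.unusedSectionVars false
set_option linter.style.haveILetI false
set_option maxHeartbeats 400000

noncomputable section

open MvPolynomial

namespace Fermat.Agent.MW

/-- `f ≤ C g` with `C` an admissible constant `≥ 1`. -/
def Dom {X : Type*} (f g : Pl → X → ℝ) : Prop :=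
  ∃ C : Pl → ℝ, Adm C ∧ (∀ v, 1 ≤ C v) ∧ ∀ v x, f v x ≤ C v * g v x

namespace Dom

variable {X Y : Type*} {f g h f' g' : Pl → X → ℝ}

theorem of_le (hg : ∀ v x, 0 ≤ g v x) (h : ∀ v x, f v x ≤ g v x) : Dom f g :=
  ⟨fun _ => 1, Adm.one, fun _ => le_rfl, fun v x => by rw [one_mul]; exact h v x⟩

theorem of_le' (h : ∀ v x, f v x ≤ g v x) : Dom f g :=
  ⟨fun _ => 1, Adm.one, fun _ => le_rfl, fun v x => by rw [one_mul]; exact h v x⟩

theorem refl (f : Pl → X → ℝ) : Dom f f := of_le' fun _ _ => le_rfl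

theorem trans (h1 : Dom f g) (h2 : Dom g h) : Dom f h := by
  obtain ⟨C, hC, hC1, hC2⟩ := h1
  obtain ⟨E, hE, hE1, hE2⟩ := h2
  refine ⟨fun v => C v * E v, hC.mul hE,
    fun v => one_le_mul_of_one_le_of_one_le (hC1 v) (hE1 v), fun v x => ?_⟩
  refine (hC2 v x).trans ?_
  rw [mul_assoc]
  exact mul_le_mul_of_nonneg_left (hE2 v x) (zero_le_one.trans (hC1 v))

theorem mul (hf : Dom f g) (hf' : Dom f' g') (h0 : ∀ v x, 0 ≤ g v x) (h0' : ∀ v x, 0 ≤ f' v x) :
    Dom (fun v x => f v x * f' v x) (fun v x => g v x * g' v x) := by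
  obtain ⟨C, hC, hC1, hC2⟩ := hf
  obtain ⟨E, hE, hE1, hE2⟩ := hf'
  refine ⟨fun v => C v * E v, hC.mul hE,
    fun v => one_le_mul_of_one_le_of_one_le (hC1 v) (hE1 v), fun v x => ?_⟩
  calc f v x * f' v x ≤ (C v * g v x) * (E v * g' v x) :=
        mul_le_mul (hC2 v x) (hE2 v x) (h0' v x)
          (mul_nonneg (zero_le_one.trans (hC1 v)) (h0 v x))
    _ = _ := by ring

theorem pow (hf : Dom f g) (h0 : ∀ v x, 0 ≤ f v x) (n : ℕ) :
    Dom (fun v x => f v x ^ n) (fun v x => g v x ^ n) := by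
  obtain ⟨C, hC, hC1, hC2⟩ := hf
  refine ⟨fun v => C v ^ n, hC.pow n, fun v => one_le_pow₀ (hC1 v), fun v x => ?_⟩
  rw [← mul_pow]
  exact pow_le_pow_left₀ (h0 v x) (hC2 v x) n

theorem comp (hf : Dom f g) (φ : Y → X) : Dom (fun v y => f v (φ y)) (fun v y => g v (φ y)) := by
  obtain ⟨C, hC, hC1, hC2⟩ := hf
  exact ⟨C, hC, hC1, fun v y => hC2 v (φ y)⟩

theorem congr (hf : Dom f g) (h1 : ∀ v x, f' v x = f v x) (h2 : ∀ v x, g' v x = g v x) :
    Dom f' g' := by
  obtain ⟨C, hC, hC1, hC2⟩ := hf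
  exact ⟨C, hC, hC1, fun v x => by rw [h1, h2]; exact hC2 v x⟩

theorem nrm {ι : Type} [Finite ι] {a : ι → Pl → X → ℝ} {b : X → ι → Qb}
    (hb : ∀ v x i, av v (b x i) = a i v x)
    (h0 : ∀ v x, 0 ≤ g v x) (h : ∀ i, Dom (a i) g) : Dom (fun v x => nrm v (b x)) g := by
  choose C hC hC1 hC2 using h
  obtain ⟨E, hE, hE1, hE2⟩ := HM.exists_adm_max C hC hC1
  refine ⟨E, hE, hE1, fun v x => nrm_le' (mul_nonneg (zero_le_one.trans (hE1 v)) (h0 v x)) ?_⟩
  intro i
  rw [hb]
  exact (hC2 i v x).trans (mul_le_mul_of_nonneg_right (hE2 i v) (h0 v x))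

/-- `av` of a family of functions -/
theorem nrm' {ι : Type} [Finite ι] {b : X → ι → Qb}
    (h0 : ∀ v x, 0 ≤ g v x) (h : ∀ i, Dom (fun v x => av v (b x i)) g) :
    Dom (fun v x => MW.nrm v (b x)) g := nrm (a := fun i v x => av v (b x i)) (fun _ _ _ => rfl) h0 h

theorem max (hf : Dom f g) (hf' : Dom f' g) (h0 : ∀ v x, 0 ≤ g v x) :
    Dom (fun v x => max (f v x) (f' v x)) g := by
  obtain ⟨C, hC, hC1, hC2⟩ := hf
  obtain ⟨E, hE, hE1, hE2⟩ := hf'
  refine ⟨fun v => C v * E v, hC.mul hE,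
    fun v => one_le_mul_of_one_le_of_one_le (hC1 v) (hE1 v), fun v x => max_le ?_ ?_⟩
  · refine (hC2 v x).trans (mul_le_mul_of_nonneg_right ?_ (h0 v x))
    exact le_mul_of_one_le_right (zero_le_one.trans (hC1 v)) (hE1 v)
  · refine (hE2 v x).trans (mul_le_mul_of_nonneg_right ?_ (h0 v x))
    exact le_mul_of_one_le_left (zero_le_one.trans (hE1 v)) (hC1 v)

/-- consequence for sums over all places -/
theorem S_le (h : Dom f g) : ∃ c : ℝ, 0 ≤ c ∧ ∀ x, Adm (fun v => f v x) → Adm (fun v => g v x) →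
    S (fun v => f v x) ≤ c + S (fun v => g v x) := by
  obtain ⟨C, hC, hC1, hC2⟩ := h
  refine ⟨S C, S_nonneg hC hC1, fun x hf hg => ?_⟩
  rw [← S_mul hC hg]
  exact MW.S_le hf (hC.mul hg) fun v => hC2 v x

/-- The transfer principle as a domination. -/
theorem of_exact {ι : Type} [Finite ι] (a : X → Qb) (b : X → ι → Qb)
    (H : Exact a (fun i x => b x i)) : Dom (fun v x => av v (a x)) (fun v x => MW.nrm v (b x)) := by
  obtain ⟨C, hC, hC1, hC2⟩ := transfer a (fun i x => b x i) H
  refine ⟨C, hC, hC1, fun v x => ?_⟩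
  obtain ⟨i, hi⟩ := hC2 v x
  exact hi.trans (mul_le_mul_of_nonneg_left (le_nrm v _ i) (zero_le_one.trans (hC1 v)))

end Dom

/-! ### linear combinations -/

theorem val_sum_le {Ω : Type*} [Field Ω] (O : ValuationSubring Ω) {ι : Type*} (s : Finset ι)
    (a : ι → Ω) (g : O.ValueGroup) (h : ∀ i ∈ s, O.valuation (a i) ≤ g) :
    O.valuation (∑ i ∈ s, a i) ≤ g := by
  classical
  induction s using Finset.induction_on with
  | empty => simp
  | insert i s hi ih =>
    rw [Finset.sum_insert hi]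
    refine (O.valuation.map_add _ _).trans (max_le (h i (Finset.mem_insert_self _ _)) ?_)
    exact ih fun j hj => h j (Finset.mem_insert_of_mem hj)

/-- `|∑ c_i b_i(x)| ≪ max |b_i(x)|` -/
theorem dom_linear_comb {X : Type*} {ι : Type} [Fintype ι] (c : ι → Qb) (b : X → ι → Qb) :
    Dom (fun v x => av v (∑ i, c i * b x i)) (fun v x => nrm v (b x)) := by
  rcases isEmpty_or_nonempty ι with hι | hι
  · refine Dom.of_le' fun v x => ?_
    simp only [Finset.univ_eq_empty, Finset.sum_empty, map_zero]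
    exact nrm_nonneg _ _
  refine Dom.of_exact _ b ?_
  intro Ω _ _ O hO θ
  obtain ⟨j, -, hj⟩ := Finset.exists_max_image Finset.univ (fun i => O.valuation (θ fun x => b x i))
    Finset.univ_nonempty
  refine ⟨j, ?_⟩
  have h1 : θ (fun x => ∑ i, c i * b x i) = ∑ i, algebraMap Qb Ω (c i) * θ (fun x => b x i) := by
    have h2 : (fun x => ∑ i, c i * b x i) = ∑ i, c i • (fun x => b x i) := by
      funext x
      simp [Finset.sum_apply]
    rw [h2, map_sum]
    refine Finset.sum_congr rfl fun i _ => ?_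
    rw [map_smul, Algebra.smul_def]
  rw [h1]
  refine val_sum_le O _ _ _ fun i _ => ?_
  rw [map_mul]
  exact (mul_le_mul' (HM.val_const_le hO (c i)) (hj i (Finset.mem_univ _))).trans_eq (one_mul _)

section linear

variable {V W U : Type*} [AddCommGroup V] [Module Qb V] [AddCommGroup W] [Module Qb W]
  [AddCommGroup U] [Module Qb U] {σ σ' τ : Type} [Finite σ] [Finite σ'] [Finite τ]

/-- A linear map is bounded. -/
theorem dom_linear (bV : Module.Basis σ Qb V) (bW : Module.Basis τ Qb W) (T : V →ₗ[Qb] W) :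
    Dom (fun v (x : V) => nrm v (bW.repr (T x))) (fun v x => nrm v (bV.repr x)) := by
  haveI := Fintype.ofFinite σ
  refine Dom.nrm' (fun v x => nrm_nonneg _ _) fun l => ?_
  have h1 : ∀ x, bW.repr (T x) l = ∑ i, bW.repr (T (bV i)) l * bV.repr x i := by
    intro x
    have h2 : T x = ∑ i, bV.repr x i • T (bV i) := by
      conv_lhs => rw [← bV.sum_repr x]
      rw [map_sum]
      exact Finset.sum_congr rfl fun i _ => map_smul _ _ _
    rw [h2, map_sum, Finsupp.coe_finsetSum, Finset.sum_apply]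
    refine Finset.sum_congr rfl fun i _ => ?_
    rw [map_smul, Finsupp.smul_apply, smul_eq_mul, mul_comm]
  exact (dom_linear_comb (fun i => bW.repr (T (bV i)) l) (fun x => (bV.repr x : σ → Qb))).congr
    (fun v x => by rw [h1]) (fun _ _ => rfl)

/-- An injective linear map is bounded below. -/
theorem dom_linear_inj (bV : Module.Basis σ Qb V) (bW : Module.Basis τ Qb W) (T : V →ₗ[Qb] W)
    (hT : Function.Injective T) :
    Dom (fun v (x : V) => nrm v (bV.repr x)) (fun v x => nrm v (bW.repr (T x))) := by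
  obtain ⟨T', hT'⟩ := T.exists_leftInverse_of_injective (LinearMap.ker_eq_bot.mpr hT)
  refine ((dom_linear bW bV T').comp T).congr (fun v x => ?_) (fun _ _ => rfl)
  have : T' (T x) = x := LinearMap.congr_fun hT' x
  rw [this]

/-- Comparison of two bases. -/
theorem dom_basis (b : Module.Basis σ Qb V) (b' : Module.Basis τ Qb V) :
    Dom (fun v (x : V) => nrm v (b'.repr x)) (fun v x => nrm v (b.repr x)) :=
  dom_linear b b' LinearMap.id

theorem repr_bilin [Fintype σ] [Fintype σ'] (bV : Module.Basis σ Qb V) (bW : Module.Basis σ' Qb W)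
    (bU : Module.Basis τ Qb U) (β : V →ₗ[Qb] W →ₗ[Qb] U) (x : V) (y : W) (l : τ) :
    bU.repr (β x y) l = ∑ i, ∑ j, bU.repr (β (bV i) (bW j)) l * (bV.repr x i * bW.repr y j) := by
  have h1 : β x y = ∑ i, ∑ j, (bV.repr x i * bW.repr y j) • β (bV i) (bW j) := by
    have h2 : β x = ∑ i, bV.repr x i • β (bV i) := by
      conv_lhs => rw [← bV.sum_repr x]
      rw [map_sum]
      exact Finset.sum_congr rfl fun i _ => map_smul _ _ _
    rw [h2, LinearMap.sum_apply]
    refine Finset.sum_congr rfl fun i _ => ?_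
    have h3 : β (bV i) y = ∑ j, bW.repr y j • β (bV i) (bW j) := by
      conv_lhs => rw [← bW.sum_repr y]
      rw [map_sum]
      exact Finset.sum_congr rfl fun i _ => map_smul _ _ _
    rw [LinearMap.smul_apply, h3, Finset.smul_sum]
    exact Finset.sum_congr rfl fun j _ => smul_smul _ _ _
  rw [h1, map_sum, Finsupp.coe_finsetSum, Finset.sum_apply]
  refine Finset.sum_congr rfl fun i _ => ?_
  rw [map_sum, Finsupp.coe_finsetSum, Finset.sum_apply]
  refine Finset.sum_congr rfl fun j _ => ?_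
  rw [map_smul, Finsupp.smul_apply, smul_eq_mul, mul_comm]

theorem nrm_mul_nrm (v : Pl) (x : σ → Qb) (y : σ' → Qb) :
    nrm v (fun p : σ × σ' => x p.1 * y p.2) = nrm v x * nrm v y := by
  apply le_antisymm
  · refine nrm_le' (mul_nonneg (nrm_nonneg _ _) (nrm_nonneg _ _)) fun p => ?_
    rw [map_mul]
    exact mul_le_mul (le_nrm v x _) (le_nrm v y _) ((av v).nonneg _) (nrm_nonneg _ _)
  · rcases isEmpty_or_nonempty σ with h | h
    · have : nrm v x = 0 := by unfold nrm; rw [Real.iSup_of_isEmpty]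
      rw [this, zero_mul]; exact nrm_nonneg _ _
    rcases isEmpty_or_nonempty σ' with h' | h'
    · have : nrm v y = 0 := by unfold nrm; rw [Real.iSup_of_isEmpty]
      rw [this, mul_zero]; exact nrm_nonneg _ _
    obtain ⟨i, hi⟩ := exists_nrm_eq v x
    obtain ⟨j, hj⟩ := exists_nrm_eq v y
    rw [hi, hj, ← map_mul]
    exact le_nrm v (fun p : σ × σ' => x p.1 * y p.2) (i, j)

/-- A bilinear map is bounded. -/
theorem dom_bilin (bV : Module.Basis σ Qb V) (bW : Module.Basis σ' Qb W) (bU : Module.Basis τ Qb U)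
    (β : V →ₗ[Qb] W →ₗ[Qb] U) :
    Dom (fun v (p : V × W) => nrm v (bU.repr (β p.1 p.2)))
      (fun v p => nrm v (bV.repr p.1) * nrm v (bW.repr p.2)) := by
  haveI := Fintype.ofFinite σ
  haveI := Fintype.ofFinite σ'
  refine Dom.nrm' (fun v x => mul_nonneg (nrm_nonneg _ _) (nrm_nonneg _ _)) fun l => ?_
  have h1 := dom_linear_comb (X := V × W) (fun q : σ × σ' => bU.repr (β (bV q.1) (bW q.2)) l)
    (fun p q => bV.repr p.1 q.1 * bW.repr p.2 q.2)
  refine h1.congr (fun v p => ?_) (fun v p => ?_)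
  · rw [repr_bilin bV bW bU β, Fintype.sum_prod_type]
  · rw [nrm_mul_nrm]

/-- A bilinear map without zero divisors is bounded below. -/
theorem dom_bilin_ge (bV : Module.Basis σ Qb V) (bW : Module.Basis σ' Qb W)
    (bU : Module.Basis τ Qb U) (β : V →ₗ[Qb] W →ₗ[Qb] U)
    (hβ : ∀ x y, β x y = 0 → x = 0 ∨ y = 0) :
    Dom (fun v (p : V × W) => nrm v (bV.repr p.1) * nrm v (bW.repr p.2))
      (fun v p => nrm v (bU.repr (β p.1 p.2))) := by
  classical
  haveI := Fintype.ofFinite σ
  haveI := Fintype.ofFinite σ'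
  have key : Dom (fun v (p : V × W) =>
      nrm v (fun q : σ × σ' => bV.repr p.1 q.1 * bW.repr p.2 q.2))
      (fun v p => nrm v (bU.repr (β p.1 p.2))) := by
    refine Dom.nrm' (fun v x => nrm_nonneg _ _) ?_
    rintro ⟨i, j⟩
    refine Dom.of_exact _ (fun p : V × W => (bU.repr (β p.1 p.2) : τ → Qb)) ?_
    intro Ω _ _ O hO θ
    have hne : Nonempty τ := by
      by_contra hne
      rw [not_nonempty_iff] at hne
      have h1 : β (bV i) (bW j) = 0 := by
        apply bU.repr.injective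
        exact Finsupp.ext fun l => hne.elim l
      rcases hβ _ _ h1 with h | h
      · exact bV.ne_zero i h
      · exact bW.ne_zero j h
    let t : σ → Ω := fun i => θ (fun p => bV.repr p.1 i)
    let s : σ' → Ω := fun j => θ (fun p => bW.repr p.2 j)
    have ha : θ (fun p : V × W => bV.repr p.1 i * bW.repr p.2 j) = t i * s j :=
      map_mul θ (fun p : V × W => bV.repr p.1 i) (fun p => bW.repr p.2 j)
    change ∃ l, O.valuation (θ (fun p : V × W => bV.repr p.1 i * bW.repr p.2 j)) ≤ _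
    rw [ha, map_mul]
    by_cases ht : t = 0
    · obtain ⟨l⟩ := hne
      refine ⟨l, ?_⟩
      rw [ht, Pi.zero_apply, map_zero, zero_mul]; exact zero_le
    by_cases hs : s = 0
    · obtain ⟨l⟩ := hne
      refine ⟨l, ?_⟩
      rw [hs, Pi.zero_apply, map_zero, mul_zero]; exact zero_le
    obtain ⟨t0, g, c, ht0, htg, hg, hgc, hc, hle, -⟩ := HM.exists_scale hO ht
    obtain ⟨s0, g', c', hs0, hsg, hg', hgc', hc', hle', -⟩ := HM.exists_scale hO hs
    let Φ : τ → MvPolynomial (σ ⊕ σ') Qb := fun l =>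
      ∑ i, ∑ j, C (bU.repr (β (bV i) (bW j)) l) * (X (Sum.inl i) * X (Sum.inr j))
    have hΦ : ∀ (R : Type) [CommRing R] [Algebra Qb R] (u : σ → R) (w : σ' → R) (l : τ),
        aeval (Sum.elim u w) (Φ l) =
          ∑ i, ∑ j, algebraMap Qb R (bU.repr (β (bV i) (bW j)) l) * (u i * w j) := by
      intro R _ _ u w l
      simp only [Φ, map_sum, map_mul, aeval_C, aeval_X, Sum.elim_inl, Sum.elim_inr]
    let x : V := ∑ i, c i • bV i
    let y : W := ∑ j, c' j • bW j
    have hx : ∀ i, bV.repr x i = c i := by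
      intro i
      exact congrFun (bV.repr_sum_self c) i
    have hy : ∀ i, bW.repr y i = c' i := by
      intro i
      exact congrFun (bW.repr_sum_self c') i
    have hx0 : x ≠ 0 := by
      intro h
      apply hc
      funext i
      rw [← hx i, h]; simp
    have hy0 : y ≠ 0 := by
      intro h
      apply hc'
      funext i
      rw [← hy i, h]; simp
    obtain ⟨l, hl⟩ : ∃ l, bU.repr (β x y) l ≠ 0 := by
      by_contra hcon
      push Not at hcon
      have h1 : β x y = 0 := by
        apply bU.repr.injective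
        rw [map_zero]
        exact Finsupp.ext hcon
      rcases hβ x y h1 with h | h
      · exact hx0 h
      · exact hy0 h
    refine ⟨l, ?_⟩
    have h2 : θ (fun p : V × W => bU.repr (β p.1 p.2) l) = t0 * s0 * aeval (Sum.elim g g') (Φ l) := by
      have h3 : (fun p : V × W => bU.repr (β p.1 p.2) l) =
          fun p => eval (fun z => (Sum.elim (fun i (p : V × W) => bV.repr p.1 i)
            (fun j (p : V × W) => bW.repr p.2 j) : σ ⊕ σ' → V × W → Qb) z p) (Φ l) := by
        funext p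
        rw [repr_bilin bV bW bU β p.1 p.2 l]
        have h4 := hΦ Qb (fun i => bV.repr p.1 i) (fun j => bW.repr p.2 j) l
        rw [show (fun z => (Sum.elim (fun i (p : V × W) => bV.repr p.1 i)
            (fun j (p : V × W) => bW.repr p.2 j) : σ ⊕ σ' → V × W → Qb) z p) =
            Sum.elim (fun i => bV.repr p.1 i) (fun j => bW.repr p.2 j) by
          funext z; rcases z with z | z <;> rfl]
        exact h4.symm
      rw [h3, HM.theta_poly]
      rw [show (fun z => θ ((Sum.elim (fun i (p : V × W) => bV.repr p.1 i)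
            (fun j (p : V × W) => bW.repr p.2 j) : σ ⊕ σ' → V × W → Qb) z)) =
            Sum.elim t s by
          funext z; rcases z with z | z <;> rfl]
      rw [hΦ, hΦ, Finset.mul_sum]
      refine Finset.sum_congr rfl fun i _ => ?_
      rw [Finset.mul_sum]
      refine Finset.sum_congr rfl fun j _ => ?_
      rw [htg i, hsg j]; ring
    have h5 := HM.congr_aeval (σ := σ ⊕ σ') hO (g := Sum.elim g g') (c := Sum.elim c c')
      (fun z => by rcases z with z | z; exacts [hg z, hg' z])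
      (fun z => by rcases z with z | z; exacts [hgc z, hgc' z]) (Φ l)
    have h6 : eval (Sum.elim c c') (Φ l) = bU.repr (β x y) l := by
      rw [repr_bilin bV bW bU β x y l]
      simp only [hx, hy]
      exact hΦ Qb c c' l
    have h7 : O.valuation (aeval (Sum.elim g g') (Φ l)) = 1 :=
      HM.val_eq_one_of_congr hO (h6 ▸ hl) h5.2
    rw [h2, map_mul, map_mul, h7, mul_one]
    exact mul_le_mul' (hle i) (hle' j)
  exact key.congr (fun v p => (nrm_mul_nrm v _ _).symm) (fun _ _ => rfl)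

end linear

/-! ### homogeneous maps -/

section homog

variable {σ τ : Type} [Finite σ] [Finite τ]

theorem dom_homog_ge (Φ : τ → MvPolynomial σ Qb) {D : ℕ} (hD : D ≠ 0)
    (hΦ : ∀ l, (Φ l).IsHomogeneous D)
    (hz : ∀ x : σ → Qb, (∀ l, eval x (Φ l) = 0) → x = 0) :
    Dom (fun v (x : σ → Qb) => nrm v x ^ D) (fun v x => nrm v (fun l => eval x (Φ l))) :=
  HM.homog_ge Φ hD hΦ hz

theorem dom_homog_le (Φ : τ → MvPolynomial σ Qb) {D : ℕ} (hD : D ≠ 0)
    (hΦ : ∀ l, (Φ l).IsHomogeneous D) :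
    Dom (fun v (x : σ → Qb) => nrm v (fun l => eval x (Φ l))) (fun v x => nrm v x ^ D) :=
  HM.homog_le Φ hD hΦ

end homog

end Fermat.Agent.MW
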