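import Fermat.Agent.MW.LinAlg2

/-! # The Siegel lemma (block [D]) -/

set_option autoImplicit false
set_option maxHeartbeats 400000

noncomputable section

open Matrix

namespace Fermat.Agent.MW.LA

/-! ### Lattice index -/

section lattice

variable {ι κ : Type} [Fintype ι] [DecidableEq ι] [Fintype κ] [DecidableEq κ]

/-- columns of a matrix -/
def colQ (a : Matrix ι κ ℚ) (j : κ) : ι → ℚ := fun i => a i j

/-- the lattice generated by the columns -/
def Lam (a : Matrix ι κ ℚ) : Submodule ℤ (ι → ℚ) := Submodule.span ℤ (Set.range (colQ a))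

theorem colQ_mem (a : Matrix ι κ ℚ) (j : κ) : colQ a j ∈ Lam a :=
  Submodule.subset_span ⟨j, rfl⟩

theorem lattice_count (a : Matrix ι κ ℚ) (J : ι → κ) (hJ : a.submatrix id J = 1) :
    ∃ (d : ℕ) (γ : Matrix ι ι ℚ) (m : Matrix κ ι ℤ), d ≠ 0 ∧
      γ = a * m.map (Int.cast : ℤ → ℚ) ∧ |γ.det| * d = 1 ∧
      ∃ (Q : Type) (q : (κ → ℤ) → Q), Finite Q ∧ Nat.card Q = d ∧
        ∀ x y : κ → ℤ, q x = q y → ∃ z : ι → ℤ, ∀ i, ∑ j, a i j * ((x j : ℚ) - (y j : ℚ)) = z i := by
  classical
  haveI : Module.Finite ℤ (Lam a) := Module.Finite.span_of_finite ℤ (Set.finite_range _)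
  haveI : Module.IsTorsionFree ℤ (Lam a) := inferInstance
  haveI : Module.Free ℤ (Lam a) := inferInstance
  -- the standard basis vectors
  have hcolJ : ∀ i, colQ a (J i) = Pi.single i 1 := by
    intro i
    funext i'
    have h1 : a i' (J i) = (1 : Matrix ι ι ℚ) i' i := by rw [← hJ]; rfl
    unfold colQ
    rw [h1, Matrix.one_apply, Pi.single_apply]
  let e : ι → Lam a := fun i => ⟨colQ a (J i), colQ_mem a _⟩
  have hli : LinearIndependent ℤ e := by
    have h1 : LinearIndependent ℤ (fun i => (Pi.single i 1 : ι → ℚ)) := by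
      have h2 : LinearIndependent ℚ (fun i => (Pi.single i 1 : ι → ℚ)) := by
        have h3 := (Pi.basisFun ℚ ι).linearIndependent
        convert h3 using 2 with i
        simp
      exact h2.restrict_scalars (fun x y h => by simpa using h)
    have h4 : (fun i => (Pi.single i 1 : ι → ℚ)) = (Lam a).subtype ∘ e := by
      funext i
      exact (hcolJ i).symm
    rw [h4] at h1
    exact LinearIndependent.of_comp (Lam a).subtype h1
  -- rank
  have hrank : Module.finrank ℤ (Lam a) = Fintype.card ι := by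
    apply le_antisymm
    · let c := Module.Free.chooseBasis ℤ (Lam a)
      have h1 : LinearIndependent ℤ (fun i => ((c i : Lam a) : ι → ℚ)) :=
        c.linearIndependent.map' (Lam a).subtype (by simp)
      have h2 : LinearIndependent ℚ (fun i => ((c i : Lam a) : ι → ℚ)) :=
        (LinearIndependent.iff_fractionRing ℤ ℚ).mp h1
      have h3 := h2.fintype_card_le_finrank
      rw [Module.finrank_eq_card_chooseBasisIndex]
      simpa using h3
    · exact hli.fintype_card_le_finrank
  let b : Module.Basis ι ℤ (Lam a) :=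
    (Module.finBasisOfFinrankEq ℤ (Lam a) hrank).reindex (Fintype.equivFin ι).symm
  let N : Submodule ℤ (Lam a) := Submodule.span ℤ (Set.range e)
  let bN : Module.Basis ι ℤ N := Module.Basis.span hli
  have hbN : ∀ i, ((bN i : N) : Lam a) = e i := fun i =>
    congrArg Subtype.val (Module.Basis.span_apply hli i)
  have hcount := Submodule.natAbs_det_basis_change b N bN
  have hcomp : ((↑) ∘ bN : ι → Lam a) = e := funext hbN
  rw [hcomp, Module.Basis.det_apply] at hcount
  set n : Matrix ι ι ℤ := b.toMatrix e with hn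
  let γ : Matrix ι ι ℚ := Matrix.of fun i j => ((b j : Lam a) : ι → ℚ) i
  have hγn : γ * n.map (Int.cast : ℤ → ℚ) = 1 := by
    ext i i'
    rw [Matrix.mul_apply]
    have h1 : ∑ j, n j i' • b j = e i' := b.sum_toMatrix_smul_self e i'
    have h2 := congrArg (fun x : Lam a => (x : ι → ℚ) i) h1
    simp only [Submodule.coe_sum, Submodule.coe_smul, Finset.sum_apply, Pi.smul_apply,
      zsmul_eq_mul] at h2
    have h3 : ((e i' : Lam a) : ι → ℚ) i = (1 : Matrix ι ι ℚ) i i' := by
      show colQ a (J i') i = _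
      rw [hcolJ, Pi.single_apply, Matrix.one_apply]
    rw [← h3, ← h2]
    refine Finset.sum_congr rfl fun j _ => ?_
    rw [mul_comm]
    rfl
  have hdet : γ.det * (n.det : ℚ) = 1 := by
    have h1 := congrArg Matrix.det hγn
    rw [Matrix.det_mul, Matrix.det_one] at h1
    have h2 : (n.map (Int.cast : ℤ → ℚ)).det = (n.det : ℚ) :=
      (Int.cast_det n).symm
    rwa [h2] at h1
  have hn0 : n.det ≠ 0 := by
    intro h
    rw [h] at hdet
    simp at hdet
  -- express the basis by the columns
  have hm : ∀ j : ι, ∃ m : κ → ℤ, ((b j : Lam a) : ι → ℚ) = ∑ x, m x • colQ a x := by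
    intro j
    have h1 := (b j).2
    unfold Lam at h1
    rw [Submodule.mem_span_range_iff_exists_fun] at h1
    obtain ⟨m, hm⟩ := h1
    exact ⟨m, hm.symm⟩
  choose m hm using hm
  refine ⟨n.det.natAbs, γ, Matrix.of fun x j => m j x, Int.natAbs_ne_zero.mpr hn0, ?_, ?_,
    (Lam a) ⧸ N, fun x => Submodule.Quotient.mk ⟨∑ j, x j • colQ a j,
      Submodule.sum_mem _ fun j _ => Submodule.smul_mem _ _ (colQ_mem a j)⟩, ?_, ?_, ?_⟩
  · ext i j
    rw [Matrix.mul_apply]
    show ((b j : Lam a) : ι → ℚ) i = _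
    rw [hm j, Finset.sum_apply]
    refine Finset.sum_congr rfl fun x _ => ?_
    simp [colQ, mul_comm]
  · have h1 := congrArg abs hdet
    rw [abs_mul, abs_one] at h1
    rw [← h1]
    congr 1
    rw [Nat.cast_natAbs]
    push_cast
    rfl
  · refine Nat.finite_of_card_ne_zero ?_
    rw [← hcount]
    exact Int.natAbs_ne_zero.mpr hn0
  · exact hcount.symm
  · intro x y hxy
    rw [Submodule.Quotient.eq] at hxy
    have h1 := hxy
    show ∃ z : ι → ℤ, _
    have h2 : ∃ z : ι → ℤ, ∑ i, z i • e i = _ := (Submodule.mem_span_range_iff_exists_fun ℤ).mp h1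
    obtain ⟨z, hz⟩ := h2
    refine ⟨z, fun i => ?_⟩
    have h3 := congrArg (fun v : Lam a => (v : ι → ℚ) i) hz
    simp only [Submodule.coe_sum, Submodule.coe_smul, Finset.sum_apply, Pi.smul_apply,
      zsmul_eq_mul, Submodule.coe_sub, Pi.sub_apply] at h3
    have h4 : ∀ i', ((e i' : Lam a) : ι → ℚ) i = if i = i' then 1 else 0 := by
      intro i'
      show colQ a (J i') i = _
      rw [hcolJ, Pi.single_apply]
    simp only [Pi.mul_apply, Pi.intCast_apply] at h3
    simp only [h4, mul_ite, mul_one, mul_zero, Finset.sum_ite_eq, Finset.mem_univ, if_true] at h3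
    rw [h3, ← Finset.sum_sub_distrib]
    refine Finset.sum_congr rfl fun j _ => ?_
    unfold colQ
    ring

end lattice

/-! ### Cauchy–Binet bound -/

section cb

variable {k : Type*} [Field k]
variable {ι κ : Type*} [Fintype ι] [DecidableEq ι] [Fintype κ]

theorem det_mul_expand (A : Matrix ι κ k) (m : Matrix κ ι k) :
    (A * m).det = ∑ r : ι → κ, (∏ i, m (r i) i) * (A.submatrix id r).det := by
  classical
  rw [← Matrix.det_transpose]
  have h1 : (A * m)ᵀ = fun i => ∑ j, (m j i) • (Aᵀ j) := by
    funext i i'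
    rw [Matrix.transpose_apply, Matrix.mul_apply, Finset.sum_apply]
    refine Finset.sum_congr rfl fun j _ => ?_
    rw [mul_comm]
    rfl
  have h2 : ((A * m)ᵀ).det =
      (Matrix.detRowAlternating (n := ι) (R := k)).toMultilinearMap
        (fun i => ∑ j, (m j i) • (Aᵀ j)) := by
    rw [h1]
    rfl
  rw [h2, MultilinearMap.map_sum]
  refine Finset.sum_congr rfl fun r _ => ?_
  rw [MultilinearMap.map_smul_univ, smul_eq_mul]
  congr 1
  have h3 : (A.submatrix id r)ᵀ = fun i => Aᵀ (r i) := rfl
  rw [← Matrix.det_transpose (A.submatrix id r), h3]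
  rfl

theorem det_mul_le_nonarch (w : AbsoluteValue k ℝ) (hw : IsNonarchimedean w) (A : Matrix ι κ k)
    (m : Matrix κ ι k) (hm : ∀ i j, w (m i j) ≤ 1) : w (A * m).det ≤ vol w A := by
  classical
  rw [det_mul_expand]
  rcases isEmpty_or_nonempty (ι → κ) with he | hne
  · rw [Finset.univ_eq_empty, Finset.sum_empty, map_zero]
    exact vol_nonneg _ _
  · obtain ⟨r, -, hr⟩ := hw.finset_image_add_of_nonempty
      (fun r : ι → κ => (∏ i, m (r i) i) * (A.submatrix id r).det) Finset.univ_nonempty
    refine hr.trans ?_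
    rw [map_mul, map_prod]
    refine (mul_le_of_le_one_left (w.nonneg _) ?_).trans (le_vol w A r)
    exact Finset.prod_le_one (fun _ _ => w.nonneg _) fun i _ => hm _ _

end cb

/-! ### Admissibility of the volume -/

section adm

variable {ι κ : Type} [Fintype ι] [DecidableEq ι] [Fintype κ]

theorem adm_vol {E : Matrix ι κ Qb} {J₀ : ι → κ} (hJ₀ : (E.submatrix id J₀).det ≠ 0) :
    Adm (fun v => vol (av v) E) := by
  classical
  haveI : Nonempty (ι → κ) := ⟨J₀⟩
  refine ⟨fun v => vol_pos (av v) hJ₀, ?_⟩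
  have h1 : (⋃ J : {J : ι → κ // (E.submatrix id J).det ≠ 0},
      {v : Pl | av v (E.submatrix id J.1).det ≠ 1}).Finite :=
    Set.finite_iUnion fun J => av_finite J.2
  refine h1.subset fun v hv => ?_
  by_contra hcon
  rw [Set.mem_iUnion, not_exists] at hcon
  have h2 : ∀ J : ι → κ, (E.submatrix id J).det ≠ 0 → av v (E.submatrix id J).det = 1 := by
    intro J hJ
    by_contra h
    exact hcon ⟨J, hJ⟩ h
  apply hv
  show vol (av v) E = 1
  apply le_antisymm
  · refine vol_le _ _ fun J => ?_
    by_cases h : (E.submatrix id J).det = 0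
    · rw [h, map_zero]; exact zero_le_one
    · exact (h2 J h).le
  · rw [← h2 J₀ hJ₀]
    exact le_vol _ _ J₀

end adm

/-! ### The Siegel lemma -/

section siegel

variable {ι κ : Type} [Fintype ι] [DecidableEq ι] [Fintype κ] [DecidableEq κ]

/-- the rows are permuted by the Galois group -/
def RowPerm (E : Matrix ι κ Qb) : Prop :=
  ∀ g : Qb ≃ₐ[ℚ] Qb, ∃ π : Equiv.Perm ι, ∀ i j, g (E i j) = E (π i) j

theorem rat_of_fixed {x : Qb} (h : ∀ g : Qb ≃ₐ[ℚ] Qb, g x = x) : ∃ q : ℚ, algebraMap ℚ Qb q = x :=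
  (InfiniteGalois.mem_range_algebraMap_iff_fixed x).mpr h

theorem minor_sq_rat {E : Matrix ι κ Qb} (hE : RowPerm E) (J : ι → κ) :
    ∃ q : ℚ, (E.submatrix id J).det ^ 2 = algebraMap ℚ Qb q := by
  obtain ⟨q, hq⟩ := rat_of_fixed (x := (E.submatrix id J).det ^ 2) (fun g => by
    obtain ⟨π, hπ⟩ := hE g
    rw [map_pow]
    have h1 : g (E.submatrix id J).det = ((E.submatrix id J).submatrix π id).det := by
      rw [AlgEquiv.map_det]
      congr 1
      ext i j
      exact hπ i (J j)
    rw [h1, Matrix.det_permute]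
    rcases Int.units_eq_one_or (Equiv.Perm.sign π) with h | h
    · rw [h]; simp
    · rw [h]; simp)
  exact ⟨q, hq.symm⟩

theorem S_minor {E : Matrix ι κ Qb} (hE : RowPerm E) {J : ι → κ}
    (hJ : (E.submatrix id J).det ≠ 0) : S (fun v => av v (E.submatrix id J).det) = 0 := by
  obtain ⟨q, hq⟩ := minor_sq_rat hE J
  exact S_av_of_sq hJ hq

theorem exists_rational {E : Matrix ι κ Qb} (hE : RowPerm E) {J : ι → κ}
    (hJ : (E.submatrix id J).det ≠ 0) :
    ∃ a : Matrix ι κ ℚ, (E.submatrix id J)⁻¹ * E = a.map (algebraMap ℚ Qb) := by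
  have hunit : IsUnit (E.submatrix id J).det := isUnit_iff_ne_zero.mpr hJ
  set F := (E.submatrix id J)⁻¹ * E with hF
  have hEF : E.submatrix id J * F = E := by
    rw [hF, ← Matrix.mul_assoc, Matrix.mul_nonsing_inv _ hunit, Matrix.one_mul]
  have hfix : ∀ g : Qb ≃ₐ[ℚ] Qb, F.map g = F := by
    intro g
    obtain ⟨π, hπ⟩ := hE g
    have h1 : E.submatrix id J * F.map g = E := by
      ext i j
      have h2 := congrArg g (congrFun (congrFun hEF (π.symm i)) j)
      rw [Matrix.mul_apply, map_sum, hπ, Equiv.apply_symm_apply] at h2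
      rw [Matrix.mul_apply, ← h2]
      refine Finset.sum_congr rfl fun b _ => ?_
      rw [map_mul]
      congr 1
      rw [Matrix.submatrix_apply, Matrix.submatrix_apply, hπ]
      simp
    have h3 : (E.submatrix id J)⁻¹ * (E.submatrix id J * F.map g) = F := by rw [h1]
    rwa [← Matrix.mul_assoc, Matrix.nonsing_inv_mul _ hunit, Matrix.one_mul] at h3
  have hrat : ∀ i j, ∃ q : ℚ, algebraMap ℚ Qb q = F i j := fun i j =>
    rat_of_fixed fun g => congrFun (congrFun (hfix g) i) j
  choose a ha using hrat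
  refine ⟨Matrix.of a, ?_⟩
  ext i j
  exact (ha i j).symm

/-- **Siegel lemma** with the Plücker exponent. -/
theorem siegel {E : Matrix ι κ Qb} (hE : RowPerm E) {J₀ : ι → κ}
    (hJ₀ : (E.submatrix id J₀).det ≠ 0) (hlt : Fintype.card ι < Fintype.card κ) :
    ∃ c : κ → ℤ, c ≠ 0 ∧ (∀ i, ∑ j, E i j * (algebraMap ℚ Qb (c j : ℚ)) = 0) ∧
      ∀ j, |(c j : ℝ)| ≤ Fintype.card κ *
        Real.exp (S (fun v => vol (av v) E) / ((Fintype.card κ : ℝ) - Fintype.card ι)) := by
  classical
  obtain ⟨J, hJ, hJvol, hle, hJ1⟩ := exists_normal (av none) hJ₀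
  have hunit : IsUnit (E.submatrix id J).det := isUnit_iff_ne_zero.mpr hJ
  obtain ⟨a, ha⟩ := exists_rational hE hJ
  have hinj : Function.Injective (algebraMap ℚ Qb) := (algebraMap ℚ Qb).injective
  have ha1 : a.submatrix id J = 1 := by
    ext i j
    apply hinj
    have h1 := congrFun (congrFun hJ1 i) j
    rw [ha] at h1
    have h2 : algebraMap ℚ Qb ((a.submatrix id J) i j) = (1 : Matrix ι ι Qb) i j := h1
    rw [h2, Matrix.one_apply, Matrix.one_apply]
    split_ifs <;> simp
  have hale : ∀ i j, |(a i j : ℝ)| ≤ 1 := by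
    intro i j
    have h1 := hle i j
    rw [ha, Matrix.map_apply, av_none_rat] at h1
    exact h1
  have hEa : ∀ i j, E i j = ∑ b, E.submatrix id J i b * algebraMap ℚ Qb (a b j) := by
    intro i j
    have h1 : E = E.submatrix id J * a.map (algebraMap ℚ Qb) := by
      rw [← ha, ← Matrix.mul_assoc, Matrix.mul_nonsing_inv _ hunit, Matrix.one_mul]
    conv_lhs => rw [h1]
    rw [Matrix.mul_apply]
    rfl
  obtain ⟨d, γ, m, hd0, hγ, hγd, Q, q, hQfin, hQcard, hQ⟩ := lattice_count a J ha1
  -- size of `d`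
  have hSd : Real.log d ≤ S (fun v => vol (av v) E) := by
    have hγ0 : γ.det ≠ 0 := by
      intro h
      rw [h] at hγd
      simp at hγd
    have hγ0' : algebraMap ℚ Qb γ.det ≠ 0 := by simpa using hγ0
    have h1 : S (fun v => av v (algebraMap ℚ Qb γ.det)) = 0 := S_av_rat _ hγ0
    -- comparison function
    let C : Pl → ℝ := fun v => if v = none then (d : ℝ) else 1
    have hdpos : (0 : ℝ) < d := by exact_mod_cast Nat.pos_of_ne_zero hd0
    have hC : Adm C := by
      refine Adm.of_ite {none} (Set.finite_singleton _) ?_ ?_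
      · intro v
        simp only [C]
        split_ifs
        · exact hdpos
        · exact one_pos
      · intro v hv
        simp only [C]
        rw [if_neg (show ¬ v = none from fun h => hv h)]
    have hSC : S C = Real.log d := by
      unfold S
      rw [finsum_eq_single _ (none : Pl)]
      · simp [C]
      · intro v hv
        simp [C, hv]
    have hE' : E = E.submatrix id J * a.map (algebraMap ℚ Qb) := by
      rw [← ha, ← Matrix.mul_assoc, Matrix.mul_nonsing_inv _ hunit, Matrix.one_mul]
    have hvolE : ∀ v, vol (av v) E = av v (E.submatrix id J).det *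
        vol (av v) (a.map (algebraMap ℚ Qb)) := by
      intro v
      conv_lhs => rw [hE']
      rw [vol_mul_left]
    have ha1' : ((a.map (algebraMap ℚ Qb)).submatrix id J).det ≠ 0 := by
      rw [← ha, hJ1, Matrix.det_one]
      exact one_ne_zero
    have hSa : S (fun v => vol (av v) E) = S (fun v => vol (av v) (a.map (algebraMap ℚ Qb))) := by
      simp_rw [hvolE]
      rw [S_mul (adm_av hJ) (adm_vol ha1'), S_minor hE hJ, zero_add]
    rw [hSa, ← hSC]
    have h2 : S C + S (fun v => av v (algebraMap ℚ Qb γ.det)) ≤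
        S (fun v => vol (av v) (a.map (algebraMap ℚ Qb))) := by
      rw [← S_mul hC (adm_av hγ0')]
      refine S_le (hC.mul (adm_av hγ0')) (adm_vol ha1') fun v => ?_
      rcases v with _ | p
      · simp only [C, if_true]
        rw [av_none_rat]
        have h3 : (d : ℝ) * |(γ.det : ℝ)| = 1 := by
          have h4 : ((|γ.det| * d : ℚ) : ℝ) = 1 := by rw [hγd]; simp
          rw [Rat.cast_mul, Rat.cast_abs, Rat.cast_natCast] at h4
          rw [mul_comm]
          exact h4
        rw [h3]
        have h5 := le_vol (av none) (a.map (algebraMap ℚ Qb)) J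
        rw [← ha, hJ1, Matrix.det_one, map_one] at h5
        rw [← ha]
        exact h5
      · simp only [C]
        rw [if_neg (by simp), one_mul]
        have h3 : algebraMap ℚ Qb γ.det =
            (a.map (algebraMap ℚ Qb) * (m.map (Int.cast : ℤ → ℚ)).map (algebraMap ℚ Qb)).det := by
          rw [hγ, RingHom.map_det, RingHom.mapMatrix_apply, Matrix.map_mul]
        rw [h3]
        refine det_mul_le_nonarch _ (av_nonarch p) _ _ fun i j => ?_
        rw [Matrix.map_apply, Matrix.map_apply, av_some_rat, ← Padic.eq_padicNorm]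
        exact_mod_cast Padic.norm_int_le_one (m i j)
    linarith
  -- pigeonhole
  set l : ℕ := Fintype.card κ - Fintype.card ι with hl
  have hl0 : l ≠ 0 := by omega
  have hlR : ((Fintype.card κ : ℝ) - Fintype.card ι) = l := by
    rw [hl, Nat.cast_sub hlt.le]
  obtain ⟨B, hB1, hB2⟩ : ∃ B : ℕ, B ^ l ≤ d ∧ d < (B + 1) ^ l := by
    refine ⟨Nat.findGreatest (fun B => B ^ l ≤ d) d, ?_, ?_⟩
    · have := Nat.findGreatest_spec (P := fun B => B ^ l ≤ d) (m := 0) (n := d) (Nat.zero_le _)
        (by simp [hl0])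
      exact this
    · by_contra h
      rw [not_lt] at h
      have h1 : Nat.findGreatest (fun B => B ^ l ≤ d) d + 1 ≤ d :=
        (Nat.le_self_pow hl0 _).trans h
      have h2 := Nat.le_findGreatest (P := fun B => B ^ l ≤ d) h1 h
      omega
  have hJinj : Function.Injective J := injective_of_det_ne_zero hJ
  let κ' : Type := {j : κ // j ∉ Set.range J}
  have hκ' : Fintype.card κ' = l := by
    have h1 : Fintype.card κ' = Fintype.card κ - Fintype.card {j : κ // j ∈ Set.range J} :=
      Fintype.card_subtype_compl _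
    have h2 : Fintype.card {j : κ // j ∈ Set.range J} = Fintype.card ι :=
      Set.card_range_of_injective hJinj
    rw [h1, h2]
  let ext : (κ' → Fin (B + 1)) → κ → ℤ := fun f j =>
    if h : j ∉ Set.range J then ((f ⟨j, h⟩ : ℕ) : ℤ) else 0
  obtain ⟨f, f', hff', hqf⟩ : ∃ f f' : κ' → Fin (B + 1), f ≠ f' ∧ q (ext f) = q (ext f') := by
    haveI := Fintype.ofFinite Q
    have h1 : Fintype.card Q < Fintype.card (κ' → Fin (B + 1)) := by
      rw [← Nat.card_eq_fintype_card, hQcard]
      simp only [Fintype.card_fun, Fintype.card_fin, hκ']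
      exact hB2
    obtain ⟨f, f', h2, h3⟩ := Fintype.exists_ne_map_eq_of_card_lt (fun f => q (ext f)) h1
    exact ⟨f, f', h2, h3⟩
  obtain ⟨z, hz⟩ := hQ _ _ hqf
  -- the solution
  let c₀ : κ → ℤ := fun j => ext f j - ext f' j
  have hc₀J : ∀ i, c₀ (J i) = 0 := by
    intro i
    have : ¬ (J i ∉ Set.range J) := fun h => h ⟨i, rfl⟩
    simp only [c₀, ext, this, dif_neg, not_false_eq_true, sub_self]
  let c : κ → ℤ := fun j => if h : ∃ i, J i = j then - z h.choose else c₀ j
  have hcJ : ∀ i, c (J i) = - z i := by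
    intro i
    have h : ∃ i', J i' = J i := ⟨i, rfl⟩
    have h2 : h.choose = i := hJinj h.choose_spec
    simp only [c]
    rw [dif_pos h, h2]
  have hc' : ∀ j, j ∉ Set.range J → c j = c₀ j := by
    intro j hj
    have h : ¬ ∃ i, J i = j := hj
    simp only [c]
    rw [dif_neg h]
  have hc₀le : ∀ j, |(c₀ j : ℝ)| ≤ B := by
    intro j
    by_cases hj : j ∉ Set.range J
    · have h1 : c₀ j = ((f ⟨j, hj⟩ : ℕ) : ℤ) - ((f' ⟨j, hj⟩ : ℕ) : ℤ) := by
        simp only [c₀, ext, hj, dif_pos, not_false_eq_true]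
      have h2 := (f ⟨j, hj⟩).2
      have h3 := (f' ⟨j, hj⟩).2
      have h4 : |c₀ j| ≤ B := by
        rw [h1, abs_le]
        constructor <;> omega
      exact_mod_cast h4
    · have h1 : c₀ j = 0 := by
        simp only [c₀, ext, hj, dif_neg, not_false_eq_true, sub_self]
      rw [h1]
      simp
  have hzle : ∀ i, |(z i : ℝ)| ≤ Fintype.card κ * B := by
    intro i
    have h1 : (z i : ℝ) = ∑ j, (a i j : ℝ) * (c₀ j : ℝ) := by
      have h2 : ((z i : ℚ) : ℝ) = ((∑ j, a i j * ((ext f j : ℚ) - (ext f' j : ℚ)) : ℚ) : ℝ) := by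
        rw [hz i]
      push_cast at h2
      rw [h2]
      refine Finset.sum_congr rfl fun j _ => ?_
      simp only [c₀]
      push_cast
      ring
    rw [h1]
    refine (Finset.abs_sum_le_sum_abs _ _).trans ?_
    calc ∑ j, |(a i j : ℝ) * (c₀ j : ℝ)| ≤ ∑ _j : κ, (B : ℝ) := by
          refine Finset.sum_le_sum fun j _ => ?_
          rw [abs_mul]
          exact (mul_le_of_le_one_left (abs_nonneg _) (hale i j)).trans (hc₀le j)
      _ = Fintype.card κ * B := by simp
  have hcard1 : (1 : ℝ) ≤ Fintype.card κ := by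
    have : 1 ≤ Fintype.card κ := by omega
    exact_mod_cast this
  have hcle : ∀ j, |(c j : ℝ)| ≤ Fintype.card κ * B := by
    intro j
    by_cases hj : j ∈ Set.range J
    · obtain ⟨i, rfl⟩ := hj
      rw [hcJ]
      push_cast
      rw [abs_neg]
      exact hzle i
    · rw [hc' j hj]
      refine (hc₀le j).trans ?_
      exact le_mul_of_one_le_left (Nat.cast_nonneg _) hcard1
  -- `a c = 0`
  have hac : ∀ i, ∑ j, a i j * (c j : ℚ) = 0 := by
    intro i
    have h1 : ∀ j, (c j : ℚ) = (c₀ j : ℚ) - ∑ i', if J i' = j then (z i' : ℚ) else 0 := by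
      intro j
      by_cases hj : j ∈ Set.range J
      · obtain ⟨i', rfl⟩ := hj
        rw [hcJ, hc₀J]
        have : ∑ i'', (if J i'' = J i' then (z i'' : ℚ) else 0) = z i' := by
          rw [Finset.sum_eq_single i']
          · simp
          · intro b _ hb
            rw [if_neg fun h => hb (hJinj h)]
          · simp
        rw [this]
        push_cast
        ring
      · rw [hc' j hj]
        have : ∑ i'', (if J i'' = j then (z i'' : ℚ) else 0) = 0 := by
          refine Finset.sum_eq_zero fun i'' _ => ?_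
          rw [if_neg fun h => hj ⟨i'', h⟩]
        rw [this, sub_zero]
    have h2 : ∑ j, a i j * (c j : ℚ) = ∑ j, a i j * (c₀ j : ℚ) -
        ∑ j, a i j * ∑ i', (if J i' = j then (z i' : ℚ) else 0) := by
      rw [← Finset.sum_sub_distrib]
      refine Finset.sum_congr rfl fun j _ => ?_
      rw [h1 j]
      ring
    have h3 : ∑ j, a i j * (c₀ j : ℚ) = z i := by
      rw [← hz i]
      refine Finset.sum_congr rfl fun j _ => ?_
      simp only [c₀]
      push_cast
      ring
    have h4 : ∑ j, a i j * ∑ i', (if J i' = j then (z i' : ℚ) else 0) = z i := by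
      simp_rw [Finset.mul_sum, mul_ite, mul_zero]
      rw [Finset.sum_comm]
      have h5 : ∀ i', ∑ j, (if J i' = j then a i j * (z i' : ℚ) else 0) =
          a i (J i') * (z i' : ℚ) := by
        intro i'
        rw [Finset.sum_ite_eq]
        simp
      simp_rw [h5]
      have h6 : ∀ i', a i (J i') = if i = i' then 1 else 0 := by
        intro i'
        have := congrFun (congrFun ha1 i) i'
        rw [Matrix.submatrix_apply, Matrix.one_apply] at this
        exact this
      simp_rw [h6]
      simp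
    rw [h2, h3, h4, sub_self]
  refine ⟨c, ?_, ?_, ?_⟩
  · intro h
    apply hff'
    funext ⟨j, hj⟩
    have h1 := congrFun h j
    rw [hc' j hj] at h1
    have h2 : c₀ j = ((f ⟨j, hj⟩ : ℕ) : ℤ) - ((f' ⟨j, hj⟩ : ℕ) : ℤ) := by
      simp only [c₀, ext, hj, dif_pos, not_false_eq_true]
    rw [h2] at h1
    apply Fin.ext
    have h3 : (0 : κ → ℤ) j = 0 := rfl
    rw [h3] at h1
    omega
  · intro i
    simp_rw [hEa i, Finset.sum_mul]
    rw [Finset.sum_comm]
    refine Finset.sum_eq_zero fun b _ => ?_
    have h1 : ∑ j, E.submatrix id J i b * algebraMap ℚ Qb (a b j) * algebraMap ℚ Qb (c j : ℚ) =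
        E.submatrix id J i b * algebraMap ℚ Qb (∑ j, a b j * (c j : ℚ)) := by
      rw [map_sum, Finset.mul_sum]
      refine Finset.sum_congr rfl fun j _ => ?_
      rw [map_mul, mul_assoc]
    rw [h1, hac b, map_zero, mul_zero]
  · intro j
    refine (hcle j).trans ?_
    refine mul_le_mul_of_nonneg_left ?_ (Nat.cast_nonneg _)
    rw [hlR]
    rcases Nat.eq_zero_or_pos B with h0 | h0
    · rw [h0]; simp only [Nat.cast_zero]; exact (Real.exp_pos _).le
    · have hB0 : (0 : ℝ) < B := by exact_mod_cast h0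
      rw [← Real.log_le_iff_le_exp hB0, le_div_iff₀ (by
        have : 0 < l := Nat.pos_of_ne_zero hl0
        exact_mod_cast this)]
      have h1 : Real.log B * l = Real.log ((B : ℝ) ^ l) := by
        rw [Real.log_pow, mul_comm]
      rw [h1]
      refine le_trans ?_ hSd
      apply Real.log_le_log (by positivity)
      exact_mod_cast hB1

end siegel

end Fermat.Agent.MW.LA
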