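import Fermat.Agent.MW.Core
import Fermat.Agent.MW.Dom
import Fermat.Agent.MW.Siegel

/-! # The maximal minors of evaluation matrices -/

set_option autoImplicit false
set_option linter.unusedSectionVars false
set_option linter.unusedDecidableInType false

noncomputable section

open AlgebraicCurve Polynomial Matrix
open Fermat.Agent.FunField (IsFF divOf)
open Fermat.Agent.S27C

namespace Fermat.Agent.MW

section omega

variable {K F : Type*} [Field K] [Field F] [Algebra K F]
variable {Ω : Type*} [Field Ω] [Algebra K Ω] {O : ValuationSubring Ω} {P : Place K F} {N₀ : ℕ}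
variable [IsAlgClosed K] [IsCurveOver K F] [IsFF K F] {ι : Type*} [Fintype ι]
variable {p : ι → (affRing P →ₐ[K] Ω)} {Q : ι → Place K F} {u w : affRing P}

theorem Gen.comp {κ : Type*} [Finite κ] (hg : Gen O N₀ p Q u w) (σ : κ → ι) :
    Gen O N₀ (fun k => p (σ k)) (fun k => Q (σ k)) u w where
  red _ := hg.red _
  u_mem := hg.u_mem
  w_mem := hg.w_mem
  u_ne _ := hg.u_ne _
  u_max _ := hg.u_max _
  u_ord _ := hg.u_ord _
  w_mem_val _ := hg.w_mem_val _
  w_ord _ := hg.w_ord _
  w_sep _ _ := hg.w_sep _ _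

/-- The wedge product of two sections at two points. -/
def wdg (p q : affRing P →ₐ[K] Ω) (b b' : affRing P) : Ω := p b * q b' - p b' * q b

/-- The wedge product of any two sections is dominated by the one of the generic sections. -/
theorem Gen.wdg_le (hO : IsResidual K O) (hN₀ : Big P N₀) (hg : Gen O N₀ p Q u w) (i j : ι)
    {b b' : affRing P} (hb : b ∈ V P N₀) (hb' : b' ∈ V P N₀) :
    O.valuation (wdg (p i) (p j) b b') ≤ O.valuation (wdg (p i) (p j) u w) := by
  have hg2 := hg.comp (![i, j] : Fin 2 → ι)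
  obtain ⟨c, hc, hc'⟩ := hg2.core hO hN₀ (e := 2) (Fintype.card_fin 2) 1
    (f := b) (by rw [one_mul]; exact hb)
  obtain ⟨d, hd, hd'⟩ := hg2.core hO hN₀ (e := 2) (Fintype.card_fin 2) 1
    (f := b') (by rw [one_mul]; exact hb')
  have e0 := hc' 0
  have e1 := hc' 1
  have e2 := hd' 0
  have e3 := hd' 1
  simp only [Matrix.cons_val_zero, Matrix.cons_val_one, pow_one, Fin.sum_univ_two, Fin.val_zero,
    Fin.val_one, pow_zero, mul_one] at e0 e1 e2 e3
  have hui := hg.u_ne i
  have huj := hg.u_ne j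
  have h1 : wdg (p i) (p j) b b' = (c 0 * d 1 - c 1 * d 0) * wdg (p i) (p j) u w := by
    unfold wdg
    rw [e0, e1, e2, e3]
    field_simp
    ring
  rw [h1, map_mul]
  refine (mul_le_mul' ?_ le_rfl).trans_eq (one_mul _)
  rw [O.valuation_le_one_iff]
  have m1 : ∀ k, c k ∈ O := fun k => (O.valuation_le_one_iff _).mp (hc k)
  have m2 : ∀ k, d k ∈ O := fun k => (O.valuation_le_one_iff _).mp (hd k)
  exact sub_mem (mul_mem (m1 _) (m2 _)) (mul_mem (m1 _) (m2 _))

end omega

section det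

variable {K F : Type*} [Field K] [Field F] [Algebra K F]
variable {Ω : Type*} [Field Ω] [Algebra K Ω] {O : ValuationSubring Ω} {P : Place K F} {N₀ : ℕ}
variable [IsAlgClosed K] [IsCurveOver K F] [IsFF K F] {e : ℕ}
variable {p : Fin e → (affRing P →ₐ[K] Ω)} {Q : Fin e → Place K F} {u w : affRing P}

theorem valuation_det_le {n : ℕ} {M : Matrix (Fin n) (Fin n) Ω} (h : ∀ i j, O.valuation (M i j) ≤ 1) :
    O.valuation M.det ≤ 1 := by
  rw [O.valuation_le_one_iff, Matrix.det_apply]
  refine sum_mem fun σ _ => ?_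
  rcases Int.units_eq_one_or (Equiv.Perm.sign σ) with hs | hs <;> rw [hs]
  · rw [one_smul]
    exact prod_mem fun i _ => (O.valuation_le_one_iff _).mp (h _ _)
  · rw [Units.neg_smul, one_smul]
    exact neg_mem (prod_mem fun i _ => (O.valuation_le_one_iff _).mp (h _ _))

/-- The main product. -/
def mainProd (m : ℕ) (p : Fin e → (affRing P →ₐ[K] Ω)) (u w : affRing P) : Ω :=
  (∏ i, p i u ^ (m + 1 - e)) * ∏ i, ∏ j ∈ Finset.Ioi i, wdg (p i) (p j) u w

theorem det_projV (p : Fin e → (affRing P →ₐ[K] Ω)) (u w : affRing P) :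
    (projVandermonde (fun i => p i w) (fun i => p i u)).det =
      ∏ i, ∏ j ∈ Finset.Ioi i, wdg (p i) (p j) u w := by
  rw [det_projVandermonde]
  refine Finset.prod_congr rfl fun i _ => Finset.prod_congr rfl fun j _ => ?_
  unfold wdg
  ring

theorem Gen.det_le (hO : IsResidual K O) (hN₀ : Big P N₀) (hg : Gen O N₀ p Q u w) {m : ℕ}
    (hem : e ≤ m + 1) (f : Fin e → affRing P) (hf : ∀ a, f a ∈ V P (m * N₀)) :
    O.valuation (Matrix.of fun i a => p i (f a)).det ≤ O.valuation (mainProd m p u w) := by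
  choose c hc hc' using fun a => hg.core hO hN₀ (e := e) (Fintype.card_fin e) m (hf a)
  have h1 : (Matrix.of fun i a => p i (f a)) =
      Matrix.diagonal (fun i => p i u ^ (m + 1 - e)) *
        projVandermonde (fun i => p i w) (fun i => p i u) * (Matrix.of c)ᵀ := by
    ext i a
    rw [Matrix.of_apply, hc' a i, Matrix.mul_assoc, Matrix.diagonal_mul, Matrix.mul_apply,
      Finset.mul_sum, Finset.mul_sum]
    refine Finset.sum_congr rfl fun j _ => ?_
    rw [projVandermonde_apply, Matrix.transpose_apply, Matrix.of_apply]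
    have hu := hg.u_ne i
    have h2 : p i u ^ m = p i u ^ (m + 1 - e) * p i u ^ (j.rev : ℕ) * p i u ^ (j : ℕ) := by
      rw [← pow_add, ← pow_add]
      congr 1
      have := j.2
      rw [Fin.val_rev]
      omega
    rw [h2, div_pow]
    field_simp
  rw [h1, Matrix.det_mul, Matrix.det_mul, Matrix.det_diagonal, det_projV, Matrix.det_transpose,
    map_mul]
  refine (mul_le_mul' le_rfl (valuation_det_le (fun i j => hc i j))).trans_eq (mul_one _)

/-- sections realizing the main product -/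
theorem exists_mainProd_eq_det {m : ℕ} (hem : e ≤ m + 1) (hu : u ∈ V P N₀) (hw : w ∈ V P N₀) :
    ∃ f : Fin e → affRing P, (∀ a, f a ∈ V P (m * N₀)) ∧
      (Matrix.of fun i a => p i (f a)).det = mainProd m p u w := by
  refine ⟨fun a => u ^ (m + 1 - e) * (w ^ (a : ℕ) * u ^ (a.rev : ℕ)), fun a => ?_, ?_⟩
  · have h1 : m * N₀ = (m + 1 - e) * N₀ + ((a : ℕ) * N₀ + (a.rev : ℕ) * N₀) := by
      rw [← add_mul, ← add_mul]
      congr 1
      have := a.2
      rw [Fin.val_rev]
      omega
    rw [h1]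
    exact mul_mem_V (pow_mem_V hu _) (mul_mem_V (pow_mem_V hw _) (pow_mem_V hu _))
  · have h1 : (Matrix.of fun i (a : Fin e) => p i (u ^ (m + 1 - e) * (w ^ (a : ℕ) * u ^ (a.rev : ℕ)))) =
        Matrix.diagonal (fun i => p i u ^ (m + 1 - e)) *
        projVandermonde (fun i => p i w) (fun i => p i u) := by
      ext i a
      rw [Matrix.of_apply, Matrix.diagonal_mul, projVandermonde_apply]
      simp only [map_mul, map_pow]
    rw [h1, Matrix.det_mul, Matrix.det_diagonal, det_projV]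
    rfl

/-- the chosen basis of `V P n` -/
def bas (P : Place K F) (n : ℕ) : Module.Basis (Fin (Module.finrank K (V P n))) K (V P n) :=
  haveI := finite_V (P := P) n
  Module.finBasis K (V P n)

theorem exists_bas_le (hO : ∀ c : K, algebraMap K Ω c ∈ O) {n : ℕ} (L : affRing P →ₗ[K] Ω)
    {f : affRing P} (hf : f ∈ V P n) :
    ∃ k, O.valuation (L f) ≤ O.valuation (L (bas P n k)) := by
  have h1 : f = ∑ k, (bas P n).repr ⟨f, hf⟩ k • ((bas P n k : V P n) : affRing P) := by
    have := congrArg (fun x : V P n => (x : affRing P)) ((bas P n).sum_repr ⟨f, hf⟩)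
    simp only [Submodule.coe_sum, Submodule.coe_smul] at this
    exact this.symm
  have hne : Nonempty (Fin (Module.finrank K (V P n))) := by
    by_contra hcon
    rw [not_nonempty_iff] at hcon
    have : Subsingleton (V P n) := (bas P n).repr.toEquiv.subsingleton
    have h2 : (⟨1, one_mem_V n⟩ : V P n) = 0 := Subsingleton.elim _ _
    exact one_ne_zero (congrArg Subtype.val h2)
  obtain ⟨k, -, hk⟩ := Finset.exists_max_image Finset.univ
    (fun k => O.valuation (L (bas P n k))) Finset.univ_nonempty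
  refine ⟨k, ?_⟩
  conv_lhs => rw [h1]
  rw [map_sum]
  refine val_sum_le O _ _ _ fun j hj => ?_
  rw [map_smul]
  exact (valuation_smul_le hO _ _).trans (hk j hj)

/-- the wedge as a linear map in the first variable -/
def wdgL (p q : affRing P →ₐ[K] Ω) (b' : affRing P) : affRing P →ₗ[K] Ω where
  toFun b := wdg p q b b'
  map_add' x y := by unfold wdg; rw [map_add, map_add]; ring
  map_smul' c x := by
    unfold wdg
    rw [map_smul, map_smul, RingHom.id_apply, Algebra.smul_def, Algebra.smul_def,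
      Algebra.smul_def]; ring

theorem wdg_swap (p q : affRing P →ₐ[K] Ω) (b b' : affRing P) : wdg p q b b' = - wdg p q b' b := by
  unfold wdg; ring

theorem exists_bas_wdg_le (hO : ∀ c : K, algebraMap K Ω c ∈ O) {n : ℕ} (p q : affRing P →ₐ[K] Ω)
    {f g : affRing P} (hf : f ∈ V P n) (hg : g ∈ V P n) :
    ∃ s t, O.valuation (wdg p q f g) ≤ O.valuation (wdg p q (bas P n s) (bas P n t)) := by
  obtain ⟨s, hs⟩ := exists_bas_le hO (wdgL p q g) hf
  obtain ⟨t, ht⟩ := exists_bas_le hO (wdgL p q (bas P n s)) hg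
  refine ⟨s, t, ?_⟩
  have h1 : O.valuation (wdg p q f g) ≤ O.valuation (wdg p q (bas P n s) g) := hs
  have h2 : O.valuation (wdg p q g (bas P n s)) ≤
    O.valuation (wdg p q (bas P n t) (bas P n s)) := ht
  rw [wdg_swap p q g, wdg_swap p q (bas P n t), Valuation.map_neg, Valuation.map_neg] at h2
  exact h1.trans h2

end det

section main

variable {F : Type*} [Field F] [Algebra Qb F] {P : Place Qb F} {N₀ : ℕ}
variable [IsCurveOver Qb F] [IsFF Qb F]

/-- `ℚ̄`-points of the affine curve. -/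
abbrev Pt (P : Place Qb F) := affRing P →ₐ[Qb] Qb

/-- size of a point -/
def pn (N₀ : ℕ) (v : Pl) (p : Pt P) : ℝ := nrm v (fun k => p (bas P N₀ k))

/-- size of the wedge of two points -/
def wn (N₀ : ℕ) (v : Pl) (p q : Pt P) : ℝ :=
  nrm v (fun st : Fin (Module.finrank Qb (V P N₀)) × Fin (Module.finrank Qb (V P N₀)) =>
    wdg p q (bas P N₀ st.1) (bas P N₀ st.2))

/-- The main local expression. -/
def mainN (N₀ : ℕ) {e : ℕ} (m : ℕ) (v : Pl) (x : Fin e → Pt P) : ℝ :=
  (∏ i, pn N₀ v (x i) ^ (m + 1 - e)) * ∏ i, ∏ j ∈ Finset.Ioi i, wn N₀ v (x i) (x j)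

theorem pn_nonneg (v : Pl) (p : Pt P) : 0 ≤ pn N₀ v p := nrm_nonneg _ _
theorem wn_nonneg (v : Pl) (p q : Pt P) : 0 ≤ wn N₀ v p q := nrm_nonneg _ _

theorem mainN_nonneg {e : ℕ} (m : ℕ) (v : Pl) (x : Fin e → Pt P) : 0 ≤ mainN N₀ m v x :=
  mul_nonneg (Finset.prod_nonneg fun _ _ => pow_nonneg (pn_nonneg _ _) _)
    (Finset.prod_nonneg fun _ _ => Finset.prod_nonneg fun _ _ => wn_nonneg _ _ _)

/-- evaluation matrix -/
def evalMat (P : Place Qb F) (n : ℕ) {ι : Type*} (x : ι → Pt P) :
    Matrix ι (Fin (Module.finrank Qb (V P n))) Qb :=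
  Matrix.of fun i k => x i (bas P n k)

/-- the index type of monomials -/
abbrev TI (P : Place Qb F) (N₀ e : ℕ) :=
  (Fin e → Fin (Module.finrank Qb (V P N₀))) × (Fin e → Fin e →
    Fin (Module.finrank Qb (V P N₀)) × Fin (Module.finrank Qb (V P N₀)))

/-- monomials -/
def bT {e : ℕ} (m : ℕ) (x : Fin e → Pt P) (T : TI P N₀ e) : Qb :=
  (∏ i, x i (bas P N₀ (T.1 i)) ^ (m + 1 - e)) *
    ∏ i, ∏ j ∈ Finset.Ioi i, wdg (x i) (x j) (bas P N₀ (T.2 i j).1) (bas P N₀ (T.2 i j).2)

instance nonempty_bas (n : ℕ) : Nonempty (Fin (Module.finrank Qb (V P n))) := by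
  by_contra hcon
  rw [not_nonempty_iff] at hcon
  have : Subsingleton (V P n) := (bas P n).repr.toEquiv.subsingleton
  have h2 : (⟨1, one_mem_V n⟩ : V P n) = 0 := Subsingleton.elim _ _
  exact one_ne_zero (congrArg Subtype.val h2)

theorem bT_le {e : ℕ} (m : ℕ) (v : Pl) (x : Fin e → Pt P) (T : TI P N₀ e) :
    av v (bT m x T) ≤ mainN N₀ m v x := by
  unfold bT mainN
  rw [map_mul, map_prod, map_prod]
  refine mul_le_mul ?_ ?_ (Finset.prod_nonneg fun _ _ => (av v).nonneg _)
    (Finset.prod_nonneg fun _ _ => pow_nonneg (pn_nonneg _ _) _)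
  · refine Finset.prod_le_prod (fun _ _ => (av v).nonneg _) fun i _ => ?_
    rw [map_pow]
    exact pow_le_pow_left₀ ((av v).nonneg _) (le_nrm v (fun k => x i (bas P N₀ k)) _) _
  · refine Finset.prod_le_prod (fun _ _ => (av v).nonneg _) fun i _ => ?_
    rw [map_prod]
    refine Finset.prod_le_prod (fun _ _ => (av v).nonneg _) fun j _ => ?_
    exact le_nrm v (fun st : Fin (Module.finrank Qb (V P N₀)) × Fin (Module.finrank Qb (V P N₀)) =>
      wdg (x i) (x j) (bas P N₀ st.1) (bas P N₀ st.2)) (T.2 i j)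

theorem exists_bT_eq {e : ℕ} (m : ℕ) (v : Pl) (x : Fin e → Pt P) :
    ∃ T : TI P N₀ e, av v (bT m x T) = mainN N₀ m v x := by
  choose k hk using fun i => exists_nrm_eq v (fun k => x i (bas P N₀ k))
  choose st hst using fun i j => exists_nrm_eq v
    (fun st : Fin (Module.finrank Qb (V P N₀)) × Fin (Module.finrank Qb (V P N₀)) =>
    wdg (x i) (x j) (bas P N₀ st.1) (bas P N₀ st.2))
  refine ⟨(k, st), ?_⟩
  unfold bT mainN
  rw [map_mul, map_prod, map_prod]
  congr 1
  · refine Finset.prod_congr rfl fun i _ => ?_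
    rw [map_pow, pn, hk i]
  · refine Finset.prod_congr rfl fun i _ => ?_
    rw [map_prod]
    refine Finset.prod_congr rfl fun j _ => ?_
    rw [wn, hst i j]

theorem nrm_bT {e : ℕ} (m : ℕ) (v : Pl) (x : Fin e → Pt P) :
    nrm v (bT (N₀ := N₀) m x) = mainN N₀ m v x := by
  apply le_antisymm
  · exact nrm_le' (mainN_nonneg _ _ _) fun T => bT_le m v x T
  · obtain ⟨T, hT⟩ := exists_bT_eq (N₀ := N₀) m v x
    rw [← hT]
    exact le_nrm v (bT m x) T

section

variable {Ω : Type} [Field Ω] [Algebra Qb Ω] {X : Type*}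

/-- coordinates of the generic point -/
def gp {e : ℕ} (θ : ((Fin e → Pt P) → Qb) →ₐ[Qb] Ω) (i : Fin e) : affRing P →ₐ[Qb] Ω :=
  θ.comp (AlgHom.pi (fun x : Fin e → Pt P => x i))

theorem gp_apply {e : ℕ} (θ : ((Fin e → Pt P) → Qb) →ₐ[Qb] Ω) (i : Fin e) (f : affRing P) :
    gp θ i f = θ (fun x => x i f) := rfl

theorem theta_det {Y : Type*} (θ : (Y → Qb) →ₐ[Qb] Ω) {n : ℕ} (M : Fin n → Fin n → Y → Qb) :
    θ (fun y => (Matrix.of fun i j => M i j y).det) = (Matrix.of fun i j => θ (M i j)).det := by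
  have h1 : (fun y => (Matrix.of fun i j => M i j y).det) =
      (Matrix.of M : Matrix (Fin n) (Fin n) (Y → Qb)).det := by
    funext y
    have := RingHom.map_det (Pi.evalRingHom (fun _ : Y => Qb) y) (Matrix.of M)
    exact this.symm
  rw [h1]
  exact AlgHom.map_det θ (Matrix.of M)

theorem theta_wdg {e : ℕ} (θ : ((Fin e → Pt P) → Qb) →ₐ[Qb] Ω) (i j : Fin e)
    (b b' : affRing P) :
    θ (fun x => wdg (x i) (x j) b b') = wdg (gp θ i) (gp θ j) b b' := by
  have h1 : (fun x : Fin e → Pt P => wdg (x i) (x j) b b') =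
      (fun x => x i b) * (fun x => x j b') - (fun x => x i b') * (fun x => x j b) := rfl
  rw [h1, map_sub, map_mul, map_mul]
  rfl

theorem theta_bT {e : ℕ} (θ : ((Fin e → Pt P) → Qb) →ₐ[Qb] Ω) (m : ℕ) (T : TI P N₀ e) :
    θ (fun x => bT m x T) = (∏ i, gp θ i (bas P N₀ (T.1 i)) ^ (m + 1 - e)) *
      ∏ i, ∏ j ∈ Finset.Ioi i, wdg (gp θ i) (gp θ j) (bas P N₀ (T.2 i j).1)
        (bas P N₀ (T.2 i j).2) := by
  have h1 : (fun x : Fin e → Pt P => bT m x T) =
      (∏ i, (fun x : Fin e → Pt P => x i (bas P N₀ (T.1 i))) ^ (m + 1 - e)) *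
      ∏ i, ∏ j ∈ Finset.Ioi i, (fun x : Fin e → Pt P =>
        wdg (x i) (x j) (bas P N₀ (T.2 i j).1) (bas P N₀ (T.2 i j).2)) := by
    funext x
    simp only [bT, Pi.mul_apply, Finset.prod_apply, Pi.pow_apply]
  rw [h1, map_mul, map_prod, map_prod]
  congr 1
  · refine Finset.prod_congr rfl fun i _ => ?_
    rw [map_pow]; rfl
  · refine Finset.prod_congr rfl fun i _ => ?_
    rw [map_prod]
    exact Finset.prod_congr rfl fun j _ => theta_wdg θ i j _ _

theorem valuation_prod {ι : Type*} (O : ValuationSubring Ω) (s : Finset ι) (f : ι → Ω) :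
    O.valuation (∏ i ∈ s, f i) = ∏ i ∈ s, O.valuation (f i) := map_prod _ _ _

theorem prod_le_prod_val {ι : Type*} (O : ValuationSubring Ω) (s : Finset ι) (f g : ι → Ω)
    (h : ∀ i ∈ s, O.valuation (f i) ≤ O.valuation (g i)) :
    O.valuation (∏ i ∈ s, f i) ≤ O.valuation (∏ i ∈ s, g i) := by
  rw [valuation_prod, valuation_prod]
  exact Finset.prod_le_prod' h

end

/-- upper bound for the maximal minors of the evaluation matrices -/
theorem dom_vol_le (hN₀ : Big P N₀) {e m : ℕ} (hem : e ≤ m + 1) :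
    Dom (fun v (x : Fin e → Pt P) => LA.vol (av v) (evalMat P (m * N₀) x))
      (fun v x => mainN N₀ m v x) := by
  refine Dom.nrm' (b := fun x J => ((evalMat P (m * N₀) x).submatrix id J).det)
    (fun v x => mainN_nonneg m v x) fun J => ?_
  refine (Dom.of_exact (fun x => ((evalMat P (m * N₀) x).submatrix id J).det)
    (fun x => bT (N₀ := N₀) m x) ?_).congr (fun _ _ => rfl) (fun v x => (nrm_bT m v x).symm)
  intro Ω _ _ O hO θ
  obtain ⟨Q, u, w, hg⟩ := exists_gen hO hN₀ (gp θ)
  choose k hk using fun i => exists_bas_le hO.mem (gp θ i).toLinearMap hg.u_mem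
  choose s t hst using fun i j => exists_bas_wdg_le hO.mem (gp θ i) (gp θ j) hg.u_mem hg.w_mem
  refine ⟨(k, fun i j => (s i j, t i j)), ?_⟩
  have h1 : θ (fun x => ((evalMat P (m * N₀) x).submatrix id J).det) =
      (Matrix.of fun i a => gp θ i (bas P (m * N₀) (J a))).det :=
    theta_det θ (fun i a x => x i (bas P (m * N₀) (J a)))
  rw [h1, theta_bT]
  refine (hg.det_le hO hN₀ hem _ (fun a => (bas P (m * N₀) (J a)).2)).trans ?_
  rw [mainProd, map_mul, map_mul]
  refine mul_le_mul' (prod_le_prod_val O _ _ _ fun i _ => ?_)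
    (prod_le_prod_val O _ _ _ fun i _ => prod_le_prod_val O _ _ _ fun j _ => hst i j)
  rw [map_pow, map_pow]
  exact pow_le_pow_left' (hk i) _

/-- lower bound for the maximal minors of the evaluation matrices -/
theorem dom_vol_ge (hN₀ : Big P N₀) {e m : ℕ} (hem : e ≤ m + 1) :
    Dom (fun v (x : Fin e → Pt P) => mainN N₀ m v x)
      (fun v x => LA.vol (av v) (evalMat P (m * N₀) x)) := by
  refine (Dom.nrm' (b := fun x T => bT (N₀ := N₀) m x T)
    (fun v x => LA.vol_nonneg _ _) fun T => ?_).congr (fun v x => (nrm_bT m v x).symm)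
    (fun _ _ => rfl)
  refine (Dom.of_exact (fun x => bT (N₀ := N₀) m x T)
    (fun x J => ((evalMat P (m * N₀) x).submatrix id J).det) ?_)
  intro Ω _ _ O hO θ
  obtain ⟨Q, u, w, hg⟩ := exists_gen hO hN₀ (gp θ)
  obtain ⟨f, hf, hfdet⟩ := exists_mainProd_eq_det (p := gp θ) hem hg.u_mem hg.w_mem
  set E' : Matrix (Fin e) (Fin (Module.finrank Qb (V P (m * N₀)))) Ω :=
    Matrix.of fun i k => gp θ i (bas P (m * N₀) k) with hE'
  have h1 : ∀ J, θ (fun x => ((evalMat P (m * N₀) x).submatrix id J).det) =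
      (E'.submatrix id J).det := fun J =>
    theta_det θ (fun i a x => x i (bas P (m * N₀) (J a)))
  have h2 : (Matrix.of fun i a => gp θ i (f a)) =
      E' * Matrix.of (fun k a => algebraMap Qb Ω ((bas P (m * N₀)).repr ⟨f a, hf a⟩ k)) := by
    ext i a
    rw [Matrix.mul_apply, Matrix.of_apply]
    have h3 : f a = ∑ k, (bas P (m * N₀)).repr ⟨f a, hf a⟩ k •
        ((bas P (m * N₀) k : V P (m * N₀)) : affRing P) := by
      have := congrArg (fun x : V P (m * N₀) => (x : affRing P))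
        ((bas P (m * N₀)).sum_repr ⟨f a, hf a⟩)
      simp only [Submodule.coe_sum, Submodule.coe_smul] at this
      exact this.symm
    conv_lhs => rw [h3]
    rw [map_sum]
    refine Finset.sum_congr rfl fun k _ => ?_
    rw [map_smul, Algebra.smul_def, mul_comm]
    rfl
  obtain ⟨J, -, hJ⟩ := Finset.exists_max_image Finset.univ
    (fun J : Fin e → Fin (Module.finrank Qb (V P (m * N₀))) => O.valuation (E'.submatrix id J).det)
    Finset.univ_nonempty
  refine ⟨J, ?_⟩
  rw [h1 J]
  have h4 : O.valuation (mainProd m (gp θ) u w) ≤ O.valuation (E'.submatrix id J).det := by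
    rw [← hfdet, h2, LA.det_mul_expand]
    refine val_sum_le O _ _ _ fun r _ => ?_
    rw [map_mul, map_prod]
    refine (mul_le_mul' (Finset.prod_le_one' fun i _ => ?_) (hJ r (Finset.mem_univ _))).trans_eq
      (one_mul _)
    exact HM.val_const_le hO _
  refine le_trans ?_ h4
  rw [theta_bT, mainProd, map_mul, map_mul]
  refine mul_le_mul' (prod_le_prod_val O _ _ _ fun i _ => ?_)
    (prod_le_prod_val O _ _ _ fun i _ => prod_le_prod_val O _ _ _ fun j _ =>
      hg.wdg_le hO hN₀ i j (bas P N₀ _).2 (bas P N₀ _).2)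
  rw [map_pow, map_pow]
  exact pow_le_pow_left' (hg.u_max i _ (bas P N₀ _).2) _

end main

end Fermat.Agent.MW
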