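import Fermat.Agent.S27C.Affine
import Fermat.Agent.FunField.StrongApprox

/-! # The spaces `L(nP)` inside the ring of functions regular outside `P` -/

set_option autoImplicit false
set_option linter.unusedSectionVars false

noncomputable section

open AlgebraicCurve Polynomial
open Fermat.Agent.FunField (IsFF)
open Fermat.Agent.S27C

namespace Fermat.Agent.MW

theorem exists_forall_notMem {k E ι : Type*} [Field k] [Infinite k] [AddCommGroup E] [Module k E]
    [Finite ι] (s : ι → Submodule k E) (h : ∀ i, s i ≠ ⊤) : ∃ x, ∀ i, x ∉ s i := by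
  classical
  have := Fintype.ofFinite ι
  have h1 := Subspace.biUnion_ne_univ_of_top_notMem (k := k) (E := E)
    (s := Finset.univ.image s) (by
      intro hmem
      obtain ⟨i, -, hi⟩ := Finset.mem_image.mp hmem
      exact h i hi)
  rw [Ne, Set.eq_univ_iff_forall] at h1
  push Not at h1
  obtain ⟨x, hx⟩ := h1
  refine ⟨x, fun i hi => hx ?_⟩
  simp only [Finset.mem_image, Finset.mem_univ, true_and, Set.iUnion_exists, Set.iUnion_iUnion_eq',
    Set.mem_iUnion]
  exact ⟨i, hi⟩

variable {K F : Type*} [Field K] [Field F] [Algebra K F]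

/-- `L(nP)` as a subspace of the affine ring. -/
def V (P : Place K F) (n : ℕ) : Submodule K (affRing P) :=
  (riemannRochSpace (Finsupp.single P (n : ℤ))).comap (affRing P).val.toLinearMap

variable {P : Place K F}

theorem mem_rr_iff {D : Divisor K F} {f : F} :
    f ∈ riemannRochSpace D ↔ f = 0 ∨ ∀ v : Place K F, -D v ≤ v.ord f := by
  rw [mem_riemannRochSpace_iff]
  constructor
  · intro h
    by_cases hf : f = 0
    · exact Or.inl hf
    · exact Or.inr fun v => (h v).resolve_left hf
  · rintro (h | h) v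
    · exact Or.inl h
    · exact Or.inr (h v)

theorem affRing_ord_nonneg (f : affRing P) {v : Place K F} (hv : v ≠ P) : 0 ≤ v.ord (f : F) := by
  rcases (mem_iff_ord v _).1 (f.2 v hv) with h | h
  · rw [h, v.ord_zero]
  · exact h

theorem mem_V {n : ℕ} {f : affRing P} : f ∈ V P n ↔ f = 0 ∨ -(n : ℤ) ≤ P.ord (f : F) := by
  classical
  unfold V
  rw [Submodule.mem_comap]
  change (f : F) ∈ _ ↔ _
  rw [mem_rr_iff]
  constructor
  · rintro (h | h)
    · left; exact_mod_cast h
    · right; simpa using h P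
  · rintro (h | h)
    · left; exact_mod_cast h
    · right
      intro v
      by_cases hv : v = P
      · subst hv; simpa using h
      · rw [Finsupp.single_apply, if_neg (Ne.symm hv), neg_zero]
        exact affRing_ord_nonneg f hv

theorem V_mono {m n : ℕ} (h : m ≤ n) : V P m ≤ V P n := by
  intro f hf
  rw [mem_V] at hf ⊢
  have : (m : ℤ) ≤ n := by exact_mod_cast h
  rcases hf with hf | hf
  · exact Or.inl hf
  · right; omega

theorem one_mem_V (n : ℕ) : (1 : affRing P) ∈ V P n := by
  rw [mem_V]; right; simp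

theorem mul_mem_V {m n : ℕ} {f g : affRing P} (hf : f ∈ V P m) (hg : g ∈ V P n) :
    f * g ∈ V P (m + n) := by
  rw [mem_V] at hf hg ⊢
  by_cases hf0 : f = 0
  · left; rw [hf0, zero_mul]
  by_cases hg0 : g = 0
  · left; rw [hg0, mul_zero]
  right
  have h1 := hf.resolve_left hf0
  have h2 := hg.resolve_left hg0
  have hf1 : (f : F) ≠ 0 := by exact_mod_cast hf0
  have hg1 : (g : F) ≠ 0 := by exact_mod_cast hg0
  have h3 : ((f * g : affRing P) : F) = (f : F) * (g : F) := rfl
  rw [h3, P.ord_mul hf1 hg1]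
  push_cast
  omega

theorem pow_mem_V {m : ℕ} {f : affRing P} (hf : f ∈ V P m) (r : ℕ) : f ^ r ∈ V P (r * m) := by
  induction r with
  | zero => simpa using one_mem_V 0
  | succ r ih =>
    rw [pow_succ, Nat.succ_mul]
    exact mul_mem_V ih hf

theorem exists_mem_V (f : affRing P) : ∃ n : ℕ, f ∈ V P n := by
  refine ⟨(-P.ord (f : F)).toNat, ?_⟩
  rw [mem_V]
  right
  have := Int.self_le_toNat (-P.ord (f : F))
  omega

variable [IsAlgClosed K] [IsCurveOver K F] [IsFF K F]

instance finite_V (n : ℕ) : Module.Finite K (V P n) := by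
  let e : V P n →ₗ[K] riemannRochSpace (Finsupp.single P (n : ℤ)) :=
    { toFun := fun f => ⟨((f : affRing P) : F), f.2⟩
      map_add' := fun _ _ => rfl
      map_smul' := fun _ _ => rfl }
  refine Module.Finite.of_injective e ?_
  intro f g h
  have := congrArg (fun x : riemannRochSpace (Finsupp.single P (n : ℤ)) => (x : F)) h
  exact Subtype.ext (Subtype.ext this)

theorem eq_algebraMap_of_mem_V_zero {f : affRing P} (hf : f ∈ V P 0) :
    ∃ c : K, f = algebraMap K (affRing P) c := by
  rw [mem_V] at hf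
  rcases hf with hf | hf
  · exact ⟨0, by rw [hf, map_zero]⟩
  · have h1 : ∀ v : Place K F, 0 ≤ v.ord (f : F) := by
      intro v
      by_cases hv : v = P
      · subst hv; simpa using hf
      · exact affRing_ord_nonneg f hv
    obtain ⟨c, hc⟩ := Fermat.Agent.FunField.exists_eq_algebraMap_of_forall_ord_nonneg h1
    exact ⟨c, Subtype.ext hc.symm⟩

/-- subtract a multiple to lower the pole order. -/
theorem exists_sub_smul_lower {r : ℕ} {f g : affRing P} (hg : P.ord (g : F) = -(r : ℤ))
    (hg0 : g ≠ 0) (hf : P.ord (f : F) = -(r : ℤ)) (hf0 : f ≠ 0) :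
    ∃ c : K, f - c • g = 0 ∨ -(r : ℤ) < P.ord ((f - c • g : affRing P) : F) := by
  have hg1 : (g : F) ≠ 0 := by exact_mod_cast hg0
  have hf1 : (f : F) ≠ 0 := by exact_mod_cast hf0
  have hq : P.ord ((f : F) / g) = 0 := by
    rw [FunField.PlaceLemmas.ord_div _ hf1 hg1, hf, hg, sub_self]
  have hmem : (f : F) / g ∈ P.toValuationSubring := mem_of_ord_nonneg hq.ge
  refine ⟨val P ((f : F) / g), ?_⟩
  by_cases h0 : f - val P ((f : F) / g) • g = 0
  · exact Or.inl h0
  right
  have h1 := val_spec P hmem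
  rw [adic_lt_one_iff] at h1
  have h2 : (((f - val P ((f : F) / g) • g : affRing P)) : F) =
      ((f : F) / g - algebraMap K F (val P ((f : F) / g))) * g := by
    have : (((f - val P ((f : F) / g) • g : affRing P)) : F) =
      (f : F) - val P ((f : F) / g) • (g : F) := rfl
    rw [this, Algebra.smul_def, sub_mul, div_mul_cancel₀ _ hg1]
  have h3 : (f : F) / g - algebraMap K F (val P ((f : F) / g)) ≠ 0 := by
    intro h4
    apply h0
    apply Subtype.ext
    rw [h2, h4, zero_mul]; rfl
  rw [h2, P.ord_mul h3 hg1, hg]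
  have := h1.resolve_left h3
  omega

/-- generation: `L((n + N₀)P) = L(nP) L(N₀P)` -/
theorem V_add_le (M0 : ℕ) (hM0 : ∀ m : ℕ, M0 ≤ m → ∃ f ∈ affRing P, f ≠ 0 ∧ P.ord f = -(m : ℤ))
    {N₀ n : ℕ} (hN₀ : 2 * M0 ≤ N₀) (hn : N₀ ≤ n) : V P (n + N₀) ≤ V P n * V P N₀ := by
  have key : ∀ r : ℕ, r ≤ n + N₀ → ∀ f : affRing P, f ∈ V P r → f ∈ V P n * V P N₀ := by
    intro r
    induction r using Nat.strong_induction_on with
    | _ r ih =>
      intro hr f hf
      by_cases hrn : r ≤ n
      · have h1 : f = f * 1 := (mul_one f).symm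
        rw [h1]
        exact Submodule.mul_mem_mul (V_mono hrn hf) (one_mem_V _)
      push Not at hrn
      by_cases hf0 : f = 0
      · rw [hf0]; exact Submodule.zero_mem _
      have hfr := (mem_V.mp hf).resolve_left hf0
      rcases hfr.eq_or_lt with heq | hlt
      · -- exact pole order r
        let r₂ := min N₀ (r - M0)
        let r₁ := r - r₂
        have hr₂ : M0 ≤ r₂ := by simp only [r₂]; omega
        have hr₂' : r₂ ≤ N₀ := by simp only [r₂]; omega
        have hr₁ : M0 ≤ r₁ := by simp only [r₁, r₂]; omega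
        have hr₁' : r₁ ≤ n := by simp only [r₁, r₂]; omega
        have hrr : r₁ + r₂ = r := by simp only [r₁, r₂]; omega
        obtain ⟨g₁, hg₁, hg₁0, hg₁o⟩ := hM0 r₁ hr₁
        obtain ⟨g₂, hg₂, hg₂0, hg₂o⟩ := hM0 r₂ hr₂
        let G₁ : affRing P := ⟨g₁, hg₁⟩
        let G₂ : affRing P := ⟨g₂, hg₂⟩
        have hG : P.ord ((G₁ * G₂ : affRing P) : F) = -(r : ℤ) := by
          have h3 : ((G₁ * G₂ : affRing P) : F) = g₁ * g₂ := rfl
          rw [h3, P.ord_mul hg₁0 hg₂0, hg₁o, hg₂o, ← hrr]
          push_cast; ring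
        have hG0 : G₁ * G₂ ≠ 0 := by
          intro h
          have h3 : ((G₁ * G₂ : affRing P) : F) = g₁ * g₂ := rfl
          rw [h] at h3
          exact mul_ne_zero hg₁0 hg₂0 h3.symm
        obtain ⟨c, hc⟩ := exists_sub_smul_lower hG hG0 heq.symm hf0
        have h1 : G₁ * G₂ ∈ V P n * V P N₀ := by
          apply Submodule.mul_mem_mul
          · rw [mem_V]; right
            have : ((G₁ : affRing P) : F) = g₁ := rfl
            rw [this, hg₁o]
            have : (r₁ : ℤ) ≤ n := by exact_mod_cast hr₁'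
            omega
          · rw [mem_V]; right
            have : ((G₂ : affRing P) : F) = g₂ := rfl
            rw [this, hg₂o]
            have : (r₂ : ℤ) ≤ N₀ := by exact_mod_cast hr₂'
            omega
        have h2 : f - c • (G₁ * G₂) ∈ V P n * V P N₀ := by
          by_cases hr0 : r = 0
          · omega
          apply ih (r - 1) (by omega) (by omega)
          rw [mem_V]
          rcases hc with hc | hc
          · exact Or.inl hc
          · right
            have : ((r - 1 : ℕ) : ℤ) = r - 1 := by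
              have : 1 ≤ r := by omega
              push_cast [this]; ring
            omega
        have h3 : f = (f - c • (G₁ * G₂)) + c • (G₁ * G₂) := by ring
        rw [h3]
        exact Submodule.add_mem _ h2 (Submodule.smul_mem _ _ h1)
      · by_cases hr0 : r = 0
        · omega
        apply ih (r - 1) (by omega) (by omega)
        rw [mem_V]
        right
        have : ((r - 1 : ℕ) : ℤ) = r - 1 := by
          have : 1 ≤ r := by omega
          push_cast [this]; ring
        omega
  intro f hf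
  exact key _ le_rfl f hf

theorem V_mul_eq_pow (M0 : ℕ) (hM0 : ∀ m : ℕ, M0 ≤ m → ∃ f ∈ affRing P, f ≠ 0 ∧ P.ord f = -(m : ℤ))
    {N₀ : ℕ} (hN₀ : 2 * M0 ≤ N₀) (m : ℕ) : V P ((m + 1) * N₀) ≤ (V P N₀) ^ (m + 1) := by
  induction m with
  | zero => simp
  | succ m ih =>
    have h1 : (m + 1 + 1) * N₀ = (m + 1) * N₀ + N₀ := by ring
    rw [h1]
    refine (V_add_le M0 hM0 hN₀ (Nat.le_mul_of_pos_left _ (Nat.succ_pos _))).trans ?_
    rw [pow_succ]
    exact mul_le_mul' ih le_rfl

theorem val_sum_smul (Q : Place K F) {ι : Type*} (s : Finset ι) (c : ι → K) (t : ι → F)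
    (ht : ∀ i ∈ s, t i ∈ Q.toValuationSubring) :
    (∑ i ∈ s, c i • t i) ∈ Q.toValuationSubring ∧
      val Q (∑ i ∈ s, c i • t i) = ∑ i ∈ s, c i * val Q (t i) := by
  classical
  induction s using Finset.induction_on with
  | empty => simp
  | insert i s hi ih =>
    have h1 := ih fun j hj => ht j (Finset.mem_insert_of_mem hj)
    have h2 := ht i (Finset.mem_insert_self _ _)
    have h3 : c i • t i ∈ Q.toValuationSubring := by
      rw [Algebra.smul_def]
      exact mul_mem (mem_algebraMap Q _) h2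
    rw [Finset.sum_insert hi, Finset.sum_insert hi]
    refine ⟨add_mem h3 h1.1, ?_⟩
    rw [val_add Q h3 h1.1, h1.2, Algebra.smul_def, val_mul Q (mem_algebraMap Q _) h2,
      val_algebraMap]

/-- Functions in `L(D)` with prescribed leading coefficients at finitely many places. -/
theorem exists_rr_prescribed : ∃ N : ℤ, ∀ (D : Divisor K F) (T : Finset (Place K F)) (h : F)
    (c : Place K F → K), N + T.card ≤ Divisor.degree D → h ≠ 0 → (∀ Q ∈ T, Q.ord h = -D Q) →
    ∃ f ∈ riemannRochSpace D, ∀ Q ∈ T, f / h ∈ Q.toValuationSubring ∧ val Q (f / h) = c Q := by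
  classical
  obtain ⟨N, hN⟩ := Fermat.Agent.FunField.exists_mem_rr_ord_eq (K := K) (F := F)
  refine ⟨N, fun D T h c hdeg hh hord => ?_⟩
  let D' : Divisor K F := D - ∑ Q ∈ T, Finsupp.single Q 1
  have hD' : ∀ Q, D' Q = D Q - if Q ∈ T then 1 else 0 := by
    intro Q
    simp only [D', Finsupp.sub_apply, Finsupp.finsetSum_apply, Finsupp.single_apply]
    rw [Finset.sum_ite_eq' T Q]
  have hdeg' : N ≤ Divisor.degree D' := by
    simp only [D', map_sub, map_sum, degree_single', Finset.sum_const, nsmul_eq_mul, mul_one]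
    linarith
  have hex : ∀ Q : Place K F, ∃ f ∈ riemannRochSpace (D' + Finsupp.single Q 1),
      f ≠ 0 ∧ Q.ord f = -(D' Q) - 1 := fun Q => hN D' Q hdeg'
  choose f hf hf0 hfo using hex
  have hfo' : ∀ Q ∈ T, Q.ord (f Q) = -D Q := by
    intro Q hQ
    rw [hfo Q, hD' Q, if_pos hQ]; ring
  have hf' : ∀ Q ∈ T, ∀ R ∈ T, R ≠ Q → -D R + 1 ≤ R.ord (f Q) := by
    intro Q hQ R hR hRQ
    have h1 := (mem_rr_iff.mp (hf Q)).resolve_left (hf0 Q) R
    rw [Finsupp.add_apply, Finsupp.single_apply, if_neg (Ne.symm hRQ), hD' R, if_pos hR] at h1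
    linarith
  have hfh : ∀ Q ∈ T, ∀ R ∈ T, f R / h ∈ Q.toValuationSubring := by
    intro Q hQ R hR
    apply mem_of_ord_nonneg
    rw [FunField.PlaceLemmas.ord_div _ (hf0 R) hh, hord Q hQ]
    by_cases hRQ : Q = R
    · subst hRQ; rw [hfo' Q hQ]; simp
    · have := hf' R hR Q hQ hRQ
      linarith
  have hval0 : ∀ Q ∈ T, ∀ R ∈ T, R ≠ Q → val Q (f R / h) = 0 := by
    intro Q hQ R hR hRQ
    apply val_of_ord_pos
    rw [FunField.PlaceLemmas.ord_div _ (hf0 R) hh, hord Q hQ]
    have := hf' R hR Q hQ (Ne.symm hRQ)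
    linarith
  have hval1 : ∀ Q ∈ T, val Q (f Q / h) ≠ 0 := by
    intro Q hQ hz
    rw [val_eq_zero_iff_ord Q (hfh Q hQ Q hQ)] at hz
    rcases hz with hz | hz
    · exact div_ne_zero (hf0 Q) hh hz
    · rw [FunField.PlaceLemmas.ord_div _ (hf0 Q) hh, hord Q hQ, hfo' Q hQ] at hz
      simp at hz
  refine ⟨∑ R ∈ T, (c R / val R (f R / h)) • f R, ?_, ?_⟩
  · refine Submodule.sum_mem _ fun R hR => Submodule.smul_mem _ _ ?_
    have h1 := hf R
    rw [mem_rr_iff] at h1 ⊢
    rcases h1 with h1 | h1
    · exact Or.inl h1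
    · right
      intro v
      have h2 := h1 v
      rw [Finsupp.add_apply, Finsupp.single_apply, hD' v] at h2
      by_cases hv : R = v
      · subst hv
        rw [if_pos rfl, if_pos hR] at h2
        linarith
      · rw [if_neg hv] at h2
        split_ifs at h2 <;> linarith
  · intro Q hQ
    have h1 := val_sum_smul Q T (fun R => c R / val R (f R / h)) (fun R => f R / h)
      (fun R hR => hfh Q hQ R hR)
    have h2 : (∑ R ∈ T, (c R / val R (f R / h)) • f R) / h =
        ∑ R ∈ T, (c R / val R (f R / h)) • (f R / h) := by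
      rw [Finset.sum_div]
      refine Finset.sum_congr rfl fun R _ => ?_
      rw [Algebra.smul_def, Algebra.smul_def, mul_div_assoc]
    rw [h2]
    refine ⟨h1.1, ?_⟩
    rw [h1.2, Finset.sum_eq_single Q]
    · exact div_mul_cancel₀ _ (hval1 Q hQ)
    · intro R hR hRQ
      rw [hval0 Q hQ R hR hRQ, mul_zero]
    · intro h; exact absurd hQ h

end Fermat.Agent.MW
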