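import Fermat.Agent.MW.Zeros
import Fermat.Agent.WeilPairing.Pairing
import Mathlib.FieldTheory.Galois.Infinite

/-! # Northcott for Galois stable effective divisors (block [C]) -/

set_option autoImplicit false
set_option linter.unusedSectionVars false
set_option linter.style.haveILetI false
set_option maxHeartbeats 1000000

noncomputable section

open AlgebraicCurve Polynomial
open Fermat.Agent.FunField (IsFF divOf)
open Fermat.Agent.S27C

namespace Fermat.Agent.MW

section fibres

variable {K F : Type*} [Field K] [Field F] [Algebra K F] {P : Place K F}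
variable [IsAlgClosed K] [IsCurveOver K F] [IsFF K F]

/-- Only finitely many effective divisors away from `P` have a given `χ`. -/
theorem finite_chi_eq {x : affRing P} (hx : P.ord (x : F) < 0) {q : K[X]} (hq : q ≠ 0) :
    {D : Divisor K F | 0 ≤ D ∧ D P = 0 ∧ chi (x : F) D = q}.Finite := by
  classical
  -- the set of possible points
  have hq0 : (aeval x q : affRing P) ≠ 0 := by
    intro h
    exact hq (aeval_injective_of_ord_neg hx (h.trans (map_zero _).symm))
  have hq0' : ((aeval x q : affRing P) : F) ≠ 0 := by exact_mod_cast hq0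
  let T : Finset (Place K F) := (divOf ((aeval x q : affRing P) : F) : Divisor K F).support
  have hT : ∀ D : Divisor K F, 0 ≤ D → D P = 0 → chi (x : F) D = q → ∀ Q, D Q ≠ 0 → Q ∈ T := by
    intro D hD hDP hchi Q hQ
    have hQP : Q ≠ P := by rintro rfl; exact hQ hDP
    have hQs : Q ∈ D.support := Finsupp.mem_support_iff.mpr hQ
    have hpos : 0 < (D Q).toNat := by
      have := hD Q
      change 0 ≤ D Q at this
      omega
    have hroot : q.eval (val Q (x : F)) = 0 := by
      rw [← hchi, chi, Finsupp.prod, eval_prod]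
      refine Finset.prod_eq_zero hQs ?_
      rw [eval_pow, eval_sub, eval_X, eval_C, sub_self, zero_pow hpos.ne']
    -- x - a divides q(x)
    obtain ⟨r, hr⟩ := dvd_iff_isRoot.mpr (show q.IsRoot (val Q (x : F)) from hroot)
    have h1 : ((aeval x q : affRing P) : F) =
        ((x : F) - algebraMap K F (val Q (x : F))) * ((aeval x r : affRing P) : F) := by
      rw [coe_aeval, coe_aeval, hr, map_mul, map_sub, aeval_X, aeval_C]
    have h2 : (x : F) - algebraMap K F (val Q (x : F)) ≠ 0 := by
      intro h; rw [h1, h, zero_mul] at hq0'; exact hq0' rfl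
    have h3 : ((aeval x r : affRing P) : F) ≠ 0 := by
      intro h; rw [h1, h, mul_zero] at hq0'; exact hq0' rfl
    rw [Finsupp.mem_support_iff, FunField.divOf_apply, h1, Q.ord_mul h2 h3]
    have h4 := ord_pos_of_val (affRing_ord_nonneg x hQP) rfl h2
    have h5 := affRing_ord_nonneg (aeval x r) hQP
    omega
  have hfin : (Set.pi Set.univ (fun _ : T => Set.Icc (0 : ℤ) q.natDegree)).Finite :=
    Set.Finite.pi fun _ => Set.finite_Icc _ _
  refine Set.Finite.of_finite_image (f := fun D : Divisor K F => fun Q : T => D Q)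
    (hfin.subset ?_) ?_
  · rintro _ ⟨D, ⟨hD, hDP, hchi⟩, rfl⟩ Q -
    refine ⟨hD Q, ?_⟩
    have h1 : (q.natDegree : ℤ) = D.sum fun _ n => n := by
      rw [← hchi, natDegree_chi, card_xset_of_nonneg _ hD, degree_eq_sum_self]
    rw [h1, Finsupp.sum]
    by_cases hQ : (Q : Place K F) ∈ D.support
    · exact Finset.single_le_sum (fun R _ => hD R) hQ
    · rw [Finsupp.notMem_support_iff] at hQ
      dsimp only
      rw [hQ]
      exact Finset.sum_nonneg fun R _ => hD R
  · rintro D ⟨hD, hDP, hchi⟩ D' ⟨hD', hDP', hchi'⟩ hDD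
    ext Q
    by_cases hQ : Q ∈ T
    · exact congrFun hDD ⟨Q, hQ⟩
    · have h1 : D Q = 0 := by
        by_contra h; exact hQ (hT D hD hDP hchi Q h)
      have h2 : D' Q = 0 := by
        by_contra h; exact hQ (hT D' hD' hDP' hchi' Q h)
      rw [h1, h2]

open SemilinearAut in
/-- equivariance of `χ` -/
theorem chi_smul (g : SemilinearAut K F) {x : affRing P} (hgx : g • (x : F) = x)
    {D : Divisor K F} (hDP : D P = 0) :
    chi (x : F) (g • D) = (chi (x : F) D).map (baseAut g : K →+* K) := by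
  classical
  unfold chi
  rw [divisor_smul_def, Finsupp.prod_mapDomain_index_inj (MulAction.injective g), Finsupp.prod,
    Finsupp.prod, Polynomial.map_prod]
  refine Finset.prod_congr rfl fun Q hQ => ?_
  have hQP : Q ≠ P := by
    rintro rfl
    exact (Finsupp.mem_support_iff.mp hQ) hDP
  rw [Polynomial.map_pow, Polynomial.map_sub, map_X, map_C]
  have h1 := WeilPairing.val_smul g Q (x.2 Q hQP)
  rw [hgx] at h1
  rw [h1]
  rfl

end fibres

section northcott

variable {F : Type*} [Field F] [Algebra Qb F] {P : Place Qb F}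
variable [IsCurveOver Qb F] [IsFF Qb F]

open SemilinearAut in
/-- `χ_D` is rational for Galois stable `D`. -/
theorem exists_rat_chi (ρ : (Qb ≃ₐ[ℚ] Qb) → SemilinearAut Qb F)
    (hρ : ∀ σ, baseAut (ρ σ) = σ.toRingEquiv) {x : affRing P}
    (hfix : ∀ σ, ρ σ • (x : F) = x) {D : Divisor Qb F} (hDP : D P = 0) (hD : ∀ σ, ρ σ • D = D) :
    ∃ p : ℚ[X], p.Monic ∧ p.map (algebraMap ℚ Qb) = chi (x : F) D := by
  have h1 : ∀ i, ∃ q : ℚ, algebraMap ℚ Qb q = (chi (x : F) D).coeff i := by
    intro i
    have h2 := (InfiniteGalois.mem_range_algebraMap_iff_fixed (k := ℚ) (K := Qb)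
      ((chi (x : F) D).coeff i)).mpr (by
        intro σ
        have h3 := chi_smul (ρ σ) (hfix σ) hDP
        rw [hD σ] at h3
        have h4 := congrArg (fun p => p.coeff i) h3
        simp only [coeff_map] at h4
        rw [hρ σ] at h4
        exact h4.symm)
    exact h2
  choose q hq using h1
  have h2 : chi (x : F) D ∈ lifts (algebraMap ℚ Qb) := by
    rw [lifts_iff_coeff_lifts]
    intro i
    exact ⟨q i, hq i⟩
  obtain ⟨p, hp, -, hpm⟩ := lifts_and_natDegree_eq_and_monic h2 (monic_chi _ _)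
  exact ⟨p, hpm, hp⟩

/-- **Northcott for divisors.** -/
theorem finite_divisors (ρ : (Qb ≃ₐ[ℚ] Qb) → SemilinearAut Qb F)
    (hρ : ∀ σ, SemilinearAut.baseAut (ρ σ) = σ.toRingEquiv) {x : affRing P}
    (hx : P.ord (x : F) < 0) (hfix : ∀ σ, ρ σ • (x : F) = x) (d : ℕ) (B : ℝ) :
    {D : Divisor Qb F | 0 ≤ D ∧ D P = 0 ∧ Divisor.degree D ≤ d ∧ (∀ σ, ρ σ • D = D) ∧
      S (fun v => hv (x : F) v D) ≤ B}.Finite := by
  obtain ⟨C, hC, hC1, hC2⟩ := exists_gn_chi (F := F) d
  have hfin := northcott d (S C + B)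
  have hfin2 : (⋃ p ∈ {p : ℚ[X] | p.Monic ∧ p.natDegree ≤ d ∧
      S (fun v => gn v (p.map (algebraMap ℚ Qb))) ≤ S C + B},
      {D : Divisor Qb F | 0 ≤ D ∧ D P = 0 ∧ chi (x : F) D = p.map (algebraMap ℚ Qb)}).Finite := by
    refine Set.Finite.biUnion hfin fun p hp => ?_
    exact finite_chi_eq hx (hp.1.map _).ne_zero
  refine hfin2.subset ?_
  rintro D ⟨hD, hDP, hdeg, hstab, hS⟩
  obtain ⟨p, hpm, hp⟩ := exists_rat_chi ρ hρ hfix hDP hstab
  simp only [Set.mem_iUnion]
  refine ⟨p, ⟨hpm, ?_, ?_⟩, hD, hDP, hp.symm⟩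
  · have h1 : (p.map (algebraMap ℚ Qb)).natDegree = p.natDegree := hpm.natDegree_map _
    rw [← h1, hp, natDegree_chi]
    have := card_xset_of_nonneg (x : F) hD
    omega
  · rw [hp]
    refine le_trans ?_ (add_le_add_right hS (S C))
    rw [← S_mul hC (adm_hv _ _)]
    exact S_le (adm_gn (monic_chi _ _).ne_zero) (hC.mul (adm_hv _ _)) fun v =>
      (hC2 v (x : F) D hD hdeg).2

end northcott

end Fermat.Agent.MW
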