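import Fermat.Agent.MW.Reduction

/-! # Generic sections for finitely many points in a valued field -/

set_option autoImplicit false
set_option linter.unusedSectionVars false

noncomputable section

open AlgebraicCurve Polynomial
open Fermat.Agent.FunField (IsFF)
open Fermat.Agent.S27C

namespace Fermat.Agent.MW

variable {K F : Type*} [Field K] [Field F] [Algebra K F]

section

variable [IsAlgClosed K] [IsCurveOver K F] [IsFF K F]

/-- The assertion of `exists_rr_prescribed` for a given `N`. -/
def Prescribed (K F : Type*) [Field K] [Field F] [Algebra K F] [IsAlgClosed K]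
    [IsCurveOver K F] [IsFF K F] (N : ℤ) : Prop :=
  ∀ (D : Divisor K F) (T : Finset (Place K F)) (h : F)
    (c : Place K F → K), N + T.card ≤ Divisor.degree D → h ≠ 0 → (∀ Q ∈ T, Q.ord h = -D Q) →
    ∃ f ∈ riemannRochSpace D, ∀ Q ∈ T, f / h ∈ Q.toValuationSubring ∧ val Q (f / h) = c Q

/-- `N₀` is large enough for all purposes. -/
structure Big (P : Place K F) (N₀ : ℕ) : Prop where
  exact : ∃ M0 : ℕ, 2 * M0 ≤ N₀ ∧
    ∀ m : ℕ, M0 ≤ m → ∃ f ∈ affRing P, f ≠ 0 ∧ P.ord f = -(m : ℤ)
  prescribed : ∃ N : ℤ, N + 2 ≤ N₀ ∧ Prescribed K F N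
  pos : 0 < N₀

theorem exists_big (P : Place K F) : ∃ N₁ : ℕ, ∀ N₀, N₁ ≤ N₀ → Big P N₀ := by
  obtain ⟨M0, hM0⟩ := exists_exact_pole P
  obtain ⟨N, hN⟩ := exists_rr_prescribed (K := K) (F := F)
  refine ⟨2 * M0 + (N + 2).toNat + 1, fun N₀ h => ⟨⟨M0, by omega, hM0⟩, ⟨N, ?_, hN⟩, by omega⟩⟩
  have := Int.self_le_toNat (N + 2)
  have h2 : (((N + 2).toNat : ℕ) : ℤ) ≤ N₀ := by exact_mod_cast (by omega : (N + 2).toNat ≤ N₀)
  linarith

variable {P : Place K F} {N₀ : ℕ} (hN₀ : Big P N₀)

include hN₀

theorem V_pow (m : ℕ) : V P ((m + 1) * N₀) ≤ (V P N₀) ^ (m + 1) := by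
  obtain ⟨M0, h1, h2⟩ := hN₀.exact
  exact V_mul_eq_pow M0 h2 h1 m

end

variable {Ω : Type*} [Field Ω] [Algebra K Ω] {O : ValuationSubring Ω} {P : Place K F} {N₀ : ℕ}

theorem valuation_smul_le (hO : ∀ c : K, algebraMap K Ω c ∈ O) (c : K) (x : Ω) :
    O.valuation (c • x) ≤ O.valuation x := by
  rw [Algebra.smul_def, map_mul]
  calc _ ≤ 1 * O.valuation x := mul_le_mul' ((O.valuation_le_one_iff _).mpr (hO c)) le_rfl
    _ = _ := one_mul _

theorem valuation_smul (hO : ∀ c : K, algebraMap K Ω c ∈ O) {c : K} (hc : c ≠ 0) (x : Ω) :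
    O.valuation (c • x) = O.valuation x := by
  apply le_antisymm (valuation_smul_le hO c x)
  have h := valuation_smul_le hO c⁻¹ (c • x)
  rwa [smul_smul, inv_mul_cancel₀ hc, one_smul] at h

open Classical in
theorem sub_single_apply (D : Divisor K F) (Q v : Place K F) (n : ℤ) :
    (D - Finsupp.single Q n) v = D v - (if Q = v then n else 0) := by
  rw [Finsupp.sub_apply, Finsupp.single_apply]

section

variable [IsAlgClosed K] [IsCurveOver K F] [IsFF K F] {ι : Type*} [Finite ι]

/-- A section of maximal size at all the points. -/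
theorem exists_max_section (hO : ∀ c : K, algebraMap K Ω c ∈ O)
    (p : ι → (affRing P →ₐ[K] Ω)) (n : ℕ) :
    ∃ u ∈ V P n, (∀ i, p i u ≠ 0) ∧
      ∀ i, ∀ f ∈ V P n, O.valuation (p i f) ≤ O.valuation (p i u) := by
  classical
  have : Infinite K := IsAlgClosed.instInfinite
  obtain ⟨s, hs⟩ := (Submodule.fg_iff_finiteDimensional (V P n)).2 (finite_V n)
  have hsV : ∀ b ∈ s, b ∈ V P n := fun b hb => by
    rw [← hs]; exact Submodule.subset_span hb
  have hsne : s.Nonempty := by
    rw [Finset.nonempty_iff_ne_empty]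
    rintro rfl
    have h1 : (1 : affRing P) ∈ V P n := one_mem_V n
    rw [← hs] at h1
    simp at h1
  have hmax : ∀ i, ∃ b ∈ s, ∀ f ∈ V P n, O.valuation (p i f) ≤ O.valuation (p i b) := by
    intro i
    obtain ⟨b, hb, hbmax⟩ := s.exists_max_image (fun b => O.valuation (p i b)) hsne
    refine ⟨b, hb, fun f hf => ?_⟩
    rw [← hs] at hf
    induction hf using Submodule.span_induction with
    | mem x hx => exact hbmax x hx
    | zero => simp
    | add x y _ _ hx hy =>
      rw [map_add]
      exact (O.valuation.map_add _ _).trans (max_le hx hy)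
    | smul c x _ hx =>
      rw [map_smul]
      exact (valuation_smul_le hO c _).trans hx
  choose b hb hbmax using hmax
  have hbpos : ∀ i, 0 < O.valuation (p i (b i)) := by
    intro i
    have h1 := hbmax i 1 (one_mem_V n)
    rw [map_one, map_one] at h1
    exact lt_of_lt_of_le zero_lt_one h1
  let bad : ι → Submodule K (V P n) := fun i =>
    { carrier := {f | O.valuation (p i f) < O.valuation (p i (b i))}
      add_mem' := by
        intro f g hf hg
        show O.valuation (p i ((f + g : V P n) : affRing P)) < _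
        push_cast
        rw [map_add]
        exact lt_of_le_of_lt (O.valuation.map_add _ _) (max_lt hf hg)
      zero_mem' := by
        show O.valuation (p i ((0 : V P n) : affRing P)) < _
        simpa using hbpos i
      smul_mem' := by
        intro c f hf
        show O.valuation (p i ((c • f : V P n) : affRing P)) < _
        push_cast
        rw [map_smul]
        exact lt_of_le_of_lt (valuation_smul_le hO c _) hf }
  obtain ⟨u, hu⟩ := exists_forall_notMem bad (by
    intro i htop
    have h1 : (⟨b i, hsV _ (hb i)⟩ : V P n) ∈ bad i := htop ▸ Submodule.mem_top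
    exact lt_irrefl _ (show O.valuation (p i (b i)) < O.valuation (p i (b i)) from h1))
  have hu' : ∀ i, O.valuation (p i (b i)) ≤ O.valuation (p i u) := by
    intro i
    by_contra hcon
    push Not at hcon
    exact hu i hcon
  refine ⟨u, u.2, fun i => ?_, fun i f hf => (hbmax i f hf).trans (hu' i)⟩
  intro h0
  have h1 := (hbpos i).trans_le (hu' i)
  rw [h0, map_zero] at h1
  exact lt_irrefl _ h1

/-- data: generic sections `u, w` and reductions `Q i`. -/
structure Gen (O : ValuationSubring Ω) (N₀ : ℕ) (p : ι → (affRing P →ₐ[K] Ω))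
    (Q : ι → Place K F) (u w : affRing P) : Prop where
  red : ∀ i, IsRed O (p i) (Q i)
  u_mem : u ∈ V P N₀
  w_mem : w ∈ V P N₀
  u_ne : ∀ i, p i u ≠ 0
  u_max : ∀ i, ∀ f ∈ V P N₀, O.valuation (p i f) ≤ O.valuation (p i u)
  u_ord : ∀ i, (Q i).ord (u : F) = -(Finsupp.single P (N₀ : ℤ) : Divisor K F) (Q i)
  w_mem_val : ∀ i, (w : F) / u ∈ (Q i).toValuationSubring
  w_ord : ∀ i, (w : F) / u - algebraMap K F (val (Q i) ((w : F) / u)) ≠ 0 ∧
    (Q i).ord ((w : F) / u - algebraMap K F (val (Q i) ((w : F) / u))) = 1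
  w_sep : ∀ i j, Q i ≠ Q j → val (Q i) ((w : F) / u) ≠ val (Q j) ((w : F) / u)

theorem exists_gen (hO : IsResidual K O) (hN₀ : Big P N₀) (p : ι → (affRing P →ₐ[K] Ω)) :
    ∃ (Q : ι → Place K F) (u w : affRing P), Gen O N₀ p Q u w := by
  classical
  have : Infinite K := IsAlgClosed.instInfinite
  obtain ⟨N, hN2, hN⟩ := hN₀.prescribed
  choose Q hQ using fun i => exists_red O hO (p i)
  obtain ⟨u, hu, hune, humax⟩ := exists_max_section hO.mem p N₀
  set D₀ : Divisor K F := Finsupp.single P (N₀ : ℤ) with hD₀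
  have hdegD₀ : Divisor.degree D₀ = N₀ := degree_single' P _
  have hmemrr : ∀ f : F, f ∈ riemannRochSpace D₀ → ∃ g : affRing P, g ∈ V P N₀ ∧ (g : F) = f := by
    intro f hf
    have hf' : f ∈ affRing P := by
      intro v hv
      rw [mem_rr_iff] at hf
      rcases hf with hf | hf
      · rw [hf]; exact zero_mem _
      · apply mem_of_ord_nonneg
        have := hf v
        rwa [hD₀, Finsupp.single_apply, if_neg (Ne.symm hv), neg_zero] at this
    exact ⟨⟨f, hf'⟩, hf, rfl⟩
  have hVle : ∀ f ∈ V P N₀, ∀ i, (f : F) / u ∈ (Q i).toValuationSubring := fun f hf i =>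
    ((hQ i).spec hO (hune i) (humax i f hf)).1
  have hu0 : ∀ _ : ι, (u : F) ≠ 0 := fun i => coe_ne_zero_of_map_ne (hune i)
  have huord : ∀ i, (Q i).ord (u : F) = -D₀ (Q i) := by
    intro i
    apply le_antisymm
    · obtain ⟨h, hh0, hhord⟩ := FunField.PlaceLemmas.exists_ord_eq (Q i) (-D₀ (Q i))
      obtain ⟨f, hf, hfv⟩ := hN D₀ {Q i} h (fun _ => 1)
        (by rw [hdegD₀, Finset.card_singleton]; push_cast; linarith) hh0
        (by intro R hR; rw [Finset.mem_singleton] at hR; rw [hR]; exact hhord)
      obtain ⟨hf1, hf2⟩ := hfv (Q i) (Finset.mem_singleton_self _)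
      obtain ⟨hf3, hf4⟩ := ord_eq_zero_of_val_ne (Q i) hf1 (by rw [hf2]; exact one_ne_zero)
      have hf0 : f ≠ 0 := by rintro rfl; simp at hf3
      rw [FunField.PlaceLemmas.ord_div _ hf0 hh0] at hf4
      obtain ⟨g, hg, rfl⟩ := hmemrr f hf
      have h5 := (mem_iff_ord (Q i) _).1 (hVle g hg i)
      rcases h5 with h5 | h5
      · exact absurd h5 (div_ne_zero hf0 (hu0 i))
      · rw [FunField.PlaceLemmas.ord_div _ hf0 (hu0 i)] at h5
        linarith
    · have h1 := hu
      have h2 : (u : F) ∈ riemannRochSpace D₀ := h1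
      rw [mem_rr_iff] at h2
      exact h2.resolve_left (hu0 i) (Q i)
  -- bad subspaces
  let linval : ι → (V P N₀ →ₗ[K] K) := fun i =>
    { toFun := fun f => val (Q i) (((f : affRing P) : F) / u)
      map_add' := by
        intro f g
        have h1 : ((((f + g : V P N₀) : affRing P)) : F) / u = (f : F) / u + (g : F) / u := by
          push_cast; rw [add_div]
        rw [h1, val_add _ (hVle _ f.2 i) (hVle _ g.2 i)]
      map_smul' := by
        intro c f
        have h1 : ((((c • f : V P N₀) : affRing P)) : F) / u = algebraMap K F c * ((f : F) / u) := by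
          have : (((c • f : V P N₀) : affRing P) : F) = c • (f : F) := rfl
          rw [this, Algebra.smul_def, mul_div_assoc]
        rw [h1, val_mul _ (mem_algebraMap _ _) (hVle _ f.2 i), val_algebraMap]
        rfl }
  let sepbad : {ij : ι × ι // Q ij.1 ≠ Q ij.2} → Submodule K (V P N₀) := fun ij =>
    LinearMap.ker (linval ij.1.1 - linval ij.1.2)
  let tanbad : ι → Submodule K (V P N₀) := fun i =>
    Submodule.span K {(⟨u, hu⟩ : V P N₀)} ⊔
      (riemannRochSpace (D₀ - Finsupp.single (Q i) 2)).comap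
        ((affRing P).val.toLinearMap.comp (V P N₀).subtype)
  have hsep : ∀ ij, sepbad ij ≠ ⊤ := by
    rintro ⟨⟨i, j⟩, hij⟩ htop
    obtain ⟨f, hf, hfv⟩ := hN D₀ {Q i, Q j} (u : F) (fun R => if R = Q i then 1 else 0)
      (by
        rw [hdegD₀]
        have : ({Q i, Q j} : Finset (Place K F)).card ≤ 2 := Finset.card_le_two
        have h2 : ((({Q i, Q j} : Finset (Place K F)).card : ℕ) : ℤ) ≤ 2 := by exact_mod_cast this
        linarith) (hu0 i)
      (by
        intro R hR
        rw [Finset.mem_insert, Finset.mem_singleton] at hR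
        rcases hR with rfl | rfl
        · exact huord i
        · exact huord j)
    obtain ⟨g, hg, rfl⟩ := hmemrr f hf
    have h1 : (⟨g, hg⟩ : V P N₀) ∈ sepbad ⟨(i, j), hij⟩ := htop ▸ Submodule.mem_top
    rw [LinearMap.mem_ker, LinearMap.sub_apply, sub_eq_zero] at h1
    have h2 : val (Q i) ((g : F) / u) = val (Q j) ((g : F) / u) := h1
    rw [(hfv (Q i) (by simp)).2, (hfv (Q j) (by simp)).2, if_pos rfl, if_neg (Ne.symm hij)] at h2
    exact one_ne_zero h2
  have htan : ∀ i, tanbad i ≠ ⊤ := by
    intro i htop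
    obtain ⟨h, hh0, hhord⟩ := FunField.PlaceLemmas.exists_ord_eq (Q i) (-D₀ (Q i) + 1)
    obtain ⟨f, hf, hfv⟩ := hN (D₀ - Finsupp.single (Q i) 1) {Q i} h (fun _ => 1)
      (by
        rw [map_sub, hdegD₀, degree_single', Finset.card_singleton]; push_cast; linarith) hh0
      (by
        intro R hR
        rw [Finset.mem_singleton] at hR
        rw [hR, hhord, Finsupp.sub_apply, Finsupp.single_eq_same]
        ring)
    obtain ⟨hf1, hf2⟩ := hfv (Q i) (Finset.mem_singleton_self _)
    obtain ⟨hf3, hf4⟩ := ord_eq_zero_of_val_ne (Q i) hf1 (by rw [hf2]; exact one_ne_zero)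
    have hf0 : f ≠ 0 := by rintro rfl; simp at hf3
    rw [FunField.PlaceLemmas.ord_div _ hf0 hh0] at hf4
    have hford : (Q i).ord f = -D₀ (Q i) + 1 := by linarith
    have hfD : f ∈ riemannRochSpace D₀ := by
      rw [mem_rr_iff] at hf ⊢
      right
      intro v
      have h3 := hf.resolve_left hf0 v
      rw [sub_single_apply] at h3
      split_ifs at h3 <;> linarith
    obtain ⟨g, hg, rfl⟩ := hmemrr f hfD
    have h1 : (⟨g, hg⟩ : V P N₀) ∈ tanbad i := htop ▸ Submodule.mem_top
    rw [Submodule.mem_sup] at h1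
    obtain ⟨y, hy, z, hz, hyz⟩ := h1
    rw [Submodule.mem_span_singleton] at hy
    obtain ⟨c, rfl⟩ := hy
    have h2 : (g : F) = c • (u : F) + ((z : affRing P) : F) := by
      have := congrArg (fun t : V P N₀ => ((t : affRing P) : F)) hyz
      exact this.symm
    have hz' : ((z : affRing P) : F) = 0 ∨ -D₀ (Q i) + 2 ≤ (Q i).ord ((z : affRing P) : F) := by
      have h3 : ((z : affRing P) : F) ∈ riemannRochSpace (D₀ - Finsupp.single (Q i) 2) := hz
      rw [mem_rr_iff] at h3
      rcases h3 with h3 | h3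
      · exact Or.inl h3
      · right
        have := h3 (Q i)
        rw [Finsupp.sub_apply, Finsupp.single_eq_same] at this
        linarith
    have hzv : val (Q i) (((z : affRing P) : F) / u) = 0 := by
      rcases hz' with h | h
      · rw [h, zero_div, val_zero]
      · by_cases h0 : ((z : affRing P) : F) = 0
        · rw [h0, zero_div, val_zero]
        apply val_of_ord_pos
        rw [FunField.PlaceLemmas.ord_div _ h0 (hu0 i), huord i]
        linarith
    have hgv : val (Q i) ((g : F) / u) = 0 := by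
      apply val_of_ord_pos
      rw [FunField.PlaceLemmas.ord_div _ hf0 (hu0 i), huord i, hford]
      linarith
    have h4 : (g : F) / u = algebraMap K F c + ((z : affRing P) : F) / u := by
      rw [h2, Algebra.smul_def, add_div, mul_div_assoc, div_self (hu0 i), mul_one]
    rw [h4, val_add _ (mem_algebraMap _ _) (hVle _ z.2 i), val_algebraMap, hzv, add_zero] at hgv
    rw [hgv, zero_smul, zero_add] at h2
    rcases hz' with h | h
    · exact hf0 (h2.trans h)
    · rw [← h2, hford] at h
      linarith
  obtain ⟨w, hw⟩ := exists_forall_notMem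
    (Sum.elim sepbad tanbad) (by rintro (x | x); exacts [hsep x, htan x])
  refine ⟨Q, u, w, hQ, hu, w.2, hune, humax, huord, hVle _ w.2, fun i => ?_, fun i j hij => ?_⟩
  · have h1 := hw (Sum.inr i)
    have hwi := hVle _ w.2 i
    set c := val (Q i) (((w : affRing P) : F) / u) with hc
    have h2 : ((w : affRing P) : F) / u - algebraMap K F c =
        (((w : affRing P) - c • u : affRing P) : F) / u := by
      have : (((w : affRing P) - c • u : affRing P) : F) = (w : F) - c • (u : F) := rfl
      rw [this, Algebra.smul_def, sub_div, mul_div_assoc, div_self (hu0 i), mul_one]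
    have hspec := val_spec (Q i) hwi
    rw [adic_lt_one_iff] at hspec
    have key : ¬ ((((w : affRing P) - c • u : affRing P) : F) ∈
        riemannRochSpace (D₀ - Finsupp.single (Q i) 2)) := by
      intro hcon
      apply h1
      show w ∈ tanbad i
      rw [Submodule.mem_sup]
      refine ⟨c • ⟨u, hu⟩, Submodule.smul_mem _ _ (Submodule.mem_span_singleton_self _),
        w - c • ⟨u, hu⟩, hcon, by abel⟩
    have hne : (((w : affRing P) - c • u : affRing P) : F) ≠ 0 := by
      intro h0
      apply key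
      rw [h0]; exact Submodule.zero_mem _
    have hne' : ((w : affRing P) : F) / u - algebraMap K F c ≠ 0 := by
      rw [h2]; exact div_ne_zero hne (hu0 i)
    refine ⟨hne', ?_⟩
    have hpos : 0 < (Q i).ord (((w : affRing P) : F) / u - algebraMap K F c) :=
      hspec.resolve_left hne'
    by_contra hord
    have hord' : ¬ (Q i).ord (((w : affRing P) : F) / u - algebraMap K F c) = 1 := hord
    apply key
    have h3 : 2 ≤ (Q i).ord (((w : affRing P) : F) / u - algebraMap K F c) := by omega
    rw [h2, FunField.PlaceLemmas.ord_div _ hne (hu0 i), huord i] at h3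
    have hVw : (((w : affRing P) - c • u : affRing P) : F) ∈ riemannRochSpace D₀ :=
      Submodule.sub_mem (V P N₀) w.2 (Submodule.smul_mem _ c hu)
    rw [mem_rr_iff] at hVw ⊢
    right
    intro v
    rw [sub_single_apply]
    have h4 := hVw.resolve_left hne v
    split_ifs with hv
    · rw [← hv]; linarith
    · linarith
  · have h1 := hw (Sum.inl ⟨(i, j), hij⟩)
    intro h2
    apply h1
    show w ∈ LinearMap.ker (linval i - linval j)
    rw [LinearMap.mem_ker, LinearMap.sub_apply, sub_eq_zero]
    exact h2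

end

end Fermat.Agent.MW
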