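import Fermat.Agent.MW.Rat
import Fermat.Agent.MW.Generic
import Fermat.Agent.FunField.RR

/-! # Rational divisor classes are represented by reduced rational divisors (block EX) -/

set_option autoImplicit false
set_option linter.unusedSectionVars false

noncomputable section

open AlgebraicCurve Polynomial
open Fermat.Agent.FunField (IsFF divOf)
open Fermat.Agent.FunField.PlaceLemmas
open Fermat.Agent.S27C

namespace Fermat.Agent.MW

variable {F : Type*} [Field F] [Algebra Qb F] [IsCurveOver Qb F] [IsFF Qb F]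
variable {ρ : GQ →* SemilinearAut Qb F} {P : Place Qb F}

/-- The reduced divisor of a finite set of places. -/
def dvs (D : Finset (Place Qb F)) : Divisor Qb F := ∑ Q ∈ D, Finsupp.single Q 1

open Classical in
theorem dvs_apply (D : Finset (Place Qb F)) (Q : Place Qb F) :
    dvs D Q = if Q ∈ D then 1 else 0 := by
  simp only [dvs, Finsupp.finsetSum_apply, Finsupp.single_apply]
  rw [Finset.sum_ite_eq' D Q]

theorem degree_dvs (D : Finset (Place Qb F)) : Divisor.degree (dvs D) = D.card := by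
  simp only [dvs, map_sum, degree_single', Finset.sum_const, nsmul_eq_mul, mul_one]

/-- stability of a finite set of places -/
def Stab (ρ : GQ →* SemilinearAut Qb F) (D : Finset (Place Qb F)) : Prop :=
  ∀ σ, ∀ Q ∈ D, ρ σ • Q ∈ D

theorem Stab.smul_mem_iff {D : Finset (Place Qb F)} (h : Stab ρ D) (σ : GQ) (Q : Place Qb F) :
    ρ σ • Q ∈ D ↔ Q ∈ D := by
  refine ⟨fun hQ => ?_, h σ Q⟩
  have h1 := h σ⁻¹ _ hQ
  rwa [map_inv, inv_smul_smul] at h1

theorem Stab.smul_dvs {D : Finset (Place Qb F)} (h : Stab ρ D) (σ : GQ) :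
    ρ σ • dvs D = dvs D := by
  classical
  ext v
  rw [SemilinearAut.divisor_smul_apply, dvs_apply, dvs_apply, ← map_inv]
  simp only [h.smul_mem_iff]

theorem smul_single_P (R : GalStr ρ P) (σ : GQ) (n : ℤ) :
    ρ σ • (Finsupp.single P n : Divisor Qb F) = Finsupp.single P n := by
  rw [SemilinearAut.smul_single, R.fixP]

theorem divOf_mul' {f g : F} (hf : f ≠ 0) (hg : g ≠ 0) :
    (divOf (f * g) : Divisor Qb F) = divOf f + divOf g := by
  ext v
  rw [Finsupp.add_apply, FunField.divOf_apply, FunField.divOf_apply, FunField.divOf_apply,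
    v.ord_mul hf hg]

theorem divOf_smul' {c : Qb} (hc : c ≠ 0) (f : F) :
    (divOf (c • f) : Divisor Qb F) = divOf f := by
  ext v
  rw [FunField.divOf_apply, FunField.divOf_apply, Algebra.smul_def]
  by_cases hf : f = 0
  · rw [hf, mul_zero]
  rw [v.ord_mul ((_root_.map_ne_zero _).mpr hc) hf, ord_algebraMap, zero_add]

theorem mk_eq_mk_iff {A B : Divisor Qb F} (hA : A ∈ Divisor.degZero (K := Qb) (F := F))
    (hB : B ∈ Divisor.degZero (K := Qb) (F := F)) :
    Pic0.mk ⟨A, hA⟩ = Pic0.mk ⟨B, hB⟩ ↔ ∃ f : F, f ≠ 0 ∧ B = A + divOf f := by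
  unfold Pic0.mk
  rw [QuotientAddGroup.eq, AddSubgroup.mem_addSubgroupOf]
  constructor
  · rintro ⟨f, hf, h⟩
    refine ⟨f, hf, ?_⟩
    ext v
    have h1 := h v
    have h2 : (((-⟨A, hA⟩ + ⟨B, hB⟩ : Divisor.degZero (K := Qb) (F := F)) : Divisor Qb F)) v =
        -A v + B v := rfl
    rw [h2] at h1
    rw [Finsupp.add_apply, FunField.divOf_apply]
    linarith
  · rintro ⟨f, hf, h⟩
    refine ⟨f, hf, fun v => ?_⟩
    have h2 : (((-⟨A, hA⟩ + ⟨B, hB⟩ : Divisor.degZero (K := Qb) (F := F)) : Divisor Qb F)) v =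
        -A v + B v := rfl
    rw [h2, h, Finsupp.add_apply, FunField.divOf_apply]
    ring

theorem smul_mk (g : SemilinearAut Qb F) {A : Divisor Qb F}
    (hA : A ∈ Divisor.degZero (K := Qb) (F := F)) :
    g • Pic0.mk ⟨A, hA⟩ = Pic0.mk ⟨g • A, SemilinearAut.smul_mem_degZero g hA⟩ := rfl

/-- A fixed class is represented by a fixed divisor. -/
theorem exists_fixed_divisor (R : GalStr ρ P) {x : Pic0 Qb F} (hx : ∀ σ, ρ σ • x = x) :
    ∃ (A : Divisor Qb F) (hA : A ∈ Divisor.degZero (K := Qb) (F := F)),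
      (∀ σ, ρ σ • A = A) ∧ Pic0.mk ⟨A, hA⟩ = x := by
  classical
  obtain ⟨⟨A, hA⟩, rfl⟩ := Pic0.mk_surjective x
  have hA0 : Divisor.degree A = 0 := hA
  have hex : ∃ j : ℕ, 0 < Module.finrank Qb
      (riemannRochSpace (A + Finsupp.single P ((j : ℤ) - 1))) := by
    refine ⟨(genusFF Qb F) + 1, ?_⟩
    have h1 := FunField.riemann_roch (A + Finsupp.single P
      (((genusFF Qb F + 1 : ℕ) : ℤ) - 1))
    rw [map_add, hA0, degree_single'] at h1
    push_cast at h1
    have h2 : (0 : ℤ) < Module.finrank Qb (riemannRochSpace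
      (A + Finsupp.single P (((genusFF Qb F + 1 : ℕ) : ℤ) - 1))) := by
      push_cast
      linarith
    exact_mod_cast h2
  obtain ⟨j, hj, hjmin⟩ : ∃ j : ℕ, 0 < Module.finrank Qb
      (riemannRochSpace (A + Finsupp.single P ((j : ℤ) - 1))) ∧ ∀ i < j, ¬ 0 < Module.finrank Qb
      (riemannRochSpace (A + Finsupp.single P ((i : ℤ) - 1))) :=
    ⟨Nat.find hex, Nat.find_spec hex, fun i hi => Nat.find_min hex hi⟩
  set D₁ : Divisor Qb F := A + Finsupp.single P ((j : ℤ) - 1) with hD₁
  have hone : Module.finrank Qb (riemannRochSpace D₁) = 1 := by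
    rcases j with _ | j
    · exfalso
      obtain ⟨f, hf, hf0⟩ := FunField.exists_ne_zero_of_finrank_pos hj
      have h1 : (0 : Divisor Qb F) ≤ divOf f + D₁ := by
        intro v
        rw [mem_rr_iff] at hf
        have := hf.resolve_left hf0 v
        rw [Finsupp.add_apply, FunField.divOf_apply, Finsupp.zero_apply]
        linarith
      have h2 := FunField.degree_mono h1
      rw [map_zero, map_add, FunField.degree_divOf, hD₁, map_add, hA0, degree_single'] at h2
      push_cast at h2
    · have h1 := hjmin j (Nat.lt_succ_self j)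
      push Not at h1
      have h2 : D₁ = (A + Finsupp.single P ((j : ℤ) - 1)) + Finsupp.single P 1 := by
        rw [hD₁, add_assoc, ← Finsupp.single_add]
        push_cast
        congr 2
        ring
      have h3 := FunField.finrank_rr_add_le (A + Finsupp.single P ((j : ℤ) - 1))
        (Finsupp.single P 1) (by intro v; rw [Finsupp.single_apply]; split_ifs <;> simp)
      rw [← h2, degree_single'] at h3
      omega
  obtain ⟨f₀, hf₀, hf₀0⟩ := FunField.exists_ne_zero_of_finrank_pos hj
  have hmult : ∀ f ∈ riemannRochSpace D₁, ∃ c : Qb, f = c • f₀ := by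
    intro f hf
    obtain ⟨c, hc⟩ := (finrank_eq_one_iff_of_nonzero' (⟨f₀, hf₀⟩ : riemannRochSpace D₁)
      (by intro h; exact hf₀0 (congrArg Subtype.val h))).mp hone ⟨f, hf⟩
    exact ⟨c, (congrArg Subtype.val hc).symm⟩
  have hdeg : A + divOf f₀ ∈ Divisor.degZero (K := Qb) (F := F) := by
    rw [Divisor.mem_degZero, map_add, FunField.degree_divOf, hA0, add_zero]
  refine ⟨A + divOf f₀, hdeg, fun σ => ?_, ?_⟩
  · have h1 := hx σ
    rw [smul_mk, eq_comm, mk_eq_mk_iff] at h1
    obtain ⟨h, hh0, hh⟩ := h1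
    have hgD : ρ σ • D₁ = D₁ + divOf h := by
      rw [hD₁, smul_add, hh, smul_single_P R]
      abel
    have hgf0 : ρ σ • f₀ ≠ 0 := by
      intro h0
      apply hf₀0
      have := congrArg ((ρ σ)⁻¹ • ·) h0
      simpa using this
    have h2 : (ρ σ • f₀) * h ∈ riemannRochSpace D₁ := by
      have h3 := smul_mem_rr (ρ σ) hf₀
      rw [hgD] at h3
      rw [mem_rr_iff] at h3 ⊢
      right
      intro v
      have h4 := h3.resolve_left hgf0 v
      rw [Finsupp.add_apply, FunField.divOf_apply] at h4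
      rw [v.ord_mul hgf0 hh0]
      linarith
    obtain ⟨c, hc⟩ := hmult _ h2
    have hc0 : c ≠ 0 := by
      rintro rfl
      rw [zero_smul] at hc
      exact mul_ne_zero hgf0 hh0 hc
    have h5 : (divOf (ρ σ • f₀) : Divisor Qb F) + divOf h = divOf f₀ := by
      rw [← divOf_mul' hgf0 hh0, hc, divOf_smul' hc0]
    rw [smul_add, smul_divOf, hh, ← h5]
    abel
  · exact ((mk_eq_mk_iff hA hdeg).mpr ⟨f₀, hf₀0, rfl⟩).symm

/-- A fixed section of a fixed divisor which does not vanish at finitely many places. -/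
theorem exists_fixed_section (R : GalStr ρ P) {N : ℤ} (hN : Prescribed Qb F N)
    {D : Divisor Qb F} (hD : ∀ σ, ρ σ • D = D) (hdeg : N + 1 ≤ Divisor.degree D)
    (T : Finset (Place Qb F)) :
    ∃ f ∈ riemannRochSpace D, f ≠ 0 ∧ (∀ σ, ρ σ • f = f) ∧ ∀ Q ∈ T, Q.ord f = -D Q := by
  classical
  obtain ⟨b, hb⟩ := R.exists_fixed_basis (riemannRochSpace D) (fun σ f hf => by
    have := smul_mem_rr (ρ σ) hf
    rwa [hD] at this)
  let s : (Fin (Module.finrank Qb (riemannRochSpace D)) → ℚ) → F := fun c => ∑ i, (algebraMap ℚ Qb (c i)) • (b i : F)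
  have hsD : ∀ c, s c ∈ riemannRochSpace D := fun c =>
    Submodule.sum_mem _ fun i _ => Submodule.smul_mem _ _ (b i).2
  have hsfix : ∀ σ c, ρ σ • s c = s c := by
    intro σ c
    simp only [s]
    rw [Finset.smul_sum]
    refine Finset.sum_congr rfl fun i _ => ?_
    rw [R.smul_smul', hb, AlgEquiv.commutes]
  have hsadd : ∀ c d, s (c + d) = s c + s d := by
    intro c d
    simp only [s]
    rw [← Finset.sum_add_distrib]
    refine Finset.sum_congr rfl fun i _ => ?_
    rw [Pi.add_apply, map_add, add_smul]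
  have hssmul : ∀ (q : ℚ) c, s (q • c) = (algebraMap ℚ Qb q) • s c := by
    intro q c
    simp only [s]
    rw [Finset.smul_sum]
    refine Finset.sum_congr rfl fun i _ => ?_
    rw [Pi.smul_apply, smul_eq_mul, map_mul, smul_smul]
  let bad : {Q // Q ∈ insert P T} →
      Submodule ℚ (Fin (Module.finrank Qb (riemannRochSpace D)) → ℚ) := fun Q =>
    { carrier := {c | s c ∈ riemannRochSpace (D - Finsupp.single (Q : Place Qb F) 1)}
      add_mem' := by
        intro c d hc hd
        have hc' : s c ∈ riemannRochSpace (D - Finsupp.single (Q : Place Qb F) 1) := hc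
        have hd' : s d ∈ riemannRochSpace (D - Finsupp.single (Q : Place Qb F) 1) := hd
        have h1 := Submodule.add_mem _ hc' hd'
        rw [← hsadd] at h1
        exact h1
      zero_mem' := by
        have h1 : s 0 = 0 := by simp [s]
        have h2 : s 0 ∈ riemannRochSpace (D - Finsupp.single (Q : Place Qb F) 1) := by
          rw [h1]; exact Submodule.zero_mem _
        exact h2
      smul_mem' := by
        intro q c hc
        have hc' : s c ∈ riemannRochSpace (D - Finsupp.single (Q : Place Qb F) 1) := hc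
        have h1 := Submodule.smul_mem _ (algebraMap ℚ Qb q) hc'
        rw [← hssmul] at h1
        exact h1 }
  have hbad : ∀ Q, bad Q ≠ ⊤ := by
    rintro ⟨Q, hQ⟩ htop
    obtain ⟨h, hh0, hhord⟩ := exists_ord_eq Q (-D Q)
    obtain ⟨f, hf, hfv⟩ := hN D {Q} h (fun _ => 1)
      (by rw [Finset.card_singleton]; push_cast; exact hdeg) hh0
      (by intro R' hR'; rw [Finset.mem_singleton] at hR'; rw [hR']; exact hhord)
    obtain ⟨hf1, hf2⟩ := hfv Q (Finset.mem_singleton_self _)
    obtain ⟨hf3, hf4⟩ := ord_eq_zero_of_val_ne Q hf1 (by rw [hf2]; exact one_ne_zero)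
    have hf0 : f ≠ 0 := by rintro rfl; simp at hf3
    rw [ord_div _ hf0 hh0] at hf4
    have hbQ : ∀ i, (b i : F) ∈ riemannRochSpace (D - Finsupp.single Q 1) := by
      intro i
      have h1 : Pi.single i (1 : ℚ) ∈ bad ⟨Q, hQ⟩ := htop ▸ Submodule.mem_top
      have h2 : s (Pi.single i (1 : ℚ)) ∈ riemannRochSpace (D - Finsupp.single Q 1) := h1
      have h3 : s (Pi.single i (1 : ℚ)) = b i := by
        simp only [s]
        rw [Finset.sum_eq_single i]
        · rw [Pi.single_eq_same, map_one, one_smul]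
        · intro j _ hj
          rw [Pi.single_eq_of_ne hj, map_zero, zero_smul]
        · intro h; exact absurd (Finset.mem_univ i) h
      rwa [h3] at h2
    have h4 : f ∈ riemannRochSpace (D - Finsupp.single Q 1) := by
      have h5 := congrArg (fun x : riemannRochSpace D => (x : F)) (b.sum_repr ⟨f, hf⟩)
      simp only [Submodule.coe_sum, Submodule.coe_smul] at h5
      rw [← h5]
      exact Submodule.sum_mem _ fun i _ => Submodule.smul_mem _ _ (hbQ i)
    rw [mem_rr_iff] at h4
    have h6 := h4.resolve_left hf0 Q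
    rw [sub_single_apply, if_pos rfl] at h6
    linarith
  obtain ⟨c, hc⟩ := exists_forall_notMem bad hbad
  have hc' : ∀ Q ∈ insert P T, s c ∉ riemannRochSpace (D - Finsupp.single Q 1) := fun Q hQ =>
    hc ⟨Q, hQ⟩
  have hne : s c ≠ 0 := by
    intro h0
    apply hc' P (Finset.mem_insert_self _ _)
    rw [h0]
    exact Submodule.zero_mem _
  refine ⟨s c, hsD c, hne, fun σ => hsfix σ c, fun Q hQ => ?_⟩
  have h1 := hsD c
  rw [mem_rr_iff] at h1
  have h1' := h1.resolve_left hne
  by_contra hcon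
  apply hc' Q (Finset.mem_insert_of_mem hQ)
  rw [mem_rr_iff]
  right
  intro v
  rw [sub_single_apply]
  have h2 := h1' v
  split_ifs with hv
  · subst hv
    have : -D Q < Q.ord (s c) := lt_of_le_of_ne h2 (Ne.symm hcon)
    omega
  · linarith

/-- **Bertini**: fixed divisors of degree `0` are equivalent to `[D] - e P` with `D` a fixed set
of `e` places avoiding a given finite set. -/
theorem exists_reduced (R : GalStr ρ P) : ∃ e₁ : ℕ, ∀ e, e₁ ≤ e → ∀ A : Divisor Qb F,
    Divisor.degree A = 0 → (∀ σ, ρ σ • A = A) → ∀ B : Finset (Place Qb F),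
    ∃ D : Finset (Place Qb F), D.card = e ∧ Disjoint D B ∧ P ∉ D ∧ Stab ρ D ∧
      ∃ f : F, f ≠ 0 ∧ dvs D - Finsupp.single P (e : ℤ) = A + divOf f := by
  classical
  obtain ⟨N, hN⟩ := exists_rr_prescribed (K := Qb) (F := F)
  refine ⟨(N + 1).toNat + 1, fun e he A hA0 hA B => ?_⟩
  have heN : N + 1 ≤ (e : ℤ) := by
    have h1 := Int.self_le_toNat (N + 1)
    have h2 : (((N + 1).toNat : ℕ) : ℤ) + 1 ≤ e := by exact_mod_cast he
    linarith
  have he1 : 1 ≤ e := by omega
  set D₁ : Divisor Qb F := A + Finsupp.single P (e : ℤ) with hD₁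
  have hdeg : Divisor.degree D₁ = e := by rw [hD₁, map_add, hA0, degree_single', zero_add]
  have hfix : ∀ σ, ρ σ • D₁ = D₁ := by
    intro σ
    rw [hD₁, smul_add, hA, smul_single_P R]
  obtain ⟨f₀, hf₀, hf₀0, hf₀fix, hf₀ord⟩ := exists_fixed_section R hN hfix (by rw [hdeg]; exact heN)
    (insert P B)
  set E₀ : Divisor Qb F := divOf f₀ + D₁ with hE₀
  have hE₀nn : ∀ Q, 0 ≤ E₀ Q := by
    intro Q
    rw [mem_rr_iff] at hf₀
    have := hf₀.resolve_left hf₀0 Q
    rw [hE₀, Finsupp.add_apply, FunField.divOf_apply]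
    linarith
  have hE₀app : ∀ Q, E₀ Q = Q.ord f₀ + D₁ Q := by
    intro Q
    rw [hE₀, Finsupp.add_apply, FunField.divOf_apply]
  obtain ⟨Q₀, hQ₀⟩ : ∃ Q, E₀ Q ≠ 0 := by
    by_contra hcon
    push Not at hcon
    have h1 : E₀ = 0 := Finsupp.ext hcon
    have h2 : Divisor.degree E₀ = e := by rw [hE₀, map_add, FunField.degree_divOf, hdeg, zero_add]
    rw [h1, map_zero] at h2
    have : (e : ℤ) = 0 := h2.symm
    omega
  obtain ⟨f₁, hf₁, hf₁0, hf₁fix, hf₁ord⟩ := exists_fixed_section R hN hfix (by rw [hdeg]; exact heN)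
    E₀.support
  have hf₁nn : ∀ Q, 0 ≤ Q.ord f₁ + D₁ Q := by
    intro Q
    rw [mem_rr_iff] at hf₁
    have := hf₁.resolve_left hf₁0 Q
    linarith
  set φ : F := f₁ / f₀ with hφ
  have hφ0 : φ ≠ 0 := div_ne_zero hf₁0 hf₀0
  have hφord : ∀ Q : Place Qb F, Q.ord φ = Q.ord f₁ - Q.ord f₀ := fun Q => ord_div _ hf₁0 hf₀0
  have htr : Transcendental Qb φ := by
    intro halg
    have h1 := ord_eq_zero_of_isAlgebraic Q₀ halg
    rw [hφord] at h1
    have h2 := hf₁ord Q₀ (Finsupp.mem_support_iff.mpr hQ₀)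
    have h3 := hE₀app Q₀
    have h4 := hE₀nn Q₀
    apply hQ₀
    omega
  have hsep := FunField.isSeparable_adjoin htr
  obtain ⟨S, hS⟩ := FunField.exists_unramified_outside (K := Qb) htr
  -- choose `c`
  have hbadfin : Set.Finite {q : ℚ | -algebraMap ℚ Qb q ∈ S ∨
      ∃ Q ∈ (insert P B : Finset (Place Qb F)), 0 < Q.ord (φ + algebraMap Qb F (algebraMap ℚ Qb q))} := by
    have h1 : {q : ℚ | -algebraMap ℚ Qb q ∈ S ∨
      ∃ Q ∈ (insert P B : Finset (Place Qb F)), 0 < Q.ord (φ + algebraMap Qb F (algebraMap ℚ Qb q))} =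
      {q : ℚ | -algebraMap ℚ Qb q ∈ S} ∪ ⋃ Q ∈ (insert P B : Finset (Place Qb F)),
        {q : ℚ | 0 < Q.ord (φ + algebraMap Qb F (algebraMap ℚ Qb q))} := by
      ext q; simp
    rw [h1]
    have hinj : Function.Injective (fun q : ℚ => -algebraMap ℚ Qb q) := by
      intro a b hab
      exact (algebraMap ℚ Qb).injective (neg_injective hab)
    refine Set.Finite.union (S.finite_toSet.preimage hinj.injOn) ?_
    refine (Finset.finite_toSet _).biUnion fun Q _ => Set.Subsingleton.finite ?_
    intro a ha b hb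
    have e1 : ∀ q : ℚ, φ + algebraMap Qb F (algebraMap ℚ Qb q) =
        φ - algebraMap Qb F (-algebraMap ℚ Qb q) := by intro q; rw [map_neg]; ring
    have ha' : 0 < Q.ord (φ - algebraMap Qb F (-algebraMap ℚ Qb a)) := by rw [← e1]; exact ha
    have hb' : 0 < Q.ord (φ - algebraMap Qb F (-algebraMap ℚ Qb b)) := by rw [← e1]; exact hb
    exact hinj (FunField.eq_of_ord_sub_pos Q ha' hb')
  obtain ⟨q, hq⟩ := hbadfin.exists_notMem
  simp only [Set.mem_ofPred_eq, not_or, not_exists, not_and, not_lt] at hq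
  obtain ⟨hqS, hqB⟩ := hq
  set c : Qb := algebraMap ℚ Qb q with hc
  set f : F := f₁ + c • f₀ with hf
  have hφc : φ + algebraMap Qb F c ≠ 0 := by
    intro h0
    apply htr
    have : φ = algebraMap Qb F (-c) := by rw [map_neg]; exact eq_neg_of_add_eq_zero_left h0
    rw [this]
    exact isAlgebraic_algebraMap _
  have hff : f = f₀ * (φ + algebraMap Qb F c) := by
    rw [hf, hφ, mul_add, mul_div_cancel₀ _ hf₀0, Algebra.smul_def, mul_comm f₀ (algebraMap Qb F c)]
  have hf0 : f ≠ 0 := by rw [hff]; exact mul_ne_zero hf₀0 hφc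
  have hfix_f : ∀ σ, ρ σ • f = f := by
    intro σ
    rw [hf, smul_add, hf₁fix, R.smul_smul', hf₀fix, hc, AlgEquiv.commutes]
  set E : Divisor Qb F := divOf f + D₁ with hE
  have hEapp : ∀ Q, E Q = Q.ord f + D₁ Q := by
    intro Q
    rw [hE, Finsupp.add_apply, FunField.divOf_apply]
  have hE01 : ∀ Q, E Q = 0 ∨ E Q = 1 := by
    intro Q
    by_cases hQ : E₀ Q = 0
    · have h1 : E Q = Q.ord (φ + algebraMap Qb F c) := by
        rw [hEapp, hff, Q.ord_mul hf₀0 hφc]
        have := hE₀app Q
        omega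
      have h2 : 0 ≤ Q.ord (φ + algebraMap Qb F c) := by
        by_cases hc0 : c = 0
        · rw [hc0, map_zero, add_zero, hφord]
          have h3 := hE₀app Q
          have h4 := hf₁nn Q
          omega
        · have h3 := min_ord_le_ord_add (v := Q) hφ0 ((_root_.map_ne_zero (algebraMap Qb F)).mpr hc0) hφc
          rw [ord_algebraMap] at h3
          refine le_trans (le_min ?_ le_rfl) h3
          rw [hφord]
          have h3 := hE₀app Q
          have h4 := hf₁nn Q
          omega
      rw [h1]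
      rcases h2.eq_or_lt with h3 | h3
      · left; exact h3.symm
      · right
        have e1 : φ + algebraMap Qb F c = φ - algebraMap Qb F (-c) := by rw [map_neg]; ring
        rw [e1] at h3 ⊢
        exact hS (-c) hqS Q h3
    · left
      have h1 := hf₁ord Q (Finsupp.mem_support_iff.mpr hQ)
      have h2 := hE₀app Q
      have h3 := hE₀nn Q
      rw [hEapp]
      by_cases hc0 : c = 0
      · rw [hf, hc0, zero_smul, add_zero, h1]; ring
      · have h4 : Q.ord f = Q.ord f₁ := by
          rw [hf]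
          refine ord_add_eq_of_lt Q hf₁0 (Or.inr ?_)
          rw [Algebra.smul_def, Q.ord_mul ((_root_.map_ne_zero (algebraMap Qb F)).mpr hc0) hf₀0, ord_algebraMap, zero_add]
          omega
        rw [h4, h1]; ring
  have hEB : ∀ Q ∈ insert P B, E Q = 0 := by
    intro Q hQ
    have h1 := hf₀ord Q hQ
    have h2 : E Q = Q.ord (φ + algebraMap Qb F c) := by
      rw [hEapp, hff, Q.ord_mul hf₀0 hφc, h1]; ring
    rcases hE01 Q with h | h
    · exact h
    · have := hqB Q hQ
      omega
  have hEdvs : E = dvs E.support := by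
    ext Q
    rw [dvs_apply]
    split_ifs with hQ
    · exact (hE01 Q).resolve_left (Finsupp.mem_support_iff.mp hQ)
    · exact Finsupp.notMem_support_iff.mp hQ
  have hEfix : ∀ σ, ρ σ • E = E := by
    intro σ
    rw [hE, smul_add, smul_divOf, hfix_f, hfix]
  refine ⟨E.support, ?_, ?_, ?_, ?_, f, hf0, ?_⟩
  · have h1 : Divisor.degree E = e := by rw [hE, map_add, FunField.degree_divOf, hdeg, zero_add]
    rw [hEdvs, degree_dvs] at h1
    exact_mod_cast h1
  · rw [Finset.disjoint_left]
    intro Q hQ hQB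
    exact Finsupp.mem_support_iff.mp hQ (hEB Q (Finset.mem_insert_of_mem hQB))
  · intro hP
    exact Finsupp.mem_support_iff.mp hP (hEB P (Finset.mem_insert_self _ _))
  · intro σ Q hQ
    rw [Finsupp.mem_support_iff] at hQ ⊢
    have := SemilinearAut.divisor_smul_apply_smul (ρ σ) E Q
    rw [hEfix] at this
    rwa [this]
  · rw [← hEdvs, hE, hD₁]
    abel

end Fermat.Agent.MW
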