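import Fermat.Agent.MW.Height
import Fermat.Agent.FlatJ.CuspInf
import Mathlib.GroupTheory.Descent
import Mathlib.Algebra.Ring.Action.Submonoid

/-! # Mordell–Weil from weak Mordell–Weil -/

set_option autoImplicit false
set_option linter.unusedSectionVars false

noncomputable section

open AlgebraicCurve ModularCurve
open Fermat.Agent.FunField (IsFF divOf)

namespace Fermat.Agent.MW

section abstractForm

variable {F : Type*} [Field F] [Algebra Qb F] {P : Place Qb F}
variable [IsCurveOver Qb F] [IsFF Qb F] {ρ : GQ →* SemilinearAut Qb F}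

theorem fg_of_height (R : GalStr ρ P) (J : AddSubgroup (Pic0 Qb F))
    (hJ : ∀ x, x ∈ J ↔ ∀ σ, ρ σ • x = x)
    (hw : (nsmulAddMonoidHom (α := J) 2).range.FiniteIndex) : AddGroup.FG J := by
  obtain ⟨h, C, h1, h2, h3⟩ := exists_height R
  let h' : J → ℝ := fun x => h x
  have : Northcott h' := ⟨fun B => by
    have h4 := (h3 B).preimage (f := ((↑) : J → Pic0 Qb F)) Subtype.val_injective.injOn
    refine h4.subset fun x hx => ?_
    exact ⟨(hJ _).mp x.2, hx⟩⟩
  exact AddCommGroup.fg_of_descent' (h := h') (C := C) hw (fun x => h1 x ((hJ _).mp x.2))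
    (fun x y => h2 x y ((hJ _).mp x.2) ((hJ _).mp y.2))

end abstractForm

section concrete

variable (F₀ : IntermediateField ℚ (LaurentSeries ℚ)) [IsFF Qb (laurentBaseChange Qb F₀)]
  [IsCurveOver Qb (laurentBaseChange Qb F₀)]

/-- an element with a polar part -/
theorem exists_polar : ∃ x ∈ laurentBaseChange Qb F₀, ∃ n : ℤ, n < 0 ∧ x.coeff n ≠ 0 := by
  obtain ⟨x, hx, -⟩ := ‹IsFF Qb (laurentBaseChange Qb F₀)›
  by_cases h : ∃ n : ℤ, n < 0 ∧ (x : LaurentSeries Qb).coeff n ≠ 0
  · exact ⟨x, x.2, h⟩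
  push Not at h
  set y : laurentBaseChange Qb F₀ := x - algebraMap Qb _ ((x : LaurentSeries Qb).coeff 0) with hy
  have hy0 : y ≠ 0 := by
    intro h0
    apply hx
    rw [sub_eq_zero] at h0
    rw [h0]
    exact isAlgebraic_algebraMap _
  have hyL : (y : LaurentSeries Qb) ≠ 0 := fun h0 => hy0 (Subtype.ext h0)
  have hcoe : (y : LaurentSeries Qb) = x - algebraMap Qb (LaurentSeries Qb)
      ((x : LaurentSeries Qb).coeff 0) := rfl
  have hcoeff : ∀ n : ℤ, n ≤ 0 → (y : LaurentSeries Qb).coeff n = 0 := by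
    intro n hn
    rw [hcoe, HahnSeries.coeff_sub, algebraMap_laurentSeries_eq_single]
    rcases hn.eq_or_lt with rfl | hn
    · rw [HahnSeries.coeff_single_same, sub_self]
    · rw [HahnSeries.coeff_single_of_ne hn.ne, sub_zero, h n hn]
  have hord : 0 < (y : LaurentSeries Qb).order := by
    by_contra hcon
    push Not at hcon
    exact HahnSeries.coeff_order_eq_zero.not.2 hyL (hcoeff _ hcon)
  refine ⟨(y : LaurentSeries Qb)⁻¹, (y⁻¹).2, ((y : LaurentSeries Qb)⁻¹).order, ?_, ?_⟩
  · have h1 := HahnSeries.order_mul hyL (inv_ne_zero hyL)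
    rw [mul_inv_cancel₀ hyL, HahnSeries.order_one] at h1
    omega
  · exact HahnSeries.coeff_order_eq_zero.not.2 (inv_ne_zero hyL)

/-- the rational structure on a base change of a field of Laurent series -/
def galStr : GalStr (arithmeticGalois F₀) (FlatJ.cuspInf F₀ (exists_polar F₀)) where
  base σ a := by
    rw [SemilinearAut.smul_algebraMap]
    rfl
  fixP σ := FlatJ.smul_cuspInf (exists_polar F₀) σ
  c n :=
    { toFun := fun f => (f : LaurentSeries Qb).coeff n
      map_add' := fun f g => rfl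
      map_smul' := fun a f => by
        have h1 : ((a • f : laurentBaseChange Qb F₀) : LaurentSeries Qb) =
            algebraMap Qb (LaurentSeries Qb) a * (f : LaurentSeries Qb) := by
          rw [Algebra.smul_def]
          rfl
        rw [h1, algebraMap_laurentSeries_eq_single, HahnSeries.coeff_single_zero_mul]
        rfl }
  c_sep f hf := Subtype.ext (HahnSeries.ext (funext hf))
  c_smul σ n f := rfl

theorem fg_of_weak (hw : (nsmulAddMonoidHom (α := FixedPoints.addSubgroup
      (AlgebraicClosure ℚ ≃ₐ[ℚ] AlgebraicClosure ℚ) (Pic0 Qb (laurentBaseChange Qb F₀))) 2).range.FiniteIndex) :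
    AddGroup.FG (FixedPoints.addSubgroup
      (AlgebraicClosure ℚ ≃ₐ[ℚ] AlgebraicClosure ℚ) (Pic0 Qb (laurentBaseChange Qb F₀))) := by
  refine fg_of_height (galStr F₀) _ (fun x => ?_) hw
  exact Iff.rfl

end concrete

end Fermat.Agent.MW
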