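import Fermat.Agent.MW.Dom
import Mathlib.RingTheory.Polynomial.DegreeLT

/-! # Gauss norms of polynomials (block [C]) -/

set_option autoImplicit false
set_option linter.unusedSectionVars false
set_option linter.style.haveILetI false
set_option maxHeartbeats 400000

noncomputable section

open Polynomial

namespace Fermat.Agent.MW

/-- the sup norm of the coefficients -/
def gn (v : Pl) (p : Qb[X]) : ℝ := ⨆ i : ℕ, av v (p.coeff i)

theorem gn_bdd (v : Pl) (p : Qb[X]) : BddAbove (Set.range fun i : ℕ => av v (p.coeff i)) := by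
  have hfin : (Set.range fun i : ℕ => av v (p.coeff i)).Finite := by
    have : (Set.range fun i : ℕ => av v (p.coeff i)) ⊆
        insert 0 ((fun i : ℕ => av v (p.coeff i)) '' (Set.Iic p.natDegree)) := by
      rintro _ ⟨i, rfl⟩
      by_cases hi : i ≤ p.natDegree
      · exact Set.mem_insert_of_mem _ ⟨i, hi, rfl⟩
      · left
        dsimp only
        rw [coeff_eq_zero_of_natDegree_lt (not_le.mp hi), map_zero]
    exact (((Set.finite_Iic _).image _).insert _).subset this
  exact hfin.bddAbove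

theorem coeff_le_gn (v : Pl) (p : Qb[X]) (i : ℕ) : av v (p.coeff i) ≤ gn v p :=
  le_ciSup (gn_bdd v p) i

theorem gn_nonneg (v : Pl) (p : Qb[X]) : 0 ≤ gn v p := Real.iSup_nonneg fun _ => (av v).nonneg _

theorem gn_le {v : Pl} {p : Qb[X]} {a : ℝ} (h : ∀ i, av v (p.coeff i) ≤ a) : gn v p ≤ a :=
  ciSup_le h

theorem gn_eq_nrm {d : ℕ} (v : Pl) {p : Qb[X]} (hp : p.natDegree ≤ d) :
    gn v p = nrm v (fun i : Fin (d + 1) => p.coeff i) := by
  apply le_antisymm
  · refine gn_le fun i => ?_
    by_cases hi : i < d + 1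
    · exact le_nrm v (fun i : Fin (d + 1) => p.coeff i) ⟨i, hi⟩
    · rw [coeff_eq_zero_of_natDegree_lt (by omega), map_zero]
      exact nrm_nonneg _ _
  · exact nrm_le' (gn_nonneg _ _) fun i => coeff_le_gn _ _ _

theorem gn_pos (v : Pl) {p : Qb[X]} (hp : p ≠ 0) : 0 < gn v p := by
  have h1 : p.leadingCoeff ≠ 0 := leadingCoeff_ne_zero.mpr hp
  exact (av_pos h1).trans_le (coeff_le_gn _ _ _)

theorem one_le_gn (v : Pl) {p : Qb[X]} (hp : p.Monic) : 1 ≤ gn v p := by
  have h := coeff_le_gn v p p.natDegree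
  rw [hp.coeff_natDegree, map_one] at h
  exact h

theorem gn_C_mul (v : Pl) (c : Qb) (p : Qb[X]) : gn v (C c * p) = av v c * gn v p := by
  unfold gn
  simp only [coeff_C_mul, map_mul]
  rw [Real.mul_iSup_of_nonneg ((av v).nonneg _)]

theorem gn_one (v : Pl) : gn v 1 = 1 := by
  apply le_antisymm _ (one_le_gn v monic_one)
  refine gn_le fun i => ?_
  rw [coeff_one]
  split_ifs
  · rw [map_one]
  · rw [map_zero]; exact zero_le_one

theorem adm_gn {p : Qb[X]} (hp : p ≠ 0) : Adm (fun v => gn v p) := by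
  have h1 : (fun i : Fin (p.natDegree + 1) => p.coeff i) ≠ 0 := by
    intro h
    have := congrFun h (Fin.last _)
    simp only [Fin.val_last, Pi.zero_apply, coeff_natDegree, leadingCoeff_eq_zero] at this
    exact hp this
  have h2 := adm_nrm h1
  refine ⟨fun v => gn_pos v hp, h2.fin.subset fun v hv => ?_⟩
  rw [Set.mem_ofPred_eq] at hv ⊢
  rwa [gn_eq_nrm v (le_refl p.natDegree)] at hv

theorem gn_X_sub_C (v : Pl) (a : Qb) : gn v (X - C a) = max 1 (av v a) := by
  apply le_antisymm
  · refine gn_le fun i => ?_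
    rcases i with _ | _ | i
    · simp
    · simp
    · have : (X - C a).coeff (i + 1 + 1) = 0 := by
        rw [coeff_sub, coeff_X, coeff_C]; simp
      rw [this, map_zero]; positivity
  · refine max_le (one_le_gn v (monic_X_sub_C a)) ?_
    have := coeff_le_gn v (X - C a) 0
    simpa using this

theorem mem_degreeLT_succ {n : ℕ} {p : Qb[X]} : p ∈ degreeLT Qb (n + 1) ↔ p.natDegree ≤ n := by
  rw [mem_degreeLT, degree_lt_iff_coeff_zero, natDegree_le_iff_coeff_eq_zero]
  constructor
  · intro h N hN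
    exact h N (by exact_mod_cast hN)
  · intro h N hN
    exact h N (by exact_mod_cast hN)

/-- constants for the multiplicativity of the Gauss norm -/
theorem exists_gn_mul (d e : ℕ) : ∃ C : Pl → ℝ, Adm C ∧ (∀ v, 1 ≤ C v) ∧
    ∀ v (p q : Qb[X]), p.natDegree ≤ d → q.natDegree ≤ e →
      gn v p * gn v q ≤ C v * gn v (p * q) ∧ gn v (p * q) ≤ C v * (gn v p * gn v q) := by
  let bV := degreeLT.basis Qb (d + 1)
  let bW := degreeLT.basis Qb (e + 1)
  let bU := degreeLT.basis Qb (d + e + 1)
  have hmul : ∀ (p : degreeLT Qb (d + 1)) (q : degreeLT Qb (e + 1)),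
      (p : Qb[X]) * q ∈ degreeLT Qb (d + e + 1) := by
    rintro ⟨p, hp⟩ ⟨q, hq⟩
    rw [mem_degreeLT_succ] at hp hq ⊢
    exact natDegree_mul_le.trans (add_le_add hp hq)
  let β : degreeLT Qb (d + 1) →ₗ[Qb] degreeLT Qb (e + 1) →ₗ[Qb] degreeLT Qb (d + e + 1) :=
    LinearMap.mk₂ Qb (fun p q => ⟨(p : Qb[X]) * q, hmul p q⟩)
      (fun _ _ _ => Subtype.ext (add_mul _ _ _))
      (fun _ _ _ => Subtype.ext (smul_mul_assoc _ _ _))
      (fun _ _ _ => Subtype.ext (mul_add _ _ _))
      (fun _ _ _ => Subtype.ext (mul_smul_comm _ _ _))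
  have hβ : ∀ p q, ((β p q : degreeLT Qb (d + e + 1)) : Qb[X]) = (p : Qb[X]) * q := fun _ _ => rfl
  have hβ0 : ∀ p q, β p q = 0 → p = 0 ∨ q = 0 := by
    intro p q h
    have h1 : (p : Qb[X]) * q = 0 := by rw [← hβ, h]; rfl
    rcases mul_eq_zero.mp h1 with h2 | h2
    · left; exact Subtype.ext h2
    · right; exact Subtype.ext h2
  obtain ⟨C, hC, hC1, hC2⟩ := dom_bilin bV bW bU β
  obtain ⟨E, hE, hE1, hE2⟩ := dom_bilin_ge bV bW bU β hβ0
  refine ⟨fun v => C v * E v, hC.mul hE,
    fun v => one_le_mul_of_one_le_of_one_le (hC1 v) (hE1 v), fun v p q hp hq => ?_⟩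
  let P : degreeLT Qb (d + 1) := ⟨p, mem_degreeLT_succ.mpr hp⟩
  let Q : degreeLT Qb (e + 1) := ⟨q, mem_degreeLT_succ.mpr hq⟩
  have hP : nrm v (bV.repr P) = gn v p := (gn_eq_nrm v hp).symm
  have hQ : nrm v (bW.repr Q) = gn v q := (gn_eq_nrm v hq).symm
  have hPQ : nrm v (bU.repr (β P Q)) = gn v (p * q) :=
    (gn_eq_nrm v (natDegree_mul_le.trans (add_le_add hp hq))).symm
  have h1 := hC2 v (P, Q)
  have h2 := hE2 v (P, Q)
  simp only [hP, hQ, hPQ] at h1 h2
  constructor
  · refine h2.trans (mul_le_mul_of_nonneg_right ?_ (gn_nonneg _ _))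
    exact le_mul_of_one_le_left (zero_le_one.trans (hE1 v)) (hC1 v)
  · refine h1.trans (mul_le_mul_of_nonneg_right ?_ (mul_nonneg (gn_nonneg _ _) (gn_nonneg _ _)))
    exact le_mul_of_one_le_right (zero_le_one.trans (hC1 v)) (hE1 v)

/-- Gauss norm of a product of linear factors -/
theorem exists_gn_prod (e : ℕ) : ∃ C : Pl → ℝ, Adm C ∧ (∀ v, 1 ≤ C v) ∧
    ∀ v (s : Multiset Qb), s.card ≤ e →
      (s.map fun a => max 1 (av v a)).prod ≤
        C v * gn v (s.map fun a => X - Polynomial.C a).prod ∧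
      gn v (s.map fun a => X - Polynomial.C a).prod ≤
        C v * (s.map fun a => max 1 (av v a)).prod := by
  induction e with
  | zero =>
    refine ⟨fun _ => 1, Adm.one, fun _ => le_rfl, fun v s hs => ?_⟩
    have : s = 0 := by rwa [← Multiset.card_eq_zero, ← Nat.le_zero]
    subst this
    simp [gn_one]
  | succ e ih =>
    obtain ⟨C, hC, hC1, hC2⟩ := ih
    obtain ⟨E, hE, hE1, hE2⟩ := exists_gn_mul 1 e
    refine ⟨fun v => C v * E v, hC.mul hE,
      fun v => one_le_mul_of_one_le_of_one_le (hC1 v) (hE1 v), fun v s hs => ?_⟩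
    have hCv := zero_le_one.trans (hC1 v)
    have hEv := zero_le_one.trans (hE1 v)
    have hpr : ∀ t : Multiset Qb, 0 ≤ (t.map fun a => max 1 (av v a)).prod := by
      intro t
      refine Multiset.prod_nonneg fun x hx => ?_
      obtain ⟨a, -, rfl⟩ := Multiset.mem_map.mp hx
      positivity
    rcases Multiset.empty_or_exists_mem s with rfl | ⟨a, ha⟩
    · simp only [Multiset.map_zero, Multiset.prod_zero, gn_one, mul_one]
      exact ⟨one_le_mul_of_one_le_of_one_le (hC1 v) (hE1 v),
        one_le_mul_of_one_le_of_one_le (hC1 v) (hE1 v)⟩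
    · obtain ⟨t, rfl⟩ := Multiset.exists_cons_of_mem ha
      have ht : t.card ≤ e := by
        rw [Multiset.card_cons] at hs; omega
      obtain ⟨h1, h2⟩ := hC2 v t ht
      rw [Multiset.map_cons, Multiset.map_cons, Multiset.prod_cons, Multiset.prod_cons]
      have hdeg : (t.map fun a => X - Polynomial.C a).prod.natDegree ≤ e := by
        rw [natDegree_multiset_prod_X_sub_C_eq_card]; exact ht
      obtain ⟨h3, h4⟩ := hE2 v (X - Polynomial.C a) (t.map fun a => X - Polynomial.C a).prod
        (natDegree_X_sub_C a).le hdeg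
      rw [gn_X_sub_C] at h3 h4
      have hm : 0 ≤ max 1 (av v a) := by positivity
      constructor
      · calc max 1 (av v a) * (t.map fun a => max 1 (av v a)).prod
            ≤ max 1 (av v a) * (C v * gn v (t.map fun a => X - Polynomial.C a).prod) :=
              mul_le_mul_of_nonneg_left h1 hm
          _ = C v * (max 1 (av v a) * gn v (t.map fun a => X - Polynomial.C a).prod) := by ring
          _ ≤ C v * (E v * gn v ((X - Polynomial.C a) * (t.map fun a => X - Polynomial.C a).prod)) :=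
              mul_le_mul_of_nonneg_left h3 hCv
          _ = _ := by ring
      · calc gn v ((X - Polynomial.C a) * (t.map fun a => X - Polynomial.C a).prod)
            ≤ E v * (max 1 (av v a) * gn v (t.map fun a => X - Polynomial.C a).prod) := h4
          _ ≤ E v * (max 1 (av v a) * (C v * (t.map fun a => max 1 (av v a)).prod)) :=
              mul_le_mul_of_nonneg_left (mul_le_mul_of_nonneg_left h2 hm) hEv
          _ = _ := by ring

/-! ### Northcott -/

/-- the height of a rational number -/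
theorem S_max_one_rat (q : ℚ) :
    S (fun v => max 1 (av v (algebraMap ℚ Qb q))) = Real.log (max (q.den : ℝ) |(q.num : ℝ)|) := by
  have hd : (algebraMap ℚ Qb (q.den : ℚ)) ≠ 0 := by
    rw [Ne, map_eq_zero]
    exact_mod_cast q.den_nz
  have hadm1 : Adm (fun v => max 1 (av v (algebraMap ℚ Qb q))) := by
    by_cases hq : q = 0
    · subst hq
      refine ⟨fun v => by positivity, ?_⟩
      simp
    · exact Adm.one.max (adm_av (by rwa [Ne, map_eq_zero]))
  have hadm2 : Adm (fun v => av v (algebraMap ℚ Qb (q.den : ℚ))) := adm_av hd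
  have h1 : S (fun v => av v (algebraMap ℚ Qb (q.den : ℚ)) * max 1 (av v (algebraMap ℚ Qb q))) =
      S (fun v => max 1 (av v (algebraMap ℚ Qb q))) := by
    rw [S_mul hadm2 hadm1, S_av_nat q.den q.den_nz, zero_add]
  have h2 : ∀ v, av v (algebraMap ℚ Qb (q.den : ℚ)) * max 1 (av v (algebraMap ℚ Qb q)) =
      max (av v (algebraMap ℚ Qb (q.den : ℚ))) (av v (algebraMap ℚ Qb (q.num : ℚ))) := by
    intro v
    rw [mul_max_of_nonneg _ _ ((av v).nonneg _), mul_one, ← map_mul, ← map_mul, Rat.den_mul_eq_num]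
  rw [← h1]
  unfold S
  rw [finsum_eq_single _ none]
  · dsimp only
    rw [h2, av_none_rat, av_none_rat]
    simp
  · intro v hv
    rcases v with _ | p
    · exact absurd rfl hv
    · dsimp only
      rw [h2, av_some_rat, av_some_rat]
      have h3 : max (padicNorm p (q.den : ℚ)) (padicNorm p (q.num : ℚ)) = 1 := by
        apply le_antisymm
        · refine max_le ?_ ?_
          · have := padicNorm.of_nat (p := p) q.den
            exact this
          · exact padicNorm.of_int _
        · by_contra hcon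
          push Not at hcon
          obtain ⟨h4, h5⟩ := max_lt_iff.mp hcon
          have h6 : ((p : ℕ) : ℤ) ∣ q.num := by
            rw [padicNorm.int_lt_one_iff] at h5
            exact h5
          have h7 : (p : ℕ) ∣ q.den := by
            rw [padicNorm.nat_lt_one_iff] at h4
            exact h4
          have h8 := q.reduced
          have h9 : (p : ℕ) ∣ q.num.natAbs := Int.natCast_dvd.mp h6
          have h10 := Nat.dvd_gcd h9 h7
          rw [h8] at h10
          exact p.2.one_lt.ne' (Nat.dvd_one.mp h10)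
      have h4 : max ((padicNorm p (q.den : ℚ) : ℚ) : ℝ) ((padicNorm p (q.num : ℚ) : ℚ) : ℝ) = 1 := by
        rw [← Rat.cast_max, h3, Rat.cast_one]
      rw [h4, Real.log_one]

theorem finite_rat_height (B : ℝ) :
    {q : ℚ | S (fun v => max 1 (av v (algebraMap ℚ Qb q))) ≤ B}.Finite := by
  let N : ℕ := ⌈Real.exp B⌉₊
  have hsub : {q : ℚ | S (fun v => max 1 (av v (algebraMap ℚ Qb q))) ≤ B} ⊆
      (fun x : ℤ × ℕ => (x.1 : ℚ) / x.2) '' (Set.Icc (-(N : ℤ)) N ×ˢ Set.Iic N) := by
    intro q hq
    rw [Set.mem_ofPred_eq, S_max_one_rat] at hq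
    have hden : (0 : ℝ) < q.den := by exact_mod_cast q.den_pos
    have h0 : (0 : ℝ) < max (q.den : ℝ) |(q.num : ℝ)| := lt_max_of_lt_left hden
    have h1 : max (q.den : ℝ) |(q.num : ℝ)| ≤ Real.exp B := by
      rw [← Real.log_le_iff_le_exp h0]; exact hq
    have h2 : Real.exp B ≤ N := Nat.le_ceil _
    obtain ⟨h3, h4⟩ := max_le_iff.mp (h1.trans h2)
    refine ⟨(q.num, q.den), ⟨?_, ?_⟩, Rat.num_div_den q⟩
    · rw [abs_le] at h4
      constructor
      · exact_mod_cast h4.1
      · exact_mod_cast h4.2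
    · exact_mod_cast h3
  exact ((((Set.finite_Icc _ _).prod (Set.finite_Iic _))).image _).subset hsub

/-- **Northcott** for monic rational polynomials. -/
theorem northcott (d : ℕ) (B : ℝ) :
    {p : ℚ[X] | p.Monic ∧ p.natDegree ≤ d ∧
      S (fun v => gn v (p.map (algebraMap ℚ Qb))) ≤ B}.Finite := by
  have hF := finite_rat_height B
  set Fs := {q : ℚ | S (fun v => max 1 (av v (algebraMap ℚ Qb q))) ≤ B} with hFs
  have hpi : (Set.pi Set.univ (fun _ : Fin (d + 1) => Fs)).Finite := Set.Finite.pi fun _ => hF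
  refine Set.Finite.of_finite_image (f := fun p : ℚ[X] => fun i : Fin (d + 1) => p.coeff i)
    (hpi.subset ?_) ?_
  · rintro _ ⟨p, ⟨hp1, hp2, hp3⟩, rfl⟩ i -
    rw [hFs, Set.mem_ofPred_eq]
    refine le_trans ?_ hp3
    have hm : (p.map (algebraMap ℚ Qb)).Monic := hp1.map _
    dsimp only
    refine S_le ?_ (adm_gn hm.ne_zero) fun v => ?_
    · by_cases hq : p.coeff i = 0
      · rw [hq]
        refine ⟨fun v => by positivity, ?_⟩
        simp
      · exact Adm.one.max (adm_av (by rwa [Ne, map_eq_zero]))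
    · refine max_le (one_le_gn v hm) ?_
      rw [← coeff_map]
      exact coeff_le_gn _ _ _
  · rintro p ⟨hp1, hp2, hp3⟩ q ⟨hq1, hq2, hq3⟩ hpq
    ext i
    by_cases hi : i < d + 1
    · exact congrFun hpq ⟨i, hi⟩
    · rw [coeff_eq_zero_of_natDegree_lt (by omega), coeff_eq_zero_of_natDegree_lt (by omega)]

end Fermat.Agent.MW
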