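import Fermat.Agent.MW.NC

/-! # The height on rational divisor classes -/

set_option autoImplicit false
set_option linter.unusedSectionVars false

noncomputable section

open AlgebraicCurve Polynomial Matrix
open Fermat.Agent.FunField (IsFF divOf)
open Fermat.Agent.S27C

namespace Fermat.Agent.MW

variable {F : Type*} [Field F] [Algebra Qb F] {P : Place Qb F} {N₀ : ℕ}
variable [IsCurveOver Qb F] [IsFF Qb F] {ρ : GQ →* SemilinearAut Qb F}

/-- the class of `A - deg(A) P` -/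
def clP (P : Place Qb F) : Divisor Qb F →+ Pic0 Qb F where
  toFun A := Pic0.mk ⟨A - Finsupp.single P (Divisor.degree A), by
    rw [Divisor.mem_degZero, map_sub, degree_single', sub_self]⟩
  map_zero' := by
    have : (⟨(0 : Divisor Qb F) - Finsupp.single P (Divisor.degree (0 : Divisor Qb F)), by
      rw [Divisor.mem_degZero, map_sub, degree_single', sub_self]⟩ :
        Divisor.degZero (K := Qb) (F := F)) = 0 := by
      apply Subtype.ext
      show (0 : Divisor Qb F) - Finsupp.single P (Divisor.degree (0 : Divisor Qb F)) = 0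
      rw [map_zero, Finsupp.single_zero, sub_zero]
    rw [this]
    rfl
  map_add' A B := by
    rw [← Pic0.mk_add]
    congr 1
    apply Subtype.ext
    show A + B - Finsupp.single P (Divisor.degree (A + B)) =
      (A - Finsupp.single P (Divisor.degree A)) + (B - Finsupp.single P (Divisor.degree B))
    rw [map_add, Finsupp.single_add]
    abel

theorem clP_apply (A : Divisor Qb F) (h : A - Finsupp.single P (Divisor.degree A) ∈
    Divisor.degZero (K := Qb) (F := F)) :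
    clP P A = Pic0.mk ⟨A - Finsupp.single P (Divisor.degree A), h⟩ := rfl

theorem clP_eq_iff {A B : Divisor Qb F} : clP P A = clP P B ↔ ∃ u : F, u ≠ 0 ∧
    (divOf u : Divisor Qb F) = B - A - Finsupp.single P (Divisor.degree B - Divisor.degree A) := by
  have h1 : A - Finsupp.single P (Divisor.degree A) ∈ Divisor.degZero (K := Qb) (F := F) := by
    rw [Divisor.mem_degZero, map_sub, degree_single', sub_self]
  have h2 : B - Finsupp.single P (Divisor.degree B) ∈ Divisor.degZero (K := Qb) (F := F) := by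
    rw [Divisor.mem_degZero, map_sub, degree_single', sub_self]
  rw [clP_apply A h1, clP_apply B h2, mk_eq_mk_iff]
  refine exists_congr fun u => and_congr_right fun _ => ?_
  constructor
  · intro h
    have h3 : (divOf u : Divisor Qb F) = (B - Finsupp.single P (Divisor.degree B)) -
        (A - Finsupp.single P (Divisor.degree A)) := by rw [h]; abel
    rw [h3, Finsupp.single_sub]
    abel
  · intro h
    rw [h, Finsupp.single_sub]
    abel

theorem clP_single (n : ℤ) : clP P (Finsupp.single P n) = 0 := by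
  rw [← map_zero (clP P), eq_comm, clP_eq_iff]
  refine ⟨1, one_ne_zero, ?_⟩
  rw [map_zero, degree_single', sub_zero, sub_zero, sub_self]
  ext v
  simp

theorem clP_divOf {f : F} (hf : f ≠ 0) : clP P (divOf f) = 0 := by
  rw [← map_zero (clP P), eq_comm, clP_eq_iff]
  refine ⟨f, hf, ?_⟩
  rw [map_zero, FunField.degree_divOf, sub_zero, sub_zero, Finsupp.single_zero, sub_zero]

theorem dvs_union {D D' : Finset (Place Qb F)} [DecidableEq (Place Qb F)] (h : Disjoint D D') :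
    dvs (D ∪ D') = dvs D + dvs D' := Finset.sum_union h

theorem Stab.union {D D' : Finset (Place Qb F)} [DecidableEq (Place Qb F)] (h : Stab ρ D)
    (h' : Stab ρ D') : Stab ρ (D ∪ D') := by
  intro σ Q hQ
  rw [Finset.mem_union] at hQ ⊢
  exact hQ.imp (h σ Q) (h' σ Q)

/-! ### the third difference -/

theorem eta_union {D D' : Finset (Place Qb F)} [DecidableEq (Place Qb F)] (h : Disjoint D D') :
    eta N₀ P (D ∪ D') = eta N₀ P D + eta N₀ P D' := Finset.sum_union h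

/-- mixed sums -/
def wmix (N₀ : ℕ) (P : Place Qb F) (D D' : Finset (Place Qb F)) : ℝ :=
  ∑ Q ∈ D, ∑ Q' ∈ D', wp N₀ P Q Q'

theorem wmix_union_left {D₁ D₂ D : Finset (Place Qb F)} [DecidableEq (Place Qb F)]
    (h : Disjoint D₁ D₂) : wmix N₀ P (D₁ ∪ D₂) D = wmix N₀ P D₁ D + wmix N₀ P D₂ D :=
  Finset.sum_union h

theorem wmix_union_right {D₁ D₂ D : Finset (Place Qb F)} [DecidableEq (Place Qb F)]
    (h : Disjoint D₁ D₂) : wmix N₀ P D (D₁ ∪ D₂) = wmix N₀ P D D₁ + wmix N₀ P D D₂ := by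
  unfold wmix
  rw [← Finset.sum_add_distrib]
  exact Finset.sum_congr rfl fun Q _ => Finset.sum_union h

theorem wsum_eq (D : Finset (Place Qb F)) : wsum N₀ P D = wmix N₀ P D D := rfl

theorem third_diff {D₁ D₂ D₃ : Finset (Place Qb F)} [DecidableEq (Place Qb F)]
    (h12 : Disjoint D₁ D₂) (h13 : Disjoint D₁ D₃) (h23 : Disjoint D₂ D₃) :
    Psi N₀ P (D₁ ∪ D₂ ∪ D₃) - Psi N₀ P (D₁ ∪ D₂) - Psi N₀ P (D₂ ∪ D₃) - Psi N₀ P (D₁ ∪ D₃) +
      Psi N₀ P D₁ + Psi N₀ P D₂ + Psi N₀ P D₃ = 0 := by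
  have h123 : Disjoint (D₁ ∪ D₂) D₃ := Finset.disjoint_union_left.mpr ⟨h13, h23⟩
  unfold Psi
  simp only [wsum_eq]
  rw [Finset.card_union_of_disjoint h123, Finset.card_union_of_disjoint h12,
    Finset.card_union_of_disjoint h23, Finset.card_union_of_disjoint h13,
    eta_union h123, eta_union h12, eta_union h23, eta_union h13,
    wmix_union_left h123, wmix_union_right h123, wmix_union_right h123,
    wmix_union_left h12, wmix_union_right h12, wmix_union_right h12,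
    wmix_union_left h12, wmix_union_right h12,
    wmix_union_left h23, wmix_union_right h23, wmix_union_right h23,
    wmix_union_left h13, wmix_union_right h13, wmix_union_right h13]
  push_cast
  ring

/-- **The height machine.** -/
theorem exists_height (R : GalStr ρ P) : ∃ (h : Pic0 Qb F → ℝ) (C : ℝ),
    (∀ x, (∀ σ, ρ σ • x = x) → 0 ≤ h x) ∧
    (∀ x y, (∀ σ, ρ σ • x = x) → (∀ σ, ρ σ • y = y) →
      |h (x + y) + h (x - y) - 2 * (h x + h y)| ≤ C) ∧
    ∀ B : ℝ, {x : Pic0 Qb F | (∀ σ, ρ σ • x = x) ∧ h x ≤ B}.Finite := by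
  classical
  -- `N₀` and the function `x`
  obtain ⟨N₁, hN₁⟩ := exists_big (K := Qb) P
  obtain ⟨N, hN⟩ := exists_rr_prescribed (K := Qb) (F := F)
  set N₀ : ℕ := N₁ + (N + 1).toNat + 1 with hN₀def
  have hN₀ : Big P N₀ := hN₁ N₀ (by omega)
  have hN₀pos := hN₀.pos
  obtain ⟨x₀, hx₀, hx₀0, hx₀fix, hx₀ord⟩ := exists_fixed_section R hN
    (D := Finsupp.single P (N₀ : ℤ)) (fun σ => smul_single_P R σ _) (by
      rw [degree_single']
      have := Int.self_le_toNat (N + 1)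
      rw [hN₀def]
      push_cast
      omega) {P}
  obtain ⟨x, rfl⟩ := exists_aff_of_mem_rr (P := P) (D := ∅) (n := N₀) (f := x₀) (by
    have : (dvs ∅ : Divisor Qb F) = 0 := by simp [dvs]
    rw [this, sub_zero]
    exact hx₀)
  have hx : P.ord (x : F) = -(N₀ : ℤ) := by
    rw [hx₀ord P (Finset.mem_singleton_self _), Finsupp.single_eq_same]
  obtain ⟨e₁, he₁⟩ := exists_reduced R
  set s : ℕ := e₁ + 1 with hs
  set e₀ : ℕ := s * N₀ with he₀
  have he₀1 : e₁ ≤ e₀ := by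
    rw [he₀, hs]
    calc e₁ ≤ (e₁ + 1) * 1 := by omega
      _ ≤ (e₁ + 1) * N₀ := Nat.mul_le_mul_left _ hN₀pos
  -- representatives
  have hrep : ∀ y : Pic0 Qb F, (∀ σ, ρ σ • y = y) → ∀ B : Finset (Place Qb F),
      ∃ D : Finset (Place Qb F), D.card = e₀ ∧ Disjoint D B ∧ P ∉ D ∧ Stab ρ D ∧
        clP P (dvs D) = y := by
    intro y hy B
    obtain ⟨A, hA, hAfix, rfl⟩ := exists_fixed_divisor R hy
    obtain ⟨D, hD1, hD2, hD3, hD4, f, hf0, hf⟩ := he₁ e₀ he₀1 A hA hAfix B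
    refine ⟨D, hD1, hD2, hD3, hD4, ?_⟩
    have h1 : A - Finsupp.single P (Divisor.degree A) = A := by
      have : Divisor.degree A = 0 := hA
      rw [this, Finsupp.single_zero, sub_zero]
    have h2 : clP P A = Pic0.mk ⟨A, hA⟩ := by
      rw [clP_apply A (by rw [h1]; exact hA)]
      congr 1
      exact Subtype.ext h1
    rw [← h2]
    have h3 : dvs D = A + divOf f + Finsupp.single P (e₀ : ℤ) := by rw [← hf]; abel
    rw [h3, map_add, map_add, clP_divOf hf0, clP_single, add_zero, add_zero]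
  -- invariance
  obtain ⟨C₀, hC₀⟩ := inv_Psi R hN₀ e₀ 0
  obtain ⟨C₁, hC₁⟩ := inv_Psi R hN₀ e₀ s
  obtain ⟨C₂, hC₂⟩ := inv_Psi R hN₀ e₀ (2 * s)
  have hinv : ∀ (k : ℕ) (D D' : Finset (Place Qb F)), D.card = e₀ → D'.card = e₀ + k * N₀ →
      P ∉ D → P ∉ D' → Stab ρ D → Stab ρ D' → clP P (dvs D) = clP P (dvs D') →
      ∃ u : F, u ≠ 0 ∧
        (divOf u : Divisor Qb F) = dvs D' - dvs D - Finsupp.single P ((k * N₀ : ℕ) : ℤ) := by
    intro k D D' he he' _ _ _ _ hcl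
    obtain ⟨u, hu, hdiv⟩ := clP_eq_iff.mp hcl
    refine ⟨u, hu, ?_⟩
    rw [hdiv, degree_dvs, degree_dvs, he, he']
    congr 2
    push_cast
    ring
  let q : Pic0 Qb F → ℝ := fun y => if hy : ∀ σ, ρ σ • y = y then
    Psi N₀ P (hrep y hy ∅).choose else 0
  have hq : ∀ y, (∀ σ, ρ σ • y = y) → ∃ D : Finset (Place Qb F), D.card = e₀ ∧ P ∉ D ∧
      Stab ρ D ∧ clP P (dvs D) = y ∧ q y = Psi N₀ P D := by
    intro y hy
    obtain ⟨h1, -, h3, h4, h5⟩ := (hrep y hy ∅).choose_spec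
    refine ⟨_, h1, h3, h4, h5, ?_⟩
    show (if hy : ∀ σ, ρ σ • y = y then Psi N₀ P (hrep y hy ∅).choose else 0) = _
    rw [dif_pos hy]
  have hq0 : ∀ y, (∀ σ, ρ σ • y = y) → ∀ D : Finset (Place Qb F), D.card = e₀ → P ∉ D →
      Stab ρ D → clP P (dvs D) = y → |Psi N₀ P D - q y| ≤ C₀ := by
    intro y hy D he hP hD hcl
    obtain ⟨D₁, he₁', hP₁, hD₁, hcl₁, hq₁⟩ := hq y hy
    rw [hq₁]
    exact hC₀ D₁ D he₁' (by rw [he]; ring) hP₁ hP hD₁ hD
      (hinv 0 D₁ D he₁' (by rw [he]; ring) hP₁ hP hD₁ hD (by rw [hcl₁, hcl]))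
  have hq1 : ∀ y, (∀ σ, ρ σ • y = y) → ∀ D : Finset (Place Qb F), D.card = e₀ + e₀ → P ∉ D →
      Stab ρ D → clP P (dvs D) = y → |Psi N₀ P D - q y| ≤ C₁ := by
    intro y hy D he hP hD hcl
    obtain ⟨D₁, he₁', hP₁, hD₁, hcl₁, hq₁⟩ := hq y hy
    rw [hq₁]
    exact hC₁ D₁ D he₁' he hP₁ hP hD₁ hD
      (hinv s D₁ D he₁' he hP₁ hP hD₁ hD (by rw [hcl₁, hcl]))
  have hq2 : ∀ y, (∀ σ, ρ σ • y = y) → ∀ D : Finset (Place Qb F), D.card = e₀ + e₀ + e₀ → P ∉ D →
      Stab ρ D → clP P (dvs D) = y → |Psi N₀ P D - q y| ≤ C₂ := by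
    intro y hy D he hP hD hcl
    obtain ⟨D₁, he₁', hP₁, hD₁, hcl₁, hq₁⟩ := hq y hy
    rw [hq₁]
    have he2 : D.card = e₀ + 2 * s * N₀ := by rw [he, he₀]; ring
    exact hC₂ D₁ D he₁' he2 hP₁ hP hD₁ hD
      (hinv (2 * s) D₁ D he₁' he2 hP₁ hP hD₁ hD (by rw [hcl₁, hcl]))
  have hfadd : ∀ y z : Pic0 Qb F, (∀ σ, ρ σ • y = y) → (∀ σ, ρ σ • z = z) →
      ∀ σ, ρ σ • (y + z) = y + z := by
    intro y z hy hz σ
    rw [smul_add, hy, hz]
  have hfneg : ∀ y : Pic0 Qb F, (∀ σ, ρ σ • y = y) → ∀ σ, ρ σ • (-y) = -y := by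
    intro y hy σ
    rw [smul_neg, hy]
  -- the cubic relation
  have hcub : ∀ y z w : Pic0 Qb F, (∀ σ, ρ σ • y = y) → (∀ σ, ρ σ • z = z) →
      (∀ σ, ρ σ • w = w) →
      |q (y + z + w) - q (y + z) - q (z + w) - q (y + w) + q y + q z + q w| ≤
        C₂ + 3 * C₁ + 3 * C₀ := by
    intro y z w hy hz hw
    obtain ⟨D₁, a1, -, a3, a4, a5⟩ := hrep y hy ∅
    obtain ⟨D₂, b1, b2, b3, b4, b5⟩ := hrep z hz D₁
    obtain ⟨D₃, c1, c2, c3, c4, c5⟩ := hrep w hw (D₁ ∪ D₂)
    have h12 : Disjoint D₁ D₂ := b2.symm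
    have h13 : Disjoint D₁ D₃ := (Finset.disjoint_union_right.mp c2).1.symm
    have h23 : Disjoint D₂ D₃ := (Finset.disjoint_union_right.mp c2).2.symm
    have h123 : Disjoint (D₁ ∪ D₂) D₃ := c2.symm
    have hP12 : P ∉ D₁ ∪ D₂ := by rw [Finset.mem_union]; tauto
    have hP23 : P ∉ D₂ ∪ D₃ := by rw [Finset.mem_union]; tauto
    have hP13 : P ∉ D₁ ∪ D₃ := by rw [Finset.mem_union]; tauto
    have hP123 : P ∉ D₁ ∪ D₂ ∪ D₃ := by rw [Finset.mem_union, Finset.mem_union]; tauto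
    have e1 := hq0 y hy D₁ a1 a3 a4 a5
    have e2 := hq0 z hz D₂ b1 b3 b4 b5
    have e3 := hq0 w hw D₃ c1 c3 c4 c5
    have e12 := hq1 (y + z) (hfadd y z hy hz) (D₁ ∪ D₂)
      (by rw [Finset.card_union_of_disjoint h12, a1, b1]) hP12 (a4.union b4)
      (by rw [dvs_union h12, map_add, a5, b5])
    have e23 := hq1 (z + w) (hfadd z w hz hw) (D₂ ∪ D₃)
      (by rw [Finset.card_union_of_disjoint h23, b1, c1]) hP23 (b4.union c4)
      (by rw [dvs_union h23, map_add, b5, c5])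
    have e13 := hq1 (y + w) (hfadd y w hy hw) (D₁ ∪ D₃)
      (by rw [Finset.card_union_of_disjoint h13, a1, c1]) hP13 (a4.union c4)
      (by rw [dvs_union h13, map_add, a5, c5])
    have e123 := hq2 (y + z + w) (hfadd _ w (hfadd y z hy hz) hw) (D₁ ∪ D₂ ∪ D₃)
      (by rw [Finset.card_union_of_disjoint h123, Finset.card_union_of_disjoint h12, a1, b1, c1])
      hP123 ((a4.union b4).union c4)
      (by rw [dvs_union h123, dvs_union h12, map_add, map_add, a5, b5, c5])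
    have ht := third_diff (N₀ := N₀) (P := P) h12 h13 h23
    rw [abs_le] at e1 e2 e3 e12 e23 e13 e123 ⊢
    constructor <;> linarith [e1.1, e1.2, e2.1, e2.2, e3.1, e3.2, e12.1, e12.2, e23.1, e23.2,
      e13.1, e13.2, e123.1, e123.2]
  have hpar : ∀ y z : Pic0 Qb F, (∀ σ, ρ σ • y = y) → (∀ σ, ρ σ • z = z) →
      |q (y + z) + q (y - z) - 2 * q y - (q z + q (-z))| ≤
        C₂ + 3 * C₁ + 3 * C₀ + |q 0| := by
    intro y z hy hz
    have h1 := hcub y z (-z) hy hz (hfneg z hz)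
    have e1 : y + z + -z = y := by abel
    have e2 : z + -z = (0 : Pic0 Qb F) := add_neg_cancel z
    have e3 : y + -z = y - z := (sub_eq_add_neg y z).symm
    rw [e1, e2, e3] at h1
    have h2 := abs_le.mp (le_refl |q 0|)
    rw [abs_le] at h1 ⊢
    constructor <;> linarith [h1.1, h1.2, h2.1, h2.2]
  -- Northcott
  obtain ⟨d, A, Cn, hA, hNC⟩ := exists_NC R hN₀ hx hx₀fix e₀
  have hlow : ∀ y, (∀ σ, ρ σ • y = y) → -(Cn / A) ≤ q y := by
    intro y hy
    obtain ⟨D, he, hP, hD, hcl, hqD⟩ := hq y hy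
    obtain ⟨D'', h1, h2, h3, h4, h5, -⟩ := hNC D he hP hD
    have h6 : 0 ≤ S (fun v => hv (x : F) v D'') :=
      S_nonneg (adm_hv _ _) fun v => one_le_hv _ v _
    rw [hqD]
    rw [neg_le_iff_add_nonneg, ← mul_nonneg_iff_of_pos_left hA]
    have : A * (Psi N₀ P D + Cn / A) = A * Psi N₀ P D + Cn := by field_simp
    rw [this]
    linarith
  have hfin : ∀ B : ℝ, {y : Pic0 Qb F | (∀ σ, ρ σ • y = y) ∧ q y ≤ B}.Finite := by
    intro B
    have hbase : ∀ σ, SemilinearAut.baseAut (ρ σ) = σ.toRingEquiv := by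
      intro σ
      ext a
      apply (algebraMap Qb F).injective
      rw [← SemilinearAut.smul_algebraMap, R.base]
      rfl
    have hT := finite_divisors (P := P) ρ hbase (x := x) (by rw [hx]; omega) hx₀fix d (A * B + Cn)
    refine (hT.image (fun D'' => -clP P D'')).subset ?_
    rintro y ⟨hy, hyB⟩
    obtain ⟨D, he, hP, hD, hcl, hqD⟩ := hq y hy
    obtain ⟨D'', h1, h2, h3, h4, h5, f, hf0, hf⟩ := hNC D he hP hD
    refine ⟨D'', ⟨h1, h2, h3, h4, ?_⟩, ?_⟩
    · refine h5.trans ?_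
      have : A * Psi N₀ P D ≤ A * B := mul_le_mul_of_nonneg_left (by rw [← hqD]; exact hyB) hA.le
      linarith
    · show -clP P D'' = y
      have h6 := clP_divOf (P := P) hf0
      rw [hf, map_sub, map_add, clP_single, sub_zero, hcl] at h6
      exact (eq_neg_of_add_eq_zero_left h6).symm
  refine ⟨fun y => q y + q (-y) + 2 * (Cn / A),
    2 * (C₂ + 3 * C₁ + 3 * C₀ + |q 0|) + |4 * (Cn / A)|, ?_, ?_, ?_⟩
  · intro y hy
    have h1 := hlow y hy
    have h2 := hlow (-y) (hfneg y hy)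
    show 0 ≤ q y + q (-y) + 2 * (Cn / A)
    linarith
  · intro y z hy hz
    have h1 := hpar y z hy hz
    have h2 := hpar (-y) (-z) (hfneg y hy) (hfneg z hz)
    have e1 : -y + -z = -(y + z) := by abel
    have e2 : -y - -z = -(y - z) := by abel
    rw [e1, e2, neg_neg] at h2
    have h3 := abs_le.mp (le_refl |4 * (Cn / A)|)
    show |(q (y + z) + q (-(y + z)) + 2 * (Cn / A)) + (q (y - z) + q (-(y - z)) + 2 * (Cn / A)) -
      2 * ((q y + q (-y) + 2 * (Cn / A)) + (q z + q (-z) + 2 * (Cn / A)))| ≤ _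
    rw [abs_le] at h1 h2 ⊢
    constructor <;> linarith [h1.1, h1.2, h2.1, h2.2, h3.1, h3.2]
  · intro B
    refine (hfin (B - Cn / A)).subset ?_
    rintro y ⟨hy, hyB⟩
    refine ⟨hy, ?_⟩
    have h2 := hlow (-y) (hfneg y hy)
    have h3 : q y + q (-y) + 2 * (Cn / A) ≤ B := hyB
    linarith

end Fermat.Agent.MW
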