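import Mathlib.RingTheory.Valuation.LocalSubring
import Mathlib.FieldTheory.IsAlgClosed.Basic
import Mathlib.Order.Zorn

/-! # Shrinking a valuation ring to one with residue field `k`

If `k` is algebraically closed, `k ⊂ O ⊂ Ω` with `O` a valuation subring, then there is a smaller
valuation subring `O' ⊂ O` containing `k` with residue field `k`. -/

set_option autoImplicit false

noncomputable section

open Polynomial

namespace Fermat.Agent.MW

variable {k Ω : Type*} [Field k] [Field Ω] [Algebra k Ω]

theorem mul_lt_one_aux {Γ : Type*} [LinearOrderedCommGroupWithZero Γ] {a b : Γ} (ha : a ≤ 1)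
    (hb : b < 1) : a * b < 1 := by
  rw [mul_comm]
  exact mul_lt_one_of_lt_of_le hb ha

/-- `k ⊂ O` and `O` has residue field `k`. -/
structure IsResidual (k : Type*) {Ω : Type*} [Field k] [Field Ω] [Algebra k Ω]
    (O : ValuationSubring Ω) : Prop where
  mem : ∀ c : k, algebraMap k Ω c ∈ O
  res : ∀ z ∈ O, ∃ c : k, O.valuation (z - algebraMap k Ω c) < 1

theorem exists_minimal_valuationSubring (O : ValuationSubring Ω)
    (hO : ∀ c : k, algebraMap k Ω c ∈ O) :
    ∃ V : ValuationSubring Ω, V ≤ O ∧ (∀ c : k, algebraMap k Ω c ∈ V) ∧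
      ∀ W : ValuationSubring Ω, (∀ c : k, algebraMap k Ω c ∈ W) → W ≤ V → W = V := by
  let S : Set (ValuationSubring Ω)ᵒᵈ := {V | (∀ c : k, algebraMap k Ω c ∈ OrderDual.ofDual V)}
  obtain ⟨V, hV1, hV2⟩ := zorn_le_nonempty₀ S (by
    intro c hcS hc y hy
    let I : ValuationSubring Ω :=
      { carrier := {x | ∀ V ∈ c, x ∈ OrderDual.ofDual V}
        mul_mem' := fun {a b} ha hb V hV => mul_mem (ha V hV) (hb V hV)
        one_mem' := fun V hV => one_mem _
        add_mem' := fun {a b} ha hb V hV => add_mem (ha V hV) (hb V hV)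
        zero_mem' := fun V hV => zero_mem _
        neg_mem' := fun {a} ha V hV => neg_mem (ha V hV)
        mem_or_inv_mem' := by
          intro x
          by_contra hcon
          push Not at hcon
          obtain ⟨h1, h2⟩ := hcon
          have h1' : ¬ ∀ V ∈ c, x ∈ OrderDual.ofDual V := h1
          have h2' : ¬ ∀ V ∈ c, x⁻¹ ∈ OrderDual.ofDual V := h2
          push Not at h1' h2'
          obtain ⟨V1, hV1, hx1⟩ := h1'
          obtain ⟨V2, hV2, hx2⟩ := h2'
          rcases hc.total hV1 hV2 with h | h
          · have h' : OrderDual.ofDual V2 ≤ OrderDual.ofDual V1 := h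
            rcases (OrderDual.ofDual V2).mem_or_inv_mem x with h3 | h3
            · exact hx1 (h' h3)
            · exact hx2 h3
          · have h' : OrderDual.ofDual V1 ≤ OrderDual.ofDual V2 := h
            rcases (OrderDual.ofDual V1).mem_or_inv_mem x with h3 | h3
            · exact hx1 h3
            · exact hx2 (h' h3) }
    refine ⟨OrderDual.toDual I, ?_, ?_⟩
    · intro a V hV
      exact hcS hV a
    · intro V hV x hx
      exact hx V hV) (OrderDual.toDual O) hO
  refine ⟨OrderDual.ofDual V, hV1, hV2.prop, fun W hW hWV => ?_⟩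
  exact le_antisymm hWV (hV2.le_of_ge (y := OrderDual.toDual W) hW hWV)

/-- the key shrinking step. -/
theorem exists_lt_of_not_residual [IsAlgClosed k] (O : ValuationSubring Ω)
    (hO : ∀ c : k, algebraMap k Ω c ∈ O) (z : Ω) (hz : z ∈ O)
    (hzc : ∀ c : k, ¬ O.valuation (z - algebraMap k Ω c) < 1) :
    ∃ W : ValuationSubring Ω, (∀ c : k, algebraMap k Ω c ∈ W) ∧ W ≤ O ∧ W ≠ O := by
  have hv1 : ∀ x ∈ O, O.valuation x ≤ 1 := fun x hx => (O.valuation_le_one_iff x).mpr hx
  have hpO : ∀ p : k[X], aeval z p ∈ O := by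
    intro p
    rw [aeval_eq_sum_range]
    refine sum_mem fun i _ => ?_
    rw [Algebra.smul_def]
    exact mul_mem (hO _) (pow_mem hz i)
  have hunit : ∀ p : k[X], p ≠ 0 → O.valuation (aeval z p) = 1 := by
    intro p hp
    have hs : p.Splits := IsAlgClosed.splits p
    rw [hs.eq_prod_roots]
    rw [map_mul, aeval_C, map_multiset_prod, map_mul, map_multiset_prod]
    have h1 : O.valuation (algebraMap k Ω p.leadingCoeff) = 1 := by
      apply le_antisymm (hv1 _ (hO _))
      have h2 := hv1 _ (hO p.leadingCoeff⁻¹)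
      rw [map_inv₀, map_inv₀] at h2
      have h0 : O.valuation (algebraMap k Ω p.leadingCoeff) ≠ 0 := by
        rw [Valuation.ne_zero_iff]
        simpa using hp
      rwa [inv_le_one₀ (zero_lt_iff.mpr h0)] at h2
    rw [h1, one_mul]
    refine Multiset.prod_eq_one fun x hx => ?_
    rw [Multiset.map_map, Multiset.map_map] at hx
    obtain ⟨c, -, rfl⟩ := Multiset.mem_map.mp hx
    simp only [Function.comp_apply, map_sub, aeval_X, aeval_C]
    apply le_antisymm (hv1 _ (sub_mem hz (hO c)))
    exact not_lt.mp (hzc c)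
  let A : Subring Ω :=
    { carrier := {x | ∃ p : k[X], O.valuation (x - aeval z p) < 1}
      mul_mem' := by
        rintro a b ⟨p, hp⟩ ⟨q, hq⟩
        refine ⟨p * q, ?_⟩
        have hb : O.valuation b ≤ 1 := by
          have : b = (b - aeval z q) + aeval z q := by ring
          rw [this]
          exact (O.valuation.map_add_le hq.le (hv1 _ (hpO q)))
        have : a * b - aeval z (p * q) = (a - aeval z p) * b + aeval z p * (b - aeval z q) := by
          rw [map_mul]; ring
        rw [this]
        refine O.valuation.map_add_lt ?_ ?_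
        · rw [map_mul]
          exact mul_lt_one_of_lt_of_le hp hb
        · rw [map_mul]
          exact mul_lt_one_aux (hv1 _ (hpO p)) hq
      one_mem' := ⟨1, by simp⟩
      add_mem' := by
        rintro a b ⟨p, hp⟩ ⟨q, hq⟩
        refine ⟨p + q, ?_⟩
        have : a + b - aeval z (p + q) = (a - aeval z p) + (b - aeval z q) := by
          rw [map_add]; ring
        rw [this]
        exact O.valuation.map_add_lt hp hq
      zero_mem' := ⟨0, by simp⟩
      neg_mem' := by
        rintro a ⟨p, hp⟩
        refine ⟨-p, ?_⟩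
        have : -a - aeval z (-p) = -(a - aeval z p) := by rw [map_neg]; ring
        rw [this, Valuation.map_neg]
        exact hp }
  have hAle : ∀ x ∈ A, O.valuation x ≤ 1 := by
    rintro x ⟨p, hp⟩
    have : x = (x - aeval z p) + aeval z p := by ring
    rw [this]
    exact O.valuation.map_add_le hp.le (hv1 _ (hpO p))
  let I : Ideal A :=
    { carrier := {x | ∃ p : k[X], O.valuation ((x : Ω) - z * aeval z p) < 1}
      add_mem' := by
        rintro a b ⟨p, hp⟩ ⟨q, hq⟩
        refine ⟨p + q, ?_⟩
        have : ((a + b : A) : Ω) - z * aeval z (p + q) =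
            ((a : Ω) - z * aeval z p) + (b - z * aeval z q) := by
          rw [map_add]; push_cast; ring
        rw [this]
        exact O.valuation.map_add_lt hp hq
      zero_mem' := ⟨0, by simp⟩
      smul_mem' := by
        rintro a x ⟨p, hp⟩
        obtain ⟨q, hq⟩ := a.2
        refine ⟨q * p, ?_⟩
        have : ((a • x : A) : Ω) - z * aeval z (q * p) =
            (a : Ω) * ((x : Ω) - z * aeval z p) + (z * aeval z p) * ((a : Ω) - aeval z q) := by
          rw [map_mul, smul_eq_mul]; push_cast; ring
        rw [this]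
        refine O.valuation.map_add_lt ?_ ?_
        · rw [map_mul]
          exact mul_lt_one_aux (hAle _ a.2) hp
        · rw [map_mul]
          exact mul_lt_one_aux (hv1 _ (mul_mem hz (hpO p))) hq }
  have hI : I ≠ ⊤ := by
    intro h
    have h1 : (1 : A) ∈ I := h ▸ Submodule.mem_top
    obtain ⟨p, hp⟩ := h1
    have h2 : ((1 : A) : Ω) - z * aeval z p = aeval z (1 - X * p) := by
      rw [map_sub, map_one, map_mul, aeval_X]; push_cast; ring
    rw [h2, hunit] at hp
    · exact lt_irrefl _ hp
    · intro h3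
      have := congrArg (fun q => q.coeff 0) h3
      simp at this
  obtain ⟨V, hAV, hIV⟩ := Ideal.image_subset_nonunits_valuationSubring I hI
  have hkV : ∀ c : k, algebraMap k Ω c ∈ V := fun c => hAV ⟨C c, by simp⟩
  have hVle : V ≤ O := by
    intro x hx
    by_contra hcon
    have hx0 : x ≠ 0 := fun h => hcon (h ▸ O.zero_mem)
    have h1 : O.valuation x⁻¹ < 1 := by
      rw [← ValuationSubring.mem_nonunits_iff, ValuationSubring.inv_mem_nonunits_iff]
      exact Or.inr hcon
    have h2 : x⁻¹ ∈ A := ⟨0, by simpa using h1⟩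
    have h3 : (⟨x⁻¹, h2⟩ : A) ∈ I := ⟨0, by simpa using h1⟩
    have h4 := hIV ⟨_, h3, rfl⟩
    have h5 : x⁻¹ ∈ V.nonunits := h4
    rw [ValuationSubring.inv_mem_nonunits_iff] at h5
    rcases h5 with h5 | h5
    · exact hx0 h5
    · exact h5 hx
  refine ⟨V, hkV, hVle, ?_⟩
  intro hEq
  have hzA : z ∈ A := ⟨X, by simp⟩
  have hzI : (⟨z, hzA⟩ : A) ∈ I := ⟨1, by simp⟩
  have h4 : z ∈ V.nonunits := hIV ⟨_, hzI, rfl⟩
  rw [ValuationSubring.mem_nonunits_iff, hEq] at h4
  have := hzc 0
  rw [map_zero, sub_zero] at this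
  exact this h4

/-- Every valuation subring containing the algebraically closed field `k` contains one with
residue field `k`. -/
theorem exists_residual [IsAlgClosed k] (O : ValuationSubring Ω)
    (hO : ∀ c : k, algebraMap k Ω c ∈ O) :
    ∃ V : ValuationSubring Ω, V ≤ O ∧ IsResidual k V := by
  obtain ⟨V, hVO, hkV, hmin⟩ := exists_minimal_valuationSubring O hO
  refine ⟨V, hVO, hkV, fun z hz => ?_⟩
  by_contra hcon
  push Not at hcon
  obtain ⟨W, hW1, hW2, hW3⟩ := exists_lt_of_not_residual V hkV z hz
    (fun c => not_lt.mpr (hcon c))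
  exact hW3 (hmin W hW1 hW2)

end Fermat.Agent.MW
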