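import Fermat.Agent.MW.Sum
import Fermat.Agent.MW.Residue
import Mathlib.Order.Filter.FilterProduct
import Mathlib.Order.Filter.Germ.Basic
import Mathlib.Order.Filter.Ultrafilter.Basic

/-! # The transfer principle

To prove `|a(x)|_v ≤ C_v max_i |b_i(x)|_v` for all places `v` and all `x ∈ X`, with `C_v = 1` for
almost all `v`, it suffices to prove an exact inequality in valued fields containing `ℚ̄` with
trivially valued constants and residue field `ℚ̄`. -/

set_option autoImplicit false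

noncomputable section

open Filter

namespace Fermat.Agent.MW

/-- the ultrapower of `ℚ̄` -/
def UP (𝒰 : Ultrafilter ℕ) : Type := Germ (𝒰 : Filter ℕ) Qb

namespace UP

variable (𝒰 : Ultrafilter ℕ)

instance : Field (UP 𝒰) := inferInstanceAs (Field (Germ (𝒰 : Filter ℕ) Qb))

/-- class of a sequence -/
def mk : (ℕ → Qb) →+* UP 𝒰 where
  toFun f := ((f : Germ (𝒰 : Filter ℕ) Qb))
  map_one' := rfl
  map_mul' _ _ := rfl
  map_zero' := rfl
  map_add' _ _ := rfl

theorem mk_surjective : Function.Surjective (mk 𝒰) := fun x => by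
  induction x using Filter.Germ.inductionOn with
  | _ f => exact ⟨f, rfl⟩

theorem mk_eq_iff {f g : ℕ → Qb} : mk 𝒰 f = mk 𝒰 g ↔ ∀ᶠ n in (𝒰 : Filter ℕ), f n = g n :=
  Filter.Germ.coe_eq

instance : Algebra Qb (UP 𝒰) := ((mk 𝒰).comp (Pi.constRingHom ℕ Qb)).toAlgebra

theorem algebraMap_eq (c : Qb) : algebraMap Qb (UP 𝒰) c = mk 𝒰 (fun _ => c) := rfl

theorem mk_inv (f : ℕ → Qb) : (mk 𝒰 f)⁻¹ = mk 𝒰 (fun n => (f n)⁻¹) := rfl

/-- The valuation subring defined by a sequence of absolute values. -/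
def valRing (w : ℕ → AbsoluteValue Qb ℝ) (c : ℕ → ℝ) (hc : ∀ n, 1 ≤ c n)
    (hw : ∀ n x y, w n (x + y) ≤ c n * max (w n x) (w n y)) : ValuationSubring (UP 𝒰) where
  carrier := {z | ∃ f : ℕ → Qb, mk 𝒰 f = z ∧ ∃ m : ℕ, ∀ᶠ n in (𝒰 : Filter ℕ), w n (f n) ≤ c n ^ m}
  mul_mem' := by
    rintro _ _ ⟨f, rfl, m, hf⟩ ⟨g, rfl, l, hg⟩
    refine ⟨f * g, map_mul _ _ _, m + l, ?_⟩
    filter_upwards [hf, hg] with n h1 h2
    rw [Pi.mul_apply, map_mul, pow_add]
    exact mul_le_mul h1 h2 ((w n).nonneg _) (pow_nonneg (zero_le_one.trans (hc n)) _)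
  one_mem' := ⟨1, map_one _, 0, by simp⟩
  add_mem' := by
    rintro _ _ ⟨f, rfl, m, hf⟩ ⟨g, rfl, l, hg⟩
    refine ⟨f + g, map_add _ _ _, max m l + 1, ?_⟩
    filter_upwards [hf, hg] with n h1 h2
    refine (hw n _ _).trans ?_
    rw [pow_succ']
    have h0 : 0 ≤ c n := zero_le_one.trans (hc n)
    refine mul_le_mul_of_nonneg_left (max_le ?_ ?_) h0
    · exact h1.trans (pow_le_pow_right₀ (hc n) (le_max_left _ _))
    · exact h2.trans (pow_le_pow_right₀ (hc n) (le_max_right _ _))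
  zero_mem' := ⟨0, map_zero _, 0, by simp⟩
  neg_mem' := by
    rintro _ ⟨f, rfl, m, hf⟩
    refine ⟨-f, map_neg _ _, m, ?_⟩
    filter_upwards [hf] with n h1
    rw [Pi.neg_apply, AbsoluteValue.map_neg]
    exact h1
  mem_or_inv_mem' := by
    intro z
    obtain ⟨f, rfl⟩ := mk_surjective 𝒰 z
    rcases Ultrafilter.em 𝒰 (fun n => w n (f n) ≤ 1) with h | h
    · left
      exact ⟨f, rfl, 0, by simpa using h⟩
    · right
      refine ⟨fun n => (f n)⁻¹, (mk_inv 𝒰 f).symm, 0, ?_⟩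
      filter_upwards [h] with n hn
      rw [pow_zero, map_inv₀]
      exact inv_le_one_of_one_le₀ (not_le.mp hn).le

theorem mem_valRing {w : ℕ → AbsoluteValue Qb ℝ} {c : ℕ → ℝ} {hc : ∀ n, 1 ≤ c n}
    {hw : ∀ n x y, w n (x + y) ≤ c n * max (w n x) (w n y)} {z : UP 𝒰} :
    z ∈ valRing 𝒰 w c hc hw ↔
      ∃ f : ℕ → Qb, mk 𝒰 f = z ∧ ∃ m : ℕ, ∀ᶠ n in (𝒰 : Filter ℕ), w n (f n) ≤ c n ^ m := Iff.rfl

end UP

/-- The exactness hypothesis of the transfer principle. -/
def Exact {X ι : Type*} (a : X → Qb) (b : ι → X → Qb) : Prop :=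
  ∀ (Ω : Type) [Field Ω] [Algebra Qb Ω] (O : ValuationSubring Ω), IsResidual Qb O →
    ∀ θ : (X → Qb) →ₐ[Qb] Ω, ∃ i, O.valuation (θ a) ≤ O.valuation (θ (b i))

theorem ultra_main {X ι : Type*} (a : X → Qb) (b : ι → X → Qb) (H : Exact a b)
    (𝒰 : Ultrafilter ℕ) (w : ℕ → AbsoluteValue Qb ℝ) (c : ℕ → ℝ) (hc : ∀ n, 1 ≤ c n)
    (hw : ∀ n x y, w n (x + y) ≤ c n * max (w n x) (w n y))
    (hk : ∀ α : Qb, ∃ m : ℕ, ∀ᶠ n in (𝒰 : Filter ℕ), w n α ≤ c n ^ m) (x : ℕ → X) :
    ∃ i, ∃ m : ℕ, ∀ᶠ n in (𝒰 : Filter ℕ), w n (a (x n)) ≤ c n ^ m * w n (b i (x n)) := by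
  have hO : ∀ α : Qb, algebraMap Qb (UP 𝒰) α ∈ UP.valRing 𝒰 w c hc hw := by
    intro α
    obtain ⟨m, hm⟩ := hk α
    exact ⟨fun _ => α, rfl, m, hm⟩
  obtain ⟨V, hV, hres⟩ := exists_residual (UP.valRing 𝒰 w c hc hw) hO
  let θ : (X → Qb) →ₐ[Qb] UP 𝒰 :=
    { toFun := fun φ => UP.mk 𝒰 (fun n => φ (x n))
      map_one' := rfl
      map_mul' := fun _ _ => rfl
      map_zero' := rfl
      map_add' := fun _ _ => rfl
      commutes' := fun _ => rfl }
  obtain ⟨i, hi⟩ := H (UP 𝒰) V hres θ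
  rw [ValuationSubring.valuation_le_iff] at hi
  obtain ⟨⟨o, ho⟩, hoi⟩ := hi
  obtain ⟨f, rfl, m, hf⟩ := hV ho
  refine ⟨i, m, ?_⟩
  have h1 : UP.mk 𝒰 (fun n => f n * b i (x n)) = UP.mk 𝒰 (fun n => a (x n)) := by
    have : UP.mk 𝒰 (fun n => f n * b i (x n)) = UP.mk 𝒰 f * UP.mk 𝒰 (fun n => b i (x n)) :=
      map_mul _ _ _
    rw [this]
    exact hoi
  rw [UP.mk_eq_iff] at h1
  filter_upwards [h1, hf] with n h2 h3
  rw [← h2, map_mul]
  exact mul_le_mul_of_nonneg_right h3 ((w n).nonneg _)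

/-- **Transfer principle.** -/
theorem transfer {X ι : Type*} (a : X → Qb) (b : ι → X → Qb) (H : Exact a b) :
    ∃ C : Pl → ℝ, Adm C ∧ (∀ v, 1 ≤ C v) ∧
      ∀ v x, ∃ i, av v (a x) ≤ C v * av v (b i x) := by
  classical
  -- every place has a constant
  have hone : ∀ v, ∃ C : ℝ, 1 ≤ C ∧ ∀ x, ∃ i, av v (a x) ≤ C * av v (b i x) := by
    intro v
    by_contra hcon
    push Not at hcon
    have h2 : ∀ n : ℕ, ∃ x, ∀ i, (2 : ℝ) ^ n * av v (b i x) < av v (a x) := fun n =>
      hcon (2 ^ n) (one_le_pow₀ one_le_two)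
    choose x hx using h2
    obtain ⟨i, m, him⟩ := ultra_main a b H (Filter.hyperfilter ℕ) (fun _ => av v) (fun _ => 2)
      (fun _ => one_le_two)
      (fun n y z => by
        have h1 := (av v).add_le y z
        have h2 := le_max_left (av v y) (av v z)
        have h3 := le_max_right (av v y) (av v z)
        linarith)
      (fun α => by
        obtain ⟨m, hm⟩ := pow_unbounded_of_one_lt (av v α) (one_lt_two (α := ℝ))
        exact ⟨m, Filter.Eventually.of_forall fun _ => hm.le⟩) x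
    have h3 : ∀ᶠ n in (Filter.hyperfilter ℕ : Filter ℕ), m ≤ n := by
      have h4 : ∀ᶠ n in Filter.cofinite, m ≤ n := by
        rw [Nat.cofinite_eq_atTop]; exact Filter.eventually_ge_atTop m
      exact h4.filter_mono (Filter.hyperfilter_le_cofinite)
    obtain ⟨n, hn1, hn2⟩ := (him.and h3).exists
    have h5 := hx n i
    have h6 : (2 : ℝ) ^ m * av v (b i (x n)) ≤ (2 : ℝ) ^ n * av v (b i (x n)) :=
      mul_le_mul_of_nonneg_right (pow_le_pow_right₀ one_le_two hn2) ((av v).nonneg _)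
    linarith
  -- almost every place has constant 1
  let bad : Set Nat.Primes := {p | ¬ ∀ x, ∃ i, av (some p) (a x) ≤ av (some p) (b i x)}
  have hbad : bad.Finite := by
    by_contra hinf
    have hinf' : bad.Infinite := hinf
    let e : ℕ ↪ bad := hinf'.natEmbedding
    have h2 : ∀ n : ℕ, ∃ x, ∀ i, av (some (e n).1) (b i x) < av (some (e n).1) (a x) := by
      intro n
      have h3 : ¬ ∀ x, ∃ i, av (some (e n).1) (a x) ≤ av (some (e n).1) (b i x) := (e n).2
      push Not at h3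
      exact h3
    choose x hx using h2
    obtain ⟨i, m, him⟩ := ultra_main a b H (Filter.hyperfilter ℕ)
      (fun n => av (some (e n).1)) (fun _ => 1)
      (fun _ => le_rfl)
      (fun n y z => by
        rw [one_mul]
        exact av_add_le _ y z)
      (fun α => by
        refine ⟨0, ?_⟩
        by_cases hα : α = 0
        · subst hα
          refine Filter.Eventually.of_forall fun n => ?_
          simp
        have hfin := av_finite hα
        have h4 : ∀ᶠ n in Filter.cofinite, av (some (e n).1) α ≤ 1 ^ 0 := by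
          rw [Filter.eventually_cofinite]
          have h5 : {n : ℕ | ¬ av (some (e n).1) α ≤ 1 ^ 0} ⊆
              (fun n => (some (e n).1 : Pl)) ⁻¹' {v : Pl | av v α ≠ 1} := by
            intro n hn hcon
            apply hn
            have hcon' : av (some (e n).1) α = 1 := hcon
            rw [hcon', pow_zero]
          refine (hfin.preimage ?_).subset h5
          intro n _ m _ hnm
          have h6 : (e n).1 = (e m).1 := Option.some_injective _ hnm
          exact e.injective (Subtype.ext h6)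
        exact h4.filter_mono (Filter.hyperfilter_le_cofinite)) x
    obtain ⟨n, hn⟩ := him.exists
    have h5 := hx n i
    rw [one_pow, one_mul] at hn
    linarith
  choose C hC1 hC2 using hone
  refine ⟨fun v => if v = none ∨ ∃ p ∈ bad, v = some p then C v else 1, ?_, ?_, ?_⟩
  · refine Adm.of_ite ({none} ∪ some '' bad) ((Set.finite_singleton _).union (hbad.image _)) ?_ ?_
    · intro v
      split_ifs
      · exact zero_lt_one.trans_le (hC1 v)
      · exact one_pos
    · intro v hv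
      rw [if_neg]
      rintro (rfl | ⟨p, hp, rfl⟩)
      · exact hv (Or.inl rfl)
      · exact hv (Or.inr ⟨p, hp, rfl⟩)
  · intro v
    dsimp only
    split_ifs
    · exact hC1 v
    · exact le_rfl
  · intro v x
    dsimp only
    split_ifs with h
    · exact hC2 v x
    · rcases v with _ | p
      · exact absurd (Or.inl rfl) h
      · have hp : p ∉ bad := fun hp => h (Or.inr ⟨p, hp, rfl⟩)
        have hp' : ∀ x, ∃ i, av (some p) (a x) ≤ av (some p) (b i x) := by
          by_contra hcon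
          exact hp hcon
        obtain ⟨i, hi⟩ := hp' x
        exact ⟨i, by rwa [one_mul]⟩

end Fermat.Agent.MW
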