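import Fermat.Agent.MW.Nrm
import Fermat.Agent.MW.Transfer
import Mathlib.RingTheory.MvPolynomial.Homogeneous

/-! # Homogeneous polynomial maps without nontrivial zeros (block [C]) -/

set_option autoImplicit false
set_option linter.unusedSectionVars false
set_option linter.style.haveILetI false
set_option maxHeartbeats 400000

noncomputable section

open MvPolynomial

namespace Fermat.Agent.MW.HM

variable {σ σ' τ : Type} [Finite σ] [Finite σ'] [Finite τ]

/-! ### Valuation-theoretic lemmas -/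

section val

variable {Ω : Type} [Field Ω] [Algebra Qb Ω] {O : ValuationSubring Ω}

theorem val_const (hO : IsResidual Qb O) {c : Qb} (hc : c ≠ 0) :
    O.valuation (algebraMap Qb Ω c) = 1 := by
  have h1 := (O.valuation_le_one_iff _).mpr (hO.mem c)
  have h2 := (O.valuation_le_one_iff _).mpr (hO.mem c⁻¹)
  rw [map_inv₀, map_inv₀] at h2
  have h0 : O.valuation (algebraMap Qb Ω c) ≠ 0 := by
    rw [Valuation.ne_zero_iff]
    simpa using hc
  rw [inv_le_one₀ (zero_lt_iff.mpr h0)] at h2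
  exact le_antisymm h1 h2

theorem val_const_le (hO : IsResidual Qb O) (c : Qb) :
    O.valuation (algebraMap Qb Ω c) ≤ 1 := (O.valuation_le_one_iff _).mpr (hO.mem c)

/-- congruent elements: if `c ≠ 0` then the valuation is one -/
theorem val_eq_one_of_congr (hO : IsResidual Qb O) {z : Ω} {c : Qb} (hc : c ≠ 0)
    (h : O.valuation (z - algebraMap Qb Ω c) < 1) : O.valuation z = 1 := by
  have h1 := val_const hO hc
  have h2 : z = algebraMap Qb Ω c + (z - algebraMap Qb Ω c) := by ring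
  rw [h2]
  rw [Valuation.map_add_eq_of_lt_left _ (by rw [h1]; exact h), h1]

/-- the congruence relation modulo the maximal ideal, as a statement about polynomials -/
theorem congr_aeval (hO : IsResidual Qb O) {g : σ → Ω} {c : σ → Qb}
    (hg : ∀ i, g i ∈ O) (h : ∀ i, O.valuation (g i - algebraMap Qb Ω (c i)) < 1)
    (Φ : MvPolynomial σ Qb) :
    aeval g Φ ∈ O ∧ O.valuation (aeval g Φ - algebraMap Qb Ω (eval c Φ)) < 1 := by
  induction Φ using MvPolynomial.induction_on with
  | C a =>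
    rw [aeval_C, eval_C, sub_self, map_zero]
    exact ⟨hO.mem a, zero_lt_one⟩
  | add p q hp hq =>
    rw [map_add, map_add, map_add]
    refine ⟨add_mem hp.1 hq.1, ?_⟩
    have : aeval g p + aeval g q - (algebraMap Qb Ω (eval c p) + algebraMap Qb Ω (eval c q)) =
      (aeval g p - algebraMap Qb Ω (eval c p)) + (aeval g q - algebraMap Qb Ω (eval c q)) := by ring
    rw [this]
    exact O.valuation.map_add_lt hp.2 hq.2
  | mul_X p i hp =>
    rw [map_mul, map_mul, map_mul, aeval_X, eval_X]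
    refine ⟨mul_mem hp.1 (hg i), ?_⟩
    have : aeval g p * g i - algebraMap Qb Ω (eval c p) * algebraMap Qb Ω (c i) =
      (aeval g p - algebraMap Qb Ω (eval c p)) * g i +
        algebraMap Qb Ω (eval c p) * (g i - algebraMap Qb Ω (c i)) := by ring
    rw [this]
    refine O.valuation.map_add_lt ?_ ?_
    · rw [map_mul, mul_comm]
      exact mul_lt_one_aux ((O.valuation_le_one_iff _).mpr (hg i)) hp.2
    · rw [map_mul]
      exact mul_lt_one_aux (val_const_le hO _) (h i)

/-- scaling a nonzero vector -/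
theorem exists_scale (hO : IsResidual Qb O) {t : σ → Ω} (ht : t ≠ 0) :
    ∃ (s : Ω) (g : σ → Ω) (c : σ → Qb), s ≠ 0 ∧ (∀ i, t i = s * g i) ∧ (∀ i, g i ∈ O) ∧
      (∀ i, O.valuation (g i - algebraMap Qb Ω (c i)) < 1) ∧ c ≠ 0 ∧
      (∀ i, O.valuation (t i) ≤ O.valuation s) ∧ ∃ j, s = t j := by
  classical
  haveI := Fintype.ofFinite σ
  obtain ⟨i₀, hi₀⟩ := Function.ne_iff.mp ht
  haveI : Nonempty σ := ⟨i₀⟩
  obtain ⟨j, -, hj⟩ := Finset.exists_max_image Finset.univ (fun i => O.valuation (t i))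
    Finset.univ_nonempty
  have hs : t j ≠ 0 := by
    intro h0
    have h1 := hj i₀ (Finset.mem_univ _)
    rw [h0, map_zero, le_zero_iff, Valuation.zero_iff] at h1
    exact hi₀ h1
  have hg : ∀ i, t i / t j ∈ O := by
    intro i
    rw [← O.valuation_le_one_iff, map_div₀]
    refine div_le_one_of_le₀ (hj i (Finset.mem_univ _)) zero_le
  choose c hc using fun i => hO.res _ (hg i)
  refine ⟨t j, fun i => t i / t j, c, hs, fun i => by field_simp, hg, hc, ?_,
    fun i => hj i (Finset.mem_univ _), j, rfl⟩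
  intro h0
  have h1 := hc j
  rw [h0, div_self hs] at h1
  simp at h1

end val

/-! ### The polynomial transfer lemmas -/

theorem theta_poly {X : Type*} {Ω : Type} [Field Ω] [Algebra Qb Ω] (θ : (X → Qb) →ₐ[Qb] Ω)
    (coord : σ → X → Qb) (Φ : MvPolynomial σ Qb) :
    θ (fun x => eval (fun i => coord i x) Φ) = aeval (fun i => θ (coord i)) Φ := by
  induction Φ using MvPolynomial.induction_on with
  | C a =>
    simp only [eval_C, aeval_C]
    exact θ.commutes a
  | add p q hp hq =>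
    simp only [map_add]
    rw [← hp, ← hq, ← map_add]
    rfl
  | mul_X p i hp =>
    simp only [map_mul, eval_X, aeval_X]
    rw [← hp, ← map_mul]
    rfl

theorem aeval_smul_homog {Ω : Type} [Field Ω] [Algebra Qb Ω] {Φ : MvPolynomial σ Qb} {D : ℕ}
    (hΦ : Φ.IsHomogeneous D) (s : Ω) (g : σ → Ω) :
    aeval (fun i => s * g i) Φ = s ^ D * aeval g Φ := by
  classical
  haveI := Fintype.ofFinite σ
  rw [MvPolynomial.aeval_def, MvPolynomial.aeval_def, MvPolynomial.eval₂_eq', MvPolynomial.eval₂_eq',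
    Finset.mul_sum]
  refine Finset.sum_congr rfl fun m hm => ?_
  have h1 : ∑ i, m i = D := by
    have h2 := hΦ (MvPolynomial.mem_support_iff.mp hm)
    rw [Finsupp.weight_apply, Finsupp.sum_fintype] at h2
    · simpa using h2
    · intro i; simp
  simp_rw [mul_pow]
  rw [Finset.prod_mul_distrib, Finset.prod_pow_eq_pow_sum, h1]
  ring

/-- **lower bound** for a homogeneous polynomial map without nontrivial zeros -/
theorem homog_lower (Φ : τ → MvPolynomial σ Qb) {D : ℕ} (hD : D ≠ 0)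
    (hΦ : ∀ l, (Φ l).IsHomogeneous D)
    (hz : ∀ x : σ → Qb, (∀ l, eval x (Φ l) = 0) → x = 0) (i₀ : σ) :
    ∃ C : Pl → ℝ, Adm C ∧ (∀ v, 1 ≤ C v) ∧
      ∀ v (x : σ → Qb), ∃ l, av v (x i₀) ^ D ≤ C v * av v (eval x (Φ l)) := by
  obtain ⟨C, h1, h2, h3⟩ := transfer (X := σ → Qb) (fun x => x i₀ ^ D)
    (fun l x => eval x (Φ l)) (by
      intro Ω _ _ O hO θ
      let t : σ → Ω := fun i => θ (fun x => x i)
      have hb : ∀ l, θ (fun x => eval x (Φ l)) = aeval t (Φ l) := fun l =>
        theta_poly θ (fun i x => x i) (Φ l)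
      have ha : θ (fun x => x i₀ ^ D) = t i₀ ^ D := map_pow θ (fun x : σ → Qb => x i₀) D
      rw [ha]
      simp_rw [hb]
      by_cases ht : t = 0
      · obtain ⟨l⟩ : Nonempty τ := by
          by_contra hne
          rw [not_nonempty_iff] at hne
          have := congrFun (hz (fun _ => 1) (fun l => hne.elim l)) i₀
          exact one_ne_zero this
        refine ⟨l, ?_⟩
        rw [ht, Pi.zero_apply, zero_pow hD, map_zero]
        exact zero_le
      · obtain ⟨s, g, c, hs, htg, hg, hgc, hc, hle, -⟩ := exists_scale hO ht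
        obtain ⟨l, hl⟩ : ∃ l, eval c (Φ l) ≠ 0 := by
          by_contra hcon
          push Not at hcon
          exact hc (hz c hcon)
        refine ⟨l, ?_⟩
        have h4 : t = fun i => s * g i := funext htg
        have h5 : O.valuation (aeval g (Φ l)) = 1 :=
          val_eq_one_of_congr hO hl (congr_aeval hO hg hgc (Φ l)).2
        have h6 : O.valuation (aeval t (Φ l)) = O.valuation s ^ D := by
          rw [h4, aeval_smul_homog (hΦ l), map_mul, h5, mul_one, map_pow]
        rw [h6, map_pow]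
        exact pow_le_pow_left₀ zero_le (hle i₀) D)
  refine ⟨C, h1, h2, fun v x => ?_⟩
  obtain ⟨l, hl⟩ := h3 v x
  exact ⟨l, by rwa [map_pow] at hl⟩

/-- **upper bound** for a homogeneous polynomial -/
theorem homog_upper (Φ : MvPolynomial σ Qb) {D : ℕ} (hΦ : Φ.IsHomogeneous D) [Nonempty σ] :
    ∃ C : Pl → ℝ, Adm C ∧ (∀ v, 1 ≤ C v) ∧
      ∀ v (x : σ → Qb), ∃ i, av v (eval x Φ) ≤ C v * av v (x i) ^ D := by
  obtain ⟨C, h1, h2, h3⟩ := transfer (X := σ → Qb) (fun x => eval x Φ)
    (fun i x => x i ^ D) (by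
      intro Ω _ _ O hO θ
      let t : σ → Ω := fun i => θ (fun x => x i)
      have hb : θ (fun x => eval x Φ) = aeval t Φ := theta_poly θ (fun i x => x i) Φ
      have ha : ∀ i, θ (fun x => x i ^ D) = t i ^ D := fun i =>
        map_pow θ (fun x : σ → Qb => x i) D
      rw [hb]
      simp_rw [ha]
      by_cases ht : t = 0
      · refine ⟨Classical.arbitrary σ, ?_⟩
        have h4 : aeval t Φ = 0 ^ D * aeval (fun _ => (0 : Ω)) Φ := by
          rw [← aeval_smul_homog hΦ 0 (fun _ => 0)]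
          rw [ht]
          simp only [mul_zero]
          rfl
        have h5 : t (Classical.arbitrary σ) = 0 := by rw [ht]; rfl
        rw [h4, h5, map_mul]
        exact mul_le_of_le_one_right' ((O.valuation_le_one_iff _).mpr
          (congr_aeval (c := 0) hO (fun i => zero_mem O) (fun i => by simp) Φ).1)
      · obtain ⟨s, g, c, hs, htg, hg, hgc, hc, hle, j, hj⟩ := exists_scale hO ht
        refine ⟨j, ?_⟩
        have h4 : t = fun i => s * g i := funext htg
        have h5 : O.valuation (aeval g Φ) ≤ 1 :=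
          (O.valuation_le_one_iff _).mpr (congr_aeval hO hg hgc Φ).1
        rw [← hj]
        rw [h4, aeval_smul_homog hΦ, map_mul]
        exact mul_le_of_le_one_right' h5)
  refine ⟨C, h1, h2, fun v x => ?_⟩
  obtain ⟨l, hl⟩ := h3 v x
  exact ⟨l, by rwa [map_pow] at hl⟩

/-! ### combining constants -/

/-- The maximum of finitely many admissible constants `≥ 1`. -/
theorem exists_adm_max {ι : Type} [Finite ι] (C : ι → Pl → ℝ) (hC : ∀ i, Adm (C i))
    (h1 : ∀ i v, 1 ≤ C i v) :
    ∃ D : Pl → ℝ, Adm D ∧ (∀ v, 1 ≤ D v) ∧ ∀ i v, C i v ≤ D v := by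
  classical
  haveI := Fintype.ofFinite ι
  have key : ∀ s : Finset ι, ∃ D : Pl → ℝ, Adm D ∧ (∀ v, 1 ≤ D v) ∧ ∀ i ∈ s, ∀ v, C i v ≤ D v := by
    intro s
    induction s using Finset.induction_on with
    | empty => exact ⟨fun _ => 1, Adm.one, fun _ => le_rfl, by simp⟩
    | insert i s hi ih =>
      obtain ⟨D, hD, hD1, hD2⟩ := ih
      refine ⟨fun v => C i v * D v, (hC i).mul hD, fun v => one_le_mul_of_one_le_of_one_le (h1 i v) (hD1 v), ?_⟩
      intro j hj v
      rcases Finset.mem_insert.mp hj with rfl | hj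
      · exact le_mul_of_one_le_right (zero_le_one.trans (h1 _ v)) (hD1 v)
      · exact (hD2 j hj v).trans (le_mul_of_one_le_left (zero_le_one.trans (hD1 v)) (h1 i v))
  obtain ⟨D, hD, hD1, hD2⟩ := key Finset.univ
  exact ⟨D, hD, hD1, fun i v => hD2 i (Finset.mem_univ _) v⟩

/-- `|x|^D ≍ |Φ(x)|`, lower bound -/
theorem homog_ge (Φ : τ → MvPolynomial σ Qb) {D : ℕ} (hD : D ≠ 0)
    (hΦ : ∀ l, (Φ l).IsHomogeneous D)
    (hz : ∀ x : σ → Qb, (∀ l, eval x (Φ l) = 0) → x = 0) :
    ∃ C : Pl → ℝ, Adm C ∧ (∀ v, 1 ≤ C v) ∧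
      ∀ v (x : σ → Qb), nrm v x ^ D ≤ C v * nrm v (fun l => eval x (Φ l)) := by
  choose C h1 h2 h3 using homog_lower Φ hD hΦ hz
  obtain ⟨E, hE, hE1, hE2⟩ := exists_adm_max C h1 h2
  refine ⟨E, hE, hE1, fun v x => ?_⟩
  rcases isEmpty_or_nonempty σ with hσ | hσ
  · have : nrm v x = 0 := by unfold nrm; rw [Real.iSup_of_isEmpty]
    rw [this, zero_pow hD]
    exact mul_nonneg (zero_le_one.trans (hE1 v)) (nrm_nonneg _ _)
  · obtain ⟨i, hi⟩ := exists_nrm_eq v x
    rw [hi]
    obtain ⟨l, hl⟩ := h3 i v x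
    refine hl.trans ?_
    exact mul_le_mul (hE2 i v) (le_nrm v (fun l => eval x (Φ l)) l) ((av v).nonneg _)
      (zero_le_one.trans (hE1 v))

/-- `|x|^D ≍ |Φ(x)|`, upper bound -/
theorem homog_le (Φ : τ → MvPolynomial σ Qb) {D : ℕ} (hD : D ≠ 0)
    (hΦ : ∀ l, (Φ l).IsHomogeneous D) :
    ∃ C : Pl → ℝ, Adm C ∧ (∀ v, 1 ≤ C v) ∧
      ∀ v (x : σ → Qb), nrm v (fun l => eval x (Φ l)) ≤ C v * nrm v x ^ D := by
  rcases isEmpty_or_nonempty σ with hσ | hσ
  · refine ⟨fun _ => 1, Adm.one, fun _ => le_rfl, fun v x => ?_⟩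
    rw [one_mul]
    refine nrm_le' (pow_nonneg (nrm_nonneg _ _) _) fun l => ?_
    have h1 : eval x (Φ l) = 0 := by
      have h2 := aeval_smul_homog (hΦ l) (0 : Qb) x
      have h3 : (fun i => (0 : Qb) * x i) = x := Subsingleton.elim _ _
      rw [h3, zero_pow hD, zero_mul] at h2
      exact h2
    rw [h1, map_zero]
    exact pow_nonneg (nrm_nonneg _ _) _
  choose C h1 h2 h3 using fun l => homog_upper (Φ l) (hΦ l)
  obtain ⟨E, hE, hE1, hE2⟩ := exists_adm_max C h1 h2
  refine ⟨E, hE, hE1, fun v x => ?_⟩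
  refine nrm_le' (mul_nonneg (zero_le_one.trans (hE1 v)) (pow_nonneg (nrm_nonneg _ _) _)) fun l => ?_
  obtain ⟨i, hi⟩ := h3 l v x
  refine hi.trans ?_
  exact mul_le_mul (hE2 l v) (pow_le_pow_left₀ ((av v).nonneg _) (le_nrm v x i) _)
    (pow_nonneg ((av v).nonneg _) _) (zero_le_one.trans (hE1 v))

end Fermat.Agent.MW.HM
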