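import Fermat.Agent.MW.QuadChar
import Mathlib.Data.ZMod.IntUnitsPower

/-! # The weak Mordell-Weil theorem, abstract form (block [W]) -/

set_option autoImplicit false
set_option linter.unusedSectionVars false
set_option linter.style.haveILetI false
set_option maxHeartbeats 400000

noncomputable section

open NumberField IsDedekindDomain Module
open scoped nonZeroDivisors Pointwise
open Fermat.Agent.CFT6 (ord ord_mul)

namespace Fermat.Agent.MW

local notation "Q̄" => AlgebraicClosure ℚ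
local notation "GQ" => AlgebraicClosure ℚ ≃ₐ[ℚ] AlgebraicClosure ℚ

/-- the characters which are continuous and unramified outside `S`. -/
def goodChars (K : IntermediateField ℚ Q̄) (S : Set ℕ) : Set (K.fixingSubgroup →* ℤˣ) :=
  {χ | (∃ L : IntermediateField ℚ Q̄, FiniteDimensional ℚ L ∧
      ∀ σ (hσ : σ ∈ K.fixingSubgroup), σ ∈ L.fixingSubgroup → χ ⟨σ, hσ⟩ = 1) ∧
    ∀ ℓ : ℕ, ℓ.Prime → ℓ ∉ S → ∀ A : ValuationSubring Q̄, A.LiesOverPrime ℓ →
      ∀ τ ∈ A.inertiaSubgroupIn ℚ, ∀ hτ : τ ∈ K.fixingSubgroup, χ ⟨τ, hτ⟩ = 1}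

/-- **Finiteness of quadratic characters with restricted ramification.** -/
theorem finite_goodChars (K : IntermediateField ℚ Q̄) [NumberField K] {S : Set ℕ} (hS : S.Finite) :
    (goodChars K S).Finite := by
  classical
  haveI : FiniteDimensional ℚ K := NumberField.to_finiteDimensional
  let T : Set (HeightOneSpectrum (𝓞 K)) := {v | ∃ ℓ ∈ S, ℓ.Prime ∧ (ℓ : 𝓞 K) ∈ v.asIdeal}
  have hT : T.Finite := by
    have h1 : T ⊆ ⋃ ℓ ∈ {ℓ ∈ S | ℓ.Prime}, {v : HeightOneSpectrum (𝓞 K) | ord v (ℓ : K) ≠ 0} := by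
      rintro v ⟨ℓ, hℓS, hℓ, hv⟩
      simp only [Set.mem_iUnion]
      refine ⟨ℓ, ⟨hℓS, hℓ⟩, ?_⟩
      intro h0
      have hℓ0 : (ℓ : K) ≠ 0 := by exact_mod_cast hℓ.ne_zero
      rw [Fermat.Agent.CFT6.ord_eq_zero_iff hℓ0] at h0
      have h2 := (v.valuation_lt_one_iff_mem (K := K) (ℓ : 𝓞 K)).mpr hv
      have h3 : algebraMap (𝓞 K) K (ℓ : 𝓞 K) = (ℓ : K) := map_natCast _ _
      have h4 : v.valuation K (algebraMap (𝓞 K) K (ℓ : 𝓞 K)) = 1 := by rw [h3]; exact h0
      rw [h4] at h2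
      exact lt_irrefl _ h2
    refine Set.Finite.subset ?_ h1
    refine Set.Finite.biUnion (hS.subset fun _ h => h.1) fun ℓ hℓ => ?_
    exact finite_ord _ (by exact_mod_cast hℓ.2.ne_zero)
  obtain ⟨R, hR, hRep⟩ := exists_selmer_reps T hT
  have hsub : goodChars K S ⊆ ⋃ r ∈ R, {χ : K.fixingSubgroup →* ℤˣ | ∃ α : Q̄, α ≠ 0 ∧
      α ^ 2 = (r : Q̄) ∧ ∀ σ : K.fixingSubgroup, (σ : GQ) α = ((χ σ : ℤˣ) : ℤ) * α} := by
    rintro χ ⟨hχ1, hχ2⟩
    obtain ⟨α, hα, hσα⟩ := exists_sqrt K χ hχ1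
    have haK : α ^ 2 ∈ K := by
      rw [← InfiniteGalois.fixedField_fixingSubgroup K, IntermediateField.mem_fixedField_iff]
      intro σ hσ
      rw [map_pow, hσα ⟨σ, hσ⟩, mul_pow]
      have : ((((χ ⟨σ, hσ⟩ : ℤˣ) : ℤ) : Q̄)) ^ 2 = 1 := by
        rcases Int.units_eq_one_or (χ ⟨σ, hσ⟩) with h | h <;> rw [h] <;> simp
      rw [this, one_mul]
    let a : K := ⟨α ^ 2, haK⟩
    have ha0 : a ≠ 0 := fun h => pow_ne_zero 2 hα (congrArg Subtype.val h)
    obtain ⟨r, hr, b, hb, hab⟩ := hRep a ha0 (by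
      intro v hv
      obtain ⟨q, hq⟩ := Fermat.Agent.CFT6.exists_prime_mem v
      haveI : Fact (q : ℕ).Prime := ⟨q.2⟩
      refine even_ord (ℓ := (q : ℕ)) hq hα rfl ?_
      intro A hA τ hτ hτK
      have h1 := hχ2 q q.2 (fun hqS => hv ⟨q, hqS, q.2, hq⟩) A hA τ hτ hτK
      have h2 := hσα ⟨τ, hτK⟩
      rw [h1] at h2
      simpa using h2)
    simp only [Set.mem_iUnion]
    have hb0 : (b : Q̄) ≠ 0 := fun h => hb (Subtype.ext h)
    refine ⟨r, hr, α / b, div_ne_zero hα hb0, ?_, fun σ => ?_⟩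
    · have h1 : α ^ 2 = (r : Q̄) * (b : Q̄) ^ 2 := congrArg Subtype.val hab
      rw [div_pow, h1]
      field_simp
    · rw [map_div₀, hσα σ]
      have h2 : (σ : GQ) (b : Q̄) = b :=
        (IntermediateField.mem_fixingSubgroup_iff K σ.1).mp σ.2 _ b.2
      rw [h2, mul_div_assoc]
  refine Set.Finite.subset (Set.Finite.biUnion hR fun r _ => ?_) hsub
  refine Set.Subsingleton.finite ?_
  rintro χ ⟨α, hα, hαr, hχ⟩ χ' ⟨β, hβ, hβr, hχ'⟩
  have h1 : α = β ∨ α = -β := sq_eq_sq_iff_eq_or_eq_neg.mp (hαr.trans hβr.symm)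
  ext σ
  have h2 := hχ σ
  have h3 := hχ' σ
  have h4 : ((((χ σ : ℤˣ) : ℤ)) : Q̄) = (((χ' σ : ℤˣ) : ℤ) : Q̄) := by
    rcases h1 with h1 | h1
    · rw [h1] at h2
      exact mul_right_cancel₀ hβ (h2.symm.trans h3)
    · rw [h1, map_neg] at h2
      have h5 : (σ : GQ) β = (((χ σ : ℤˣ) : ℤ) : Q̄) * β := by
        rw [← neg_inj, h2]; ring
      exact mul_right_cancel₀ hβ (h5.symm.trans h3)
  exact_mod_cast h4

/-- the sign character of `ZMod 2` -/
def sgn2 : Multiplicative (ZMod 2) →* ℤˣ where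
  toFun a := (-1 : ℤˣ) ^ (Multiplicative.toAdd a)
  map_one' := by simp
  map_mul' a b := by rw [toAdd_mul, uzpow_add]

theorem sgn2_injective : Function.Injective sgn2 := by decide

variable {J : Type*} [AddCommGroup J] [DistribMulAction GQ J]

/-- **Weak Mordell-Weil, abstract form.** -/
theorem weak_mw (hdiv : ∀ x : J, ∃ y : J, 2 • y = x) (hfin : {y : J | 2 • y = 0}.Finite)
    (hlev : ∀ x : J, ∃ L : IntermediateField ℚ Q̄, FiniteDimensional ℚ L ∧
      ∀ σ ∈ L.fixingSubgroup, σ • x = x)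
    {S : Set ℕ} (hS : S.Finite)
    (hun : ∀ ℓ : ℕ, ℓ.Prime → ℓ ∉ S → ∀ A : ValuationSubring Q̄, A.LiesOverPrime ℓ →
      ∀ τ ∈ A.inertiaSubgroupIn ℚ, ∀ y : J, (∀ σ : GQ, σ • (2 • y) = 2 • y) → τ • y = y) :
    (nsmulAddMonoidHom (α := FixedPoints.addSubgroup GQ J) 2).range.FiniteIndex := by
  classical
  -- the 2-torsion
  let J2 : AddSubgroup J := (nsmulAddMonoidHom (α := J) 2).ker
  have hJ2 : ∀ y : J, y ∈ J2 ↔ 2 • y = 0 := fun _ => Iff.rfl
  haveI : Finite J2 := hfin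
  letI : Module (ZMod 2) J2 := AddCommGroup.zmodModule (n := 2) fun y => Subtype.ext y.2
  -- the field K
  choose Lv hLfd hLfix using hlev
  haveI := Fintype.ofFinite J2
  let K : IntermediateField ℚ Q̄ := ⨆ y : J2, Lv y
  haveI : FiniteDimensional ℚ K := by
    haveI : ∀ y : J2, FiniteDimensional ℚ (Lv (y : J)) := fun y => hLfd y
    exact IntermediateField.finiteDimensional_iSup_of_finite
  haveI : NumberField K := ⟨⟩
  have hK : ∀ σ ∈ K.fixingSubgroup, ∀ y : J2, σ • (y : J) = y := by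
    intro σ hσ y
    exact hLfix _ σ (IntermediateField.fixingSubgroup_le (le_iSup (fun y : J2 => Lv y) y) hσ)
  -- the group of invariants
  let M := FixedPoints.addSubgroup GQ J
  have hM : ∀ x : M, ∀ σ : GQ, σ • (x : J) = x := fun x σ => x.2 σ
  choose hf hhf using fun x : M => hdiv (x : J)
  have hc : ∀ (x : M) (σ : GQ), σ • hf x - hf x ∈ J2 := by
    intro x σ
    rw [hJ2, smul_sub, ← smul_comm σ 2 (hf x), hhf, hM, sub_self]
  let c : M → GQ → J2 := fun x σ => ⟨σ • hf x - hf x, hc x σ⟩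
  have hcc : ∀ x σ, (c x σ : J) = σ • hf x - hf x := fun _ _ => rfl
  have hcmul : ∀ (x : M) (σ τ : GQ), σ ∈ K.fixingSubgroup → c x (σ * τ) = c x σ + c x τ := by
    intro x σ τ hσ
    apply Subtype.ext
    rw [AddSubgroup.coe_add, hcc, hcc]
    have h1 := hK σ hσ (c x τ)
    rw [hcc, smul_sub] at h1
    rw [mul_smul]
    have h2 : σ • τ • hf x = τ • hf x - hf x + σ • hf x := by rw [← h1]; abel
    rw [h2, hcc]; abel
  -- the characters
  let hom : M → Module.Dual (ZMod 2) J2 → (K.fixingSubgroup →* ℤˣ) := fun x lam =>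
    sgn2.comp (MonoidHom.mk' (fun σ => Multiplicative.ofAdd (lam (c x (σ : GQ)))) (by
      intro σ τ
      rw [← ofAdd_add, ← map_add, ← hcmul x σ τ σ.2]
      rfl))
  have hhom : ∀ x lam (σ : K.fixingSubgroup), hom x lam σ =
      sgn2 (Multiplicative.ofAdd (lam (c x (σ : GQ)))) := fun _ _ _ => rfl
  have hgood : ∀ x lam, hom x lam ∈ goodChars K S := by
    intro x lam
    refine ⟨⟨Lv (hf x), hLfd _, ?_⟩, ?_⟩
    · intro σ hσ hσL
      rw [hhom]
      have h1 : c x σ = 0 := Subtype.ext (by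
        rw [hcc, hLfix _ σ hσL, sub_self]; rfl)
      have h2 : c x ((⟨σ, hσ⟩ : K.fixingSubgroup) : GQ) = 0 := h1
      rw [h2, map_zero, ofAdd_zero, map_one]
    · intro ℓ hℓ hℓS A hA τ hτ hτK
      rw [hhom]
      have h1 : c x τ = 0 := Subtype.ext (by
        rw [hcc, hun ℓ hℓ hℓS A hA τ hτ (hf x) (by intro σ; rw [hhf]; exact hM x σ), sub_self]
        rfl)
      have h2 : c x ((⟨τ, hτK⟩ : K.fixingSubgroup) : GQ) = 0 := h1
      rw [h2, map_zero, ofAdd_zero, map_one]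
  haveI hfc : Finite (goodChars K S) := finite_goodChars K hS
  haveI : Finite (GQ ⧸ K.fixingSubgroup) := by
    have h1 : IsOpen (K.fixingSubgroup : Set GQ) := IntermediateField.fixingSubgroup_isOpen K
    exact Subgroup.quotient_finite_of_isOpen K.fixingSubgroup h1
  haveI : Finite (Module.Dual (ZMod 2) J2) :=
    Finite.of_injective (fun f : Module.Dual (ZMod 2) J2 => (f : J2 → ZMod 2))
      DFunLike.coe_injective
  let Ψ : M → (Module.Dual (ZMod 2) J2 → goodChars K S) × (GQ ⧸ K.fixingSubgroup → J2) :=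
    fun x => (fun lam => ⟨hom x lam, hgood x lam⟩, fun q => c x (Quotient.out q))
  have hΨ : ∀ x x' : M, Ψ x = Ψ x' → ∃ z : M, x - x' = 2 • z := by
    intro x x' h
    have h1 : ∀ lam, hom x lam = hom x' lam := fun lam =>
      congrArg Subtype.val (congrFun (congrArg Prod.fst h) lam)
    have h2 : ∀ q : GQ ⧸ K.fixingSubgroup, c x (Quotient.out q) = c x' (Quotient.out q) :=
      fun q => congrFun (congrArg Prod.snd h) q
    have h3 : ∀ σ ∈ K.fixingSubgroup, c x σ = c x' σ := by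
      intro σ hσ
      rw [← sub_eq_zero]
      rw [← Module.forall_dual_apply_eq_zero_iff (ZMod 2)]
      intro lam
      have h4 := DFunLike.congr_fun (h1 lam) ⟨σ, hσ⟩
      rw [hhom, hhom] at h4
      have h5 := sgn2_injective h4
      have h6 : lam (c x σ) = lam (c x' σ) := Multiplicative.ofAdd.injective h5
      rw [map_sub, h6, sub_self]
    let z := hf x - hf x'
    have hz : ∀ σ : GQ, σ • z - z = (c x σ : J) - (c x' σ : J) := by
      intro σ
      rw [hcc, hcc]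
      show σ • (hf x - hf x') - (hf x - hf x') = _
      rw [smul_sub]; abel
    have hz1 : ∀ σ ∈ K.fixingSubgroup, σ • z = z := by
      intro σ hσ
      have := hz σ
      rw [h3 σ hσ, sub_self, sub_eq_zero] at this
      exact this
    have hz2 : ∀ σ : GQ, σ • z = z := by
      intro σ
      let q : GQ ⧸ K.fixingSubgroup := QuotientGroup.mk σ
      have h4 : (QuotientGroup.mk (Quotient.out q) : GQ ⧸ K.fixingSubgroup) = QuotientGroup.mk σ :=
        QuotientGroup.out_eq' q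
      rw [QuotientGroup.eq] at h4
      have h5 : σ = Quotient.out q * ((Quotient.out q)⁻¹ * σ) := by rw [mul_inv_cancel_left]
      rw [h5, mul_smul, hz1 _ h4]
      have h6 := hz (Quotient.out q)
      rw [h2 q, sub_self, sub_eq_zero] at h6
      exact h6
    refine ⟨⟨z, hz2⟩, Subtype.ext ?_⟩
    rw [AddSubgroup.coe_sub, AddSubgroup.coe_nsmul]
    show (x : J) - x' = 2 • (hf x - hf x')
    rw [smul_sub, hhf, hhf]
  refine AddSubgroup.finiteIndex_iff_finite_quotient.mpr ?_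
  refine Finite.of_injective (fun q : M ⧸ (nsmulAddMonoidHom (α := M) 2).range =>
    Ψ (Quotient.out q)) ?_
  intro q q' h
  obtain ⟨z, hz⟩ := hΨ _ _ h
  have h1 : (QuotientAddGroup.mk (Quotient.out q) : M ⧸ (nsmulAddMonoidHom (α := M) 2).range) =
      QuotientAddGroup.mk (Quotient.out q') := by
    rw [QuotientAddGroup.eq]
    refine ⟨-z, ?_⟩
    show 2 • (-z) = _
    rw [smul_neg, ← hz]; abel
  rwa [QuotientAddGroup.out_eq', QuotientAddGroup.out_eq'] at h1

end Fermat.Agent.MW
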