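import Fermat.Agent.TorsInj.S18Core
import Fermat.Agent.HeckeRed.Along
import Fermat.Agent.Deuring.Unique
import Fermat.Agent.HeckeRed.Dat
import Fermat.Agent.HeckeRed.Residue
import Fermat.Agent.HeckeRed.FF
import Fermat.Agent.TorsInj.Nonspecial
import Fermat.Agent.GalJ.Level
import Fermat.Agent.BaseChangeFF.Divisible
import Fermat.Agent.S27
import Fermat.Agent.MW.WeakMW
import Fermat.Agent.Cusps.GenusQb

/-!
# Inertia at good primes and divisibility by `2`
-/

set_option autoImplicit false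
set_option maxHeartbeats 400000

noncomputable section

open AlgebraicCurve Module ModularCurve

namespace Fermat.Agent.MW

open Fermat.Agent.Deuring Fermat.Agent.FunField Fermat.Agent.FunField.PlaceLemmas

section Abstract

variable {L k F F₁ : Type*} [Field L] [Field k] [Field F] [Field F₁] [Algebra L F]
  [Algebra k F₁] [IsFF L F] [IsFF k F₁] [IsAlgClosed L] [IsAlgClosed k]

/-- An automorphism acting trivially on the residue function field fixes `y` as soon as it fixes
`m y`, for `m` prime to the residue characteristic. -/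
theorem smul_eq_of_res (𝔇 : Data L k F F₁) {g : ℤ} (hRR : RRLarge L F g)
    (hRR₁ : RRLarge k F₁ g) (σ : SemilinearAut L F)
    (hσ : ∀ f : 𝔇.O, ∃ h : σ • (f : F) ∈ 𝔇.O, 𝔇.res ⟨σ • (f : F), h⟩ = 𝔇.res f)
    {m : ℕ} (hm : (m : k) ≠ 0) (y : Pic0 L F) (hy : m • (σ • y) = m • y) : σ • y = y := by
  classical
  obtain ⟨r, hr, hr2⟩ := 𝔇.exists_reduction hRR hRR₁
  have hred : 𝔇.IsRed r := ⟨fun f hf G hG Q => hr f hf G hG Q⟩
  have hrσ : ∀ P, r (σ • P) = r P := by
    intro P
    have := hred.smul hRR σ 1 (fun f hf => (hσ ⟨f, hf⟩).1)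
      (fun f => by rw [one_smul]; exact (hσ f).2) P
    rwa [one_smul] at this
  obtain ⟨D, rfl⟩ := Pic0.mk_surjective y
  rw [← sub_eq_zero, SemilinearAut.pic0_smul_mk]
  rw [← sub_eq_zero, SemilinearAut.pic0_smul_mk] at hy
  have e1 : ∀ D' D : Divisor.degZero (K := L) (F := F), Pic0.mk D' - Pic0.mk D = Pic0.mk (D' - D) :=
    fun _ _ => rfl
  rw [e1, TorsInj.pic0_mk_eq_zero_iff]
  rw [← nsmul_sub, e1] at hy
  have e2 : ∀ D : Divisor.degZero (K := L) (F := F), m • Pic0.mk D = Pic0.mk (m • D) :=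
    fun _ => rfl
  rw [e2, TorsInj.pic0_mk_eq_zero_iff] at hy
  refine TorsInj.torsion_injective hRR hRR₁ (𝔇 := 𝔇) (r := r) hr hr2 hm hy ?_
  have e3 : Finsupp.mapDomain r
      ((SemilinearAut.degZeroSMulHom σ D - D : Divisor.degZero (K := L) (F := F)) : Divisor L F)
      = 0 := by
    show Finsupp.mapDomain r (σ • (D : Divisor L F) - (D : Divisor L F)) = 0
    rw [Finsupp.mapDomain_sub, SemilinearAut.divisor_smul_def, ← Finsupp.mapDomain_comp, sub_eq_zero]
    congr 1
    funext P
    exact hrσ P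
  rw [e3]
  exact ⟨1, one_ne_zero, fun v => by simp⟩

end Abstract

section Modular

open Fermat.Agent.Igusa Fermat.Agent.HeckeRed

local notation "Q̄" => AlgebraicClosure ℚ

/-- Existence of the action of an element of inertia on the valuation ring. -/
theorem inertia_data {A : ValuationSubring Q̄} {τ : Q̄ ≃ₐ[ℚ] Q̄} (hτ : τ ∈ A.inertiaSubgroupIn ℚ) :
    ∃ σA : A →+* A, (∀ a : A, τ a = σA a) ∧
      ∀ a : A, IsLocalRing.residue A (σA a) = IsLocalRing.residue A a := by
  obtain ⟨σ, hσ, rfl⟩ := hτ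
  refine ⟨MulSemiringAction.toRingHom _ A σ, fun a => rfl, fun a => ?_⟩
  have h : σ • IsLocalRing.residue A a = IsLocalRing.residue A a := by
    have h1 : (MulSemiringAction.toRingAut (A.decompositionSubgroup ℚ)
      (IsLocalRing.ResidueField A)) σ = 1 := hσ
    exact congrArg (fun e : RingAut (IsLocalRing.ResidueField A) =>
      e (IsLocalRing.residue A a)) h1
  rw [← IsLocalRing.ResidueField.residue_smul] at h
  exact h

/-- Inertia at primes of good reduction fixes `y` as soon as it fixes `m y`. -/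
theorem smul_eq_of_inertia (N : ℕ) [NeZero N] {ℓ : ℕ} (hℓ : ℓ.Prime) (hℓN : ¬ ℓ ∣ N)
    {m : ℕ} (hm : ¬ ℓ ∣ m) {A : ValuationSubring Q̄} (hA : A.LiesOverPrime ℓ) {τ : Q̄ ≃ₐ[ℚ] Q̄}
    (hτ : τ ∈ A.inertiaSubgroupIn ℚ) (y : JZero N) (hy : m • (τ • y) = m • y) : τ • y = y := by
  classical
  haveI hcp : CharP (IsLocalRing.ResidueField A) ℓ := charP_residueField hℓ hA
  haveI hac : IsAlgClosed (IsLocalRing.ResidueField A) := isAlgClosed_residueField A
  have hN : (N : IsLocalRing.ResidueField A) ≠ 0 := by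
    rw [Ne, CharP.cast_eq_zero_iff (IsLocalRing.ResidueField A) ℓ]; exact hℓN
  have hmk : (m : IsLocalRing.ResidueField A) ≠ 0 := by
    rw [Ne, CharP.cast_eq_zero_iff (IsLocalRing.ResidueField A) ℓ]; exact hm
  set 𝔇 := dat A (IsLocalRing.residue A) IsLocalRing.residue_surjective N hN with h𝔇
  have hgen : genusFF (IsLocalRing.ResidueField A)
      (modularFunctionFieldFullC (IsLocalRing.ResidueField A) N) =
      genusFF Q̄ (laurentBaseChange Q̄ (modularFunctionFieldFull N)) := by
    rw [Cusps.genusFF_residue A N hN, ← HeckeRed.laurentBaseChange_full]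
  have hRR := TorsInj.rrLarge_genusFF (K := Q̄)
    (F := laurentBaseChange Q̄ (modularFunctionFieldFull N))
  have hRR₁ := TorsInj.rrLarge_genusFF (K := IsLocalRing.ResidueField A)
    (F := modularFunctionFieldFullC (IsLocalRing.ResidueField A) N)
  rw [hgen] at hRR₁
  obtain ⟨σA, h1, h2⟩ := inertia_data hτ
  let Θ : GaussEnd A (IsLocalRing.residue A) := GaussEnd.coef (τ : Q̄ →+* Q̄) σA (RingHom.id _)
    h1 (fun a => (h2 a).symm)
  refine smul_eq_of_res 𝔇 hRR hRR₁ (arithmeticGalois (modularFunctionFieldFull N) τ)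
    (fun f => ?_) hmk y hy
  obtain ⟨h, hh⟩ := dat_end A (IsLocalRing.residue A) IsLocalRing.residue_surjective N hN Θ
    (M := N) hN f (arithmeticGalois (modularFunctionFieldFull N) τ • (f : _)) rfl
  refine ⟨h, Subtype.ext (hh.trans ?_)⟩
  show coeffMap (RingHom.id _) _ = _
  rw [coeffMap_id]

end Modular

end Fermat.Agent.MW
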