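import Fermat.Agent.MW.Mul

/-! # Invariance of `Ψ` under linear equivalence (block INV) -/

set_option autoImplicit false
set_option linter.unusedSectionVars false

noncomputable section

open AlgebraicCurve Polynomial Matrix
open Fermat.Agent.FunField (IsFF divOf)
open Fermat.Agent.S27C

namespace Fermat.Agent.MW

variable {F : Type*} [Field F] [Algebra Qb F] {P : Place Qb F} {N₀ : ℕ}
variable [IsCurveOver Qb F] [IsFF Qb F] {ρ : GQ →* SemilinearAut Qb F}

/-- dimension of `V P n` -/
theorem exists_finrank_V (P : Place Qb F) : ∃ n₁ : ℕ, ∀ n, n₁ ≤ n →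
    (Module.finrank Qb (V P n) : ℤ) = n + 1 - genusFF Qb F := by
  classical
  obtain ⟨N, hN⟩ := FunField.exists_h1_vanishing (K := Qb) (F := F)
  refine ⟨N.toNat, fun n hn => ?_⟩
  have h1 : N ≤ Divisor.degree (Finsupp.single P (n : ℤ) : Divisor Qb F) := by
    rw [degree_single']
    have := Int.self_le_toNat N
    have h2 : ((N.toNat : ℕ) : ℤ) ≤ n := by exact_mod_cast hn
    linarith
  have h2 := hN _ h1
  have h3 : Module.finrank Qb (H1 (Finsupp.single P (n : ℤ) : Divisor Qb F)) = 0 :=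
    Module.finrank_zero_of_subsingleton
  have h4 := FunField.riemann_roch (Finsupp.single P (n : ℤ) : Divisor Qb F)
  rw [h3, degree_single'] at h4
  have h5 : Module.finrank Qb (V P n) =
      Module.finrank Qb (riemannRochSpace (Finsupp.single P (n : ℤ) : Divisor Qb F)) := by
    let ψ : affRing P →ₗ[Qb] F := (affRing P).val.toLinearMap
    have hψ : Function.Injective ψ := Subtype.val_injective
    have h6 : (V P n).map ψ = riemannRochSpace (Finsupp.single P (n : ℤ) : Divisor Qb F) := by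
      ext f
      constructor
      · rintro ⟨g, hg, rfl⟩
        exact hg
      · intro hf
        have hf0 : f ∈ riemannRochSpace
            (Finsupp.single P (n : ℤ) - dvs ∅ : Divisor Qb F) := by
          have : (dvs ∅ : Divisor Qb F) = 0 := by simp [dvs]
          rw [this, sub_zero]
          exact hf
        obtain ⟨f', rfl⟩ := exists_aff_of_mem_rr hf0
        exact ⟨f', hf, rfl⟩
    rw [← h6]
    exact (Submodule.equivMapOfInjective ψ hψ (V P n)).finrank_eq
  rw [h5]
  push_cast at h4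
  linarith

/-- A rational basis of the functions vanishing on `D`. -/
theorem exists_kernel_basis (R : GalStr ρ P) {n e : ℕ} {D : Finset (Place Qb F)}
    (he : D.card = e) (hP : P ∉ D) (hD : Stab ρ D)
    (hJ : ∃ J, ((evB (rb R n) (xs P he)).submatrix id J).det ≠ 0) :
    ∃ (l : ℕ) (y : Fin l → affRing P), e + l = Module.finrank Qb (V P n) ∧
      LinearIndependent Qb y ∧ (∀ σ i, ρ σ • (y i : F) = y i) ∧
      ∀ i, y i ∈ V P n ∧ ∀ Q ∈ D, pt P Q (y i) = 0 := by
  classical
  have := finite_V (P := P) n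
  set Dv : Divisor Qb F := Finsupp.single P (n : ℤ) - dvs D with hDv
  have hDvfix : ∀ σ, ρ σ • Dv = Dv := by
    intro σ
    rw [hDv, smul_sub, smul_single_P R, hD.smul_dvs]
  obtain ⟨b, hb⟩ := R.exists_fixed_basis (riemannRochSpace Dv) (fun σ f hf => by
    have := smul_mem_rr (ρ σ) hf
    rwa [hDvfix] at this)
  choose y hy using fun i => exists_aff_of_mem_rr (P := P) (b i).2
  refine ⟨_, y, ?_, ?_, ?_, ?_⟩
  · -- dimension
    let ev : V P n →ₗ[Qb] (Fin e → Qb) := LinearMap.pi fun i =>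
      ((xs P he i).toLinearMap).comp (V P n).subtype
    have hsurj : Function.Surjective ev := by
      obtain ⟨J, hJ⟩ := hJ
      rw [← LinearMap.range_eq_top, eq_top_iff]
      have h1 : LinearIndependent Qb ((evB (rb R n) (xs P he)).submatrix id J).col :=
        (Matrix.linearIndependent_cols_iff_isUnit).mpr
          ((Matrix.isUnit_iff_isUnit_det _).mpr (isUnit_iff_ne_zero.mpr hJ))
      have h2 := h1.span_eq_top_of_card_eq_finrank' (by rw [Fintype.card_fin, Module.finrank_fin_fun])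
      rw [← h2, Submodule.span_le]
      rintro _ ⟨a, rfl⟩
      exact ⟨rb R n (J a), rfl⟩
    have h3 := LinearMap.finrank_range_add_finrank_ker ev
    rw [LinearMap.range_eq_top.mpr hsurj, finrank_top, Module.finrank_fin_fun] at h3
    rw [← h3]
    congr 1
    -- ker ev ≃ L(Dv)
    let ψ : LinearMap.ker ev →ₗ[Qb] F :=
      ((affRing P).val.toLinearMap.comp (V P n).subtype).comp (LinearMap.ker ev).subtype
    have hψ : Function.Injective ψ :=
      (Subtype.val_injective.comp Subtype.val_injective).comp Subtype.val_injective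
    have hrange : LinearMap.range ψ = riemannRochSpace Dv := by
      ext f
      constructor
      · rintro ⟨g, rfl⟩
        show (((g : V P n) : affRing P) : F) ∈ _
        rw [mem_rr_sub_iff hP]
        refine ⟨(g : V P n).2, fun Q hQ => ?_⟩
        have h4 := congrFun (LinearMap.mem_ker.mp g.2) (D.equivFinOfCardEq he ⟨Q, hQ⟩)
        have h5 : xs P he (D.equivFinOfCardEq he ⟨Q, hQ⟩) = pt P Q := by
          unfold xs
          rw [Equiv.symm_apply_apply]
        have h6 : xs P he (D.equivFinOfCardEq he ⟨Q, hQ⟩) ((g : V P n) : affRing P) = 0 := h4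
        rwa [h5] at h6
      · intro hf
        obtain ⟨f', rfl⟩ := exists_aff_of_mem_rr hf
        rw [mem_rr_sub_iff hP] at hf
        refine ⟨⟨⟨f', hf.1⟩, ?_⟩, rfl⟩
        rw [LinearMap.mem_ker]
        funext i
        exact hf.2 _ ((D.equivFinOfCardEq he).symm i).2
    rw [← hrange]
    exact (LinearEquiv.ofInjective ψ hψ).finrank_eq.symm
  · have h1 : LinearIndependent Qb (fun i => (b i : F)) :=
      b.linearIndependent.map' (riemannRochSpace Dv).subtype (Submodule.ker_subtype _)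
    have h2 : (fun i => (b i : F)) = fun i => ((affRing P).val.toLinearMap (y i)) := by
      funext i; exact (hy i).symm
    rw [h2] at h1
    exact LinearIndependent.of_comp _ h1
  · intro σ i
    rw [hy]
    exact hb σ i
  · intro i
    rw [← mem_rr_sub_iff hP, hy]
    exact (b i).2

/-- coordinate matrix -/
def cmat (R : GalStr ρ P) (n : ℕ) {l : ℕ} (y : Fin l → affRing P) (hy : ∀ i, y i ∈ V P n) :
    Matrix (Fin l) (BI P n) Qb := Matrix.of fun i k => (rb R n).repr ⟨y i, hy i⟩ k

theorem sum_cmat (R : GalStr ρ P) (n : ℕ) {l : ℕ} (y : Fin l → affRing P) (hy : ∀ i, y i ∈ V P n)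
    (a : Fin l → Qb) (v : Pl) :
    nrm v (fun j => ∑ i, a i * cmat R n y hy i j) = nV R n v (∑ i, a i • y i) := by
  have hmem : (∑ i, a i • y i) ∈ V P n :=
    Submodule.sum_mem _ fun i _ => Submodule.smul_mem _ _ (hy i)
  rw [nV_eq R v hmem]
  congr 1
  funext j
  have h1 : (⟨∑ i, a i • y i, hmem⟩ : V P n) = ∑ i, a i • (⟨y i, hy i⟩ : V P n) := by
    apply Subtype.ext
    simp
  rw [h1, map_sum, Finsupp.coe_finsetSum, Finset.sum_apply]
  refine Finset.sum_congr rfl fun i _ => ?_
  rw [map_smul, Finsupp.smul_apply, smul_eq_mul]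
  rfl

theorem exists_minor_cmat (R : GalStr ρ P) (n : ℕ) {l : ℕ} (y : Fin l → affRing P)
    (hy : ∀ i, y i ∈ V P n) (hli : LinearIndependent Qb y) :
    ∃ J, ((cmat R n y hy).submatrix id J).det ≠ 0 := by
  apply LA.exists_minor
  have h1 : LinearIndependent Qb (fun i => (⟨y i, hy i⟩ : V P n)) :=
    LinearIndependent.of_comp (V P n).subtype hli
  have h2 := h1.map' ((rb R n).equivFun).toLinearMap (LinearEquiv.ker _)
  exact h2

/-- `λ` in terms of a rational basis of functions vanishing on `D`. -/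
theorem S_vol_eq (R : GalStr ρ P) {n e l : ℕ} {D : Finset (Place Qb F)}
    (he : D.card = e) (hP : P ∉ D) (hD : Stab ρ D)
    (hJ : ∃ J, ((evB (rb R n) (xs P he)).submatrix id J).det ≠ 0)
    (y : Fin l → affRing P) (hl : e + l = Module.finrank Qb (V P n))
    (hli : LinearIndependent Qb y) (hfix : ∀ σ i, ρ σ • (y i : F) = y i)
    (hy : ∀ i, y i ∈ V P n) (hyD : ∀ i, ∀ Q ∈ D, pt P Q (y i) = 0) :
    S (fun v => LA.vol (av v) (evB (rb R n) (xs P he))) =
      S (fun v => LA.vol (av v) (cmat R n y hy)) := by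
  obtain ⟨J, hJ⟩ := hJ
  obtain ⟨J₁, hJ₁⟩ := exists_minor_cmat R n y hy hli
  refine LA.S_vol_compl (by rw [hl, Fintype.card_fin]) (rowPerm_evB R (rb_spec R n) he hP hD)
    (fun g i j => repr_fixed R (hy i) (fun σ => hfix σ i) g j) ?_ hJ hJ₁
  ext i a
  rw [Matrix.mul_apply, Matrix.zero_apply]
  have h1 : ((⟨y a, hy a⟩ : V P n) : affRing P) =
      ∑ k, (rb R n).repr ⟨y a, hy a⟩ k • ((rb R n k : V P n) : affRing P) := by
    have := congrArg (fun z : V P n => (z : affRing P)) ((rb R n).sum_repr ⟨y a, hy a⟩)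
    simp only [Submodule.coe_sum, Submodule.coe_smul] at this
    exact this.symm
  have h2 : xs P he i (y a) = 0 := hyD a _ ((D.equivFinOfCardEq he).symm i).2
  have h3 := congrArg (xs P he i) h1
  rw [h2, map_sum] at h3
  rw [h3]
  refine Finset.sum_congr rfl fun k _ => ?_
  rw [map_smul, smul_eq_mul, mul_comm]
  rfl

/-- `λ` of a finite set of places -/
def lam (R : GalStr ρ P) (n : ℕ) {e : ℕ} {D : Finset (Place Qb F)} (he : D.card = e) : ℝ :=
  S (fun v => LA.vol (av v) (evB (rb R n) (xs P he)))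

/-- logarithmic height of a function -/
def Hf (R : GalStr ρ P) (n : ℕ) (f : affRing P) : ℝ := S (fun v => nV R n v f)

theorem vol_scale_S {l : ℕ} {κ κ' : Type} [Fintype κ] [Fintype κ'] {y : Matrix (Fin l) κ Qb}
    {y' : Matrix (Fin l) κ' Qb} {J₀ : Fin l → κ} {J₁ : Fin l → κ'}
    (hJ₀ : (y.submatrix id J₀).det ≠ 0) (hJ₁ : (y'.submatrix id J₁).det ≠ 0) {c : Pl → ℝ}
    (hc : Adm c) (hT : ∀ v, ∀ a : Fin l → Qb, nrm v (fun j => ∑ i, a i * y' i j) ≤
      c v * nrm v (fun j => ∑ i, a i * y i j)) :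
    S (fun v => LA.vol (av v) y') ≤ S (LA.detC l) + l * S c + S (fun v => LA.vol (av v) y) := by
  have h1 : ∀ v, LA.vol (av v) y' ≤ LA.detC l v * c v ^ l * LA.vol (av v) y := by
    intro v
    have := LA.vol_scale v (y' := y') hJ₀ (hc.pos v).le (hT v)
    rwa [Fintype.card_fin] at this
  have h2 := LA.adm_vol hJ₀
  have h3 := LA.adm_vol hJ₁
  have h4 : Adm (fun v => LA.detC l v * c v ^ l) := (LA.adm_detC l).mul (hc.pow l)
  have h5 := S_le h3 (h4.mul h2) h1
  rw [S_mul h4 h2, S_mul (LA.adm_detC l) (hc.pow l), S_pow] at h5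
  exact h5

theorem inv_step (R : GalStr ρ P) (e s t k : ℕ)
    (hdim : Module.finrank Qb (V P ((t + s) * N₀)) = Module.finrank Qb (V P (t * N₀)) + s * N₀) :
    ∃ C : ℝ, ∀ (D D' : Finset (Place Qb F)) (he : D.card = e) (he' : D'.card = e + s * N₀),
      P ∉ D → P ∉ D' → Stab ρ D → Stab ρ D' →
      (∃ J, ((evB (rb R (t * N₀)) (xs P he)).submatrix id J).det ≠ 0) →
      (∃ J, ((evB (rb R ((t + s) * N₀)) (xs P he')).submatrix id J).det ≠ 0) →
      ∀ u : F, u ≠ 0 → (∀ σ, ρ σ • u = u) →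
      (divOf u : Divisor Qb F) = dvs D' - dvs D - Finsupp.single P ((s * N₀ : ℕ) : ℤ) →
      ∀ a b : affRing P, b ∈ V P k → b ≠ 0 → a ∈ V P (k + s * N₀) → (a : F) = u * b →
      |lam R ((t + s) * N₀) he' - lam R (t * N₀) he -
        ((Module.finrank Qb (V P (t * N₀)) : ℝ) - e) *
          (Hf R (k + s * N₀) a - Hf R k b)| ≤ C := by
  classical
  have hn' : (t + s) * N₀ = t * N₀ + s * N₀ := add_mul _ _ _
  obtain ⟨C₁, hC₁, hC₁1, hM₁⟩ := exists_nV_mul R ((t + s) * N₀) k
  obtain ⟨C₂, hC₂, hC₂1, hM₂⟩ := exists_nV_mul R (k + s * N₀) (t * N₀)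
  refine ⟨S (LA.detC (Module.finrank Qb (V P (t * N₀)) - e)) +
    ((Module.finrank Qb (V P (t * N₀)) - e : ℕ) : ℝ) * (S C₁ + S C₂), ?_⟩
  intro D D' he he' hP hP' hD hD' hJ hJ' u hu hufix hudiv a b hb hb0 ha hab
  obtain ⟨l, y, hl, hli, hfix, hyV⟩ := exists_kernel_basis R he hP hD hJ
  have hlr : Module.finrank Qb (V P (t * N₀)) - e = l := by omega
  have hlr' : (Module.finrank Qb (V P (t * N₀)) : ℝ) - e = l := by
    rw [← hl]; push_cast; ring
  rw [hlr, hlr']
  have hy'rr : ∀ i, u * (y i : F) ∈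
      riemannRochSpace (Finsupp.single P (((t + s) * N₀ : ℕ) : ℤ) - dvs D' : Divisor Qb F) := by
    intro i
    refine mul_mem_rr hu (A := Finsupp.single P ((t * N₀ : ℕ) : ℤ) - dvs D) ?_
      ((mem_rr_sub_iff hP).mpr (hyV i))
    rw [hudiv, hn']
    push_cast
    rw [Finsupp.single_add]
    abel
  choose y' hy' using fun i => exists_aff_of_mem_rr (P := P) (hy'rr i)
  have hy'V : ∀ i, y' i ∈ V P ((t + s) * N₀) ∧ ∀ Q ∈ D', pt P Q (y' i) = 0 := by
    intro i
    rw [← mem_rr_sub_iff hP', hy']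
    exact hy'rr i
  have hli' : LinearIndependent Qb y' := by
    have h1 : LinearIndependent Qb (fun i => (y i : F)) :=
      hli.map' (affRing P).val.toLinearMap (LinearMap.ker_eq_bot.mpr Subtype.val_injective)
    have h2 : LinearIndependent Qb (fun i => u * (y i : F)) :=
      h1.map' (LinearMap.mulLeft Qb u) (LinearMap.ker_eq_bot.mpr (mul_right_injective₀ hu))
    have h3 : (fun i => u * (y i : F)) = fun i => ((affRing P).val.toLinearMap (y' i)) := by
      funext i; exact (hy' i).symm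
    rw [h3] at h2
    exact LinearIndependent.of_comp _ h2
  have hfix' : ∀ σ i, ρ σ • (y' i : F) = y' i := by
    intro σ i
    rw [hy', smul_mul', hufix, hfix]
  have e1 : lam R (t * N₀) he = S (fun v => LA.vol (av v) (cmat R (t * N₀) y fun i => (hyV i).1)) :=
    S_vol_eq R he hP hD hJ y hl hli hfix (fun i => (hyV i).1) (fun i => (hyV i).2)
  have e2 : lam R ((t + s) * N₀) he' =
      S (fun v => LA.vol (av v) (cmat R ((t + s) * N₀) y' fun i => (hy'V i).1)) :=
    S_vol_eq R he' hP' hD' hJ' y' (by rw [hdim]; omega) hli' hfix' (fun i => (hy'V i).1)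
      (fun i => (hy'V i).2)
  obtain ⟨J, hJm⟩ := exists_minor_cmat R (t * N₀) y (fun i => (hyV i).1) hli
  obtain ⟨J', hJm'⟩ := exists_minor_cmat R ((t + s) * N₀) y' (fun i => (hy'V i).1) hli'
  have ha0 : a ≠ 0 := by
    rintro rfl
    have h1 : u * (b : F) = 0 := by rw [← hab]; rfl
    rcases mul_eq_zero.mp h1 with h2 | h2
    · exact hu h2
    · exact hb0 (Subtype.ext h2)
  have hAa : Adm (fun v => nV R (k + s * N₀) v a) := adm_nV R ha ha0
  have hAb : Adm (fun v => nV R k v b) := adm_nV R hb hb0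
  -- the key comparison
  have key : ∀ v, ∀ c : Fin l → Qb,
      nV R ((t + s) * N₀) v (∑ i, c i • y' i) * nV R k v b ≤
        C₁ v * C₂ v * (nV R (k + s * N₀) v a * nV R (t * N₀) v (∑ i, c i • y i)) ∧
      nV R (k + s * N₀) v a * nV R (t * N₀) v (∑ i, c i • y i) ≤
        C₁ v * C₂ v * (nV R ((t + s) * N₀) v (∑ i, c i • y' i) * nV R k v b) := by
    intro v c
    have hf : (∑ i, c i • y i) ∈ V P (t * N₀) :=
      Submodule.sum_mem _ fun i _ => Submodule.smul_mem _ _ (hyV i).1
    have hf' : (∑ i, c i • y' i) ∈ V P ((t + s) * N₀) :=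
      Submodule.sum_mem _ fun i _ => Submodule.smul_mem _ _ (hy'V i).1
    have hprod : (∑ i, c i • y' i) * b = a * ∑ i, c i • y i := by
      apply Subtype.ext
      show ((∑ i, c i • y' i : affRing P) : F) * (b : F) = (a : F) * ((∑ i, c i • y i : affRing P) : F)
      have h1 : ((∑ i, c i • y' i : affRing P) : F) = u * ((∑ i, c i • y i : affRing P) : F) := by
        rw [AddSubmonoidClass.coe_finsetSum, AddSubmonoidClass.coe_finsetSum, Finset.mul_sum]
        refine Finset.sum_congr rfl fun i _ => ?_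
        show c i • (y' i : F) = u * (c i • (y i : F))
        rw [hy', mul_smul_comm]
      rw [h1, hab]
      ring
    have hidx : (t + s) * N₀ + k = k + s * N₀ + t * N₀ := by rw [hn']; ring
    obtain ⟨h1, h2⟩ := hM₁ v _ hf' b hb
    obtain ⟨h3, h4⟩ := hM₂ v a ha _ hf
    rw [hprod, hidx] at h1 h2
    have hc1 := zero_le_one.trans (hC₁1 v)
    have hc2 := zero_le_one.trans (hC₂1 v)
    constructor
    · calc _ ≤ C₁ v * nV R (k + s * N₀ + t * N₀) v (a * ∑ i, c i • y i) := h2
        _ ≤ C₁ v * (C₂ v * (nV R (k + s * N₀) v a * nV R (t * N₀) v (∑ i, c i • y i))) :=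
          mul_le_mul_of_nonneg_left h3 hc1
        _ = _ := by ring
    · calc _ ≤ C₂ v * nV R (k + s * N₀ + t * N₀) v (a * ∑ i, c i • y i) := h4
        _ ≤ C₂ v * (C₁ v * (nV R ((t + s) * N₀) v (∑ i, c i • y' i) * nV R k v b)) :=
          mul_le_mul_of_nonneg_left h1 hc2
        _ = _ := by ring
  have hc12 : Adm (fun v => C₁ v * C₂ v) := hC₁.mul hC₂
  have hadm1 : Adm (fun v => C₁ v * C₂ v * (nV R (k + s * N₀) v a / nV R k v b)) :=
    hc12.mul (hAa.div hAb)
  have hadm2 : Adm (fun v => C₁ v * C₂ v * (nV R k v b / nV R (k + s * N₀) v a)) :=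
    hc12.mul (hAb.div hAa)
  have hS1 : S (fun v => C₁ v * C₂ v * (nV R (k + s * N₀) v a / nV R k v b)) =
      S C₁ + S C₂ + (Hf R (k + s * N₀) a - Hf R k b) := by
    rw [S_mul hc12 (hAa.div hAb), S_mul hC₁ hC₂, S_div hAa hAb]
    rfl
  have hS2 : S (fun v => C₁ v * C₂ v * (nV R k v b / nV R (k + s * N₀) v a)) =
      S C₁ + S C₂ + (Hf R k b - Hf R (k + s * N₀) a) := by
    rw [S_mul hc12 (hAb.div hAa), S_mul hC₁ hC₂, S_div hAb hAa]
    rfl
  have hv1 := vol_scale_S (y := cmat R (t * N₀) y fun i => (hyV i).1)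
    (y' := cmat R ((t + s) * N₀) y' fun i => (hy'V i).1) hJm hJm' hadm1 (by
      intro v c
      rw [sum_cmat, sum_cmat]
      have h1 := (key v c).1
      have h2 := hAb.pos v
      rw [← le_div_iff₀ h2] at h1
      refine h1.trans_eq ?_
      field_simp)
  have hv2 := vol_scale_S (y := cmat R ((t + s) * N₀) y' fun i => (hy'V i).1)
    (y' := cmat R (t * N₀) y fun i => (hyV i).1) hJm' hJm hadm2 (by
      intro v c
      rw [sum_cmat, sum_cmat]
      have h1 := (key v c).2
      have h2 := hAa.pos v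
      rw [← le_div_iff₀' h2] at h1
      refine h1.trans_eq ?_
      field_simp)
  rw [hS1] at hv1
  rw [hS2] at hv2
  rw [e1, e2, abs_le]
  constructor <;> nlinarith

end Fermat.Agent.MW
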