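import Fermat.Agent.MW.WeakJ
import Fermat.Agent.MW.Final

/-!
# The Mordell-Weil theorem for `J₀(N)` (modulo the equality of genera)
-/

set_option autoImplicit false
set_option maxHeartbeats 400000

noncomputable section

open AlgebraicCurve Module ModularCurve

namespace Fermat.Agent.MW

open Fermat.Agent.Deuring Fermat.Agent.FunField Fermat.Agent.FunField.PlaceLemmas

/-- **Mordell-Weil** for `J₀(N)`. -/
theorem fg_JZero (N : ℕ) [NeZero N] :
    AddGroup.FG (FixedPoints.addSubgroup (AlgebraicClosure ℚ ≃ₐ[ℚ] AlgebraicClosure ℚ)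
      (JZero N)) := by
  have : IsCurveOver (AlgebraicClosure ℚ) (modularFunctionFieldBar N) := isCurveOver_of_isFF
  exact fg_of_weak (modularFunctionFieldFull N) (weak_mw_JZero N)

end Fermat.Agent.MW
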