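import Fermat.Agent.MW.Points

/-! # The function `λ` of a finite set of places -/

set_option autoImplicit false
set_option linter.unusedSectionVars false

noncomputable section

open AlgebraicCurve Polynomial Matrix
open Fermat.Agent.FunField (IsFF divOf)
open Fermat.Agent.S27C

namespace Fermat.Agent.MW

variable {F : Type*} [Field F] [Algebra Qb F] {P : Place Qb F} {N₀ : ℕ}
variable [IsCurveOver Qb F] [IsFF Qb F] {ρ : GQ →* SemilinearAut Qb F}

/-- index type of bases of `V P n` -/
abbrev BI (P : Place Qb F) (n : ℕ) := Fin (Module.finrank Qb (V P n))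

/-- evaluation matrix with respect to a basis -/
def evB {n e : ℕ} (b : Module.Basis (BI P n) Qb (V P n)) (x : Fin e → Pt P) :
    Matrix (Fin e) (BI P n) Qb := Matrix.of fun i k => x i (b k)

theorem evB_bas {n e : ℕ} (x : Fin e → Pt P) : evB (bas P n) x = evalMat P n x := rfl

/-- Change of basis. -/
theorem dom_evB {n e : ℕ} (b b' : Module.Basis (BI P n) Qb (V P n)) :
    Dom (fun v (x : Fin e → Pt P) => LA.vol (av v) (evB b x))
      (fun v x => LA.vol (av v) (evB b' x)) := by
  refine Dom.nrm' (b := fun (x : Fin e → Pt P) J => ((evB b x).submatrix id J).det)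
    (fun v x => LA.vol_nonneg _ _) fun J => ?_
  let A : Matrix (BI P n) (Fin e) Qb := Matrix.of fun k a => b'.repr (b (J a)) k
  have h1 : ∀ x : Fin e → Pt P, (evB b x).submatrix id J = evB b' x * A := by
    intro x
    ext i a
    rw [Matrix.submatrix_apply, Matrix.mul_apply]
    show x i (b (J a)) = _
    have h2 : ((b (J a) : V P n) : affRing P) = ∑ k, b'.repr (b (J a)) k • ((b' k : V P n) : affRing P) := by
      have := congrArg (fun z : V P n => (z : affRing P)) (b'.sum_repr (b (J a)))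
      simp only [Submodule.coe_sum, Submodule.coe_smul] at this
      exact this.symm
    rw [h2, map_sum]
    refine Finset.sum_congr rfl fun k _ => ?_
    rw [map_smul, smul_eq_mul, mul_comm]
    rfl
  have h2 := dom_linear_comb (X := Fin e → Pt P) (ι := Fin e → BI P n)
    (fun r => ∏ i, A (r i) i) (fun x r => ((evB b' x).submatrix id r).det)
  refine h2.congr (fun v x => ?_) (fun _ _ => rfl)
  rw [h1, LA.det_mul_expand]

/-- A basis of `V P n` fixed by Galois. -/
theorem GalStr.exists_rbas (R : GalStr ρ P) (n : ℕ) :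
    ∃ b : Module.Basis (BI P n) Qb (V P n), ∀ σ k, ρ σ • (((b k : V P n) : affRing P) : F) =
      ((b k : V P n) : affRing P) := by
  classical
  have := finite_V (P := P) n
  let ψ : affRing P →ₗ[Qb] F := (affRing P).val.toLinearMap
  have hψ : Function.Injective ψ := Subtype.val_injective
  let V' : Submodule Qb F := (V P n).map ψ
  have hV' : ∀ f, f ∈ V' ↔ f ∈ riemannRochSpace (Finsupp.single P (n : ℤ) : Divisor Qb F) := by
    intro f
    constructor
    · rintro ⟨g, hg, rfl⟩
      exact hg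
    · intro hf
      have hf' : f ∈ affRing P := by
        intro v hv
        rw [mem_rr_iff] at hf
        rcases hf with hf | hf
        · rw [hf]; exact zero_mem _
        · apply mem_of_ord_nonneg
          have := hf v
          rwa [Finsupp.single_apply, if_neg (Ne.symm hv), neg_zero] at this
      exact ⟨⟨f, hf'⟩, hf, rfl⟩
  have hstab : ∀ σ, ∀ f ∈ V', ρ σ • f ∈ V' := by
    intro σ f hf
    rw [hV'] at hf ⊢
    have := smul_mem_rr (ρ σ) hf
    rwa [smul_single_P R] at this
  have : FiniteDimensional Qb V' := by infer_instance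
  obtain ⟨b, hb⟩ := R.exists_fixed_basis V' hstab
  let e : V P n ≃ₗ[Qb] V' := Submodule.equivMapOfInjective ψ hψ (V P n)
  have hfr : Module.finrank Qb V' = Module.finrank Qb (V P n) := e.symm.finrank_eq
  let b₁ : Module.Basis (Fin (Module.finrank Qb V')) Qb (V P n) := b.map e.symm
  refine ⟨b₁.reindex (finCongr hfr), fun σ k => ?_⟩
  have h1 : ∀ j, (((b₁ j : V P n) : affRing P) : F) = b j := by
    intro j
    have h2 : e (b₁ j) = b j := by simp [b₁]
    have h3 : ((e (b₁ j) : V') : F) = (((b₁ j : V P n) : affRing P) : F) := rfl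
    rw [← h3, h2]
  rw [Module.Basis.reindex_apply, h1]
  exact hb _ _

/-- the chosen rational basis -/
def rb (R : GalStr ρ P) (n : ℕ) : Module.Basis (BI P n) Qb (V P n) := (R.exists_rbas n).choose

theorem rb_spec (R : GalStr ρ P) (n : ℕ) (σ : GQ) (k : BI P n) :
    ρ σ • (((rb R n k : V P n) : affRing P) : F) = ((rb R n k : V P n) : affRing P) :=
  (R.exists_rbas n).choose_spec σ k

theorem smul_ne_P (R : GalStr ρ P) (σ : GQ) {Q : Place Qb F} (hQ : Q ≠ P) : ρ σ • Q ≠ P := by
  intro h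
  apply hQ
  have h1 : (ρ σ)⁻¹ • (ρ σ • Q) = (ρ σ)⁻¹ • P := by rw [h]
  rw [inv_smul_smul, ← map_inv, R.fixP] at h1
  exact h1

/-- equivariance of evaluation -/
theorem pt_smul (R : GalStr ρ P) (σ : GQ) {Q : Place Qb F} (hQ : Q ≠ P) {f : affRing P}
    (hf : ρ σ • (f : F) = f) : pt P (ρ σ • Q) f = σ (pt P Q f) := by
  rw [pt_apply (smul_ne_P R σ hQ), pt_apply hQ]
  have h1 := WeilPairing.val_smul (ρ σ) Q (f.2 Q hQ)
  rw [hf] at h1
  rw [h1]
  have h2 : algebraMap Qb F (SemilinearAut.baseAut (ρ σ) (val Q (f : F))) =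
      algebraMap Qb F (σ (val Q (f : F))) := by
    rw [← SemilinearAut.smul_algebraMap, R.base]
  exact (algebraMap Qb F).injective h2

theorem rowPerm_evB (R : GalStr ρ P) {n e : ℕ} {b : Module.Basis (BI P n) Qb (V P n)}
    (hb : ∀ σ k, ρ σ • (((b k : V P n) : affRing P) : F) = ((b k : V P n) : affRing P))
    {D : Finset (Place Qb F)} (he : D.card = e) (hP : P ∉ D) (hD : Stab ρ D) :
    LA.RowPerm (evB b (xs P he)) := by
  intro g
  let E := D.equivFinOfCardEq he
  let π : Equiv.Perm D :=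
    { toFun := fun Q => ⟨ρ g • (Q : Place Qb F), hD g Q Q.2⟩
      invFun := fun Q => ⟨ρ g⁻¹ • (Q : Place Qb F), hD g⁻¹ Q Q.2⟩
      left_inv := fun Q => Subtype.ext (by
        show ρ g⁻¹ • (ρ g • (Q : Place Qb F)) = Q
        rw [map_inv]; exact inv_smul_smul _ _)
      right_inv := fun Q => Subtype.ext (by
        show ρ g • (ρ g⁻¹ • (Q : Place Qb F)) = Q
        rw [map_inv]; exact smul_inv_smul _ _) }
  refine ⟨(E.symm.trans π).trans E, fun i k => ?_⟩
  show g (pt P (E.symm i : Place Qb F) (b k)) =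
    pt P ((E.symm (E (π (E.symm i))) : D) : Place Qb F) (b k)
  rw [Equiv.symm_apply_apply]
  have hQ : ((E.symm i : D) : Place Qb F) ≠ P := fun h => hP (h ▸ (E.symm i).2)
  exact (pt_smul R g hQ (hb g k)).symm

/-- the comparison of `λ` with the local expressions -/
theorem exists_lam (R : GalStr ρ P) (hN₀ : Big P N₀) {e m : ℕ} (hem : e ≤ m + 1) :
    ∃ C : ℝ, ∀ (D : Finset (Place Qb F)) (he : D.card = e), P ∉ D →
      (∃ J, ((evB (rb R (m * N₀)) (xs P he)).submatrix id J).det ≠ 0) ∧
      |S (fun v => LA.vol (av v) (evB (rb R (m * N₀)) (xs P he))) -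
        (((m + 1 - e : ℕ) : ℝ) * eta N₀ P D + wsum N₀ P D / 2)| ≤ C := by
  have h1 : Dom (fun v (x : Fin e → Pt P) => LA.vol (av v) (evB (rb R (m * N₀)) x))
      (fun v x => mainN N₀ m v x) := (dom_evB _ _).trans (dom_vol_le hN₀ hem)
  have h2 : Dom (fun v (x : Fin e → Pt P) => mainN N₀ m v x)
      (fun v x => LA.vol (av v) (evB (rb R (m * N₀)) x)) :=
    (dom_vol_ge hN₀ hem).trans (dom_evB _ _)
  obtain ⟨C₁, hC₁0, hC₁⟩ := h1.S_le
  obtain ⟨C₂, hC₂0, hC₂⟩ := h2.S_le
  obtain ⟨C', hC', hC'1, hC'2⟩ := h2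
  refine ⟨max C₁ C₂, fun D he hP => ?_⟩
  obtain ⟨hadm, hS⟩ := S_mainN hN₀ he hP m
  have hJ : ∃ J, ((evB (rb R (m * N₀)) (xs P he)).submatrix id J).det ≠ 0 := by
    by_contra hcon
    push Not at hcon
    have h3 := hC'2 none (xs P he)
    dsimp only at h3
    have h4 : LA.vol (av none) (evB (rb R (m * N₀)) (xs P he)) = 0 := by
      apply le_antisymm _ (LA.vol_nonneg _ _)
      refine LA.vol_le _ _ fun J => ?_
      rw [hcon J, map_zero]
    rw [h4, mul_zero] at h3
    exact absurd (hadm.pos none) (not_lt.mpr h3)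
  obtain ⟨J, hJ'⟩ := hJ
  have hadm' : Adm (fun v => LA.vol (av v) (evB (rb R (m * N₀)) (xs P he))) := LA.adm_vol hJ'
  have h5 := hC₁ (xs P he) hadm' hadm
  have h6 := hC₂ (xs P he) hadm hadm'
  refine ⟨⟨J, hJ'⟩, ?_⟩
  rw [← hS, abs_le]
  have h7 := le_max_left C₁ C₂
  have h8 := le_max_right C₁ C₂
  constructor <;> linarith

end Fermat.Agent.MW
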