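import Fermat.Agent.MW.Abs

/-! # Sums over all places of `ℚ` of logarithms -/

set_option autoImplicit false

noncomputable section

open Polynomial

namespace Fermat.Agent.MW

/-- positive functions on the places which are `1` almost everywhere. -/
structure Adm (φ : Pl → ℝ) : Prop where
  pos : ∀ v, 0 < φ v
  fin : {v | φ v ≠ 1}.Finite

/-- the sum of the logarithms. -/
def S (φ : Pl → ℝ) : ℝ := ∑ᶠ v, Real.log (φ v)

theorem Adm.support {φ : Pl → ℝ} (h : Adm φ) :
    (Function.support fun v => Real.log (φ v)).Finite := by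
  refine h.fin.subset fun v hv => ?_
  intro h1
  apply hv
  show Real.log (φ v) = 0
  rw [h1, Real.log_one]

theorem Adm.one : Adm (fun _ => 1) := ⟨fun _ => one_pos, by simp⟩

theorem Adm.mul {φ ψ : Pl → ℝ} (hφ : Adm φ) (hψ : Adm ψ) : Adm (fun v => φ v * ψ v) := by
  refine ⟨fun v => mul_pos (hφ.pos v) (hψ.pos v), (hφ.fin.union hψ.fin).subset fun v hv => ?_⟩
  by_contra hcon
  simp only [Set.mem_union, Set.mem_ofPred_eq, not_or, not_not] at hcon
  apply hv
  show φ v * ψ v = 1
  rw [hcon.1, hcon.2, one_mul]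

theorem Adm.inv {φ : Pl → ℝ} (hφ : Adm φ) : Adm (fun v => (φ v)⁻¹) := by
  refine ⟨fun v => inv_pos.mpr (hφ.pos v), hφ.fin.subset fun v hv => ?_⟩
  intro h
  apply hv
  show (φ v)⁻¹ = 1
  rw [h, inv_one]

theorem Adm.div {φ ψ : Pl → ℝ} (hφ : Adm φ) (hψ : Adm ψ) : Adm (fun v => φ v / ψ v) := by
  simp only [div_eq_mul_inv]
  exact hφ.mul hψ.inv

theorem Adm.pow {φ : Pl → ℝ} (hφ : Adm φ) (n : ℕ) : Adm (fun v => φ v ^ n) := by
  refine ⟨fun v => pow_pos (hφ.pos v) n, hφ.fin.subset fun v hv => ?_⟩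
  intro h
  apply hv
  show φ v ^ n = 1
  rw [h, one_pow]

theorem Adm.max {φ ψ : Pl → ℝ} (hφ : Adm φ) (hψ : Adm ψ) : Adm (fun v => max (φ v) (ψ v)) := by
  refine ⟨fun v => lt_max_of_lt_left (hφ.pos v), (hφ.fin.union hψ.fin).subset fun v hv => ?_⟩
  by_contra hcon
  simp only [Set.mem_union, Set.mem_ofPred_eq, not_or, not_not] at hcon
  apply hv
  show Max.max (φ v) (ψ v) = 1
  rw [hcon.1, hcon.2, max_self]

theorem Adm.prod {ι : Type*} (s : Finset ι) (φ : ι → Pl → ℝ) (h : ∀ i ∈ s, Adm (φ i)) :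
    Adm (fun v => ∏ i ∈ s, φ i v) := by
  classical
  induction s using Finset.induction_on with
  | empty => simpa using Adm.one
  | insert i s hi ih =>
    have h1 := (h i (Finset.mem_insert_self _ _)).mul
      (ih fun j hj => h j (Finset.mem_insert_of_mem hj))
    simpa only [Finset.prod_insert hi] using h1

/-- constants bigger than `1` at finitely many places -/
theorem Adm.of_ite {c : Pl → ℝ} (s : Set Pl) (hs : s.Finite) (h : ∀ v, 0 < c v)
    (h1 : ∀ v, v ∉ s → c v = 1) : Adm c :=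
  ⟨h, hs.subset fun v hv => by by_contra hc; exact hv (h1 v hc)⟩

theorem S_one : S (fun _ => 1) = 0 := by simp [S]

theorem S_mul {φ ψ : Pl → ℝ} (hφ : Adm φ) (hψ : Adm ψ) :
    S (fun v => φ v * ψ v) = S φ + S ψ := by
  unfold S
  rw [← finsum_add_distrib hφ.support hψ.support]
  refine finsum_congr fun v => ?_
  rw [Real.log_mul (hφ.pos v).ne' (hψ.pos v).ne']

theorem S_inv {φ : Pl → ℝ} : S (fun v => (φ v)⁻¹) = - S φ := by
  unfold S
  rw [← finsum_neg_distrib]
  refine finsum_congr fun v => ?_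
  rw [Real.log_inv]

theorem S_div {φ ψ : Pl → ℝ} (hφ : Adm φ) (hψ : Adm ψ) :
    S (fun v => φ v / ψ v) = S φ - S ψ := by
  simp only [div_eq_mul_inv]
  rw [S_mul hφ hψ.inv, S_inv, sub_eq_add_neg]

theorem S_pow {φ : Pl → ℝ} (n : ℕ) : S (fun v => φ v ^ n) = n * S φ := by
  unfold S
  rw [mul_finsum]
  refine finsum_congr fun v => ?_
  rw [Real.log_pow]

theorem S_prod {ι : Type*} (s : Finset ι) (φ : ι → Pl → ℝ) (h : ∀ i ∈ s, Adm (φ i)) :
    S (fun v => ∏ i ∈ s, φ i v) = ∑ i ∈ s, S (φ i) := by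
  classical
  induction s using Finset.induction_on with
  | empty => simpa using S_one
  | insert i s hi ih =>
    simp only [Finset.prod_insert hi]
    rw [Finset.sum_insert hi, S_mul (h i (Finset.mem_insert_self _ _))
      (Adm.prod s φ fun j hj => h j (Finset.mem_insert_of_mem hj)),
      ih fun j hj => h j (Finset.mem_insert_of_mem hj)]

theorem S_le {φ ψ : Pl → ℝ} (hφ : Adm φ) (hψ : Adm ψ) (h : ∀ v, φ v ≤ ψ v) : S φ ≤ S ψ := by
  unfold S
  have hs := hφ.support
  have ht := hψ.support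
  rw [finsum_eq_sum_of_support_subset (s := hs.toFinset ∪ ht.toFinset) _ (by
      intro v hv; simp only [Finset.coe_union, Set.Finite.coe_toFinset]; exact Or.inl hv),
    finsum_eq_sum_of_support_subset (s := hs.toFinset ∪ ht.toFinset) _ (by
      intro v hv; simp only [Finset.coe_union, Set.Finite.coe_toFinset]; exact Or.inr hv)]
  exact Finset.sum_le_sum fun v _ => Real.log_le_log (hφ.pos v) (h v)

theorem S_nonneg {φ : Pl → ℝ} (hφ : Adm φ) (h : ∀ v, 1 ≤ φ v) : 0 ≤ S φ := by
  rw [← S_one]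
  exact S_le Adm.one hφ h

/-- `φ ≤ C ψ` implies `S φ ≤ S C + S ψ` -/
theorem S_le_add {φ ψ C : Pl → ℝ} (hφ : Adm φ) (hψ : Adm ψ) (hC : Adm C)
    (h : ∀ v, φ v ≤ C v * ψ v) : S φ ≤ S C + S ψ := by
  rw [← S_mul hC hψ]
  exact S_le hφ (hC.mul hψ) h

theorem adm_av {a : Qb} (ha : a ≠ 0) : Adm (fun v => av v a) :=
  ⟨fun _ => av_pos ha, av_finite ha⟩

/-! ### the product formula -/

theorem S_av_mul {a b : Qb} (ha : a ≠ 0) (hb : b ≠ 0) :
    S (fun v => av v (a * b)) = S (fun v => av v a) + S (fun v => av v b) := by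
  rw [← S_mul (adm_av ha) (adm_av hb)]
  simp only [map_mul]

theorem S_av_prime (p : ℕ) (hp : p.Prime) : S (fun v => av v (algebraMap ℚ Qb (p : ℚ))) = 0 := by
  classical
  let P : Nat.Primes := ⟨p, hp⟩
  unfold S
  rw [finsum_eq_sum_of_support_subset (s := {none, some P})]
  · rw [Finset.sum_insert (by simp), Finset.sum_singleton]
    show Real.log (av none (algebraMap ℚ Qb (p : ℚ))) +
      Real.log (av (some P) (algebraMap ℚ Qb (p : ℚ))) = 0
    rw [av_none_rat, av_some_rat]
    have h1 : padicNorm (P : ℕ) (p : ℚ) = (p : ℚ)⁻¹ := by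
      have : Fact p.Prime := ⟨hp⟩
      exact padicNorm.padicNorm_p_of_prime (p := p)
    rw [h1]
    push_cast
    rw [abs_of_nonneg (by positivity), Real.log_inv, add_neg_cancel]
  · intro v hv
    by_contra hcon
    apply hv
    show Real.log (av v (algebraMap ℚ Qb (p : ℚ))) = 0
    rcases v with _ | q
    · exfalso; apply hcon; simp
    · have hq : (q : ℕ) ≠ p := by
        intro h
        apply hcon
        have : q = P := Subtype.ext h
        simp [this]
      rw [av_some_rat]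
      have : padicNorm (q : ℕ) (p : ℚ) = 1 := by
        have h2 := hp.ne_one
        rw [padicNorm.nat_eq_one_iff]
        intro h3
        have := (Nat.prime_dvd_prime_iff_eq q.2 hp).mp h3
        exact hq this
      rw [this]
      simp

theorem S_av_nat (n : ℕ) (hn : n ≠ 0) : S (fun v => av v (algebraMap ℚ Qb (n : ℚ))) = 0 := by
  induction n using Nat.recOnMul with
  | zero => exact absurd rfl hn
  | one => simp [S]
  | prime p hp => exact S_av_prime p hp
  | mul a b ha hb =>
    have ha0 : a ≠ 0 := left_ne_zero_of_mul hn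
    have hb0 : b ≠ 0 := right_ne_zero_of_mul hn
    have h1 : algebraMap ℚ Qb ((a * b : ℕ) : ℚ) =
        algebraMap ℚ Qb (a : ℚ) * algebraMap ℚ Qb (b : ℚ) := by
      rw [← map_mul]; push_cast; rfl
    rw [h1, S_av_mul (by simpa using ha0) (by simpa using hb0), ha ha0, hb hb0, add_zero]

theorem S_av_neg (a : Qb) : S (fun v => av v (-a)) = S (fun v => av v a) := by
  simp only [AbsoluteValue.map_neg]

theorem S_av_int (n : ℤ) (hn : n ≠ 0) : S (fun v => av v (algebraMap ℚ Qb (n : ℚ))) = 0 := by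
  rcases Int.eq_nat_or_neg n with ⟨m, rfl | rfl⟩
  · have h1 : ((m : ℤ) : ℚ) = (m : ℚ) := by push_cast; rfl
    rw [h1]
    exact S_av_nat m (by simpa using hn)
  · have h1 : ((-(m : ℤ) : ℤ) : ℚ) = -(m : ℚ) := by push_cast; rfl
    rw [h1, map_neg, S_av_neg]
    exact S_av_nat m (by simpa using hn)

/-- **Product formula**. -/
theorem S_av_rat (q : ℚ) (hq : q ≠ 0) : S (fun v => av v (algebraMap ℚ Qb q)) = 0 := by
  have hnum : S (fun v => av v (algebraMap ℚ Qb (q.num : ℚ))) = 0 :=
    S_av_int q.num (by simpa using hq)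
  have hden : S (fun v => av v (algebraMap ℚ Qb (q.den : ℚ))) = 0 := S_av_nat q.den q.den_nz
  have h1 : algebraMap ℚ Qb q * algebraMap ℚ Qb (q.den : ℚ) = algebraMap ℚ Qb (q.num : ℚ) := by
    rw [← map_mul, Rat.mul_den_eq_num]
  have h2 := S_av_mul (a := algebraMap ℚ Qb q) (b := algebraMap ℚ Qb (q.den : ℚ))
    (by simpa using hq) (by simp)
  rw [h1, hnum, hden] at h2
  linarith

/-- Product formula for elements with rational square. -/
theorem S_av_of_sq {a : Qb} (ha : a ≠ 0) {q : ℚ} (h : a ^ 2 = algebraMap ℚ Qb q) :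
    S (fun v => av v a) = 0 := by
  have h1 := S_pow (φ := fun v => av v a) 2
  have hq : q ≠ 0 := by
    rintro rfl
    rw [map_zero] at h
    exact ha (pow_eq_zero_iff (two_ne_zero) |>.mp h)
  have h2 := S_av_rat q hq
  rw [← h] at h2
  simp only [map_pow] at h2
  rw [h2] at h1
  push_cast at h1
  linarith

end Fermat.Agent.MW
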