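import Mathlib
import Fermat.Agent.MW.Sum

/-! # Maximal minors (block [D] of the Mordell–Weil project) -/

set_option autoImplicit false
set_option maxHeartbeats 400000

noncomputable section

open Matrix

namespace Fermat.Agent.MW.LA

section general

variable {k : Type*} [Field k]
variable {ι κ κ' : Type*} [Fintype ι] [DecidableEq ι] [Fintype κ] [Fintype κ']

/-- the maximum of the absolute values of the maximal minors -/
def vol (w : AbsoluteValue k ℝ) (E : Matrix ι κ k) : ℝ :=
  ⨆ J : ι → κ, w (E.submatrix id J).det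

theorem le_vol (w : AbsoluteValue k ℝ) (E : Matrix ι κ k) (J : ι → κ) :
    w (E.submatrix id J).det ≤ vol w E :=
  le_ciSup (f := fun J : ι → κ => w (E.submatrix id J).det) (Set.finite_range _).bddAbove J

theorem vol_le (w : AbsoluteValue k ℝ) (E : Matrix ι κ k) [Nonempty (ι → κ)] {B : ℝ}
    (h : ∀ J : ι → κ, w (E.submatrix id J).det ≤ B) : vol w E ≤ B :=
  ciSup_le h

theorem exists_vol_eq (w : AbsoluteValue k ℝ) (E : Matrix ι κ k) [Nonempty (ι → κ)] :
    ∃ J : ι → κ, w (E.submatrix id J).det = vol w E :=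
  exists_eq_ciSup_of_finite (f := fun J : ι → κ => w (E.submatrix id J).det)

theorem vol_nonneg (w : AbsoluteValue k ℝ) (E : Matrix ι κ k) : 0 ≤ vol w E :=
  Real.iSup_nonneg fun _ => w.nonneg _

theorem vol_pos (w : AbsoluteValue k ℝ) {E : Matrix ι κ k} {J : ι → κ}
    (hJ : (E.submatrix id J).det ≠ 0) : 0 < vol w E :=
  (w.pos hJ).trans_le (le_vol w E J)

theorem vol_mul_left (w : AbsoluteValue k ℝ) (A : Matrix ι ι k) (E : Matrix ι κ k) :
    vol w (A * E) = w A.det * vol w E := by
  unfold vol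
  rw [Real.mul_iSup_of_nonneg (w.nonneg _)]
  congr 1
  funext J
  rw [← map_mul, ← Matrix.det_mul]
  congr 2

/-- bound for a determinant -/
theorem det_le (w : AbsoluteValue k ℝ) (A : Matrix ι ι k) {c : ℝ} (h : ∀ i j, w (A i j) ≤ c) :
    w A.det ≤ (Fintype.card ι).factorial * c ^ Fintype.card ι := by
  rw [Matrix.det_apply]
  refine (w.sum_le _ _).trans ?_
  calc ∑ σ : Equiv.Perm ι, w (Equiv.Perm.sign σ • ∏ i, A (σ i) i)
      ≤ ∑ _σ : Equiv.Perm ι, c ^ Fintype.card ι := by
        refine Finset.sum_le_sum fun σ _ => ?_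
        have h1 : w (Equiv.Perm.sign σ • ∏ i, A (σ i) i) = ∏ i, w (A (σ i) i) := by
          rcases Int.units_eq_one_or (Equiv.Perm.sign σ) with h | h
          · rw [h, one_smul, map_prod]
          · rw [h, Units.neg_smul, one_smul, AbsoluteValue.map_neg, map_prod]
        rw [h1]
        calc ∏ i, w (A (σ i) i) ≤ ∏ _i : ι, c := Finset.prod_le_prod (fun _ _ => w.nonneg _)
              fun i _ => h _ _
          _ = c ^ Fintype.card ι := by simp
    _ = _ := by
        rw [Finset.sum_const, Finset.card_univ, Fintype.card_perm, nsmul_eq_mul]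

theorem det_le_nonarch (w : AbsoluteValue k ℝ) (hw : IsNonarchimedean w) (A : Matrix ι ι k) {c : ℝ}
    (h : ∀ i j, w (A i j) ≤ c) (hc : 0 ≤ c) : w A.det ≤ c ^ Fintype.card ι := by
  rw [Matrix.det_apply]
  have hne : (Finset.univ : Finset (Equiv.Perm ι)).Nonempty := ⟨1, Finset.mem_univ _⟩
  obtain ⟨σ, -, hσ⟩ := hw.finset_image_add_of_nonempty (fun σ : Equiv.Perm ι =>
    Equiv.Perm.sign σ • ∏ i, A (σ i) i) hne
  refine hσ.trans ?_
  have h1 : w (Equiv.Perm.sign σ • ∏ i, A (σ i) i) = ∏ i, w (A (σ i) i) := by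
    rcases Int.units_eq_one_or (Equiv.Perm.sign σ) with h | h
    · rw [h, one_smul, map_prod]
    · rw [h, Units.neg_smul, one_smul, AbsoluteValue.map_neg, map_prod]
  rw [h1]
  calc ∏ i, w (A (σ i) i) ≤ ∏ _i : ι, c := Finset.prod_le_prod (fun _ _ => w.nonneg _)
        fun i _ => h _ _
    _ = c ^ Fintype.card ι := by simp

/-- Normalisation: there is a square minor `A` of `E` with `E = A * F`, all entries of `F`
of absolute value at most one, and `vol F = 1`. -/
theorem exists_normal (w : AbsoluteValue k ℝ) {E : Matrix ι κ k} {J₀ : ι → κ}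
    (hJ₀ : (E.submatrix id J₀).det ≠ 0) :
    ∃ J : ι → κ, (E.submatrix id J).det ≠ 0 ∧ w (E.submatrix id J).det = vol w E ∧
      (∀ i j, w (((E.submatrix id J)⁻¹ * E) i j) ≤ 1) ∧
      ((E.submatrix id J)⁻¹ * E).submatrix id J = 1 := by
  classical
  haveI : Nonempty (ι → κ) := ⟨J₀⟩
  obtain ⟨J, hJ⟩ := exists_vol_eq w E
  have hpos := vol_pos w hJ₀
  have hdet : (E.submatrix id J).det ≠ 0 := by
    intro h
    rw [h, map_zero] at hJ
    linarith
  have hunit : IsUnit (E.submatrix id J).det := isUnit_iff_ne_zero.mpr hdet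
  have hsub : ((E.submatrix id J)⁻¹ * E).submatrix id J = 1 := by
    have h1 : ((E.submatrix id J)⁻¹ * E).submatrix id J =
        (E.submatrix id J)⁻¹ * E.submatrix id J := by
      ext i j
      simp [Matrix.mul_apply, Matrix.submatrix_apply]
    rw [h1, Matrix.nonsing_inv_mul _ hunit]
  refine ⟨J, hdet, hJ, fun i j => ?_, hsub⟩
  -- Cramer: the entry is a ratio of minors
  set F := (E.submatrix id J)⁻¹ * E with hF
  have h2 : (F.submatrix id (Function.update J i j)).det = F i j := by
    have h3 : F.submatrix id (Function.update J i j) =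
        (1 : Matrix ι ι k).updateCol i (fun a => F a j) := by
      ext a b
      rw [Matrix.submatrix_apply, Matrix.updateCol_apply]
      by_cases hb : b = i
      · subst hb
        simp
      · rw [Function.update_of_ne hb, if_neg hb, ← hsub]
        simp [Matrix.submatrix_apply]
    rw [h3]
    have h4 := Matrix.cramer_apply (1 : Matrix ι ι k) (fun a => F a j) i
    rw [← h4, Matrix.cramer_one]
    simp
  have h5 : E.submatrix id (Function.update J i j) =
      E.submatrix id J * F.submatrix id (Function.update J i j) := by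
    have h6 : E = E.submatrix id J * F := by
      rw [hF, ← Matrix.mul_assoc, Matrix.mul_nonsing_inv _ hunit, Matrix.one_mul]
    conv_lhs => rw [h6]
    ext a b
    simp [Matrix.mul_apply, Matrix.submatrix_apply]
  have h7 := le_vol w E (Function.update J i j)
  rw [h5, Matrix.det_mul, map_mul, h2, hJ] at h7
  exact le_of_mul_le_mul_left (by rw [mul_one]; exact h7) hpos

/-- (V1) -/
theorem vol_map_le (w : AbsoluteValue k ℝ) {y : Matrix ι κ k} {J₀ : ι → κ}
    (hJ₀ : (y.submatrix id J₀).det ≠ 0) (T : (κ → k) →ₗ[k] (κ' → k)) {c D : ℝ} (hc : 0 ≤ c)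
    (hT : ∀ f : κ → k, (∀ i, w (f i) ≤ 1) → ∀ j, w (T f j) ≤ c)
    (hD : ∀ A : Matrix ι ι k, (∀ i j, w (A i j) ≤ c) → w A.det ≤ D * c ^ Fintype.card ι)
    (hD0 : 0 ≤ D) :
    vol w (Matrix.of fun i => T (y i)) ≤ D * c ^ Fintype.card ι * vol w y := by
  classical
  obtain ⟨J, hdet, hJ, hle, -⟩ := exists_normal w hJ₀
  set A := y.submatrix id J with hA
  have hunit : IsUnit A.det := isUnit_iff_ne_zero.mpr hdet
  set F := A⁻¹ * y with hF
  have hy : y = A * F := by
    rw [hF, ← Matrix.mul_assoc, Matrix.mul_nonsing_inv _ hunit, Matrix.one_mul]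
  have h1 : (Matrix.of fun i => T (y i)) = A * Matrix.of (fun i => T (F i)) := by
    ext i j
    rw [Matrix.of_apply, Matrix.mul_apply]
    have h2 : y i = ∑ a, A i a • F a := by
      funext b
      conv_lhs => rw [hy]
      rw [Matrix.mul_apply, Finset.sum_apply]
      rfl
    rw [h2, map_sum, Finset.sum_apply]
    refine Finset.sum_congr rfl fun a _ => ?_
    rw [map_smul]
    rfl
  rw [h1, vol_mul_left, hJ, mul_comm]
  refine mul_le_mul_of_nonneg_right ?_ (vol_nonneg w y)
  unfold vol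
  refine Real.iSup_le (fun J' => ?_) (by positivity)
  exact hD _ fun i j => hT (F i) (fun a => hle i a) _

/-- (V1), archimedean or not -/
theorem vol_map_le_factorial (w : AbsoluteValue k ℝ) {y : Matrix ι κ k} {J₀ : ι → κ}
    (hJ₀ : (y.submatrix id J₀).det ≠ 0) (T : (κ → k) →ₗ[k] (κ' → k)) {c : ℝ} (hc : 0 ≤ c)
    (hT : ∀ f : κ → k, (∀ i, w (f i) ≤ 1) → ∀ j, w (T f j) ≤ c) :
    vol w (Matrix.of fun i => T (y i)) ≤
      (Fintype.card ι).factorial * c ^ Fintype.card ι * vol w y :=
  vol_map_le w hJ₀ T hc hT (fun A hA => det_le w A hA) (by positivity)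

theorem vol_map_le_nonarch (w : AbsoluteValue k ℝ) (hw : IsNonarchimedean w)
    {y : Matrix ι κ k} {J₀ : ι → κ}
    (hJ₀ : (y.submatrix id J₀).det ≠ 0) (T : (κ → k) →ₗ[k] (κ' → k)) {c : ℝ} (hc : 0 ≤ c)
    (hT : ∀ f : κ → k, (∀ i, w (f i) ≤ 1) → ∀ j, w (T f j) ≤ c) :
    vol w (Matrix.of fun i => T (y i)) ≤ c ^ Fintype.card ι * vol w y := by
  have := vol_map_le w hJ₀ T hc hT (D := 1)
    (fun A hA => by rw [one_mul]; exact det_le_nonarch w hw A hA hc) zero_le_one
  rwa [one_mul] at this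

end general

end Fermat.Agent.MW.LA
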