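import Fermat.Agent.MW.LinAlg

/-! # Complementary minors (block [D], (V2)) -/

set_option autoImplicit false
set_option maxHeartbeats 400000

noncomputable section

open Matrix

namespace Fermat.Agent.MW.LA

section compl

variable {k : Type*} [Field k]
variable {ι ι' κ : Type*} [Fintype ι] [DecidableEq ι] [Fintype ι'] [DecidableEq ι']
  [Fintype κ] [DecidableEq κ]

theorem injective_of_det_ne_zero {E : Matrix ι κ k} {J : ι → κ}
    (h : (E.submatrix id J).det ≠ 0) : Function.Injective J := by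
  intro a b hab
  by_contra hne
  apply h
  refine Matrix.det_zero_of_column_eq hne fun i => ?_
  simp [Matrix.submatrix_apply, hab]

/-- extend an injection to an equivalence -/
theorem exists_extend (hcard : Fintype.card ι + Fintype.card ι' = Fintype.card κ) {J : ι → κ}
    (hJ : Function.Injective J) : ∃ σ : ι ⊕ ι' ≃ κ, σ ∘ Sum.inl = J := by
  classical
  have h1 : Fintype.card (Set.range J) = Fintype.card ι := Set.card_range_of_injective hJ
  have h2 : Fintype.card ((Set.range J)ᶜ : Set κ) = Fintype.card ι' := by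
    rw [Fintype.card_compl_set, h1]; omega
  let e1 : ι ≃ Set.range J := Equiv.ofInjective J hJ
  let e2 : ι' ≃ ((Set.range J)ᶜ : Set κ) := Fintype.equivOfCardEq h2.symm
  refine ⟨(e1.sumCongr e2).trans (Equiv.Set.sumCompl (Set.range J)), ?_⟩
  funext a
  simp [e1]

theorem exists_extend' (hcard : Fintype.card ι + Fintype.card ι' = Fintype.card κ) {J : ι' → κ}
    (hJ : Function.Injective J) : ∃ σ : ι ⊕ ι' ≃ κ, σ ∘ Sum.inr = J := by
  obtain ⟨σ, hσ⟩ := exists_extend (ι := ι') (ι' := ι) (by omega) hJ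
  refine ⟨(Equiv.sumComm ι ι').trans σ, ?_⟩
  rw [← hσ]
  funext a
  simp

/-- (V2) complementary minors agree up to a constant and sign -/
theorem compl_minors (hcard : Fintype.card ι + Fintype.card ι' = Fintype.card κ)
    {E : Matrix ι κ k} {N : Matrix ι' κ k} (hEN : E * Nᵀ = 0) {J₀ : ι → κ} {J₁ : ι' → κ}
    (hE : (E.submatrix id J₀).det ≠ 0) (hN : (N.submatrix id J₁).det ≠ 0) :
    ∃ c : k, c ≠ 0 ∧ ∀ σ : ι ⊕ ι' ≃ κ,
      (E.submatrix id (σ ∘ Sum.inl)).det = c * (N.submatrix id (σ ∘ Sum.inr)).det ∨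
      (E.submatrix id (σ ∘ Sum.inl)).det = -(c * (N.submatrix id (σ ∘ Sum.inr)).det) := by
  classical
  let Sel : Matrix ι' κ k := Matrix.of fun a j => if j = J₁ a then 1 else 0
  have hSel : Sel * Nᵀ = (N.submatrix id J₁)ᵀ := by
    ext a b
    simp [Sel, Matrix.mul_apply]
  have hunit : IsUnit ((N.submatrix id J₁)ᵀ).det := by
    rw [Matrix.det_transpose]; exact isUnit_iff_ne_zero.mpr hN
  let F : Matrix ι' κ k := ((N.submatrix id J₁)ᵀ)⁻¹ * Sel
  have hF : F * Nᵀ = 1 := by
    rw [Matrix.mul_assoc, hSel, Matrix.nonsing_inv_mul _ hunit]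
  let B : Matrix (ι ⊕ ι') κ k := Matrix.fromRows E F
  have hBN : B * Nᵀ = Matrix.fromRows 0 1 := by
    rw [Matrix.fromRows_mul, hEN, hF]
  have key : ∀ σ : ι ⊕ ι' ≃ κ, (B.submatrix id σ).det * (N.submatrix id (σ ∘ Sum.inr)).det =
      (E.submatrix id (σ ∘ Sum.inl)).det := by
    intro σ
    let P : Matrix (ι ⊕ ι') (ι ⊕ ι') k :=
      Matrix.fromBlocks 1 ((N.submatrix id (σ ∘ Sum.inl))ᵀ) 0 ((N.submatrix id (σ ∘ Sum.inr))ᵀ)
    have hP : P.det = (N.submatrix id (σ ∘ Sum.inr)).det := by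
      rw [Matrix.det_fromBlocks_zero₂₁, Matrix.det_one, one_mul, Matrix.det_transpose]
    have hprod : B.submatrix id σ * P =
        Matrix.fromBlocks (E.submatrix id (σ ∘ Sum.inl)) 0 (F.submatrix id (σ ∘ Sum.inl)) 1 := by
      have h1 : B.submatrix id σ = Matrix.fromBlocks (E.submatrix id (σ ∘ Sum.inl))
          (E.submatrix id (σ ∘ Sum.inr)) (F.submatrix id (σ ∘ Sum.inl))
          (F.submatrix id (σ ∘ Sum.inr)) := by
        ext i j
        rcases i with i | i <;> rcases j with j | j <;> rfl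
      have h2 : ∀ i : ι ⊕ ι', ∀ b : ι', (∑ j : ι, B i (σ (Sum.inl j)) * N b (σ (Sum.inl j))) +
          ∑ j : ι', B i (σ (Sum.inr j)) * N b (σ (Sum.inr j)) = (B * Nᵀ) i b := by
        intro i b
        rw [Matrix.mul_apply, ← σ.sum_comp, Fintype.sum_sum_type]
        rfl
      rw [h1, Matrix.fromBlocks_multiply]
      congr 1
      · simp
      · ext i b
        have := h2 (Sum.inl i) b
        rw [hBN] at this
        simpa [Matrix.mul_apply, B] using this
      · simp
      · ext i b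
        have := h2 (Sum.inr i) b
        rw [hBN] at this
        simpa [Matrix.mul_apply, B] using this
    have h3 := congrArg Matrix.det hprod
    rw [Matrix.det_mul, hP, Matrix.det_fromBlocks_zero₁₂, Matrix.det_one, mul_one] at h3
    exact h3
  obtain ⟨σ₀, hσ₀⟩ := exists_extend (ι' := ι') hcard (injective_of_det_ne_zero hE)
  refine ⟨(B.submatrix id σ₀).det, ?_, fun σ => ?_⟩
  · intro h
    have := key σ₀
    rw [h, zero_mul, hσ₀] at this
    exact hE this.symm
  · have h4 : B.submatrix id σ = (B.submatrix id σ₀).submatrix id (σ.trans σ₀.symm) := by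
      ext i j
      simp
    have h5 := Matrix.det_permute' (σ.trans σ₀.symm) (B.submatrix id σ₀)
    rw [← key σ, h4, h5]
    rcases Int.units_eq_one_or (Equiv.Perm.sign (σ.trans σ₀.symm)) with h | h
    · left
      rw [h]; simp
    · right
      rw [h]; simp

/-- (V2) for volumes -/
theorem vol_compl (hcard : Fintype.card ι + Fintype.card ι' = Fintype.card κ)
    {E : Matrix ι κ k} {N : Matrix ι' κ k} (hEN : E * Nᵀ = 0) {J₀ : ι → κ} {J₁ : ι' → κ}
    (hE : (E.submatrix id J₀).det ≠ 0) (hN : (N.submatrix id J₁).det ≠ 0) :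
    ∃ c : k, c ≠ 0 ∧ (∀ w : AbsoluteValue k ℝ, vol w E = w c * vol w N) ∧
      ∃ (J : ι → κ) (J' : ι' → κ), (E.submatrix id J).det ≠ 0 ∧
        (E.submatrix id J).det ^ 2 = c ^ 2 * (N.submatrix id J').det ^ 2 := by
  classical
  obtain ⟨c, hc, h⟩ := compl_minors hcard hEN hE hN
  have hw : ∀ (w : AbsoluteValue k ℝ) (σ : ι ⊕ ι' ≃ κ),
      w (E.submatrix id (σ ∘ Sum.inl)).det = w c * w (N.submatrix id (σ ∘ Sum.inr)).det := by
    intro w σ
    rcases h σ with h1 | h1
    · rw [h1, map_mul]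
    · rw [h1, AbsoluteValue.map_neg, map_mul]
  refine ⟨c, hc, fun w => ?_, ?_⟩
  · apply le_antisymm
    · haveI : Nonempty (ι → κ) := ⟨J₀⟩
      refine vol_le w E fun J => ?_
      by_cases h0 : (E.submatrix id J).det = 0
      · rw [h0, map_zero]
        exact mul_nonneg (w.nonneg _) (vol_nonneg _ _)
      · obtain ⟨σ, hσ⟩ := exists_extend (ι' := ι') hcard (injective_of_det_ne_zero h0)
        rw [← hσ, hw]
        exact mul_le_mul_of_nonneg_left (le_vol w N _) (w.nonneg _)
    · haveI : Nonempty (ι' → κ) := ⟨J₁⟩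
      rw [← le_div_iff₀' (w.pos hc)]
      refine vol_le w N fun J => ?_
      rw [le_div_iff₀' (w.pos hc)]
      by_cases h0 : (N.submatrix id J).det = 0
      · rw [h0, map_zero, mul_zero]
        exact vol_nonneg _ _
      · obtain ⟨σ, hσ⟩ := exists_extend' (ι := ι) hcard (injective_of_det_ne_zero h0)
        rw [← hσ, ← hw]
        exact le_vol w E _
  · obtain ⟨σ, hσ⟩ := exists_extend (ι' := ι') hcard (injective_of_det_ne_zero hE)
    refine ⟨σ ∘ Sum.inl, σ ∘ Sum.inr, by rwa [hσ], ?_⟩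
    rcases h σ with h1 | h1
    · rw [h1]; ring
    · rw [h1]; ring

end compl

end Fermat.Agent.MW.LA
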