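import Fermat.Agent.MW.Sum
import Mathlib.LinearAlgebra.Matrix.Determinant.Basic

/-! # Sup norms of finite families -/

set_option autoImplicit false
set_option linter.unusedSectionVars false

noncomputable section

namespace Fermat.Agent.MW

variable {ι κ : Type*} [Finite ι] [Finite κ]

/-- sup norm at `v` of a finite family. -/
def nrm (v : Pl) (z : ι → Qb) : ℝ := ⨆ i, av v (z i)

theorem le_nrm (v : Pl) (z : ι → Qb) (i : ι) : av v (z i) ≤ nrm v z :=
  le_ciSup (Set.finite_range fun i => av v (z i)).bddAbove i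

theorem nrm_le [Nonempty ι] {v : Pl} {z : ι → Qb} {a : ℝ} (h : ∀ i, av v (z i) ≤ a) :
    nrm v z ≤ a := ciSup_le h

theorem nrm_le' {v : Pl} {z : ι → Qb} {a : ℝ} (ha : 0 ≤ a) (h : ∀ i, av v (z i) ≤ a) :
    nrm v z ≤ a := by
  rcases isEmpty_or_nonempty ι with h1 | h1
  · unfold nrm; rw [Real.iSup_of_isEmpty]; exact ha
  · exact nrm_le h

theorem nrm_nonneg (v : Pl) (z : ι → Qb) : 0 ≤ nrm v z :=
  Real.iSup_nonneg fun i => (av v).nonneg _

theorem exists_nrm_eq [Nonempty ι] (v : Pl) (z : ι → Qb) : ∃ i, nrm v z = av v (z i) := by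
  obtain ⟨i, hi⟩ := exists_eq_ciSup_of_finite (f := fun i => av v (z i))
  exact ⟨i, hi.symm⟩

theorem nrm_pos (v : Pl) {z : ι → Qb} (hz : z ≠ 0) : 0 < nrm v z := by
  obtain ⟨i, hi⟩ := Function.ne_iff.mp hz
  exact lt_of_lt_of_le (av_pos hi) (le_nrm v z i)

theorem nrm_eq_zero_iff (v : Pl) {z : ι → Qb} : nrm v z = 0 ↔ z = 0 := by
  constructor
  · intro h
    by_contra hz
    exact (nrm_pos v hz).ne' h
  · rintro rfl
    apply le_antisymm _ (nrm_nonneg _ _)
    exact nrm_le' le_rfl fun i => by simp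

theorem nrm_smul (v : Pl) (c : Qb) (z : ι → Qb) : nrm v (fun i => c * z i) = av v c * nrm v z := by
  unfold nrm
  simp only [map_mul]
  rw [Real.mul_iSup_of_nonneg ((av v).nonneg _)]

theorem adm_nrm {z : ι → Qb} (hz : z ≠ 0) : Adm (fun v => nrm v z) := by
  classical
  refine ⟨fun v => nrm_pos v hz, ?_⟩
  obtain ⟨i₀, hi₀⟩ := Function.ne_iff.mp hz
  have hfin : (⋃ i ∈ {i : ι | z i ≠ 0}, {v : Pl | av v (z i) ≠ 1}).Finite :=
    Set.Finite.biUnion (Set.toFinite _) fun i hi => av_finite hi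
  refine hfin.subset fun v hv => ?_
  by_contra hcon
  simp only [Set.mem_iUnion, not_exists] at hcon
  have h1 : ∀ i, z i ≠ 0 → av v (z i) = 1 := by
    intro i hi
    by_contra h2
    exact hcon i hi h2
  apply hv
  show nrm v z = 1
  have : Nonempty ι := ⟨i₀⟩
  apply le_antisymm
  · refine nrm_le fun i => ?_
    by_cases hi : z i = 0
    · rw [hi, map_zero]; exact zero_le_one
    · exact (h1 i hi).le
  · rw [← h1 i₀ hi₀]
    exact le_nrm v z i₀

/-- (logarithmic) height of a finite family. -/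
def H (z : ι → Qb) : ℝ := S (fun v => nrm v z)

theorem H_smul_of_sq {z : ι → Qb} (hz : z ≠ 0) {c : Qb} (hc : c ≠ 0) {q : ℚ}
    (h : c ^ 2 = algebraMap ℚ Qb q) : H (fun i => c * z i) = H z := by
  unfold H
  simp only [nrm_smul]
  rw [S_mul (adm_av hc) (adm_nrm hz), S_av_of_sq hc h, zero_add]

/-- the maximal minor of an `l × M` matrix -/
def vol (v : Pl) {l M : ℕ} (y : Matrix (Fin l) (Fin M) Qb) : ℝ :=
  nrm v (fun J : Fin l → Fin M => (y.submatrix id J).det)

end Fermat.Agent.MW
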