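import Fermat.Agent.MW.Siegel
import Fermat.Agent.MW.Nrm

/-! # Complements on volumes -/

set_option autoImplicit false
set_option linter.unusedSectionVars false

noncomputable section

open Matrix

namespace Fermat.Agent.MW.LA

section general

variable {k : Type*} [Field k]

theorem exists_minor {l : ℕ} {κ : Type*} [Fintype κ] (N : Matrix (Fin l) κ k)
    (h : LinearIndependent k N.row) : ∃ J : Fin l → κ, (N.submatrix id J).det ≠ 0 := by
  classical
  have h1 : N.rank = l := by
    rw [LinearIndependent.rank_matrix h, Fintype.card_fin]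
  rw [Matrix.rank_eq_finrank_span_cols] at h1
  have h2 : Submodule.span k (Set.range N.col) = ⊤ := by
    apply Submodule.eq_top_of_finrank_eq
    rw [h1, Module.finrank_fin_fun]
  obtain ⟨B, hBL, hBspan, hBli⟩ := exists_linearIndependent k (Set.range N.col)
  rw [h2] at hBspan
  have : Finite B := hBli.finite_of_isNoetherian
  have := Fintype.ofFinite B
  let bB : Module.Basis B k (Fin l → k) := Module.Basis.mk hBli (by
    rw [Subtype.range_coe, hBspan])
  have hcard : Fintype.card B = l := by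
    rw [← Module.finrank_eq_card_basis bB, Module.finrank_fin_fun]
  let ε : Fin l ≃ B := (Fintype.equivFinOfCardEq hcard).symm
  choose J hJ using fun i : Fin l => hBL (ε i).2
  refine ⟨J, ?_⟩
  have h3 : LinearIndependent k (N.submatrix id J).col := by
    have h4 : (N.submatrix id J).col = fun i => ((ε i : B) : Fin l → k) := by
      funext i
      rw [← hJ i]
      rfl
    rw [h4]
    exact hBli.comp ε ε.injective
  exact (Matrix.isUnit_iff_isUnit_det _).mp
    ((Matrix.linearIndependent_cols_iff_isUnit).mp h3) |>.ne_zero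

variable {ι κ κ' : Type*} [Fintype ι] [DecidableEq ι] [Fintype κ] [Fintype κ']

/-- (V1) for a linear map which is only controlled on the span of the rows. -/
theorem vol_scale_le (w : AbsoluteValue k ℝ) {y : Matrix ι κ k} {y' : Matrix ι κ' k} {J₀ : ι → κ}
    (hJ₀ : (y.submatrix id J₀).det ≠ 0) {c D : ℝ} (hc : 0 ≤ c)
    (hT : ∀ a : ι → k, (∀ j, w (∑ i, a i * y i j) ≤ 1) → ∀ j, w (∑ i, a i * y' i j) ≤ c)
    (hD : ∀ A : Matrix ι ι k, (∀ i j, w (A i j) ≤ c) → w A.det ≤ D * c ^ Fintype.card ι)
    (hD0 : 0 ≤ D) :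
    vol w y' ≤ D * c ^ Fintype.card ι * vol w y := by
  classical
  obtain ⟨J, hdet, hJ, hle, -⟩ := exists_normal w hJ₀
  set A := y.submatrix id J with hA
  have hunit : IsUnit A.det := isUnit_iff_ne_zero.mpr hdet
  have h1 : y' = A * (A⁻¹ * y') := by
    rw [← Matrix.mul_assoc, Matrix.mul_nonsing_inv _ hunit, Matrix.one_mul]
  have h2 : ∀ i j, w ((A⁻¹ * y') i j) ≤ c := by
    intro i j
    rw [Matrix.mul_apply]
    refine hT (fun b => A⁻¹ i b) (fun j => ?_) j
    have h3 := hle i j
    rwa [Matrix.mul_apply] at h3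
  rw [h1, vol_mul_left, hJ, mul_comm]
  refine mul_le_mul_of_nonneg_right ?_ (vol_nonneg w y)
  unfold vol
  refine Real.iSup_le (fun J' => ?_) (by positivity)
  exact hD _ fun i j => h2 i _

end general

section place

variable {ι κ κ' : Type} [Fintype ι] [DecidableEq ι] [Fintype κ] [Fintype κ']

theorem isNonarch_av (p : Nat.Primes) : IsNonarchimedean (av (some p)) := fun x y =>
  av_add_le p x y

/-- the constant of the determinant bound -/
def detC (n : ℕ) (v : Pl) : ℝ := if v = none then (n.factorial : ℝ) else 1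

theorem adm_detC (n : ℕ) : Adm (detC n) := by
  unfold detC
  refine Adm.of_ite {none} (Set.finite_singleton _) ?_ ?_
  · intro v
    split_ifs
    · exact_mod_cast Nat.factorial_pos n
    · exact one_pos
  · intro v hv
    rw [if_neg]
    intro h
    exact hv h

theorem one_le_detC (n : ℕ) (v : Pl) : 1 ≤ detC n v := by
  unfold detC
  split_ifs
  · exact_mod_cast Nat.factorial_pos n
  · exact le_rfl

/-- (V1) at the places of `ℚ`. -/
theorem vol_scale (v : Pl) {y : Matrix ι κ Qb} {y' : Matrix ι κ' Qb} {J₀ : ι → κ}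
    (hJ₀ : (y.submatrix id J₀).det ≠ 0) {c : ℝ} (hc : 0 ≤ c)
    (hT : ∀ a : ι → Qb, nrm v (fun j => ∑ i, a i * y' i j) ≤
      c * nrm v (fun j => ∑ i, a i * y i j)) :
    vol (av v) y' ≤ detC (Fintype.card ι) v * c ^ Fintype.card ι * vol (av v) y := by
  refine vol_scale_le (av v) hJ₀ hc (fun a ha j => ?_) ?_ (zero_le_one.trans (one_le_detC _ _))
  · have h1 : nrm v (fun j => ∑ i, a i * y i j) ≤ 1 := nrm_le' zero_le_one ha
    calc av v (∑ i, a i * y' i j) ≤ nrm v (fun j => ∑ i, a i * y' i j) :=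
          le_nrm v (fun j => ∑ i, a i * y' i j) j
      _ ≤ c * nrm v (fun j => ∑ i, a i * y i j) := hT a
      _ ≤ c * 1 := mul_le_mul_of_nonneg_left h1 hc
      _ = c := mul_one c
  · intro A hA
    rcases v with _ | p
    · unfold detC
      rw [if_pos rfl]
      exact det_le (av none) A hA
    · unfold detC
      rw [if_neg (by simp), one_mul]
      exact det_le_nonarch (av (some p)) (isNonarch_av p) A hA hc

/-- a matrix with rational entries -/
theorem S_det_rat {n : ℕ} {A : Matrix (Fin n) (Fin n) Qb}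
    (hA : ∀ (g : Qb ≃ₐ[ℚ] Qb) i j, g (A i j) = A i j) : ∃ q : ℚ, A.det = algebraMap ℚ Qb q := by
  obtain ⟨q, hq⟩ := rat_of_fixed (x := A.det) (fun g => by
    rw [AlgEquiv.map_det]
    congr 1
    ext i j
    exact hA g i j)
  exact ⟨q, hq.symm⟩

/-- The volume of the kernel equals the volume of the matrix, up to a constant without height. -/
theorem S_vol_compl {e l : ℕ} {κ : Type} [Fintype κ] [DecidableEq κ]
    (hcard : e + l = Fintype.card κ) {E : Matrix (Fin e) κ Qb} {N : Matrix (Fin l) κ Qb}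
    (hE : RowPerm E) (hN : ∀ (g : Qb ≃ₐ[ℚ] Qb) i j, g (N i j) = N i j)
    (hEN : E * Nᵀ = 0) {J₀ : Fin e → κ} {J₁ : Fin l → κ}
    (hE0 : (E.submatrix id J₀).det ≠ 0) (hN0 : (N.submatrix id J₁).det ≠ 0) :
    S (fun v => vol (av v) E) = S (fun v => vol (av v) N) := by
  obtain ⟨c, hc, hvol, J, J', hJ, hJJ'⟩ := vol_compl (by simpa using hcard) hEN hE0 hN0
  obtain ⟨q, hq⟩ := minor_sq_rat hE J
  obtain ⟨r, hr⟩ := S_det_rat (A := N.submatrix id J') (fun g i j => hN g _ _)
  have hr0 : (N.submatrix id J').det ≠ 0 := by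
    intro h0
    rw [h0] at hJJ'
    apply hJ
    have : (E.submatrix id J).det ^ 2 = 0 := by rw [hJJ']; ring
    exact pow_eq_zero_iff (two_ne_zero) |>.mp this
  have hc2 : c ^ 2 = algebraMap ℚ Qb (q / r ^ 2) := by
    rw [map_div₀, map_pow, ← hq, ← hr, hJJ']
    field_simp
  have hS : S (fun v => av v c) = 0 := S_av_of_sq hc hc2
  have h1 : (fun v => vol (av v) E) = fun v => av v c * vol (av v) N := by
    funext v; exact hvol (av v)
  rw [h1, S_mul (adm_av hc) (adm_vol hN0), hS, zero_add]

end place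

end Fermat.Agent.MW.LA
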