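import Fermat.Agent.MW.Lam
import Fermat.Agent.MW.VolMap

/-! # Norms of functions with respect to the rational bases -/

set_option autoImplicit false
set_option linter.unusedSectionVars false

noncomputable section

open AlgebraicCurve Polynomial Matrix
open Fermat.Agent.FunField (IsFF divOf)
open Fermat.Agent.S27C

namespace Fermat.Agent.MW

variable {F : Type*} [Field F] [Algebra Qb F] {P : Place Qb F} {N₀ : ℕ}
variable [IsCurveOver Qb F] [IsFF Qb F] {ρ : GQ →* SemilinearAut Qb F}

open Classical in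
/-- norm of a function in `V P n` -/
def nV (R : GalStr ρ P) (n : ℕ) (v : Pl) (f : affRing P) : ℝ :=
  if h : f ∈ V P n then nrm v ((rb R n).repr ⟨f, h⟩) else 0

theorem nV_eq (R : GalStr ρ P) {n : ℕ} (v : Pl) {f : affRing P} (h : f ∈ V P n) :
    nV R n v f = nrm v ((rb R n).repr ⟨f, h⟩) := by
  unfold nV
  rw [dif_pos h]

theorem repr_ne_zero (R : GalStr ρ P) {n : ℕ} {f : affRing P} (h : f ∈ V P n) (hf : f ≠ 0) :
    ((rb R n).repr ⟨f, h⟩ : BI P n → Qb) ≠ 0 := by
  intro h0
  apply hf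
  have h1 : (rb R n).repr ⟨f, h⟩ = 0 := Finsupp.ext fun k => congrFun h0 k
  rw [LinearEquiv.map_eq_zero_iff] at h1
  exact congrArg Subtype.val h1

theorem adm_nV (R : GalStr ρ P) {n : ℕ} {f : affRing P} (h : f ∈ V P n) (hf : f ≠ 0) :
    Adm (fun v => nV R n v f) := by
  have : (fun v => nV R n v f) = fun v => nrm v ((rb R n).repr ⟨f, h⟩) :=
    funext fun v => nV_eq R v h
  rw [this]
  exact adm_nrm (repr_ne_zero R h hf)

theorem nV_nonneg (R : GalStr ρ P) (n : ℕ) (v : Pl) (f : affRing P) : 0 ≤ nV R n v f := by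
  unfold nV
  split_ifs
  · exact nrm_nonneg _ _
  · exact le_rfl

/-- multiplication -/
def mulB (P : Place Qb F) (n m : ℕ) : V P n →ₗ[Qb] V P m →ₗ[Qb] V P (n + m) :=
  LinearMap.mk₂ Qb (fun f g => ⟨(f : affRing P) * g, mul_mem_V f.2 g.2⟩)
    (fun f f' g => Subtype.ext (by push_cast; ring))
    (fun c f g => Subtype.ext (by push_cast; rw [smul_mul_assoc]))
    (fun f g g' => Subtype.ext (by push_cast; ring))
    (fun c f g => Subtype.ext (by push_cast; rw [mul_smul_comm]))

theorem exists_nV_mul (R : GalStr ρ P) (n m : ℕ) : ∃ C : Pl → ℝ, Adm C ∧ (∀ v, 1 ≤ C v) ∧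
    ∀ v, ∀ f ∈ V P n, ∀ g ∈ V P m,
      nV R (n + m) v (f * g) ≤ C v * (nV R n v f * nV R m v g) ∧
      nV R n v f * nV R m v g ≤ C v * nV R (n + m) v (f * g) := by
  obtain ⟨C₁, hC₁, hC₁1, h1⟩ := dom_bilin (rb R n) (rb R m) (rb R (n + m)) (mulB P n m)
  obtain ⟨C₂, hC₂, hC₂1, h2⟩ := dom_bilin_ge (rb R n) (rb R m) (rb R (n + m)) (mulB P n m) (by
    intro f g h
    have h3 : (f : affRing P) * g = 0 := congrArg Subtype.val h
    rcases mul_eq_zero.mp h3 with h4 | h4
    · exact Or.inl (Subtype.ext h4)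
    · exact Or.inr (Subtype.ext h4))
  refine ⟨fun v => C₁ v * C₂ v, hC₁.mul hC₂,
    fun v => one_le_mul_of_one_le_of_one_le (hC₁1 v) (hC₂1 v), fun v f hf g hg => ?_⟩
  have e1 : nV R (n + m) v (f * g) = nrm v ((rb R (n + m)).repr (mulB P n m ⟨f, hf⟩ ⟨g, hg⟩)) :=
    nV_eq R v (mul_mem_V hf hg)
  have h3 := h1 v (⟨f, hf⟩, ⟨g, hg⟩)
  have h4 := h2 v (⟨f, hf⟩, ⟨g, hg⟩)
  dsimp only at h3 h4
  rw [← e1, ← nV_eq R v hf, ← nV_eq R v hg] at h3 h4
  have h5 := nV_nonneg R (n + m) v (f * g)
  have h6 := mul_nonneg (nV_nonneg R n v f) (nV_nonneg R m v g)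
  have hc1 := zero_le_one.trans (hC₁1 v)
  have hc2 := zero_le_one.trans (hC₂1 v)
  constructor
  · refine h3.trans (mul_le_mul_of_nonneg_right ?_ h6)
    exact le_mul_of_one_le_right hc1 (hC₂1 v)
  · refine h4.trans (mul_le_mul_of_nonneg_right ?_ h5)
    exact le_mul_of_one_le_left hc2 (hC₁1 v)

/-- coordinates of fixed functions are rational -/
theorem repr_fixed (R : GalStr ρ P) {n : ℕ} {f : affRing P} (h : f ∈ V P n)
    (hf : ∀ σ, ρ σ • (f : F) = f) (σ : GQ) (k : BI P n) :
    σ ((rb R n).repr ⟨f, h⟩ k) = (rb R n).repr ⟨f, h⟩ k := by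
  set c := (rb R n).repr ⟨f, h⟩ with hc
  have h1 : (f : F) = ∑ k, c k • (((rb R n k : V P n) : affRing P) : F) := by
    have h2 := (rb R n).sum_repr ⟨f, h⟩
    have h3 := congrArg (fun z : V P n => ((z : affRing P) : F)) h2
    simp only [Submodule.coe_sum, Submodule.coe_smul] at h3
    rw [AddSubmonoidClass.coe_finsetSum] at h3
    exact h3.symm
  have h4 : (∑ k, σ (c k) • rb R n k) = ⟨f, h⟩ := by
    apply Subtype.ext
    apply Subtype.ext
    have h5 : ((((∑ k, σ (c k) • rb R n k : V P n)) : affRing P) : F) =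
        ∑ k, σ (c k) • (((rb R n k : V P n) : affRing P) : F) := by
      simp only [Submodule.coe_sum, Submodule.coe_smul]
      rw [AddSubmonoidClass.coe_finsetSum]
      rfl
    rw [h5]
    show _ = (f : F)
    rw [← hf σ]
    conv_rhs => rw [h1]
    rw [Finset.smul_sum]
    refine Finset.sum_congr rfl fun k _ => ?_
    rw [R.smul_smul', rb_spec]
  have h6 := (rb R n).repr_sum_self (fun k => σ (c k))
  rw [h4] at h6
  exact (congrFun h6 k).symm

/-! ### functions vanishing on `D` -/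

theorem mem_rr_sub_iff {D : Finset (Place Qb F)} (hP : P ∉ D) {n : ℕ} {f : affRing P} :
    (f : F) ∈ riemannRochSpace (Finsupp.single P (n : ℤ) - dvs D : Divisor Qb F) ↔
      f ∈ V P n ∧ ∀ Q ∈ D, pt P Q f = 0 := by
  classical
  constructor
  · intro h
    have h1 : f ∈ V P n := by
      show (f : F) ∈ riemannRochSpace (Finsupp.single P (n : ℤ) : Divisor Qb F)
      rw [mem_rr_iff] at h ⊢
      rcases h with h | h
      · exact Or.inl h
      · right
        intro v
        have h2 := h v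
        rw [Finsupp.sub_apply, dvs_apply] at h2
        split_ifs at h2 <;> linarith
    refine ⟨h1, fun Q hQ => ?_⟩
    have hQP : Q ≠ P := fun h0 => hP (h0 ▸ hQ)
    rw [pt_apply hQP]
    rw [mem_rr_iff] at h
    rcases h with h | h
    · rw [h, val_zero]
    · apply val_of_ord_pos
      have h2 := h Q
      rw [Finsupp.sub_apply, dvs_apply, if_pos hQ, Finsupp.single_apply, if_neg (Ne.symm hQP)] at h2
      linarith
  · rintro ⟨h1, h2⟩
    have h1' : (f : F) ∈ riemannRochSpace (Finsupp.single P (n : ℤ) : Divisor Qb F) := h1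
    rw [mem_rr_iff] at h1' ⊢
    rcases h1' with h | h
    · exact Or.inl h
    · by_cases hf0 : (f : F) = 0
      · exact Or.inl hf0
      right
      intro v
      rw [Finsupp.sub_apply, dvs_apply]
      split_ifs with hv
      · have hvP : v ≠ P := fun h0 => hP (h0 ▸ hv)
        have h3 := h2 v hv
        rw [pt_apply hvP, val_eq_zero_iff_ord v (f.2 v hvP)] at h3
        have h4 := h3.resolve_left hf0
        rw [Finsupp.single_apply, if_neg (Ne.symm hvP)]
        linarith
      · have := h v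
        linarith

/-- elements of `L(nP - D)` -/
theorem exists_aff_of_mem_rr {D : Finset (Place Qb F)} {n : ℕ} {f : F}
    (hf : f ∈ riemannRochSpace (Finsupp.single P (n : ℤ) - dvs D : Divisor Qb F)) :
    ∃ f' : affRing P, (f' : F) = f := by
  classical
  have hf' : f ∈ affRing P := by
    intro v hv
    rw [mem_rr_iff] at hf
    rcases hf with hf | hf
    · rw [hf]; exact zero_mem _
    · apply mem_of_ord_nonneg
      have h1 := hf v
      rw [Finsupp.sub_apply, Finsupp.single_apply, if_neg (Ne.symm hv), dvs_apply] at h1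
      split_ifs at h1 <;> linarith
  exact ⟨⟨f, hf'⟩, rfl⟩

theorem mul_mem_rr {A B : Divisor Qb F} {u f : F} (hu : u ≠ 0)
    (h : A = B + divOf u) (hf : f ∈ riemannRochSpace A) : u * f ∈ riemannRochSpace B := by
  rw [mem_rr_iff] at hf ⊢
  rcases hf with hf | hf
  · left; rw [hf, mul_zero]
  · by_cases hf0 : f = 0
    · left; rw [hf0, mul_zero]
    right
    intro v
    have h1 := hf v
    rw [h, Finsupp.add_apply, FunField.divOf_apply] at h1
    rw [v.ord_mul hu hf0]
    linarith

end Fermat.Agent.MW
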