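import Fermat.Agent.MW.Psi

/-! # Northcott property of `Ψ` -/

set_option autoImplicit false
set_option linter.unusedSectionVars false

noncomputable section

open AlgebraicCurve Polynomial Matrix
open Fermat.Agent.FunField (IsFF divOf)
open Fermat.Agent.S27C

namespace Fermat.Agent.MW

variable {F : Type*} [Field F] [Algebra Qb F] {P : Place Qb F} {N₀ : ℕ}
variable [IsCurveOver Qb F] [IsFF Qb F] {ρ : GQ →* SemilinearAut Qb F}

theorem smul_mem_affRing (R : GalStr ρ P) (σ : GQ) {f : F} (hf : f ∈ affRing P) :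
    ρ σ • f ∈ affRing P := by
  intro v hv
  have h1 : (ρ σ)⁻¹ • v ≠ P := by
    have := smul_ne_P R σ⁻¹ hv
    rwa [map_inv] at this
  have h2 := hf _ h1
  rw [mem_iff_ord] at h2 ⊢
  rcases h2 with h2 | h2
  · left; rw [h2, smul_zero]
  · right
    have h3 := SemilinearAut.ord_smul (ρ σ) ((ρ σ)⁻¹ • v) f
    rw [smul_inv_smul] at h3
    rw [h3]
    exact h2

/-- the action on the affine ring -/
def affEquiv (R : GalStr ρ P) (σ : GQ) : affRing P ≃+* affRing P where
  toFun f := ⟨ρ σ • (f : F), smul_mem_affRing R σ f.2⟩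
  invFun f := ⟨ρ σ⁻¹ • (f : F), smul_mem_affRing R σ⁻¹ f.2⟩
  left_inv f := Subtype.ext (by
    show ρ σ⁻¹ • (ρ σ • (f : F)) = f
    rw [map_inv]; exact inv_smul_smul _ _)
  right_inv f := Subtype.ext (by
    show ρ σ • (ρ σ⁻¹ • (f : F)) = f
    rw [map_inv]; exact smul_inv_smul _ _)
  map_mul' f g := Subtype.ext (smul_mul' _ _ _)
  map_add' f g := Subtype.ext (smul_add _ _ _)

theorem npoly_fixed (R : GalStr ρ P) {x f : affRing P} (hx : ∀ σ, ρ σ • (x : F) = x)
    (hf : ∀ σ, ρ σ • (f : F) = f) (σ : GQ) :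
    (npoly x f).map ((σ : Qb ≃+* Qb) : Qb →+* Qb) = npoly x f := by
  let _ := algA x
  have he : RingHom.comp (algebraMap Qb[X] (affRing P))
      ((Polynomial.mapEquiv (σ : Qb ≃+* Qb) : Qb[X] ≃+* Qb[X]) : Qb[X] →+* Qb[X]) =
      RingHom.comp ((affEquiv R σ : affRing P ≃+* affRing P) : affRing P →+* affRing P)
        (algebraMap Qb[X] (affRing P)) := by
    apply Polynomial.ringHom_ext
    · intro a
      apply Subtype.ext
      show ((aeval x (((C a : Qb[X])).map ((σ : Qb ≃+* Qb) : Qb →+* Qb)) : affRing P) : F) =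
        ρ σ • (((aeval x (C a : Qb[X])) : affRing P) : F)
      rw [Polynomial.map_C, aeval_C, aeval_C]
      exact (R.base σ a).symm
    · apply Subtype.ext
      show ((aeval x ((X : Qb[X]).map ((σ : Qb ≃+* Qb) : Qb →+* Qb)) : affRing P) : F) =
        ρ σ • (((aeval x (X : Qb[X])) : affRing P) : F)
      rw [Polynomial.map_X, aeval_X]
      exact (hx σ).symm
  have h1 := Algebra.norm_eq_of_equiv_equiv (Polynomial.mapEquiv (σ : Qb ≃+* Qb))
    (affEquiv R σ) he f
  have h2 : affEquiv R σ f = f := Subtype.ext (hf σ)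
  rw [h2, eq_comm, RingEquiv.symm_apply_eq] at h1
  exact h1.symm

/-- the leading coefficient of the norm polynomial of a fixed function is rational -/
theorem exists_rat_of_npoly (R : GalStr ρ P) {x f : affRing P} (hx : ∀ σ, ρ σ • (x : F) = x)
    (hf : ∀ σ, ρ σ • (f : F) = f) {c : Qb} {q : Qb[X]} (hq : q.Monic)
    (h : npoly x f = C c * q) : ∃ r : ℚ, algebraMap ℚ Qb r = c := by
  refine LA.rat_of_fixed fun σ => ?_
  have h1 : (npoly x f).leadingCoeff = c := by
    rw [h, leadingCoeff_mul, leadingCoeff_C, hq.leadingCoeff, mul_one]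
  have h2 := npoly_fixed R hx hf σ
  have h3 : ((npoly x f).map ((σ : Qb ≃+* Qb) : Qb →+* Qb)).leadingCoeff =
      σ (npoly x f).leadingCoeff :=
    leadingCoeff_map_of_injective (f := ((σ : Qb ≃+* Qb) : Qb →+* Qb)) (RingHom.injective _) _
  rw [h2, h1] at h3
  exact h3.symm

/-- the height of an integral vector -/
theorem S_nrm_int_le {κ : Type} [Fintype κ] {c : κ → ℤ} (hc : c ≠ 0) {M : ℝ} (hM : 0 < M)
    (h : ∀ j, |(c j : ℝ)| ≤ M) :
    S (fun v => nrm v (fun j => algebraMap ℚ Qb (c j : ℚ))) ≤ Real.log M := by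
  classical
  have hne : (fun j => algebraMap ℚ Qb (c j : ℚ)) ≠ 0 := by
    intro h0
    apply hc
    funext j
    have h1 := congrFun h0 j
    have h2 : algebraMap ℚ Qb (c j : ℚ) = 0 := h1
    rw [map_eq_zero] at h2
    exact_mod_cast h2
  obtain ⟨j₀, hj₀⟩ := Function.ne_iff.mp hc
  have hφ : Adm (fun v : Pl => if v = none then M else 1) := by
    refine Adm.of_ite {none} (Set.finite_singleton _) ?_ ?_
    · intro v; split_ifs; exacts [hM, one_pos]
    · intro v hv
      rw [if_neg]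
      intro h
      exact hv h
  refine (S_le (adm_nrm hne) hφ fun v => ?_).trans ?_
  · rcases v with _ | p
    · rw [if_pos rfl]
      refine nrm_le' hM.le fun j => ?_
      rw [av_none_rat]
      have := h j
      push_cast
      exact this
    · rw [if_neg (by simp)]
      refine nrm_le' zero_le_one fun j => ?_
      rw [av_some_rat]
      push_cast
      exact_mod_cast padicNorm.of_int (p := (p : ℕ)) (c j)
  · unfold S
    rw [finsum_eq_single _ (none : Pl)]
    · simp
    · intro v hv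
      simp [hv]

/-- **Northcott step.** -/
theorem exists_NC (R : GalStr ρ P) (hN₀ : Big P N₀) {x : affRing P}
    (hx : P.ord (x : F) = -(N₀ : ℤ)) (hxfix : ∀ σ, ρ σ • (x : F) = x) (e : ℕ) :
    ∃ (d : ℕ) (A C : ℝ), 0 < A ∧ ∀ D : Finset (Place Qb F), D.card = e → P ∉ D → Stab ρ D →
      ∃ D'' : Divisor Qb F, 0 ≤ D'' ∧ D'' P = 0 ∧ Divisor.degree D'' ≤ d ∧
        (∀ σ, ρ σ • D'' = D'') ∧ S (fun v => hv (x : F) v D'') ≤ A * Psi N₀ P D + C ∧
        ∃ f : F, f ≠ 0 ∧ (divOf f : Divisor Qb F) =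
          dvs D + D'' - Finsupp.single P ((e : ℤ) + Divisor.degree D'') := by
  classical
  have hN₀pos := hN₀.pos
  obtain ⟨n₁, hn₁⟩ := exists_finrank_V (F := F) P
  set g := genusFF Qb F with hg
  obtain ⟨t, ht1, ht2, ht3⟩ : ∃ t : ℕ, n₁ ≤ t ∧ e ≤ t ∧ g + e + 1 ≤ t :=
    ⟨n₁ + e + (g + e + 1), by omega, by omega, by omega⟩
  have htN : n₁ ≤ t * N₀ := by
    calc n₁ ≤ t := ht1
      _ = t * 1 := (mul_one _).symm
      _ ≤ t * N₀ := Nat.mul_le_mul_left _ hN₀pos
  have hdim : (Module.finrank Qb (V P (t * N₀)) : ℤ) = t * N₀ + 1 - g := by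
    have := hn₁ _ htN
    push_cast at this
    exact this
  have hlt : (e : ℤ) < Module.finrank Qb (V P (t * N₀)) := by
    rw [hdim]
    have h3 : (g : ℤ) + e + 1 ≤ t := by exact_mod_cast ht3
    have h4 : (t : ℤ) ≤ t * N₀ := by
      have : t * 1 ≤ t * N₀ := Nat.mul_le_mul_left _ hN₀pos
      rw [mul_one] at this
      exact_mod_cast this
    linarith
  have hlt' : e < Module.finrank Qb (V P (t * N₀)) := by exact_mod_cast hlt
  obtain ⟨A₁, hA₁⟩ := exists_lam R hN₀ (e := e) (m := t) (by omega)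
  obtain ⟨Z, hZ, hZ1, hZ2⟩ := exists_zeros (P := P) hN₀pos hx (t * N₀)
  obtain ⟨Y, hY, hY1, hY2⟩ := dom_basis (rb R (t * N₀)) (bas P (t * N₀))
  obtain ⟨c₁, hc₁0, hc₁⟩ := (dom_pn_le_max (P := P) hx).S_le
  set M := Module.finrank Qb (V P (t * N₀)) with hM
  set l : ℝ := (M : ℝ) - e with hl
  have hlpos : 0 < l := by
    have : (e : ℝ) < M := by exact_mod_cast hlt'
    rw [hl]; linarith
  have hN0R : (0 : ℝ) < N₀ := by exact_mod_cast hN₀pos
  refine ⟨t * N₀, N₀ / l, S Z + N₀ * (S Y + Real.log M + A₁ / l) + e * c₁, by positivity, ?_⟩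
  intro D he hP hD
  obtain ⟨⟨J, hJ⟩, hL⟩ := hA₁ D he hP
  have hrow := rowPerm_evB R (rb_spec R (t * N₀)) he hP hD
  obtain ⟨c, hc0, hEc, hcb⟩ := LA.siegel hrow hJ (by
    rw [Fintype.card_fin, Fintype.card_fin]; exact hlt')
  rw [Fintype.card_fin, Fintype.card_fin] at hcb
  set f : V P (t * N₀) := ∑ k, (algebraMap ℚ Qb (c k : ℚ)) • rb R (t * N₀) k with hf
  have hrepr : ∀ k, (rb R (t * N₀)).repr f k = algebraMap ℚ Qb (c k : ℚ) := by
    intro k
    have := congrFun ((rb R (t * N₀)).repr_sum_self (fun k => algebraMap ℚ Qb (c k : ℚ))) k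
    exact this
  have hf0 : f ≠ 0 := by
    intro h0
    apply hc0
    funext k
    have h1 := hrepr k
    rw [h0, map_zero, Finsupp.zero_apply, eq_comm, map_eq_zero] at h1
    exact_mod_cast h1
  have hfA0 : (f : affRing P) ≠ 0 := fun h => hf0 (Subtype.ext h)
  have hfF0 : ((f : affRing P) : F) ≠ 0 := fun h => hfA0 (Subtype.ext h)
  have hfcoe : ((f : affRing P) : F) =
      ∑ k, algebraMap ℚ Qb (c k : ℚ) • (((rb R (t * N₀) k : V P (t * N₀)) : affRing P) : F) := by
    rw [hf]
    simp only [Submodule.coe_sum, Submodule.coe_smul]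
    rw [AddSubmonoidClass.coe_finsetSum]
    rfl
  have hffix : ∀ σ, ρ σ • ((f : affRing P) : F) = (f : affRing P) := by
    intro σ
    rw [hfcoe, Finset.smul_sum]
    refine Finset.sum_congr rfl fun k _ => ?_
    rw [R.smul_smul', rb_spec, AlgEquiv.commutes]
  have hfD : ∀ Q ∈ D, pt P Q (f : affRing P) = 0 := by
    intro Q hQ
    set i := D.equivFinOfCardEq he ⟨Q, hQ⟩ with hi
    have h5 : xs P he i = pt P Q := by
      unfold xs
      rw [hi, Equiv.symm_apply_apply]
    have h6 := hEc i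
    have h7 : pt P Q (f : affRing P) = ∑ j, evB (rb R (t * N₀)) (xs P he) i j *
        algebraMap ℚ Qb (c j : ℚ) := by
      rw [← h5, hf]
      simp only [Submodule.coe_sum, Submodule.coe_smul]
      rw [map_sum]
      refine Finset.sum_congr rfl fun k _ => ?_
      rw [map_smul, smul_eq_mul, mul_comm]
      rfl
    rw [h7, h6]
  -- zeros
  obtain ⟨γ, hγ0, hγ, hZv⟩ := hZ2 f hf0
  obtain ⟨r, hr⟩ := exists_rat_of_npoly R hxfix hffix (monic_chi _ _) hγ
  have hSγ : S (fun v => av v γ) = 0 := by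
    rw [← hr]
    refine S_av_rat r ?_
    rintro rfl
    rw [map_zero] at hr
    exact hγ0 hr.symm
  set Zd := zdiv P ((f : affRing P) : F) with hZd
  have hDle : ∀ Q, dvs D Q ≤ Zd Q := by
    intro Q
    rw [dvs_apply]
    split_ifs with hQ
    · have hQP : Q ≠ P := fun h0 => hP (h0 ▸ hQ)
      have h1 := hfD Q hQ
      rw [pt_apply hQP, val_eq_zero_iff_ord Q ((f : affRing P).2 Q hQP)] at h1
      have h2 := h1.resolve_left hfF0
      rw [hZd, zdiv_apply_of_ne hQP]
      omega
    · exact zdiv_nonneg _ Q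
  have hdvs0 : (0 : Divisor Qb F) ≤ dvs D := by
    intro Q
    rw [dvs_apply]
    split_ifs <;> simp
  have hZdP : Zd P = 0 := zdiv_apply_self
  have hdvsP : dvs D P = 0 := by rw [dvs_apply, if_neg hP]
  have hZdsmul : ∀ σ, ρ σ • Zd = Zd := by
    intro σ
    ext Q
    rw [SemilinearAut.divisor_smul_apply]
    by_cases hQ : Q = P
    · subst hQ
      have h1 : (ρ σ)⁻¹ • Q = Q := by rw [← map_inv, R.fixP]
      rw [h1]
    · have hQ' : (ρ σ)⁻¹ • Q ≠ P := by
        have := smul_ne_P R σ⁻¹ hQ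
        rwa [map_inv] at this
      rw [hZd, zdiv_apply_of_ne hQ', zdiv_apply_of_ne hQ]
      have h3 := SemilinearAut.ord_smul (ρ σ) ((ρ σ)⁻¹ • Q) ((f : affRing P) : F)
      rw [smul_inv_smul, hffix] at h3
      exact h3.symm
  have hdegZ : Divisor.degree Zd = -P.ord ((f : affRing P) : F) := degree_zdiv _
  have hordP : -P.ord ((f : affRing P) : F) ≤ (t * N₀ : ℕ) := by
    have := (mem_V.mp f.2).resolve_left hfA0
    omega
  refine ⟨Zd - dvs D, ?_, ?_, ?_, ?_, ?_, ((f : affRing P) : F), hfF0, ?_⟩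
  · intro Q
    have := hDle Q
    rw [Finsupp.sub_apply, Finsupp.zero_apply]
    linarith
  · rw [Finsupp.sub_apply, hZdP, hdvsP, sub_zero]
  · rw [map_sub, degree_dvs, hdegZ]
    have : (0 : ℤ) ≤ D.card := Int.natCast_nonneg _
    linarith
  · intro σ
    rw [smul_sub, hZdsmul, hD.smul_dvs]
  · -- heights
    have hD''0 : (0 : Divisor Qb F) ≤ Zd - dvs D := by
      intro Q
      have := hDle Q
      rw [Finsupp.sub_apply, Finsupp.zero_apply]
      linarith
    have hhv : ∀ v, hv (x : F) v Zd = hv (x : F) v (dvs D) * hv (x : F) v (Zd - dvs D) := by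
      intro v
      rw [← hv_add _ _ hdvs0 hD''0, add_sub_cancel]
    have hS1 : S (fun v => hv (x : F) v Zd) =
        S (fun v => hv (x : F) v (dvs D)) + S (fun v => hv (x : F) v (Zd - dvs D)) := by
      simp only [hhv]
      exact S_mul (adm_hv _ _) (adm_hv _ _)
    have hfn : ((bas P (t * N₀)).repr f : _ → Qb) ≠ 0 := by
      intro h0
      apply hf0
      have h1 : (bas P (t * N₀)).repr f = 0 := Finsupp.ext fun k => congrFun h0 k
      rwa [LinearEquiv.map_eq_zero_iff] at h1
    have hfn' : ((rb R (t * N₀)).repr f : _ → Qb) ≠ 0 := by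
      intro h0
      apply hf0
      have h1 : (rb R (t * N₀)).repr f = 0 := Finsupp.ext fun k => congrFun h0 k
      rwa [LinearEquiv.map_eq_zero_iff] at h1
    have hadf : Adm (fun v => nrm v ((bas P (t * N₀)).repr f)) := adm_nrm hfn
    have hadf' : Adm (fun v => nrm v ((rb R (t * N₀)).repr f)) := adm_nrm hfn'
    have hS2 : S (fun v => hv (x : F) v Zd) ≤
        S Z + N₀ * S (fun v => nrm v ((bas P (t * N₀)).repr f)) := by
      have h1 := S_le ((adm_av hγ0).mul (adm_hv (x : F) Zd)) (hZ.mul (hadf.pow N₀))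
        (fun v => (hZv v).2)
      rw [S_mul (adm_av hγ0) (adm_hv (x : F) Zd), hSγ, zero_add, S_mul hZ (hadf.pow N₀),
        S_pow] at h1
      exact h1
    have hS3 : S (fun v => nrm v ((bas P (t * N₀)).repr f)) ≤
        S Y + S (fun v => nrm v ((rb R (t * N₀)).repr f)) := by
      rw [← S_mul hY hadf']
      exact S_le hadf (hY.mul hadf') fun v => hY2 v f
    have hMpos : (0 : ℝ) < M := by
      have : 0 < M := by omega
      exact_mod_cast this
    have hS4 : S (fun v => nrm v ((rb R (t * N₀)).repr f)) ≤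
        Real.log M + S (fun v => LA.vol (av v) (evB (rb R (t * N₀)) (xs P he))) / l := by
      have h1 : (fun v => nrm v ((rb R (t * N₀)).repr f)) =
          fun v => nrm v (fun j => algebraMap ℚ Qb (c j : ℚ)) := by
        funext v
        congr 1
        funext k
        exact hrepr k
      rw [h1]
      have h2 := S_nrm_int_le hc0 (by positivity) hcb
      rwa [Real.log_mul hMpos.ne' (Real.exp_pos _).ne', Real.log_exp] at h2
    have hS5 : eta N₀ P D ≤ e * c₁ + S (fun v => hv (x : F) v (dvs D)) := by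
      rw [S_hv, eta]
      have h1 : (dvs D : Divisor Qb F).sum (fun Q n => (n.toNat : ℝ) *
          S (fun v => max 1 (av v (val Q (x : F))))) =
          ∑ Q ∈ D, S (fun v => max 1 (av v (val Q (x : F)))) := by
        have hsupp : (dvs D : Divisor Qb F).support = D := by
          ext Q
          rw [Finsupp.mem_support_iff, dvs_apply]
          split_ifs with h <;> simp [h]
        rw [Finsupp.sum, hsupp]
        refine Finset.sum_congr rfl fun Q hQ => ?_
        rw [dvs_apply, if_pos hQ]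
        simp
      rw [h1]
      have h2 : ∀ Q ∈ D, hp N₀ P Q ≤ c₁ + S (fun v => max 1 (av v (val Q (x : F)))) := by
        intro Q hQ
        have hQP : Q ≠ P := fun h0 => hP (h0 ▸ hQ)
        have h3 := hc₁ (pt P Q) (adm_pn _) (adm_max_one _)
        rw [pt_apply hQP] at h3
        exact h3
      calc ∑ Q ∈ D, hp N₀ P Q ≤ ∑ Q ∈ D, (c₁ + S (fun v => max 1 (av v (val Q (x : F))))) :=
            Finset.sum_le_sum h2
        _ = _ := by rw [Finset.sum_add_distrib, Finset.sum_const, he, nsmul_eq_mul]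
    have hct : ((t + 1 - e : ℕ) : ℝ) = t + 1 - e := by
      rw [Nat.cast_sub (by omega)]; push_cast; ring
    rw [hct, abs_le] at hL
    have hS6 : S (fun v => LA.vol (av v) (evB (rb R (t * N₀)) (xs P he))) / l ≤
        (((t : ℝ) + 1 - e) * eta N₀ P D + wsum N₀ P D / 2) / l + A₁ / l := by
      rw [← add_div]
      apply div_le_div_of_nonneg_right _ hlpos.le
      linarith [hL.2]
    have hMR : (M : ℝ) = t * N₀ + 1 - g := by exact_mod_cast hdim
    have hPsi : N₀ * ((((t : ℝ) + 1 - e) * eta N₀ P D + wsum N₀ P D / 2) / l) - eta N₀ P D =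
        N₀ / l * Psi N₀ P D := by
      unfold Psi
      rw [he, ← hg]
      have hle : l = t * N₀ + 1 - g - e := by rw [hl, hMR]
      have hl0 : l ≠ 0 := hlpos.ne'
      have hN0 : (N₀ : ℝ) ≠ 0 := hN0R.ne'
      field_simp
      rw [hle]
      ring
    have h10 : (N₀ : ℝ) * S (fun v => nrm v ((bas P (t * N₀)).repr f)) ≤
        N₀ * (S Y + (Real.log M + ((((t : ℝ) + 1 - e) * eta N₀ P D + wsum N₀ P D / 2) / l +
          A₁ / l))) := by
      apply mul_le_mul_of_nonneg_left _ hN0R.le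
      linarith
    have h11 : (N₀ : ℝ) * (S Y + (Real.log M + ((((t : ℝ) + 1 - e) * eta N₀ P D +
        wsum N₀ P D / 2) / l + A₁ / l))) = N₀ * (S Y + Real.log M + A₁ / l) +
        N₀ * ((((t : ℝ) + 1 - e) * eta N₀ P D + wsum N₀ P D / 2) / l) := by ring
    rw [h11] at h10
    linarith
  · ext Q
    rw [FunField.divOf_apply, Finsupp.sub_apply, Finsupp.add_apply, Finsupp.sub_apply,
      map_sub, degree_dvs, he, hdegZ]
    by_cases hQ : Q = P
    · subst hQ
      rw [hZdP, hdvsP, Finsupp.single_eq_same]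
      ring
    · rw [Finsupp.single_apply, if_neg (Ne.symm hQ), hZd, zdiv_apply_of_ne hQ]
      ring

end Fermat.Agent.MW
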