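import Fermat.Agent.MW.NormPoly

/-! # Norm polynomials: divisor formula and comparison of norms (block [C]) -/

set_option autoImplicit false
set_option linter.unusedSectionVars false
set_option linter.style.haveILetI false
set_option maxHeartbeats 1000000

noncomputable section

open AlgebraicCurve Polynomial
open scoped IntermediateField

namespace Fermat.Agent.MW

open Fermat.Agent.FunField Fermat.Agent.FunField.PlaceLemmas Fermat.Agent.S27C
open Fermat.Agent.WeilPairing (isFF_adjoin transcendental_gen)

variable {K F : Type*} [Field K] [Field F] [Algebra K F] {P : Place K F}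
variable [IsAlgClosed K] [IsCurveOver K F]

/-- `∏ (X - x(Q))^{D(Q)}` -/
def chi (x : F) (D : Divisor K F) : K[X] := D.prod fun Q n => (X - C (val Q x)) ^ n.toNat

/-- the multiset of the `x(Q)`, `Q ∈ D`. -/
def xset (x : F) (D : Divisor K F) : Multiset K := D.sum fun Q n => n.toNat • {val Q x}

theorem prod_map_xset {M : Type*} [CommMonoid M] (x : F) (D : Divisor K F) (g : K → M) :
    ((xset x D).map g).prod = D.prod fun Q n => g (val Q x) ^ n.toNat := by
  unfold xset
  rw [Finsupp.sum, Finsupp.prod]
  have h1 : ∀ s : Finset (Place K F),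
      ((∑ Q ∈ s, (D Q).toNat • ({val Q x} : Multiset K)).map g).prod =
        ∏ Q ∈ s, g (val Q x) ^ (D Q).toNat := by
    classical
    intro s
    induction s using Finset.induction_on with
    | empty => simp
    | insert Q s hQ ih =>
      rw [Finset.sum_insert hQ, Finset.prod_insert hQ, Multiset.map_add, Multiset.prod_add, ih,
        Multiset.map_nsmul, Multiset.prod_nsmul, Multiset.map_singleton, Multiset.prod_singleton]
  exact h1 _

theorem chi_eq_prod (x : F) (D : Divisor K F) :
    chi x D = ((xset x D).map fun a => X - C a).prod :=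
  (prod_map_xset x D (fun a => X - C a)).symm

theorem monic_chi (x : F) (D : Divisor K F) : (chi x D).Monic := by
  rw [chi_eq_prod]
  exact monic_multiset_prod_of_monic _ _ fun a _ => monic_X_sub_C a

theorem natDegree_chi (x : F) (D : Divisor K F) : (chi x D).natDegree = (xset x D).card := by
  rw [chi_eq_prod, natDegree_multiset_prod_X_sub_C_eq_card]

theorem card_xset (x : F) (D : Divisor K F) : (xset x D).card = D.sum fun _ n => n.toNat := by
  unfold xset
  rw [Finsupp.sum, Multiset.card_sum, Finsupp.sum]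
  refine Finset.sum_congr rfl fun Q _ => ?_
  rw [Multiset.card_nsmul, Multiset.card_singleton, mul_one]

theorem chi_zero (x : F) : chi (K := K) x 0 = 1 := Finsupp.prod_zero_index

theorem toNat_add_of_nonneg {a b : ℤ} (ha : 0 ≤ a) (hb : 0 ≤ b) :
    (a + b).toNat = a.toNat + b.toNat := Int.toNat_add ha hb

theorem prod_add_of_nonneg {M : Type*} [CommMonoid M] (g : Place K F → M) {D E : Divisor K F}
    (hD : 0 ≤ D) (hE : 0 ≤ E) : (D + E).prod (fun Q n => g Q ^ n.toNat) =
      D.prod (fun Q n => g Q ^ n.toNat) * E.prod (fun Q n => g Q ^ n.toNat) := by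
  classical
  rw [Finsupp.prod_of_support_subset (D + E) (s := D.support ∪ E.support) Finsupp.support_add _
      (fun Q _ => by simp),
    Finsupp.prod_of_support_subset D (s := D.support ∪ E.support) Finset.subset_union_left _
      (fun Q _ => by simp),
    Finsupp.prod_of_support_subset E (s := D.support ∪ E.support) Finset.subset_union_right _
      (fun Q _ => by simp), ← Finset.prod_mul_distrib]
  refine Finset.prod_congr rfl fun Q _ => ?_
  rw [Finsupp.add_apply, toNat_add_of_nonneg (hD Q) (hE Q), pow_add]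

theorem chi_add (x : F) {D E : Divisor K F} (hD : 0 ≤ D) (hE : 0 ≤ E) :
    chi x (D + E) = chi x D * chi x E := prod_add_of_nonneg _ hD hE

theorem xset_add (x : F) {D E : Divisor K F} (hD : 0 ≤ D) (hE : 0 ≤ E) :
    xset x (D + E) = xset x D + xset x E := by
  have := prod_add_of_nonneg (M := Multiplicative (Multiset K))
    (fun Q => Multiplicative.ofAdd {val Q x}) hD hE
  exact this

variable [IsFF K F]

/-- The zeros of `f` (away from `P`). -/
def zdiv (P : Place K F) (f : F) : Divisor K F := (divOf f : Divisor K F).erase P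

theorem zdiv_apply_of_ne {f : F} {Q : Place K F} (hQ : Q ≠ P) : zdiv P f Q = Q.ord f := by
  classical
  rw [zdiv, Finsupp.erase_ne hQ, divOf_apply]

theorem zdiv_apply_self {f : F} : zdiv P f P = 0 := by
  classical
  rw [zdiv, Finsupp.erase_same]

theorem zdiv_nonneg (f : affRing P) : 0 ≤ zdiv P (f : F) := by
  intro Q
  by_cases hQ : Q = P
  · subst hQ; rw [zdiv_apply_self]; rfl
  · rw [zdiv_apply_of_ne hQ]; exact affRing_ord_nonneg f hQ

theorem degree_eq_sum_self (D : Divisor K F) : Divisor.degree D = D.sum fun _ n => n := by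
  exact S27C.degree_eq_sum D

theorem degree_zdiv (f : affRing P) : Divisor.degree (zdiv P (f : F)) = - P.ord (f : F) := by
  classical
  have h1 : (divOf (f : F) : Divisor K F) = Finsupp.single P (P.ord (f : F)) + zdiv P (f : F) := by
    rw [zdiv, ← divOf_apply (K := K) (f : F) P, Finsupp.single_add_erase]
  have h2 := degree_divOf (K := K) (f : F)
  rw [h1, map_add, Divisor.degree_single, WeilPairing.deg_eq_one_of_isFF] at h2
  push_cast at h2
  linarith

theorem card_xset_of_nonneg (x : F) {D : Divisor K F} (hD : 0 ≤ D) :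
    ((xset x D).card : ℤ) = Divisor.degree D := by
  rw [card_xset, degree_eq_sum_self, Finsupp.sum, Finsupp.sum]
  push_cast
  refine Finset.sum_congr rfl fun Q _ => ?_
  exact Int.toNat_of_nonneg (hD Q)

/-- **The divisor formula** for the norm polynomial. -/
theorem npoly_eq {x : affRing P} (hx : P.ord (x : F) < 0) {f : affRing P} (hf : f ≠ 0) :
    ∃ c : K, c ≠ 0 ∧ npoly x f = C c * chi (x : F) (zdiv P (f : F)) := by
  classical
  have hf0 : (f : F) ≠ 0 := by exact_mod_cast hf
  obtain ⟨c, hc, h⟩ := norm_eq_prod P (transcendental_of_ord_neg hx) hx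
    (fun Q hQ => affRing_ord_nonneg x hQ) hf0 (fun Q hQ => affRing_ord_nonneg f hQ)
  refine ⟨c, hc, ?_⟩
  apply transcendental_iff_injective.mp (transcendental_of_ord_neg hx)
  rw [← aeval_npoly hx f, h, map_mul, aeval_C]
  congr 1
  unfold chi
  rw [Finsupp.prod, map_prod]
  refine Finset.prod_congr ?_ fun Q hQ => ?_
  · rw [zdiv, Finsupp.support_erase]
  · have hQP : Q ≠ P := by
      rintro rfl
      exact (Finset.notMem_erase _ _) hQ
    rw [map_pow, map_sub, aeval_X, aeval_C, zdiv_apply_of_ne hQP]

theorem natDegree_npoly {x : affRing P} (hx : P.ord (x : F) < 0) {f : affRing P} (hf : f ≠ 0) :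
    ((npoly x f).natDegree : ℤ) = - P.ord (f : F) := by
  obtain ⟨c, hc, h⟩ := npoly_eq hx hf
  rw [h, natDegree_C_mul hc, natDegree_chi, card_xset_of_nonneg _ (zdiv_nonneg f), degree_zdiv]

/-- The formula for two functions whose divisors differ by `D' - D` away from `P`. -/
theorem npoly_mul_chi {x : affRing P} (hx : P.ord (x : F) < 0) {f g : affRing P} (hf : f ≠ 0)
    (hg : g ≠ 0) {D D' : Divisor K F} (hD : 0 ≤ D) (hD' : 0 ≤ D')
    (h : ∀ Q : Place K F, Q ≠ P → Q.ord (g : F) + D Q = Q.ord (f : F) + D' Q)
    (hDP : D P = 0) (hDP' : D' P = 0) :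
    ∃ c : K, c ≠ 0 ∧ npoly x g * chi (x : F) D = C c * (npoly x f * chi (x : F) D') := by
  obtain ⟨a, ha, h1⟩ := npoly_eq hx hf
  obtain ⟨b, hb, h2⟩ := npoly_eq hx hg
  refine ⟨b / a, div_ne_zero hb ha, ?_⟩
  have h3 : zdiv P (g : F) + D = zdiv P (f : F) + D' := by
    ext Q
    rw [Finsupp.add_apply, Finsupp.add_apply]
    by_cases hQ : Q = P
    · subst hQ; rw [zdiv_apply_self, zdiv_apply_self, hDP, hDP']
    · rw [zdiv_apply_of_ne hQ, zdiv_apply_of_ne hQ, h Q hQ]
  have h4 : chi (x : F) (zdiv P (g : F)) * chi (x : F) D =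
      chi (x : F) (zdiv P (f : F)) * chi (x : F) D' := by
    rw [← chi_add _ (zdiv_nonneg g) hD, ← chi_add _ (zdiv_nonneg f) hD', h3]
  rw [h1, h2, mul_assoc, h4]
  have h5 : C (b / a) * C a = C b := by rw [← C_mul, div_mul_cancel₀ _ ha]
  rw [← h5]; ring

/-! ### the generic norm -/

/-- all coefficients homogeneous of degree `d` -/
def CoeffHom {σ : Type*} (d : ℕ) (p : (MvPolynomial σ K)[X]) : Prop :=
  ∀ j, (p.coeff j).IsHomogeneous d

theorem CoeffHom.mul {σ : Type*} {d e : ℕ} {p q : (MvPolynomial σ K)[X]} (hp : CoeffHom d p)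
    (hq : CoeffHom e q) : CoeffHom (d + e) (p * q) := by
  intro j
  rw [coeff_mul]
  exact MvPolynomial.IsHomogeneous.sum _ _ _ fun i _ => (hp _).mul (hq _)

theorem CoeffHom.sum {σ ι : Type*} {d : ℕ} (s : Finset ι) (p : ι → (MvPolynomial σ K)[X])
    (hp : ∀ i ∈ s, CoeffHom d (p i)) : CoeffHom d (∑ i ∈ s, p i) := by
  intro j
  rw [finsetSum_coeff]
  exact MvPolynomial.IsHomogeneous.sum _ _ _ fun i hi => hp i hi j

theorem CoeffHom.one {σ : Type*} : CoeffHom 0 (1 : (MvPolynomial σ K)[X]) := by
  intro j
  rw [coeff_one]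
  split_ifs
  · exact MvPolynomial.isHomogeneous_one _ _
  · exact MvPolynomial.isHomogeneous_zero _ _ _

theorem CoeffHom.prod {σ ι : Type*} (s : Finset ι) (p : ι → (MvPolynomial σ K)[X])
    (hp : ∀ i ∈ s, CoeffHom 1 (p i)) : CoeffHom s.card (∏ i ∈ s, p i) := by
  classical
  induction s using Finset.induction_on with
  | empty => exact CoeffHom.one
  | insert i s hi ih =>
    rw [Finset.prod_insert hi, Finset.card_insert_of_notMem hi, add_comm]
    exact (hp i (Finset.mem_insert_self _ _)).mul (ih fun j hj => hp j (Finset.mem_insert_of_mem hj))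

theorem CoeffHom.det {σ ι : Type*} [Fintype ι] [DecidableEq ι]
    (M : Matrix ι ι (MvPolynomial σ K)[X]) (hM : ∀ i j, CoeffHom 1 (M i j)) :
    CoeffHom (Fintype.card ι) M.det := by
  rw [Matrix.det_apply]
  refine CoeffHom.sum _ _ fun τ _ => ?_
  have h1 := CoeffHom.prod Finset.univ (fun i => M (τ i) i) fun i _ => hM _ _
  intro j
  rcases Int.units_eq_one_or (Equiv.Perm.sign τ) with h | h
  · rw [h, one_smul]; exact h1 j
  · rw [h, Units.neg_smul, one_smul, coeff_neg]
    exact (h1 j).neg

/-- The coefficients of the norm polynomial of a linear combination are homogeneous polynomials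
in the coefficients. -/
theorem exists_generic_norm {x : affRing P} (hx : P.ord (x : F) < 0) {σ : Type} [Fintype σ]
    (e : σ → affRing P) : ∃ (L : ℕ) (Φ : Fin (L + 1) → MvPolynomial σ K),
      (∀ j, (Φ j).IsHomogeneous (-P.ord (x : F)).toNat) ∧
      ∀ t : σ → K, (npoly x (∑ a, t a • e a)).natDegree ≤ L ∧
        ∀ j : Fin (L + 1), (npoly x (∑ a, t a • e a)).coeff j = MvPolynomial.eval t (Φ j) := by
  classical
  have hx0 : x ≠ 0 := by rintro rfl; simp at hx
  have hdx := natDegree_npoly hx hx0
  letI := algA x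
  haveI := finite_algA x hx
  haveI := free_algA x hx
  let b := Module.Free.chooseBasis K[X] (affRing P)
  have hcard : (-P.ord (x : F)).toNat = Fintype.card (Module.Free.ChooseBasisIndex K[X] (affRing P)) := by
    have h1 : npoly x x = X ^ Fintype.card (Module.Free.ChooseBasisIndex K[X] (affRing P)) := by
      have h2 : x = algebraMap K[X] (affRing P) X := (aeval_X x).symm
      have h3 := Algebra.norm_algebraMap_of_basis b (X : K[X])
      rw [← h2] at h3
      exact h3
    rw [h1, natDegree_X_pow] at hdx
    rw [← hdx]; rfl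
  let M : σ → Matrix _ _ K[X] := fun a => Algebra.leftMulMatrix b (e a)
  let G : Matrix _ _ (MvPolynomial σ K)[X] := fun i j =>
    ∑ a, C (MvPolynomial.X a) * (M a i j).map (MvPolynomial.C : K →+* MvPolynomial σ K)
  have hG : ∀ i j, CoeffHom 1 (G i j) := by
    intro i j
    refine CoeffHom.sum _ _ fun a _ => ?_
    intro k
    rw [coeff_C_mul, coeff_map]
    exact (MvPolynomial.isHomogeneous_X _ a).mul (MvPolynomial.isHomogeneous_C _ _)
  have hdet := CoeffHom.det G hG
  rw [← hcard] at hdet
  refine ⟨G.det.natDegree, fun j => G.det.coeff j, fun j => hdet j, fun t => ?_⟩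
  have key : npoly x (∑ a, t a • e a) = G.det.map (MvPolynomial.eval t) := by
    have h1 : npoly x (∑ a, t a • e a) = (Algebra.leftMulMatrix b (∑ a, t a • e a)).det :=
      Algebra.norm_eq_matrix_det b _
    rw [h1]
    have h2 : (G.det).map (MvPolynomial.eval t) = (mapRingHom (MvPolynomial.eval t)) G.det := rfl
    rw [h2, RingHom.map_det]
    congr 1
    have h3 : ∀ a, t a • e a = (C (t a) : K[X]) • e a := by
      intro a
      rw [Algebra.smul_def, Algebra.smul_def]
      congr 1
      exact (aeval_C x (t a)).symm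
    simp only [h3, map_sum, map_smul]
    ext1 i j
    simp only [Matrix.sum_apply, Matrix.smul_apply, smul_eq_mul, RingHom.mapMatrix_apply,
      Matrix.map_apply, G, map_sum, map_mul]
    simp only [coe_mapRingHom, map_C, Polynomial.map_map]
    refine Finset.sum_congr rfl fun a _ => ?_
    congr 1
    · simp
    · have h4 : (MvPolynomial.eval t).comp (MvPolynomial.C : K →+* MvPolynomial σ K) =
        RingHom.id K := by
        ext c; simp
      rw [h4, Polynomial.map_id]
  constructor
  · rw [key]; exact natDegree_map_le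
  · intro j
    rw [key, coeff_map]

end Fermat.Agent.MW
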