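import Fermat.Agent.MW.Curve
import Fermat.Agent.MW.Residue

/-! # Reduction of points with values in a valued field with residue field `K` -/

set_option autoImplicit false
set_option linter.unusedSectionVars false

noncomputable section

open AlgebraicCurve Polynomial
open Fermat.Agent.FunField (IsFF)
open Fermat.Agent.S27C

namespace Fermat.Agent.MW

variable {K F : Type*} [Field K] [Field F] [Algebra K F] {P : Place K F}
variable {Ω : Type*} [Field Ω] [Algebra K Ω]

/-- `Q` is the reduction of the point `p`. -/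
def IsRed (O : ValuationSubring Ω) (p : affRing P →ₐ[K] Ω) (Q : Place K F) : Prop :=
  ∀ f h : affRing P, p h ≠ 0 → O.valuation (p f) < O.valuation (p h) →
    Q.adicValuation ((f : F) / h) < 1

theorem coe_ne_zero_of_map_ne {p : affRing P →ₐ[K] Ω} {h : affRing P} (hp : p h ≠ 0) :
    (h : F) ≠ 0 := by
  intro h0
  apply hp
  have : h = 0 := Subtype.ext h0
  rw [this, map_zero]

variable [IsAlgClosed K] [IsCurveOver K F] [IsFF K F]

theorem exists_red (O : ValuationSubring Ω) (hO : IsResidual K O) (p : affRing P →ₐ[K] Ω) :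
    ∃ Q : Place K F, IsRed O p Q := by
  let w := O.valuation
  let B : Subring F :=
    { carrier := {g | ∃ f h : affRing P, p h ≠ 0 ∧ g = (f : F) / h ∧ w (p f) ≤ w (p h)}
      mul_mem' := by
        rintro _ _ ⟨f, h, hh, rfl, hw⟩ ⟨f', h', hh', rfl, hw'⟩
        refine ⟨f * f', h * h', ?_, ?_, ?_⟩
        · rw [map_mul]; exact mul_ne_zero hh hh'
        · push_cast; rw [div_mul_div_comm]
        · simp only [map_mul]
          exact mul_le_mul' hw hw'
      one_mem' := ⟨1, 1, by simp, by simp, le_rfl⟩
      add_mem' := by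
        rintro _ _ ⟨f, h, hh, rfl, hw⟩ ⟨f', h', hh', rfl, hw'⟩
        have h1 := coe_ne_zero_of_map_ne hh
        have h2 := coe_ne_zero_of_map_ne hh'
        refine ⟨f * h' + h * f', h * h', ?_, ?_, ?_⟩
        · rw [map_mul]; exact mul_ne_zero hh hh'
        · push_cast; rw [div_add_div _ _ h1 h2]
        · simp only [map_mul, map_add]
          refine (w.map_add _ _).trans (max_le ?_ ?_)
          · rw [map_mul]; exact mul_le_mul' hw le_rfl
          · rw [map_mul]; exact mul_le_mul' le_rfl hw'
      zero_mem' := ⟨0, 1, by simp, by simp, by simp⟩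
      neg_mem' := by
        rintro _ ⟨f, h, hh, rfl, hw⟩
        refine ⟨-f, h, hh, by push_cast; rw [neg_div], ?_⟩
        rw [map_neg, Valuation.map_neg]; exact hw }
  let I : Ideal B :=
    { carrier := {g | ∃ f h : affRing P, p h ≠ 0 ∧ (g : F) = (f : F) / h ∧ w (p f) < w (p h)}
      add_mem' := by
        rintro a b ⟨f, h, hh, hg, hw⟩ ⟨f', h', hh', hg', hw'⟩
        have h1 := coe_ne_zero_of_map_ne hh
        have h2 := coe_ne_zero_of_map_ne hh'
        have hwh : 0 < w (p h) := zero_lt_iff.mpr ((Valuation.ne_zero_iff _).mpr hh)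
        have hwh' : 0 < w (p h') := zero_lt_iff.mpr ((Valuation.ne_zero_iff _).mpr hh')
        refine ⟨f * h' + h * f', h * h', ?_, ?_, ?_⟩
        · rw [map_mul]; exact mul_ne_zero hh hh'
        · push_cast; rw [hg, hg', div_add_div _ _ h1 h2]
        · simp only [map_mul, map_add]
          refine lt_of_le_of_lt (w.map_add _ _) (max_lt ?_ ?_)
          · rw [map_mul]; exact mul_lt_mul_of_pos_right hw hwh'
          · rw [map_mul]; exact mul_lt_mul_of_pos_left hw' hwh
      zero_mem' := ⟨0, 1, by simp, by simp, by simp⟩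
      smul_mem' := by
        rintro ⟨_, f', h', hh', rfl, hw'⟩ b ⟨f, h, hh, hg, hw⟩
        have hwh' : 0 < w (p h') := zero_lt_iff.mpr ((Valuation.ne_zero_iff _).mpr hh')
        refine ⟨f' * f, h' * h, ?_, ?_, ?_⟩
        · rw [map_mul]; exact mul_ne_zero hh' hh
        · rw [smul_eq_mul]; push_cast; rw [hg, div_mul_div_comm]
        · simp only [map_mul]
          calc w (p f') * w (p f) ≤ w (p h') * w (p f) := mul_le_mul' hw' le_rfl
            _ < w (p h') * w (p h) := mul_lt_mul_of_pos_left hw hwh' }
  have hI : I ≠ ⊤ := by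
    intro htop
    have h1 : (1 : B) ∈ I := htop ▸ Submodule.mem_top
    obtain ⟨f, h, hh, hg, hw⟩ := h1
    have h2 := coe_ne_zero_of_map_ne hh
    have h3 : f = h := by
      apply Subtype.ext
      push_cast at hg
      field_simp at hg
      exact hg.symm
    rw [h3] at hw
    exact lt_irrefl _ hw
  obtain ⟨W, hBW, hIW⟩ := Ideal.image_subset_nonunits_valuationSubring I hI
  have hmemI : ∀ f h : affRing P, p h ≠ 0 → w (p f) < w (p h) → ((f : F) / h) ∈ W.nonunits := by
    intro f h hh hw
    exact hIW ⟨⟨(f : F) / h, f, h, hh, rfl, hw.le⟩, ⟨f, h, hh, rfl, hw⟩, rfl⟩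
  have hKW : ∀ c : K, algebraMap K F c ∈ W := by
    intro c
    apply hBW
    refine ⟨algebraMap K (affRing P) c, 1, by simp, ?_, ?_⟩
    · simp
    · rw [AlgHom.commutes, map_one]
      exact (O.valuation_le_one_iff _).mpr (hO.mem c) |>.trans (by simp [w])
  have hne : W ≠ ⊤ := by
    obtain ⟨M0, hM0⟩ := exists_exact_pole P
    obtain ⟨z, hz, hz0, hzo⟩ := hM0 (M0 + 1) (by omega)
    let Z : affRing P := ⟨z, hz⟩
    have key : ∃ g : F, g ≠ 0 ∧ g ∈ W.nonunits := by
      by_cases hle : w (p Z) ≤ 1
      · obtain ⟨c, hc⟩ := hO.res (p Z) ((O.valuation_le_one_iff _).mp hle)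
        refine ⟨((Z - algebraMap K (affRing P) c : affRing P) : F) / ((1 : affRing P) : F), ?_,
          hmemI _ _ (by simp) ?_⟩
        · push_cast
          rw [div_one]
          intro h0
          have h1 : z = algebraMap K F c := sub_eq_zero.mp h0
          rw [h1, FunField.PlaceLemmas.ord_algebraMap] at hzo
          push_cast at hzo
          omega
        · rw [map_sub, AlgHom.commutes, map_one, map_one]
          exact hc
      · push Not at hle
        have hpZ : p Z ≠ 0 := by
          intro h0
          rw [h0, map_zero] at hle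
          exact absurd hle (not_lt.mpr zero_le_one)
        refine ⟨((1 : affRing P) : F) / Z, div_ne_zero (by simp) (show ((Z : affRing P) : F) ≠ 0 from hz0),
          hmemI _ _ hpZ ?_⟩
        rw [map_one, map_one]
        exact hle
    obtain ⟨g, hg0, hg⟩ := key
    intro htop
    rw [ValuationSubring.mem_nonunits_iff_or] at hg
    rcases hg with hg | hg
    · exact hg0 hg
    · rw [htop] at hg
      exact hg (ValuationSubring.mem_top _)
  refine ⟨Fermat.Agent.FunField.placeOfValuationSubring W hKW hne, fun f h hh hw => ?_⟩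
  have h1 := hmemI f h hh hw
  by_contra hcon
  push Not at hcon
  set Q := Fermat.Agent.FunField.placeOfValuationSubring W hKW hne with hQ
  have hQW : Q.toValuationSubring = W := rfl
  rw [ValuationSubring.mem_nonunits_iff_or] at h1
  rcases h1 with h1 | h1
  · rw [h1, map_zero] at hcon
    exact absurd hcon (not_le.mpr zero_lt_one)
  · apply h1
    rw [← hQW, mem_iff_adic, map_inv₀]
    exact inv_le_one_of_one_le₀ hcon

variable {O : ValuationSubring Ω} {p : affRing P →ₐ[K] Ω} {Q : Place K F}

theorem IsRed.val_eq (hr : IsRed O p Q) {f h : affRing P} (hh : p h ≠ 0) {c : K}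
    (hc : O.valuation (p f - c • p h) < O.valuation (p h)) : val Q ((f : F) / h) = c := by
  apply val_eq_of
  have h1 := hr (f - c • h) h hh (by rw [map_sub, map_smul]; exact hc)
  have h2 := coe_ne_zero_of_map_ne hh
  have h3 : ((f - c • h : affRing P) : F) / h = (f : F) / h - algebraMap K F c := by
    have : ((f - c • h : affRing P) : F) = (f : F) - c • (h : F) := rfl
    rw [this, Algebra.smul_def, sub_div, mul_div_assoc, div_self h2, mul_one]
  rwa [h3] at h1

theorem exists_res (hO : IsResidual K O) {a b : Ω} (hb : b ≠ 0)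
    (h : O.valuation a ≤ O.valuation b) :
    ∃ c : K, O.valuation (a - c • b) < O.valuation b := by
  have hvb : O.valuation b ≠ 0 := (Valuation.ne_zero_iff _).mpr hb
  have h1 : a / b ∈ O := by
    rw [← O.valuation_le_one_iff, map_div₀]
    exact div_le_one_of_le₀ h zero_le
  obtain ⟨c, hc⟩ := hO.res _ h1
  refine ⟨c, ?_⟩
  have h2 : a - c • b = (a / b - algebraMap K Ω c) * b := by
    rw [Algebra.smul_def, sub_mul, div_mul_cancel₀ _ hb]
  rw [h2, map_mul]
  calc _ < 1 * O.valuation b := mul_lt_mul_of_pos_right hc (zero_lt_iff.mpr hvb)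
    _ = _ := one_mul _

/-- The basic property of the reduction. -/
theorem IsRed.spec (hO : IsResidual K O) (hr : IsRed O p Q) {f h : affRing P} (hh : p h ≠ 0)
    (hle : O.valuation (p f) ≤ O.valuation (p h)) :
    (f : F) / h ∈ Q.toValuationSubring ∧
      O.valuation (p f - val Q ((f : F) / h) • p h) < O.valuation (p h) := by
  obtain ⟨c, hc⟩ := exists_res hO hh hle
  have h1 := hr.val_eq hh hc
  refine ⟨?_, by rw [h1]; exact hc⟩
  have h2 := coe_ne_zero_of_map_ne hh
  have h3 := hr (f - c • h) h hh (by rw [map_sub, map_smul]; exact hc)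
  have h4 : ((f - c • h : affRing P) : F) / h = (f : F) / h - algebraMap K F c := by
    have : ((f - c • h : affRing P) : F) = (f : F) - c • (h : F) := rfl
    rw [this, Algebra.smul_def, sub_div, mul_div_assoc, div_self h2, mul_one]
  rw [h4] at h3
  exact mem_of_hasVal Q h3

end Fermat.Agent.MW
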