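import Fermat.Agent.MW.RatPlaces
import Fermat.Agent.MW.Gauss
import Fermat.Agent.MW.Reduction
import Mathlib.RingTheory.Localization.NormTrace

/-! # The norm polynomial of a function (block [C]) -/

set_option autoImplicit false
set_option linter.unusedSectionVars false
set_option linter.style.haveILetI false
set_option maxHeartbeats 1000000

noncomputable section

open AlgebraicCurve IntermediateField Polynomial

namespace Fermat.Agent.MW

open Fermat.Agent.FunField Fermat.Agent.FunField.PlaceLemmas Fermat.Agent.S27C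
open Fermat.Agent.WeilPairing (isFF_adjoin transcendental_gen)

variable {K F : Type*} [Field K] [Field F] [Algebra K F] {P : Place K F}

/-- `A` as an algebra over `K[X]` -/
abbrev algA (x : affRing P) : Algebra K[X] (affRing P) := (aeval x).toRingHom.toAlgebra

/-- The norm polynomial `N_{F/K(x)} f`. -/
def npoly (x f : affRing P) : K[X] := letI := algA x; Algebra.norm K[X] f

variable [IsAlgClosed K] [IsCurveOver K F] [IsFF K F]

theorem transcendental_of_ord_neg {x : F} (hx : P.ord x < 0) : Transcendental K x := by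
  intro h
  obtain ⟨c, rfl⟩ := mem_range_algebraMap_of_isAlgebraic h
  rw [ord_algebraMap] at hx
  exact lt_irrefl _ hx

theorem coe_aeval (x : affRing P) (p : K[X]) : ((aeval x p : affRing P) : F) = aeval (x : F) p := by
  have := Polynomial.aeval_algHom_apply (affRing P).val x p
  exact this.symm

theorem aeval_injective_of_ord_neg {x : affRing P} (hx : P.ord (x : F) < 0) :
    Function.Injective (aeval x : K[X] → affRing P) := by
  have h1 := transcendental_iff_injective.mp (transcendental_of_ord_neg hx)
  intro p q h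
  apply h1
  rw [← coe_aeval, ← coe_aeval, h]

theorem finite_algA (x : affRing P) (hx : P.ord (x : F) < 0) :
    letI := algA x; Module.Finite K[X] (affRing P) := by
  letI := algA x
  obtain ⟨G, hG, hGA, hspan⟩ := affRing_fg P x.2 hx
  let G' : Set (affRing P) := Subtype.val ⁻¹' G
  have hG' : G'.Finite := hG.preimage Subtype.val_injective.injOn
  have hsm : ∀ (p : K[X]) (z : affRing P), ((p • z : affRing P) : F) = aeval (x : F) p * z := by
    intro p z
    rw [Algebra.smul_def, ← coe_aeval]
    rfl
  have key : ∀ y ∈ Submodule.span (aeval (x : F) : K[X] →ₐ[K] F).range G,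
      ∃ z ∈ Submodule.span K[X] G', (z : F) = y := by
    intro y hy
    induction hy using Submodule.span_induction with
    | mem y hy => exact ⟨⟨y, hGA hy⟩, Submodule.subset_span hy, rfl⟩
    | zero => exact ⟨0, Submodule.zero_mem _, rfl⟩
    | add y y' _ _ h h' =>
      obtain ⟨z, hz, rfl⟩ := h
      obtain ⟨z', hz', rfl⟩ := h'
      exact ⟨z + z', Submodule.add_mem _ hz hz', rfl⟩
    | smul a y _ h =>
      obtain ⟨z, hz, rfl⟩ := h
      obtain ⟨p, hp⟩ := a.2
      refine ⟨p • z, Submodule.smul_mem _ _ hz, ?_⟩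
      rw [hsm]
      have : a • (z : F) = (a : F) * z := rfl
      rw [this, ← hp]
      rfl
  refine ⟨⟨hG'.toFinset, ?_⟩⟩
  rw [eq_top_iff]
  intro f _
  rw [Set.Finite.coe_toFinset]
  obtain ⟨z, hz, hzf⟩ := key f (hspan (aeval (x : F) : K[X] →ₐ[K] F).range
    ⟨X, aeval_X _⟩ f f.2)
  rw [← Subtype.ext hzf]
  exact hz

theorem free_algA (x : affRing P) (hx : P.ord (x : F) < 0) :
    letI := algA x; Module.Free K[X] (affRing P) := by
  letI := algA x
  haveI := finite_algA x hx
  haveI : Module.IsTorsionFree K[X] (affRing P) :=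
    Module.isTorsionFree_iff_algebraMap_injective.mpr (aeval_injective_of_ord_neg hx)
  infer_instance

theorem npoly_mul (x f g : affRing P) : npoly x (f * g) = npoly x f * npoly x g := by
  letI := algA x
  exact map_mul (Algebra.norm K[X]) f g

theorem npoly_one (x : affRing P) : npoly x 1 = 1 := by
  letI := algA x
  exact map_one (Algebra.norm K[X])

theorem npoly_ne_zero {x f : affRing P} (hx : P.ord (x : F) < 0) (hf : f ≠ 0) : npoly x f ≠ 0 := by
  letI := algA x
  haveI := finite_algA x hx
  haveI := free_algA x hx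
  exact Algebra.norm_ne_zero_iff.mpr hf

/-- The norm polynomial computes the norm to `K(x)`. -/
theorem aeval_npoly {x : affRing P} (hx : P.ord (x : F) < 0) (f : affRing P) :
    algebraMap K⟮(x : F)⟯ F (Algebra.norm K⟮(x : F)⟯ (f : F)) = aeval (x : F) (npoly x f) := by
  letI := algA x
  haveI := finite_algA x hx
  haveI := free_algA x hx
  letI a1 : Algebra K[X] K⟮(x : F)⟯ := (aeval (AdjoinSimple.gen K (x : F))).toRingHom.toAlgebra
  letI a2 : Algebra K[X] F := (aeval (x : F)).toRingHom.toAlgebra
  have htr := transcendental_of_ord_neg hx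
  have e1 : ∀ p : K[X], algebraMap K[X] K⟮(x : F)⟯ p = aeval (AdjoinSimple.gen K (x : F)) p :=
    fun _ => rfl
  have e2 : ∀ p : K[X], algebraMap K[X] F p = aeval (x : F) p := fun _ => rfl
  have e3 : ∀ p : K[X], algebraMap K[X] (affRing P) p = aeval x p := fun _ => rfl
  have e4 : ∀ p : K[X], algebraMap K⟮(x : F)⟯ F (aeval (AdjoinSimple.gen K (x : F)) p) =
      aeval (x : F) p := by
    intro p
    rw [← Polynomial.aeval_algebraMap_apply]
    rfl
  haveI : IsScalarTower K[X] K⟮(x : F)⟯ F := IsScalarTower.of_algebraMap_eq fun p => by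
    rw [e1, e2, e4]
  haveI : IsScalarTower K[X] (affRing P) F := IsScalarTower.of_algebraMap_eq fun p => by
    rw [e2, e3]; exact (coe_aeval x p).symm
  have hinjF : Function.Injective (aeval (x : F) : K[X] → F) := transcendental_iff_injective.mp htr
  haveI : IsFractionRing K[X] K⟮(x : F)⟯ := by
    refine ⟨?_, ?_, ?_⟩
    · rintro ⟨p, hp⟩
      have h1 : p ≠ 0 := nonZeroDivisors.ne_zero hp
      refine isUnit_iff_ne_zero.mpr fun h0 => h1 (hinjF ?_)
      have h2 : aeval (AdjoinSimple.gen K (x : F)) p = 0 := h0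
      rw [← e4, h2, map_zero, map_zero]
    · intro z
      obtain ⟨r, s, hrs⟩ := (IntermediateField.mem_adjoin_simple_iff K (z : F)).mp z.2
      by_cases hs : aeval (x : F) s = 0
      · refine ⟨⟨0, 1⟩, ?_⟩
        rw [hs, div_zero] at hrs
        have : z = 0 := Subtype.ext hrs
        rw [this]; simp
      · have hs0 : s ≠ 0 := by rintro rfl; exact hs (map_zero _)
        refine ⟨⟨r, ⟨s, mem_nonZeroDivisors_of_ne_zero hs0⟩⟩, ?_⟩
        apply (algebraMap K⟮(x : F)⟯ F).injective
        rw [map_mul, e1, e1, e4, e4]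
        have : algebraMap K⟮(x : F)⟯ F z = (z : F) := rfl
        rw [this, hrs, div_mul_cancel₀ _ hs]
    · intro p q hpq
      refine ⟨1, ?_⟩
      have : p = q := by
        apply hinjF
        rw [← e4, ← e4]
        exact congrArg _ hpq
      rw [this]
  haveI : FiniteDimensional K⟮(x : F)⟯ F := finiteDimensional_adjoin_of_isFF htr
  haveI : IsLocalization (Algebra.algebraMapSubmonoid (affRing P) (nonZeroDivisors K[X])) F := by
    refine ⟨?_, ?_, ?_⟩
    · rintro ⟨y, r, hr, rfl⟩
      have h1 : (r : K[X]) ≠ 0 := nonZeroDivisors.ne_zero hr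
      refine isUnit_iff_ne_zero.mpr fun h0 => h1 (hinjF ?_)
      have h2 : algebraMap (affRing P) F (algebraMap K[X] (affRing P) r) = 0 := h0
      rw [← IsScalarTower.algebraMap_apply, e2] at h2
      rw [h2, map_zero]
    · intro z
      have hz : ∃ p : K[X], p ≠ 0 ∧ aeval (x : F) p * z ∈ affRing P := by
        have halg : IsAlgebraic K[X] z :=
          (IsFractionRing.isAlgebraic_iff K[X] K⟮(x : F)⟯ F).mpr (Algebra.IsAlgebraic.isAlgebraic z)
        obtain ⟨p, hp, hint⟩ := halg.exists_integral_multiple
        refine ⟨p, hp, fun Q hQ => ?_⟩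
        rw [Algebra.smul_def, e2] at hint
        obtain ⟨q, hq, hq0⟩ := hint
        have hmem : ∀ r : K[X], aeval (x : F) r ∈ Q.toValuationSubring := fun r =>
          coe_aeval x r ▸ (aeval x r).2 Q hQ
        let φ : K[X] →+* Q.toValuationSubring :=
          (aeval (x : F) : K[X] →ₐ[K] F).toRingHom.codRestrict Q.toValuationSubring.toSubring hmem
        have h1 : IsIntegral Q.toValuationSubring (aeval (x : F) p * z) := by
          refine ⟨q.map φ, hq.map _, ?_⟩
          rw [Polynomial.eval₂_map]
          exact hq0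
        obtain ⟨y, hy⟩ := IsIntegrallyClosed.isIntegral_iff.mp h1
        rw [← hy]
        exact y.2
      obtain ⟨r, hr, hz⟩ := hz
      refine ⟨⟨⟨aeval (x : F) r * z, hz⟩, ⟨algebraMap K[X] (affRing P) r, r,
        mem_nonZeroDivisors_of_ne_zero hr, rfl⟩⟩, ?_⟩
      show z * algebraMap (affRing P) F (algebraMap K[X] (affRing P) r) = aeval (x : F) r * z
      rw [← IsScalarTower.algebraMap_apply, mul_comm, e2]
    · intro y z hyz
      exact ⟨1, by rw [Subtype.ext hyz]⟩
  have hnorm := Algebra.norm_localization (Rₘ := K⟮(x : F)⟯) (Sₘ := F) K[X]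
    (nonZeroDivisors K[X]) f
  have h3 : algebraMap (affRing P) F f = (f : F) := rfl
  rw [h3] at hnorm
  rw [hnorm, e1, e4]
  rfl

end Fermat.Agent.MW
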