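import Fermat.Agent.MW.CoreVol
import Fermat.Agent.MW.Exist
import Fermat.Agent.MW.DivNorthcott

/-! # Places as points -/

set_option autoImplicit false
set_option linter.unusedSectionVars false

noncomputable section

open AlgebraicCurve Polynomial Matrix
open Fermat.Agent.FunField (IsFF divOf)
open Fermat.Agent.S27C

namespace Fermat.Agent.MW

variable {F : Type*} [Field F] [Algebra Qb F] {P : Place Qb F} {N₀ : ℕ}
variable [IsCurveOver Qb F] [IsFF Qb F]

/-- Evaluation at a place `Q ≠ P`. -/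
def ptAt (Q : Place Qb F) (hQ : Q ≠ P) : Pt P where
  toFun f := val Q (f : F)
  map_one' := val_one Q
  map_mul' f g := val_mul Q (f.2 Q hQ) (g.2 Q hQ)
  map_zero' := val_zero Q
  map_add' f g := val_add Q (f.2 Q hQ) (g.2 Q hQ)
  commutes' c := val_algebraMap Q c

instance : Nonempty (Pt P) := by
  obtain ⟨Q, hQ⟩ := FunField.exists_place_ne P
  exact ⟨ptAt Q hQ⟩

open Classical in
/-- The point attached to a place. -/
def pt (P : Place Qb F) (Q : Place Qb F) : Pt P :=
  if hQ : Q ≠ P then ptAt Q hQ else Classical.arbitrary _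

theorem pt_apply {Q : Place Qb F} (hQ : Q ≠ P) (f : affRing P) : pt P Q f = val Q (f : F) := by
  unfold pt
  rw [dif_pos hQ]
  rfl

/-- functions with prescribed values at two points -/
theorem exists_sep (hN₀ : Big P N₀) {Q Q' : Place Qb F} (hQ : Q ≠ P) (hQ' : Q' ≠ P)
    (hne : Q ≠ Q') : ∃ f ∈ V P N₀, pt P Q f = 1 ∧ pt P Q' f = 0 := by
  classical
  obtain ⟨N, hN2, hN⟩ := hN₀.prescribed
  obtain ⟨f, hf, hfv⟩ := hN (Finsupp.single P (N₀ : ℤ)) {Q, Q'} 1 (fun R => if R = Q then 1 else 0)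
    (by
      rw [degree_single']
      have : ({Q, Q'} : Finset (Place Qb F)).card ≤ 2 := Finset.card_le_two
      have h2 : ((({Q, Q'} : Finset (Place Qb F)).card : ℕ) : ℤ) ≤ 2 := by exact_mod_cast this
      linarith) one_ne_zero
    (by
      intro R hR
      rw [Finset.mem_insert, Finset.mem_singleton] at hR
      rw [Place.ord_one, Finsupp.single_apply, if_neg, neg_zero]
      rcases hR with rfl | rfl
      · exact Ne.symm hQ
      · exact Ne.symm hQ')
  have hf' : f ∈ affRing P := by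
    intro v hv
    rw [mem_rr_iff] at hf
    rcases hf with hf | hf
    · rw [hf]; exact zero_mem _
    · apply mem_of_ord_nonneg
      have := hf v
      rwa [Finsupp.single_apply, if_neg (Ne.symm hv), neg_zero] at this
  refine ⟨⟨f, hf'⟩, hf, ?_, ?_⟩
  · rw [pt_apply hQ]
    have := (hfv Q (by simp)).2
    rwa [div_one, if_pos rfl] at this
  · rw [pt_apply hQ']
    have := (hfv Q' (by simp)).2
    rwa [div_one, if_neg (Ne.symm hne)] at this

theorem pn_vec_ne_zero (n : ℕ) (p : Pt P) : (fun k => p (bas P n k)) ≠ 0 := by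
  intro h0
  have h1 := sum_bas_coe (P := P) (⟨1, one_mem_V n⟩ : V P n)
  change _ = (1 : affRing P) at h1
  have h2 := congrArg p h1
  rw [map_one, map_sum] at h2
  have h3 : ∀ k, p ((bas P n k : V P n) : affRing P) = 0 := fun k => congrFun h0 k
  simp only [map_smul, h3, smul_zero, Finset.sum_const_zero] at h2
  exact zero_ne_one h2

theorem adm_pn (p : Pt P) : Adm (fun v => pn N₀ v p) := adm_nrm (pn_vec_ne_zero N₀ p)

theorem wdg_eq_zero {n : ℕ} {p q : Pt P} (h : ∀ s t, wdg p q (bas P n s) (bas P n t) = 0)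
    {f g : affRing P} (hf : f ∈ V P n) (hg : g ∈ V P n) : wdg p q f g = 0 := by
  have h1 : ∀ s, ∀ g ∈ V P n, wdg p q (bas P n s) g = 0 := by
    intro s g hg
    have h2 := sum_bas_coe (P := P) (⟨g, hg⟩ : V P n)
    change _ = g at h2
    rw [wdg_swap, ← h2]
    have h3 : wdg p q (∑ a, (bas P n).repr ⟨g, hg⟩ a • ((bas P n a : V P n) : affRing P))
        (bas P n s) = wdgL p q (bas P n s) (∑ a, (bas P n).repr ⟨g, hg⟩ a •
          ((bas P n a : V P n) : affRing P)) := rfl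
    rw [h3, map_sum, neg_eq_zero]
    refine Finset.sum_eq_zero fun a _ => ?_
    rw [map_smul]
    have h4 : wdgL p q (bas P n s) (bas P n a) = 0 := h a s
    rw [h4, smul_zero]
  have h2 := sum_bas_coe (P := P) (⟨f, hf⟩ : V P n)
  change _ = f at h2
  rw [← h2]
  have h3 : wdg p q (∑ a, (bas P n).repr ⟨f, hf⟩ a • ((bas P n a : V P n) : affRing P)) g =
      wdgL p q g (∑ a, (bas P n).repr ⟨f, hf⟩ a • ((bas P n a : V P n) : affRing P)) := rfl
  rw [h3, map_sum]
  refine Finset.sum_eq_zero fun a _ => ?_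
  rw [map_smul]
  have h4 : wdgL p q g (bas P n a) = 0 := h1 a g hg
  rw [h4, smul_zero]

theorem adm_wn (hN₀ : Big P N₀) {Q Q' : Place Qb F} (hQ : Q ≠ P) (hQ' : Q' ≠ P)
    (hne : Q ≠ Q') : Adm (fun v => wn N₀ v (pt P Q) (pt P Q')) := by
  refine adm_nrm ?_
  intro h0
  obtain ⟨f, hf, h1, h2⟩ := exists_sep hN₀ hQ hQ' hne
  have h3 := wdg_eq_zero (p := pt P Q) (q := pt P Q') (n := N₀)
    (fun s t => congrFun h0 (s, t)) hf (one_mem_V N₀)
  unfold wdg at h3
  rw [h1, h2, map_one, map_one] at h3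
  norm_num at h3

theorem wn_comm (v : Pl) (p q : Pt P) : wn N₀ v p q = wn N₀ v q p := by
  unfold wn nrm
  congr 1
  funext st
  have : wdg p q (bas P N₀ st.1) (bas P N₀ st.2) = -wdg q p (bas P N₀ st.1) (bas P N₀ st.2) := by
    unfold wdg; ring
  show av v (wdg p q (bas P N₀ st.1) (bas P N₀ st.2)) =
    av v (wdg q p (bas P N₀ st.1) (bas P N₀ st.2))
  rw [this, AbsoluteValue.map_neg]

/-! ### The sums over finite sets of places -/

/-- height of a place -/
def hp (N₀ : ℕ) (P Q : Place Qb F) : ℝ := S (fun v => pn N₀ v (pt P Q))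

open Classical in
/-- pairing of two places -/
def wp (N₀ : ℕ) (P Q Q' : Place Qb F) : ℝ :=
  if Q = Q' then 0 else S (fun v => wn N₀ v (pt P Q) (pt P Q'))

/-- `η(D)` -/
def eta (N₀ : ℕ) (P : Place Qb F) (D : Finset (Place Qb F)) : ℝ := ∑ Q ∈ D, hp N₀ P Q

/-- `W(D)` -/
def wsum (N₀ : ℕ) (P : Place Qb F) (D : Finset (Place Qb F)) : ℝ :=
  ∑ Q ∈ D, ∑ Q' ∈ D, wp N₀ P Q Q'

/-- enumeration of a finite set of places by points -/
def xs (P : Place Qb F) {e : ℕ} {D : Finset (Place Qb F)} (he : D.card = e) : Fin e → Pt P :=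
  fun i => pt P ((D.equivFinOfCardEq he).symm i : Place Qb F)

theorem S_mainN (hN₀ : Big P N₀) {e : ℕ} {D : Finset (Place Qb F)} (he : D.card = e)
    (hP : P ∉ D) (m : ℕ) :
    Adm (fun v => mainN N₀ m v (xs P he)) ∧
    S (fun v => mainN N₀ m v (xs P he)) =
      ((m + 1 - e : ℕ) : ℝ) * eta N₀ P D + wsum N₀ P D / 2 := by
  classical
  set E := D.equivFinOfCardEq he with hE
  let Q : Fin e → Place Qb F := fun i => ((E.symm i : D) : Place Qb F)
  have hQD : ∀ i, Q i ∈ D := fun i => (E.symm i).2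
  have hQP : ∀ i, Q i ≠ P := fun i h => hP (h ▸ hQD i)
  have hQinj : Function.Injective Q := Subtype.val_injective.comp E.symm.injective
  have hx : ∀ i, xs P he i = pt P (Q i) := fun _ => rfl
  have hadm1 : ∀ i, Adm (fun v => pn N₀ v (xs P he i) ^ (m + 1 - e)) := fun i => (adm_pn _).pow _
  have hadm2 : ∀ i j, i < j → Adm (fun v => wn N₀ v (xs P he i) (xs P he j)) := fun i j hij =>
    adm_wn hN₀ (hQP i) (hQP j) (fun h => hij.ne (hQinj h))
  have hA1 : Adm (fun v => ∏ i, pn N₀ v (xs P he i) ^ (m + 1 - e)) :=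
    Adm.prod _ _ fun i _ => hadm1 i
  have hA3 : ∀ i, Adm (fun v => ∏ j ∈ Finset.Ioi i, wn N₀ v (xs P he i) (xs P he j)) := fun i =>
    Adm.prod _ _ fun j hj => hadm2 i j (Finset.mem_Ioi.mp hj)
  have hA2 : Adm (fun v => ∏ i, ∏ j ∈ Finset.Ioi i, wn N₀ v (xs P he i) (xs P he j)) :=
    Adm.prod _ _ fun i _ => hA3 i
  refine ⟨hA1.mul hA2, ?_⟩
  unfold mainN
  rw [S_mul hA1 hA2, S_prod _ _ fun i _ => hadm1 i, S_prod _ _ fun i _ => hA3 i]
  have hsum : ∀ g : Place Qb F → ℝ, ∑ i, g (Q i) = ∑ R ∈ D, g R := by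
    intro g
    rw [← Finset.sum_coe_sort D g]
    exact Equiv.sum_comp E.symm (fun R : D => g R)
  congr 1
  · have h1 : ∀ i, S (fun v => pn N₀ v (xs P he i) ^ (m + 1 - e)) =
        ((m + 1 - e : ℕ) : ℝ) * hp N₀ P (Q i) := fun i => S_pow _
    rw [Finset.sum_congr rfl fun i _ => h1 i, ← Finset.mul_sum, hsum (hp N₀ P), eta]
  · have h1 : ∀ i, S (fun v => ∏ j ∈ Finset.Ioi i, wn N₀ v (xs P he i) (xs P he j)) =
        ∑ j ∈ Finset.Ioi i, wp N₀ P (Q i) (Q j) := by
      intro i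
      rw [S_prod _ _ fun j hj => hadm2 i j (Finset.mem_Ioi.mp hj)]
      refine Finset.sum_congr rfl fun j hj => ?_
      rw [Finset.mem_Ioi] at hj
      unfold wp
      rw [if_neg (fun h => hj.ne (hQinj h))]
      rfl
    rw [Finset.sum_congr rfl fun i _ => h1 i]
    have h2 : wsum N₀ P D = ∑ i, ∑ j, wp N₀ P (Q i) (Q j) := by
      unfold wsum
      rw [← hsum]
      exact Finset.sum_congr rfl fun i _ => (hsum _).symm
    have hsymm : ∀ i j, wp N₀ P (Q i) (Q j) = wp N₀ P (Q j) (Q i) := by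
      intro i j
      unfold wp
      by_cases h : Q i = Q j
      · rw [if_pos h, if_pos h.symm]
      · rw [if_neg h, if_neg (Ne.symm h)]
        congr 1
        funext v
        exact wn_comm _ _ _
    have hdiag : ∀ i, wp N₀ P (Q i) (Q i) = 0 := by
      intro i
      unfold wp
      rw [if_pos rfl]
    have h3 := Finset.sum_sum_Ioi_add_eq_sum_sum_off_diag
      (fun i j : Fin e => wp N₀ P (Q j) (Q i))
    have h4 : ∑ i, ∑ j, wp N₀ P (Q i) (Q j) = ∑ i, ∑ j ∈ ({i}ᶜ : Finset (Fin e)),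
        wp N₀ P (Q i) (Q j) := by
      refine Finset.sum_congr rfl fun i _ => ?_
      rw [← Finset.sum_add_sum_compl {i}, Finset.sum_singleton, hdiag, zero_add]
    rw [h2, h4]
    rw [← h3]
    have h5 : ∑ i, ∑ j ∈ Finset.Ioi i, (wp N₀ P (Q i) (Q j) + wp N₀ P (Q j) (Q i)) =
        2 * ∑ i, ∑ j ∈ Finset.Ioi i, wp N₀ P (Q i) (Q j) := by
      rw [Finset.mul_sum]
      refine Finset.sum_congr rfl fun i _ => ?_
      rw [Finset.mul_sum]
      refine Finset.sum_congr rfl fun j _ => ?_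
      rw [hsymm j i]; ring
    rw [h5]
    ring

end Fermat.Agent.MW
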