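import Fermat.Agent.MW.Inv

/-! # The quadratic function `Ψ` -/

set_option autoImplicit false
set_option linter.unusedSectionVars false

noncomputable section

open AlgebraicCurve Polynomial Matrix
open Fermat.Agent.FunField (IsFF divOf)
open Fermat.Agent.S27C

namespace Fermat.Agent.MW

variable {F : Type*} [Field F] [Algebra Qb F] {P : Place Qb F} {N₀ : ℕ}
variable [IsCurveOver Qb F] [IsFF Qb F] {ρ : GQ →* SemilinearAut Qb F}

/-- The function `Ψ`. -/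
def Psi (N₀ : ℕ) (P : Place Qb F) (D : Finset (Place Qb F)) : ℝ :=
  (((genusFF Qb F : ℝ) + D.card - 1) / N₀ - (D.card - 1)) * eta N₀ P D + wsum N₀ P D / 2

theorem eq_smul_of_divOf_eq {f g : F} (hf : f ≠ 0) (hg : g ≠ 0)
    (h : (divOf f : Divisor Qb F) = divOf g) : ∃ c : Qb, c ≠ 0 ∧ f = c • g := by
  obtain ⟨Q⟩ := FunField.exists_place (K := Qb) (F := F)
  have h1 : ∀ v : Place Qb F, v.ord (f / g) = 0 := by
    intro v
    rw [FunField.PlaceLemmas.ord_div _ hf hg, ← FunField.divOf_apply (K := Qb) f v,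
      ← FunField.divOf_apply (K := Qb) g v, h, sub_self]
  have h2 : f / g ∈ affRing Q := fun v _ => mem_of_ord_nonneg (h1 v).ge
  have h3 : (⟨f / g, h2⟩ : affRing Q) ∈ V Q 0 := by
    rw [mem_V]
    right
    show -((0 : ℕ) : ℤ) ≤ Q.ord (f / g)
    rw [h1]
    simp
  obtain ⟨c, hc⟩ := eq_algebraMap_of_mem_V_zero h3
  have h4 : f / g = algebraMap Qb F c := congrArg Subtype.val hc
  refine ⟨c, ?_, ?_⟩
  · rintro rfl
    rw [map_zero] at h4
    exact div_ne_zero hf hg h4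
  · rw [Algebra.smul_def, ← h4, div_mul_cancel₀ _ hg]

/-- A function with fixed divisor may be normalized to be fixed. -/
theorem exists_fixed_of_div (R : GalStr ρ P) {u : F} (hu : u ≠ 0)
    (h : ∀ σ, ρ σ • (divOf u : Divisor Qb F) = divOf u) :
    ∃ u' : F, u' ≠ 0 ∧ (∀ σ, ρ σ • u' = u') ∧ (divOf u' : Divisor Qb F) = divOf u := by
  obtain ⟨a, ha, h1⟩ := R.exists_normalize hu (fun σ => by
    have hσu : ρ σ • u ≠ 0 := by
      intro h0
      apply hu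
      have := congrArg ((ρ σ)⁻¹ • ·) h0
      simpa using this
    obtain ⟨c, -, hc⟩ := eq_smul_of_divOf_eq hσu hu (by rw [← smul_divOf, h])
    exact ⟨c, hc⟩)
  exact ⟨a • u, smul_ne_zero ha hu, h1, divOf_smul' ha u⟩

/-- **Invariance of `Ψ`.** -/
theorem inv_Psi (R : GalStr ρ P) (hN₀ : Big P N₀) (e s : ℕ) :
    ∃ C : ℝ, ∀ (D D' : Finset (Place Qb F)), D.card = e → D'.card = e + s * N₀ →
      P ∉ D → P ∉ D' → Stab ρ D → Stab ρ D' →
      (∃ u : F, u ≠ 0 ∧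
        (divOf u : Divisor Qb F) = dvs D' - dvs D - Finsupp.single P ((s * N₀ : ℕ) : ℤ)) →
      |Psi N₀ P D' - Psi N₀ P D| ≤ C := by
  classical
  have hN₀pos := hN₀.pos
  obtain ⟨n₁, hn₁⟩ := exists_finrank_V (F := F) P
  set g := genusFF Qb F with hg
  -- choose `t`
  obtain ⟨t, ht1, ht2, ht3⟩ : ∃ t : ℕ, n₁ ≤ t ∧ e + s * N₀ ≤ t ∧ g + e + 1 ≤ t :=
    ⟨n₁ + (e + s * N₀) + (g + e + 1), by omega, by omega, by omega⟩
  have htN : ∀ m : ℕ, t ≤ m → n₁ ≤ m * N₀ := fun m hm => by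
    calc n₁ ≤ t := ht1
      _ ≤ m := hm
      _ = m * 1 := (mul_one _).symm
      _ ≤ m * N₀ := Nat.mul_le_mul_left _ hN₀pos
  have hdimt : ∀ m : ℕ, t ≤ m → (Module.finrank Qb (V P (m * N₀)) : ℤ) = m * N₀ + 1 - g :=
    fun m hm => by have := hn₁ _ (htN m hm); push_cast at this; exact this
  have hdim : ∀ m : ℕ, t ≤ m →
      Module.finrank Qb (V P ((m + s) * N₀)) = Module.finrank Qb (V P (m * N₀)) + s * N₀ := by
    intro m hm
    have h1 := hdimt m hm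
    have h2 := hdimt (m + s) (by omega)
    zify
    rw [h1, h2]
    push_cast
    ring
  obtain ⟨A₁, hA₁⟩ := exists_lam R hN₀ (e := e) (m := t) (by omega)
  obtain ⟨A₂, hA₂⟩ := exists_lam R hN₀ (e := e) (m := t + 1) (by omega)
  obtain ⟨A₃, hA₃⟩ := exists_lam R hN₀ (e := e + s * N₀) (m := t + s) (by omega)
  obtain ⟨A₄, hA₄⟩ := exists_lam R hN₀ (e := e + s * N₀) (m := t + 1 + s) (by omega)
  obtain ⟨B₁, hB₁⟩ := inv_step R (N₀ := N₀) e s t (t * N₀) (hdim t le_rfl)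
  obtain ⟨B₂, hB₂⟩ := inv_step R (N₀ := N₀) e s (t + 1) (t * N₀) (hdim (t + 1) (by omega))
  refine ⟨(B₁ + A₁ + A₃) + (((t : ℝ) * N₀ + 1 - g - e) / N₀) * (B₁ + B₂ + A₁ + A₂ + A₃ + A₄), ?_⟩
  intro D D' he he' hP hP' hD hD' ⟨u₀, hu₀, hu₀div⟩
  obtain ⟨u, hu, hufix, hudiv⟩ := exists_fixed_of_div R hu₀ (fun σ => by
    rw [hu₀div, smul_sub, smul_sub, hD.smul_dvs, hD'.smul_dvs, smul_single_P R])
  rw [hu₀div] at hudiv
  obtain ⟨hJ₁, hL₁⟩ := hA₁ D he hP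
  obtain ⟨hJ₂, hL₂⟩ := hA₂ D he hP
  obtain ⟨hJ₃, hL₃⟩ := hA₃ D' he' hP'
  obtain ⟨hJ₄, hL₄⟩ := hA₄ D' he' hP'
  -- the functions `b` and `a`
  obtain ⟨l, y, hl, hli, hfix, hyV⟩ := exists_kernel_basis R he hP hD hJ₁
  have hlpos : 0 < l := by
    have h1 := hdimt t le_rfl
    have h2 : (e : ℤ) + l = t * N₀ + 1 - g := by rw [← h1]; exact_mod_cast hl
    have h3 : (g : ℤ) + e + 1 ≤ t := by exact_mod_cast ht3
    have h4 : (t : ℤ) ≤ t * N₀ := by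
      have : t * 1 ≤ t * N₀ := Nat.mul_le_mul_left _ hN₀pos
      rw [mul_one] at this
      exact_mod_cast this
    have h5 : (0 : ℤ) < l := by linarith
    exact_mod_cast h5
  set b : affRing P := y ⟨0, hlpos⟩ with hb
  have hb0 : b ≠ 0 := hli.ne_zero _
  have hbV := hyV ⟨0, hlpos⟩
  have harr : u * (b : F) ∈ riemannRochSpace
      (Finsupp.single P ((t * N₀ + s * N₀ : ℕ) : ℤ) - dvs D' : Divisor Qb F) := by
    refine mul_mem_rr hu (A := Finsupp.single P ((t * N₀ : ℕ) : ℤ) - dvs D) ?_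
      ((mem_rr_sub_iff hP).mpr hbV)
    rw [hudiv]
    push_cast
    rw [Finsupp.single_add]
    abel
  obtain ⟨a, ha⟩ := exists_aff_of_mem_rr harr
  have haV : a ∈ V P (t * N₀ + s * N₀) := by
    rw [← ha, mem_rr_sub_iff hP'] at harr
    exact harr.1
  have hK₁ := hB₁ D D' he he' hP hP' hD hD' hJ₁ hJ₃ u hu hufix hudiv a b hbV.1 hb0 haV ha
  have hK₂ := hB₂ D D' he he' hP hP' hD hD' hJ₂ hJ₄ u hu hufix hudiv a b hbV.1 hb0 haV ha
  set A := Hf R (t * N₀ + s * N₀) a - Hf R (t * N₀) b with hA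
  have hd1 : (Module.finrank Qb (V P (t * N₀)) : ℝ) = t * N₀ + 1 - g := by
    have := hdimt t le_rfl
    exact_mod_cast this
  have hd2 : (Module.finrank Qb (V P ((t + 1) * N₀)) : ℝ) = (t + 1) * N₀ + 1 - g := by
    have := hdimt (t + 1) (by omega)
    exact_mod_cast this
  rw [hd1] at hK₁
  rw [hd2] at hK₂
  have hc1 : ((t + 1 - e : ℕ) : ℝ) = t + 1 - e := by
    rw [Nat.cast_sub (by omega)]; push_cast; ring
  have hc2 : ((t + 1 + 1 - e : ℕ) : ℝ) = t + 1 + 1 - e := by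
    rw [Nat.cast_sub (by omega)]; push_cast; ring
  have hc3 : ((t + s + 1 - (e + s * N₀) : ℕ) : ℝ) = t + s + 1 - (e + s * N₀) := by
    rw [Nat.cast_sub (by omega)]; push_cast; ring
  have hc4 : ((t + 1 + s + 1 - (e + s * N₀) : ℕ) : ℝ) = t + 1 + s + 1 - (e + s * N₀) := by
    rw [Nat.cast_sub (by omega)]; push_cast; ring
  rw [hc1] at hL₁
  rw [hc2] at hL₂
  rw [hc3] at hL₃
  rw [hc4] at hL₄
  have hN0R : (0 : ℝ) < N₀ := by exact_mod_cast hN₀pos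
  -- the difference of the etas
  have hdiff : |eta N₀ P D' - eta N₀ P D - N₀ * A| ≤ B₁ + B₂ + A₁ + A₂ + A₃ + A₄ := by
    rw [abs_le] at hK₁ hK₂ hL₁ hL₂ hL₃ hL₄ ⊢
    unfold lam at hK₁ hK₂
    constructor <;> linarith [hK₁.1, hK₁.2, hK₂.1, hK₂.2, hL₁.1, hL₁.2, hL₂.1, hL₂.2, hL₃.1,
      hL₃.2, hL₄.1, hL₄.2]
  have hl0 : 0 ≤ ((t : ℝ) * N₀ + 1 - g - e) / N₀ := by
    apply div_nonneg _ hN0R.le
    have h1 : (e : ℝ) + l = t * N₀ + 1 - g := by rw [← hd1]; exact_mod_cast hl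
    have h2 : (0 : ℝ) ≤ l := Nat.cast_nonneg l
    linarith
  have hstep : |(((t : ℝ) + s + 1 - (e + s * N₀)) * eta N₀ P D' + wsum N₀ P D' / 2) -
      (((t : ℝ) + 1 - e) * eta N₀ P D + wsum N₀ P D / 2) - (t * N₀ + 1 - g - e) * A| ≤
      B₁ + A₁ + A₃ := by
    rw [abs_le] at hK₁ hL₁ hL₃ ⊢
    unfold lam at hK₁
    constructor <;> linarith [hK₁.1, hK₁.2, hL₁.1, hL₁.2, hL₃.1, hL₃.2]
  have hPsi : Psi N₀ P D' - Psi N₀ P D =
      ((((t : ℝ) + s + 1 - (e + s * N₀)) * eta N₀ P D' + wsum N₀ P D' / 2) -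
      (((t : ℝ) + 1 - e) * eta N₀ P D + wsum N₀ P D / 2) - (t * N₀ + 1 - g - e) * A) -
      (((t : ℝ) * N₀ + 1 - g - e) / N₀) * (eta N₀ P D' - eta N₀ P D - N₀ * A) := by
    unfold Psi
    rw [he, he', ← hg]
    push_cast
    field_simp
    ring
  rw [hPsi]
  refine (abs_sub _ _).trans (add_le_add hstep ?_)
  rw [abs_mul, abs_of_nonneg hl0]
  exact mul_le_mul_of_nonneg_left hdiff hl0

end Fermat.Agent.MW
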