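import Fermat.Agent.MW.Selmer
import Fermat.Agent.ExtVan.LiftInertia
import Fermat.Agent.Frob.QbarInst
import Fermat.Agent.CFT6.Surj

/-! # Quadratic characters of open subgroups of `Gal(ℚ̄/ℚ)` with restricted ramification -/

set_option autoImplicit false
set_option linter.unusedSectionVars false
set_option linter.style.haveILetI false
set_option maxHeartbeats 400000

noncomputable section

open NumberField IsDedekindDomain Module
open scoped nonZeroDivisors Pointwise
open Fermat.Agent.CFT6 (ord ord_mul ord_one place unif unif_pos unif_lt_one norm_eq_unif_zpow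
  exists_place_eq)
open Fermat.Agent.Frob (center mem_center_iff)

namespace Fermat.Agent.MW

local notation "Q̄" => AlgebraicClosure ℚ
local notation "GQ" => AlgebraicClosure ℚ ≃ₐ[ℚ] AlgebraicClosure ℚ

section Kummer

variable (K : IntermediateField ℚ Q̄)

/-- **Kummer theory**: a quadratic character with open kernel is given by a square root. -/
theorem exists_sqrt (χ : K.fixingSubgroup →* ℤˣ)
    (hχ : ∃ L : IntermediateField ℚ Q̄, FiniteDimensional ℚ L ∧
      ∀ σ (hσ : σ ∈ K.fixingSubgroup), σ ∈ L.fixingSubgroup → χ ⟨σ, hσ⟩ = 1)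
    [FiniteDimensional ℚ K] :
    ∃ α : Q̄, α ≠ 0 ∧ ∀ σ : K.fixingSubgroup, (σ : GQ) α = ((χ σ : ℤˣ) : ℤ) * α := by
  classical
  by_cases h1 : ∀ σ, χ σ = 1
  · refine ⟨1, one_ne_zero, fun σ => ?_⟩
    rw [h1 σ]; simp
  push Not at h1
  obtain ⟨σ₀, hσ₀⟩ := h1
  have hσ₀' : χ σ₀ = -1 := (Int.units_eq_one_or _).resolve_left hσ₀
  obtain ⟨L, hL, hLχ⟩ := hχ
  let H : Subgroup GQ := χ.ker.map K.fixingSubgroup.subtype
  have hH : ∀ τ : GQ, τ ∈ H ↔ ∃ h : τ ∈ K.fixingSubgroup, χ ⟨τ, h⟩ = 1 := by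
    intro τ
    constructor
    · rintro ⟨⟨τ', hτ'⟩, h1, rfl⟩
      exact ⟨hτ', h1⟩
    · rintro ⟨h, h1⟩
      exact ⟨⟨τ, h⟩, h1, rfl⟩
  -- H is open
  have hopen : IsOpen (H : Set GQ) := by
    have h2 : IsOpen ((K ⊔ L).fixingSubgroup : Set GQ) :=
      IntermediateField.fixingSubgroup_isOpen (K ⊔ L)
    refine Subgroup.isOpen_mono (H₁ := (K ⊔ L).fixingSubgroup) (H₂ := H) ?_ h2
    intro τ hτ
    rw [hH]
    have h3 : τ ∈ K.fixingSubgroup :=
      IntermediateField.fixingSubgroup_le (le_sup_left : K ≤ K ⊔ L) hτ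
    have h4 : τ ∈ L.fixingSubgroup :=
      IntermediateField.fixingSubgroup_le (le_sup_right : L ≤ K ⊔ L) hτ
    exact ⟨h3, hLχ τ h3 h4⟩
  have hclosed : IsClosed (H : Set GQ) := Subgroup.isClosed_of_isOpen H hopen
  let Hc : ClosedSubgroup GQ := ⟨H, hclosed⟩
  have hfix : (IntermediateField.fixedField H).fixingSubgroup = H :=
    InfiniteGalois.fixingSubgroup_fixedField Hc
  have hσH : (σ₀ : GQ) ∉ H := by
    rw [hH]
    rintro ⟨h, h1⟩
    rw [show (⟨(σ₀ : GQ), h⟩ : K.fixingSubgroup) = σ₀ from Subtype.ext rfl, hσ₀'] at h1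
    exact absurd h1 (by decide)
  obtain ⟨z, hz, hz0⟩ : ∃ z ∈ IntermediateField.fixedField H, (σ₀ : GQ) z ≠ z := by
    by_contra hcon
    push Not at hcon
    apply hσH
    rw [← hfix, IntermediateField.mem_fixingSubgroup_iff]
    exact hcon
  rw [IntermediateField.mem_fixedField_iff] at hz
  refine ⟨z - (σ₀ : GQ) z, sub_ne_zero.mpr hz0.symm, fun σ => ?_⟩
  have key : ∀ τ : K.fixingSubgroup, χ τ = 1 → (τ : GQ) z = z := fun τ hτ =>
    hz τ ((hH _).mpr ⟨τ.2, hτ⟩)
  have key2 : ∀ τ : K.fixingSubgroup, χ τ = -1 → (τ : GQ) z = (σ₀ : GQ) z := by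
    intro τ hτ
    have h3 : χ (σ₀⁻¹ * τ) = 1 := by rw [map_mul, map_inv, hσ₀', hτ]; decide
    have h4 := key _ h3
    have h5 : (σ₀ : GQ) (((σ₀⁻¹ * τ : K.fixingSubgroup) : GQ) z) = (σ₀ : GQ) z := by rw [h4]
    rw [← AlgEquiv.mul_apply, ← Subgroup.coe_mul, mul_inv_cancel_left] at h5
    exact h5
  have hmul : ∀ a b : K.fixingSubgroup, (a : GQ) ((b : GQ) z) = ((a * b : K.fixingSubgroup) : GQ) z :=
    fun _ _ => rfl
  rw [map_sub, hmul]
  rcases Int.units_eq_one_or (χ σ) with h | h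
  · rw [key σ h, key2 (σ * σ₀) (by rw [map_mul, h, hσ₀']; decide), h]
    simp
  · rw [key2 σ h, key (σ * σ₀) (by rw [map_mul, h, hσ₀']; decide), h]
    simp

end Kummer

section Parity

variable {K : IntermediateField ℚ Q̄} [NumberField K]

/-- the valuation subring of an embedding in `PadicAlgCl` -/
def vring {ℓ : ℕ} [Fact ℓ.Prime] (Φ : Q̄ →+* PadicAlgCl ℓ) : ValuationSubring Q̄ :=
  (Valued.v (R := PadicAlgCl ℓ) (Γ₀ := NNReal)).valuationSubring.comap Φ

theorem mem_vring {ℓ : ℕ} [Fact ℓ.Prime] {Φ : Q̄ →+* PadicAlgCl ℓ} {x : Q̄} :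
    x ∈ vring Φ ↔ ‖Φ x‖ ≤ 1 := by
  rw [vring, ValuationSubring.mem_comap, Valuation.mem_valuationSubring_iff,
    PadicAlgCl.valuation_def]
  exact ⟨fun h => by exact_mod_cast h, fun h => by exact_mod_cast h⟩

theorem mem_nonunits_vring {ℓ : ℕ} [Fact ℓ.Prime] {Φ : Q̄ →+* PadicAlgCl ℓ} {x : Q̄} :
    x ∈ (vring Φ).nonunits ↔ ‖Φ x‖ < 1 := by
  rw [ValuationSubring.mem_nonunits_iff_or, mem_vring]
  constructor
  · rintro (rfl | h)
    · simp
    · rw [map_inv₀, norm_inv, not_le] at h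
      by_contra hcon
      push Not at hcon
      exact absurd (inv_le_one_of_one_le₀ hcon) (not_le.mpr h)
  · intro h
    by_cases hx : x = 0
    · exact Or.inl hx
    · right
      rw [map_inv₀, norm_inv, not_le]
      have h0 : 0 < ‖Φ x‖ := norm_pos_iff.mpr ((map_ne_zero Φ).mpr hx)
      exact (one_lt_inv₀ h0).mpr h

theorem vring_lies {ℓ : ℕ} [Fact ℓ.Prime] (Φ : Q̄ →+* PadicAlgCl ℓ) :
    (vring Φ).LiesOverPrime ℓ := by
  show (ℓ : Q̄) ∈ (vring Φ).nonunits
  rw [mem_nonunits_vring, map_natCast]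
  exact Fermat.Agent.CFT6.norm_natCast_q_lt

/-- If the inertia groups above `ℓ` act trivially on `α`, then `α² ∈ K` has even valuation above
`ℓ`. -/
theorem even_ord {ℓ : ℕ} [Fact ℓ.Prime] {v : HeightOneSpectrum (𝓞 K)} (hv : (ℓ : 𝓞 K) ∈ v.asIdeal)
    {α : Q̄} (hα : α ≠ 0) {a : K} (ha : (a : Q̄) = α ^ 2)
    (hun : ∀ A : ValuationSubring Q̄, A.LiesOverPrime ℓ → ∀ τ ∈ A.inertiaSubgroupIn ℚ,
      τ ∈ K.fixingSubgroup → τ α = α) : Even (ord v a) := by
  classical
  by_contra hodd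
  rw [Int.not_even_iff_odd] at hodd
  have ha0 : a ≠ 0 := by
    intro h
    rw [h] at ha
    exact hα (by simpa using ha.symm)
  obtain ⟨φ, hφ⟩ := exists_place_eq (q := ℓ) v hv
  -- extend the embedding
  letI : Algebra K (PadicAlgCl ℓ) := φ.toAlgebra
  haveI : Algebra.IsAlgebraic K Q̄ := Algebra.IsAlgebraic.tower_top (K := ℚ) K
  let Φ' : Q̄ →ₐ[K] PadicAlgCl ℓ := IsAlgClosed.lift
  let Φ : Q̄ →+* PadicAlgCl ℓ := Φ'.toRingHom
  have hΦ : ∀ x : K, Φ (x : Q̄) = φ x := fun x => Φ'.commutes x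
  have hu0 := unif_pos φ
  have hu1 := unif_lt_one φ
  have hnorm : ∀ x : K, x ≠ 0 → ‖Φ (x : Q̄)‖ = unif φ ^ (ord v x) := by
    intro x hx
    rw [hΦ, norm_eq_unif_zpow φ hx, hφ]
  have hαn : ‖Φ α‖ ^ 2 = unif φ ^ (ord v a) := by
    rw [← hnorm a ha0, ha, map_pow, norm_pow]
  -- α is not in K
  have hαK : α ∉ K := by
    intro h
    have h1 : a = (⟨α, h⟩ : K) ^ 2 := Subtype.ext ha
    have h2 : (⟨α, h⟩ : K) ≠ 0 := fun h0 => hα (congrArg Subtype.val h0)
    rw [h1, ord_pow' v h2] at hodd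
    exact (Int.not_odd_iff_even.mpr ⟨ord v (⟨α, h⟩ : K), by push_cast; ring⟩) hodd
  -- an automorphism moving α
  obtain ⟨σ, hσK, hσα⟩ : ∃ σ ∈ K.fixingSubgroup, σ α ≠ α := by
    by_contra hcon
    push Not at hcon
    apply hαK
    rw [← InfiniteGalois.fixedField_fixingSubgroup K, IntermediateField.mem_fixedField_iff]
    exact hcon
  have hsq : ∀ τ ∈ K.fixingSubgroup, τ α = α ∨ τ α = -α := by
    intro τ hτ
    have h1 : (τ α) ^ 2 = α ^ 2 := by
      rw [← map_pow, ← ha]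
      exact (IntermediateField.mem_fixingSubgroup_iff K τ).mp hτ _ a.2
    exact sq_eq_sq_iff_eq_or_eq_neg.mp h1
  have hσα' : σ α = -α := (hsq σ hσK).resolve_left hσα
  have hKfix : ∀ z : Q̄, (∀ τ ∈ K.fixingSubgroup, τ z = z) → z ∈ K := by
    intro z hz
    rw [← InfiniteGalois.fixedField_fixingSubgroup K, IntermediateField.mem_fixedField_iff]
    exact hz
  let L : IntermediateField ℚ Q̄ := K ⊔ IntermediateField.adjoin ℚ {α}
  have hKL : K ≤ L := le_sup_left
  have hαL : α ∈ L := (le_sup_right : _ ≤ L) (IntermediateField.mem_adjoin_simple_self ℚ α)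
  have hLfix : ∀ τ ∈ K.fixingSubgroup, τ α = α → ∀ z ∈ L, τ z = z := by
    intro τ hτ hτα z hz
    have h1 : τ ∈ L.fixingSubgroup := by
      rw [IntermediateField.fixingSubgroup_sup]
      refine ⟨hτ, ?_⟩
      show τ ∈ (IntermediateField.adjoin ℚ {α}).fixingSubgroup
      rw [IntermediateField.mem_fixingSubgroup_iff]
      intro y hy
      induction hy using IntermediateField.adjoin_induction with
      | mem y hy => rw [Set.mem_singleton_iff.mp hy]; exact hτα
      | algebraMap c => exact τ.commutes c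
      | add y z _ _ h h' => rw [map_add, h, h']
      | inv y _ h => rw [map_inv₀, h]
      | mul y z _ _ h h' => rw [map_mul, h, h']
    exact (IntermediateField.mem_fixingSubgroup_iff L τ).mp h1 z hz
  -- elements of L
  have hL : ∀ z ∈ L, ∃ x y : K, z = x + y * α ∧ σ z = x - y * α := by
    intro z hz
    have two : (2 : Q̄) ≠ 0 := two_ne_zero
    have hcase : ∀ τ ∈ K.fixingSubgroup, (τ z = z ∧ τ (σ z) = σ z ∧ τ α = α) ∨
        (τ z = σ z ∧ τ (σ z) = z ∧ τ α = -α) := by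
      intro τ hτ
      rcases hsq τ hτ with h | h
      · left
        refine ⟨hLfix τ hτ h z hz, ?_, h⟩
        have h1 : (σ⁻¹ * τ * σ) z = z := hLfix _ (mul_mem (mul_mem (inv_mem hσK) hτ) hσK) (by
          rw [AlgEquiv.mul_apply, AlgEquiv.mul_apply, hσα', map_neg, h, map_neg]
          have : σ⁻¹ α = -α := by
            rw [AlgEquiv.aut_inv, AlgEquiv.symm_apply_eq, map_neg, hσα', neg_neg]
          rw [this, neg_neg]) z hz
        have h2 : σ ((σ⁻¹ * τ * σ) z) = σ z := by rw [h1]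
        rw [← AlgEquiv.mul_apply, ← mul_assoc, ← mul_assoc, mul_inv_cancel, one_mul] at h2
        exact h2
      · right
        have h1 : (σ⁻¹ * τ) z = z := hLfix _ (mul_mem (inv_mem hσK) hτ) (by
          rw [AlgEquiv.mul_apply, h, map_neg]
          have : σ⁻¹ α = -α := by
            rw [AlgEquiv.aut_inv, AlgEquiv.symm_apply_eq, map_neg, hσα', neg_neg]
          rw [this, neg_neg]) z hz
        have h2 : (τ * σ) z = z := hLfix _ (mul_mem hτ hσK) (by
          rw [AlgEquiv.mul_apply, hσα', map_neg, h, neg_neg]) z hz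
        refine ⟨?_, h2, h⟩
        have h3 : σ ((σ⁻¹ * τ) z) = σ z := by rw [h1]
        rw [← AlgEquiv.mul_apply, mul_inv_cancel_left] at h3
        exact h3
    have hx : (z + σ z) / 2 ∈ K := by
      apply hKfix
      intro τ hτ
      rw [map_div₀, map_add, map_ofNat]
      rcases hcase τ hτ with ⟨h1, h2, -⟩ | ⟨h1, h2, -⟩
      · rw [h1, h2]
      · rw [h1, h2, add_comm]
    have hy : (z - σ z) / (2 * α) ∈ K := by
      apply hKfix
      intro τ hτ
      rw [map_div₀, map_sub, map_mul, map_ofNat]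
      rcases hcase τ hτ with ⟨h1, h2, h3⟩ | ⟨h1, h2, h3⟩
      · rw [h1, h2, h3]
      · rw [h1, h2, h3, mul_neg, div_neg, ← neg_div, neg_sub]
    refine ⟨⟨_, hx⟩, ⟨_, hy⟩, ?_, ?_⟩
    · show z = (z + σ z) / 2 + (z - σ z) / (2 * α) * α
      field_simp
      ring
    · show σ z = (z + σ z) / 2 - (z - σ z) / (2 * α) * α
      field_simp
      ring
  -- lift σ to inertia
  obtain ⟨τ, hτ, hτσ⟩ := Fermat.Agent.ExtVan.exists_lift_inertia L (A := vring Φ)
    (Fact.out : ℓ.Prime) (vring_lies Φ) σ (by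
      intro z hz
      rw [mem_center_iff, mem_nonunits_vring]
      obtain ⟨x, y, h1, h2⟩ := hL z hz
      have h3 : ((σ • z - z : integralClosure ℤ Q̄) : Q̄) = -(2 * (y * α)) := by
        have : ((σ • z - z : integralClosure ℤ Q̄) : Q̄) = σ z - z := rfl
        rw [this, h2, h1]; ring
      rw [h3, map_neg, norm_neg, map_mul, norm_mul]
      by_cases hy : y = 0
      · rw [hy]; simp
      have hyα : ‖Φ ((y : Q̄) * α)‖ ^ 2 = unif φ ^ (2 * ord v y + ord v a) := by
        rw [map_mul, norm_mul, mul_pow, hαn, hnorm y hy, zpow_add₀ hu0.ne', ← zpow_natCast,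
          ← zpow_mul]
        congr 2
        push_cast; ring
      have hzle : ‖Φ ((x : Q̄) + y * α)‖ ≤ 1 := by
        rw [← h1]
        have := Fermat.Agent.Frob.mem_of_isIntegral (vring Φ) z.2
        rwa [mem_vring] at this
      have hlt : ‖Φ ((y : Q̄) * α)‖ < 1 := by
        have hle : ‖Φ ((y : Q̄) * α)‖ ≤ 1 := by
          by_cases hx : x = 0
          · rw [hx] at hzle; simpa using hzle
          have hne : ‖Φ (x : Q̄)‖ ≠ ‖Φ ((y : Q̄) * α)‖ := by
            intro heq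
            have h5 : ‖Φ (x : Q̄)‖ ^ 2 = ‖Φ ((y : Q̄) * α)‖ ^ 2 := by rw [heq]
            rw [hyα, hnorm x hx, ← zpow_natCast, ← zpow_mul] at h5
            have h6 := zpow_right_injective₀ hu0 hu1.ne h5
            push_cast at h6
            obtain ⟨m, hm⟩ := hodd
            omega
          have h5 := IsUltrametricDist.norm_add_eq_max_of_norm_ne_norm hne
          rw [← map_add] at h5
          rw [h5] at hzle
          exact (le_max_right _ _).trans hzle
        have h7 : ‖Φ ((y : Q̄) * α)‖ ^ 2 ≤ 1 := pow_le_one₀ (norm_nonneg _) hle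
        rw [hyα] at h7
        have h8 : 0 ≤ 2 * ord v y + ord v a := by
          by_contra hneg
          push Not at hneg
          have := one_lt_zpow_of_neg₀ hu0 hu1 hneg
          linarith
        have h9 : 0 < 2 * ord v y + ord v a := by
          obtain ⟨m, hm⟩ := hodd
          omega
        have h10 : ‖Φ ((y : Q̄) * α)‖ ^ 2 < 1 := by
          rw [hyα]
          exact zpow_lt_one₀ hu0 hu1 h9
        by_contra hcon
        push Not at hcon
        exact absurd (one_le_pow₀ hcon (n := 2)) (not_le.mpr h10)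
      have h2le : ‖Φ (2 : Q̄)‖ ≤ 1 := by
        have h11 : (2 : Q̄) ∈ vring Φ := by
          have : (2 : Q̄) = 1 + 1 := by norm_num
          rw [this]
          exact add_mem (one_mem _) (one_mem _)
        rwa [mem_vring] at h11
      calc ‖Φ (2 : Q̄)‖ * ‖Φ ((y : Q̄) * α)‖ ≤ 1 * ‖Φ ((y : Q̄) * α)‖ :=
            mul_le_mul_of_nonneg_right h2le (norm_nonneg _)
        _ < 1 := by rw [one_mul]; exact hlt)
  have hτK : τ ∈ K.fixingSubgroup := by
    rw [IntermediateField.mem_fixingSubgroup_iff]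
    intro x hx
    rw [hτσ x (hKL hx)]
    exact (IntermediateField.mem_fixingSubgroup_iff K σ).mp hσK x hx
  have h1 := hun (vring Φ) (vring_lies Φ) τ hτ hτK
  rw [hτσ α hαL] at h1
  exact hσα h1

end Parity

end Fermat.Agent.MW
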