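import Fermat.Agent.MW.Curve
import Fermat.Agent.MW.Abs
import Fermat.Agent.FunField.GenusEq
import Fermat.Prelude.Def_AlgebraicCurve_BaseChangeGalois

/-! # Rational structure: Galois descent for spaces of functions -/

set_option autoImplicit false
set_option linter.unusedSectionVars false

noncomputable section

open AlgebraicCurve Polynomial
open Fermat.Agent.FunField (IsFF divOf)
open Fermat.Agent.S27C

namespace Fermat.Agent.MW

/-- The Galois group. -/
abbrev GQ := Qb ≃ₐ[ℚ] Qb

/-- A rational structure on `F/ℚ̄` : a semilinear action fixing the place `P` and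
equivariant expansions. -/
structure GalStr {F : Type*} [Field F] [Algebra Qb F] (ρ : GQ →* SemilinearAut Qb F)
    (P : Place Qb F) where
  base : ∀ (σ : GQ) (a : Qb), ρ σ • algebraMap Qb F a = algebraMap Qb F (σ a)
  fixP : ∀ σ, ρ σ • P = P
  c : ℤ → F →ₗ[Qb] Qb
  c_sep : ∀ f, (∀ n, c n f = 0) → f = 0
  c_smul : ∀ σ n f, c n (ρ σ • f) = σ (c n f)

variable {F : Type*} [Field F] [Algebra Qb F] {ρ : GQ →* SemilinearAut Qb F} {P : Place Qb F}

namespace GalStr

variable (R : GalStr ρ P)

include R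

theorem smul_smul' (σ : GQ) (a : Qb) (f : F) : ρ σ • (a • f) = σ a • (ρ σ • f) := by
  rw [Algebra.smul_def, Algebra.smul_def, smul_mul', R.base]

/-- Galois descent. -/
theorem exists_fixed_basis (V : Submodule Qb F) [FiniteDimensional Qb V]
    (hV : ∀ σ, ∀ f ∈ V, ρ σ • f ∈ V) :
    ∃ b : Module.Basis (Fin (Module.finrank Qb V)) Qb V, ∀ σ i, ρ σ • (b i : F) = b i := by
  classical
  let L : ℤ → Module.Dual Qb V := fun n => (R.c n).comp V.subtype
  have hspan : Submodule.span Qb (Set.range L) = ⊤ := by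
    rw [eq_top_iff]
    intro φ _
    refine FiniteDimensional.mem_span_of_iInf_ker_le_ker (L := L) (K := φ) ?_
    intro f hf
    rw [Submodule.mem_iInf] at hf
    have h0 : (f : F) = 0 := R.c_sep _ fun n => hf n
    have h1 : f = 0 := Subtype.ext h0
    rw [h1, LinearMap.mem_ker, map_zero]
  obtain ⟨B, hBL, hBspan, hBli⟩ := exists_linearIndependent Qb (Set.range L)
  rw [hspan] at hBspan
  have : Finite B := hBli.finite_of_isNoetherian
  have := Fintype.ofFinite B
  let bB : Module.Basis B Qb (Module.Dual Qb V) := Module.Basis.mk hBli (by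
    rw [Subtype.range_coe, hBspan])
  let ev : V →ₗ[Qb] (B → Qb) := LinearMap.pi fun ℓ => (ℓ : Module.Dual Qb V)
  have hev : Function.Injective ev := by
    rw [← LinearMap.ker_eq_bot, LinearMap.ker_eq_bot']
    intro f hf
    have h1 : ∀ φ : Module.Dual Qb V, φ f = 0 := by
      intro φ
      have h2 : φ ∈ Submodule.span Qb B := by rw [hBspan]; exact Submodule.mem_top
      induction h2 using Submodule.span_induction with
      | mem x hx => exact congrFun hf ⟨x, hx⟩
      | zero => rfl
      | add x y _ _ hx hy => rw [LinearMap.add_apply, hx, hy, add_zero]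
      | smul a x _ hx => rw [LinearMap.smul_apply, hx, smul_zero]
    exact (Module.forall_dual_apply_eq_zero_iff Qb f).mp h1
  have hcard : Fintype.card B = Module.finrank Qb V := by
    rw [← Subspace.dual_finrank_eq, Module.finrank_eq_card_basis bB]
  have hfin : Module.finrank Qb V = Module.finrank Qb (B → Qb) := by
    rw [Module.finrank_pi, hcard]
  let e : V ≃ₗ[Qb] (B → Qb) := LinearEquiv.ofInjectiveOfFinrankEq ev hev hfin
  have he : ∀ (f : V) (ℓ : B), e f ℓ = (ℓ : Module.Dual Qb V) f := fun f ℓ => rfl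
  let b₀ : Module.Basis B Qb V := Module.Basis.ofEquivFun e
  have hb₀ : ∀ σ ℓ, ρ σ • (b₀ ℓ : F) = b₀ ℓ := by
    intro σ ℓ
    have h1 : (⟨ρ σ • (b₀ ℓ : F), hV σ _ (b₀ ℓ).2⟩ : V) = b₀ ℓ := by
      apply e.injective
      funext ℓ'
      obtain ⟨n, hn⟩ := hBL ℓ'.2
      have h2 : e (b₀ ℓ) = Pi.single ℓ 1 := by
        show e (Module.Basis.ofEquivFun e ℓ) = _
        simp
      have h3 : ∀ f : V, e f ℓ' = R.c n (f : F) := by
        intro f
        rw [he, ← hn]
        rfl
      rw [h3]
      show R.c n (ρ σ • (b₀ ℓ : F)) = _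
      rw [R.c_smul, ← h3, h2, Pi.single_apply]
      split_ifs <;> simp
    exact congrArg Subtype.val h1
  refine ⟨b₀.reindex (Fintype.equivFinOfCardEq hcard), fun σ i => ?_⟩
  rw [Module.Basis.reindex_apply]
  exact hb₀ _ _

/-- Normalization (Hilbert 90). -/
theorem exists_normalize {f : F} (hf : f ≠ 0) (h : ∀ σ, ∃ a : Qb, ρ σ • f = a • f) :
    ∃ a : Qb, a ≠ 0 ∧ ∀ σ, ρ σ • (a • f) = a • f := by
  obtain ⟨n, hn⟩ : ∃ n, R.c n f ≠ 0 := by
    by_contra hcon
    push Not at hcon
    exact hf (R.c_sep f hcon)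
  refine ⟨(R.c n f)⁻¹, inv_ne_zero hn, fun σ => ?_⟩
  obtain ⟨a, ha⟩ := h σ
  have h1 : ρ σ • ((R.c n f)⁻¹ • f) = (σ (R.c n f)⁻¹ * a) • f := by
    rw [R.smul_smul', ha, smul_smul]
  have h2 := congrArg (R.c n) h1
  rw [R.c_smul, (R.c n).map_smul, (R.c n).map_smul, smul_eq_mul, smul_eq_mul, inv_mul_cancel₀ hn,
    map_one] at h2
  rw [h1]
  congr 1
  exact eq_inv_of_mul_eq_one_left h2.symm

end GalStr

theorem smul_mem_rr (g : SemilinearAut Qb F) {D : Divisor Qb F} {f : F}
    (hf : f ∈ riemannRochSpace D) : g • f ∈ riemannRochSpace (g • D) := by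
  rw [mem_rr_iff] at hf ⊢
  rcases hf with hf | hf
  · left; rw [hf, smul_zero]
  · right
    intro v
    rw [SemilinearAut.divisor_smul_apply]
    have h1 := SemilinearAut.ord_smul g (g⁻¹ • v) f
    rw [smul_inv_smul] at h1
    rw [h1]
    exact hf _

theorem smul_divOf [IsFF Qb F] (g : SemilinearAut Qb F) (f : F) :
    g • (divOf f : Divisor Qb F) = divOf (g • f) := by
  ext v
  rw [SemilinearAut.divisor_smul_apply, FunField.divOf_apply, FunField.divOf_apply]
  have h1 := SemilinearAut.ord_smul g (g⁻¹ • v) f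
  rw [smul_inv_smul] at h1
  exact h1.symm

end Fermat.Agent.MW
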