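import Fermat.Agent.WeilPairing.Recip

/-! # Places of the rational function field `K(t)` (block [C]) -/

set_option autoImplicit false
set_option linter.unusedSectionVars false
set_option maxHeartbeats 1000000

noncomputable section

open AlgebraicCurve IntermediateField Polynomial

namespace Fermat.Agent.MW

open Fermat.Agent.FunField Fermat.Agent.FunField.PlaceLemmas Fermat.Agent.S27C
open Fermat.Agent.PushPull hiding deg_eq_one inertiaDeg_eq_one
open Fermat.Agent.WeilPairing

section Rational

variable {K E : Type*} [Field K] [Field E] [Algebra K E] [IsAlgClosed K] [IsFF K E]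

attribute [local instance] isCurveOver

theorem rational_places (t : E) (ht : Transcendental K t) (htop : Module.finrank K⟮t⟯ E = 1) :
    ∃ (Q : Place K E) (P : K → Place K E),
      (∀ a, (divOf (t - algebraMap K E a) : Divisor K E) =
        Finsupp.single (P a) 1 - Finsupp.single Q 1) ∧
      (∀ v : Place K E, v ≠ Q → v = P (val v t)) ∧ Q.ord t = -1 := by
  classical
  have ht0 : t ≠ 0 := by rintro rfl; exact ht isAlgebraic_zero
  -- the places
  obtain ⟨Q, hQ⟩ := exists_eq_single (poleDiv_nonneg (K := K) t)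
    (by rw [degree_poleDiv ht, htop]; rfl)
  have hPex : ∀ a : K, ∃ P : Place K E,
      (zeroDiv (t - algebraMap K E a) : Divisor K E) = Finsupp.single P 1 := fun a =>
    exists_eq_single (zeroDiv_nonneg _) (by rw [sum_ord_sub_algebraMap ht, htop]; rfl)
  choose P hP using hPex
  have htr : ∀ a : K, Transcendental K (t - algebraMap K E a) := by
    intro a h
    apply ht
    have := h.add (isAlgebraic_algebraMap (R := K) (A := E) a)
    rwa [sub_add_cancel] at this
  have hne : ∀ a : K, t - algebraMap K E a ≠ 0 := by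
    intro a h
    apply htr a
    rw [h]; exact isAlgebraic_zero
  have hQt : Q.ord t = -1 := by
    have h1 := DFunLike.congr_fun hQ Q
    rw [poleDiv_apply, Finsupp.single_eq_same] at h1
    omega
  have hQa : ∀ a : K, Q.ord (t - algebraMap K E a) = -1 := by
    intro a
    by_cases ha : a = 0
    · rw [ha, map_zero, sub_zero, hQt]
    · rw [sub_eq_add_neg, ← map_neg, ord_add_eq_of_lt Q ht0
        (by rw [hQt, ord_algebraMap]; omega), hQt]
  have hdiv : ∀ a : K, (divOf (t - algebraMap K E a) : Divisor K E) =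
      Finsupp.single (P a) 1 - Finsupp.single Q 1 := by
    intro a
    have h1 : Divisor.degree (poleDiv (t - algebraMap K E a) : Divisor K E) = 1 := by
      have h2 := degree_divOf (K := K) (t - algebraMap K E a)
      rw [divOf_eq_sub, map_sub, hP, Divisor.degree_single, deg_eq_one_of_isFF] at h2
      omega
    obtain ⟨Q', hQ'⟩ := exists_eq_single (poleDiv_nonneg (K := K) _) h1
    have h3 : Q' = Q := by
      by_contra hne'
      have h4 := DFunLike.congr_fun hQ' Q
      rw [poleDiv_apply, Finsupp.single_eq_of_ne (Ne.symm hne'), hQa] at h4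
      omega
    rw [divOf_eq_sub, hP, hQ', h3]
  refine ⟨Q, P, hdiv, ?_, hQt⟩
  intro v hv
  have h1 : 0 ≤ v.ord t := by
    have h2 := DFunLike.congr_fun hQ v
    rw [poleDiv_apply, Finsupp.single_eq_of_ne hv] at h2
    omega
  have h2 := val_spec v (S27C.mem_of_ord_nonneg h1)
  rw [adic_lt_one_iff] at h2
  have h3 : 0 < v.ord (t - algebraMap K E (val v t)) := h2.resolve_left (hne _)
  by_contra hne'
  have h4 := DFunLike.congr_fun (hP (val v t)) v
  rw [zeroDiv_apply, Finsupp.single_eq_of_ne hne'] at h4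
  omega

end Rational

section Norm

variable {K F : Type*} [Field K] [Field F] [Algebra K F] [IsAlgClosed K] [IsFF K F]

attribute [local instance] isCurveOver

theorem ord_pos_of_val {Q : Place K F} {x : F} (hx : 0 ≤ Q.ord x) {c : K} (h : val Q x = c)
    (hne : x - algebraMap K F c ≠ 0) : 0 < Q.ord (x - algebraMap K F c) := by
  have h2 := val_spec Q (S27C.mem_of_ord_nonneg hx)
  rw [h, adic_lt_one_iff] at h2
  exact h2.resolve_left hne

/-- The norm to `K(x)` of a function with poles only at the (totally ramified) pole `P` of `x`. -/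
theorem norm_eq_prod (P : Place K F) {x : F} (hx : Transcendental K x)
    (hxP : P.ord x < 0) (hreg : ∀ Q : Place K F, Q ≠ P → 0 ≤ Q.ord x) {f : F} (hf : f ≠ 0)
    (hfreg : ∀ Q : Place K F, Q ≠ P → 0 ≤ Q.ord f) [DecidableEq (Place K F)] :
    ∃ c : K, c ≠ 0 ∧ algebraMap K⟮x⟯ F (Algebra.norm K⟮x⟯ f) = algebraMap K F c *
      ∏ Q ∈ (divOf f : Divisor K F).support.erase P,
        (x - algebraMap K F (val Q x)) ^ (Q.ord f).toNat := by
  classical
  haveI := isFF_adjoin hx
  haveI : Module.Finite K⟮x⟯ F := finiteDimensional_adjoin_of_isFF hx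
  set t := AdjoinSimple.gen K x with ht
  have htx : algebraMap K⟮x⟯ F t = x := rfl
  obtain ⟨Qi, Pa, hdiv, huniq, hQi⟩ := rational_places t (transcendental_gen hx) (finrank_gen x)
  have hpf : Divisor.pushforward K⟮x⟯ (divOf f : Divisor K F) = divOf (Algebra.norm K⟮x⟯ f) :=
    Divisor.pushforward_eq_of_normFormula (pushforwardNormFormula K K⟮x⟯ F) hf
      (fun w => divOf_apply f w) (fun v => divOf_apply _ v)
  -- restrictions
  have hrP : P.restrict K⟮x⟯ = Qi := by
    by_contra hne
    have h1 : 0 ≤ (P.restrict K⟮x⟯).ord t := by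
      have h2 := DFunLike.congr_fun (hdiv 0) (P.restrict K⟮x⟯)
      rw [map_zero, sub_zero, divOf_apply, Finsupp.sub_apply, Finsupp.single_eq_of_ne hne,
        sub_zero, Finsupp.single_apply] at h2
      rw [h2]; split_ifs <;> omega
    have h2 := P.ord_restrict (F := K⟮x⟯) t
    rw [htx] at h2
    have h3 : 0 ≤ (P.ramificationIndex K⟮x⟯ : ℤ) * (P.restrict K⟮x⟯).ord t :=
      mul_nonneg (by positivity) h1
    omega
  have hrQ : ∀ Q : Place K F, Q ≠ P → Q.restrict K⟮x⟯ = Pa (val Q x) := by
    intro Q hQ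
    have h1 : 0 ≤ Q.ord x := hreg Q hQ
    have h2 := Q.ord_restrict (F := K⟮x⟯) t
    rw [htx] at h2
    have h3 := Q.ramificationIndex_pos (F := K⟮x⟯)
    have h4 : 0 ≤ (Q.restrict K⟮x⟯).ord t := by
      by_contra hcon
      push Not at hcon
      have : (Q.ramificationIndex K⟮x⟯ : ℤ) * (Q.restrict K⟮x⟯).ord t < 0 :=
        mul_neg_of_pos_of_neg (by exact_mod_cast h3) hcon
      omega
    have h5 : Q.restrict K⟮x⟯ ≠ Qi := by
      intro h; rw [h, hQi] at h4; omega
    have h6 := huniq _ h5
    rw [h6]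
    have h7 := val_algebraMap_restrict (F := K⟮x⟯) Q (f := t) (S27C.mem_of_ord_nonneg h4)
    rw [htx] at h7
    rw [h7, ← h6]
  -- the product
  have htne : ∀ a : K, t - algebraMap K K⟮x⟯ a ≠ 0 := by
    intro a h
    apply transcendental_gen hx
    rw [sub_eq_zero] at h
    rw [← ht, h]
    exact isAlgebraic_algebraMap _
  set g : K⟮x⟯ := ∏ Q ∈ (divOf f : Divisor K F).support.erase P,
        (t - algebraMap K K⟮x⟯ (val Q x)) ^ (Q.ord f).toNat with hg
  have hg0 : g ≠ 0 := Finset.prod_ne_zero_iff.mpr fun Q _ => pow_ne_zero _ (htne _)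
  have hN0 : Algebra.norm K⟮x⟯ f ≠ 0 := Algebra.norm_ne_zero_iff.mpr hf
  have hdivg : (divOf g : Divisor K K⟮x⟯) = divOf (Algebra.norm K⟮x⟯ f) := by
    rw [← hpf, hg, divOf_prod _ _ fun Q _ => pow_ne_zero _ (htne _)]
    have h1 : ∀ Q ∈ (divOf f : Divisor K F).support.erase P,
        (divOf ((t - algebraMap K K⟮x⟯ (val Q x)) ^ (Q.ord f).toNat) : Divisor K K⟮x⟯) =
          Q.ord f • Finsupp.single (Q.restrict K⟮x⟯) 1 - Q.ord f • Finsupp.single Qi 1 := by
      intro Q hQ
      rw [Finset.mem_erase] at hQ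
      have h2 := hfreg Q hQ.1
      rw [divOf_pow, hdiv, hrQ Q hQ.1, smul_sub, ← natCast_zsmul, ← natCast_zsmul,
        Int.toNat_of_nonneg h2]
    rw [Finset.sum_congr rfl h1, Finset.sum_sub_distrib, ← Finset.sum_smul]
    have h2 : ∑ Q ∈ (divOf f : Divisor K F).support.erase P, Q.ord f = - P.ord f := by
      have h3 := degree_divOf (K := K) f
      rw [degree_eq_sum, Finsupp.sum] at h3
      have h4 : ∑ Q ∈ (divOf f : Divisor K F).support, Q.ord f = 0 := by
        rw [← h3]
        refine Finset.sum_congr rfl fun v _ => ?_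
        rw [deg_eq_one_of_isFF, Nat.cast_one, mul_one, divOf_apply]
      by_cases hP : P ∈ (divOf f : Divisor K F).support
      · rw [← Finset.add_sum_erase _ _ hP] at h4
        omega
      · rw [Finset.erase_eq_of_notMem hP, h4]
        rw [Finsupp.notMem_support_iff, divOf_apply] at hP
        rw [hP, neg_zero]
    rw [h2]
    conv_rhs => rw [← Finsupp.sum_single (divOf f : Divisor K F)]
    rw [Finsupp.sum, map_sum]
    simp only [Divisor.pushforward_single, inertiaDeg_eq_one, Nat.cast_one, mul_one, divOf_apply]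
    by_cases hP : P ∈ (divOf f : Divisor K F).support
    · rw [← Finset.add_sum_erase _ _ hP, hrP, neg_smul, sub_neg_eq_add, add_comm]
      congr 1
      · rw [Finsupp.smul_single, smul_eq_mul, mul_one]
      · refine Finset.sum_congr rfl fun Q _ => ?_
        rw [Finsupp.smul_single, smul_eq_mul, mul_one]
    · rw [Finset.erase_eq_of_notMem hP]
      rw [Finsupp.notMem_support_iff, divOf_apply] at hP
      rw [hP, neg_zero, zero_smul, sub_zero]
      refine Finset.sum_congr rfl fun Q _ => ?_
      rw [Finsupp.smul_single, smul_eq_mul, mul_one]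
  obtain ⟨c, hc, hcg⟩ := exists_const_of_divOf_eq hN0 hg0 hdivg.symm
  refine ⟨c, hc, ?_⟩
  rw [hcg, map_mul, ← IsScalarTower.algebraMap_apply, hg, map_prod]
  congr 1

end Norm

end Fermat.Agent.MW
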