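import Fermat.Agent.CFT6.ClassFin

/-! # Finiteness of the set of elements with even valuations, modulo squares -/

set_option autoImplicit false
set_option linter.unusedSectionVars false
set_option linter.style.haveILetI false
set_option maxHeartbeats 400000

open NumberField IsDedekindDomain Module
open scoped nonZeroDivisors
open Fermat.Agent.CFT6 (ord ord_mul ord_one count_spanSingleton)

namespace Fermat.Agent.MW

variable {K : Type*} [Field K] [NumberField K]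

theorem ord_inv' (v : HeightOneSpectrum (𝓞 K)) {x : K} (hx : x ≠ 0) : ord v x⁻¹ = - ord v x := by
  have h := ord_mul v hx (inv_ne_zero hx)
  rw [mul_inv_cancel₀ hx, ord_one] at h
  omega

theorem ord_pow' (v : HeightOneSpectrum (𝓞 K)) {x : K} (hx : x ≠ 0) (n : ℕ) :
    ord v (x ^ n) = n * ord v x := by
  induction n with
  | zero => simp [ord_one]
  | succ n ih =>
    rw [pow_succ, ord_mul v (pow_ne_zero _ hx) hx, ih]
    push_cast; ring

theorem ord_zpow' (v : HeightOneSpectrum (𝓞 K)) {x : K} (hx : x ≠ 0) (n : ℤ) :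
    ord v (x ^ n) = n * ord v x := by
  rcases Int.eq_nat_or_neg n with ⟨m, rfl | rfl⟩
  · rw [zpow_natCast, ord_pow' v hx]
  · rw [zpow_neg, zpow_natCast, ord_inv' v (pow_ne_zero _ hx), ord_pow' v hx]
    ring

theorem finite_ord (x : K) (hx : x ≠ 0) : {v : HeightOneSpectrum (𝓞 K) | ord v x ≠ 0}.Finite := by
  have h1 := FractionalIdeal.finite_factors (K := K) (FractionalIdeal.spanSingleton (𝓞 K)⁰ x)
  have h2 : {v : HeightOneSpectrum (𝓞 K) | ord v x ≠ 0} ⊆
      {v | FractionalIdeal.count K v (FractionalIdeal.spanSingleton (𝓞 K)⁰ x) ≠ 0} := by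
    intro v hv
    rw [Set.mem_ofPred_eq, count_spanSingleton v hx]
    exact hv
  exact Set.Finite.subset h1 h2

/-- an element with trivial valuations everywhere is a unit -/
theorem exists_unit_of_ord {x : K} (hx : x ≠ 0) (h : ∀ v : HeightOneSpectrum (𝓞 K), ord v x = 0) :
    ∃ u : (𝓞 K)ˣ, (algebraMap (𝓞 K) K u) = x := by
  have key : ∀ y : K, y ≠ 0 → (∀ v : HeightOneSpectrum (𝓞 K), ord v y = 0) →
      ∃ r : 𝓞 K, algebraMap (𝓞 K) K r = y := by
    intro y hy hv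
    have h1 : ∀ v : HeightOneSpectrum (𝓞 K), v.valuation K y ≤ 1 := fun v =>
      ((Fermat.Agent.CFT6.ord_eq_zero_iff hy).mp (hv v)).le
    obtain ⟨r, hr⟩ := HeightOneSpectrum.mem_integers_of_valuation_le_one K y h1
    exact ⟨r, hr⟩
  obtain ⟨r, hr⟩ := key x hx h
  obtain ⟨s, hs⟩ := key x⁻¹ (inv_ne_zero hx) (fun v => by rw [ord_inv' v hx, h v, neg_zero])
  have hrs : r * s = 1 := by
    apply FaithfulSMul.algebraMap_injective (𝓞 K) K
    rw [map_mul, hr, hs, mul_inv_cancel₀ hx, map_one]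
  exact ⟨⟨r, s, hrs, by rw [mul_comm]; exact hrs⟩, hr⟩

/-- Finitely many classes of units modulo squares. -/
theorem exists_unit_reps : ∃ R : Set (𝓞 K)ˣ, R.Finite ∧ ∀ u : (𝓞 K)ˣ, ∃ r ∈ R, ∃ w : (𝓞 K)ˣ,
    u = r * w ^ 2 := by
  let Q := (𝓞 K)ˣ ⧸ (powMonoidHom 2 : (𝓞 K)ˣ →* (𝓞 K)ˣ).range
  have hfg : Group.FG (𝓞 K)ˣ := Group.fg_iff_monoid_fg.mpr inferInstance
  have h1 : Group.FG Q := inferInstance
  have htor : IsMulTorsion Q := by
    intro q
    obtain ⟨u, rfl⟩ := QuotientGroup.mk_surjective q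
    rw [isOfFinOrder_iff_pow_eq_one]
    refine ⟨2, by norm_num, ?_⟩
    rw [← QuotientGroup.mk_pow, QuotientGroup.eq_one_iff]
    exact ⟨u, rfl⟩
  have hfin : Finite Q := CommGroup.finite_of_fg_isMulTorsion Q htor
  refine ⟨Set.range (fun q : Q => Quotient.out q), Set.finite_range _, fun u => ?_⟩
  refine ⟨_, ⟨(QuotientGroup.mk u : Q), rfl⟩, ?_⟩
  have h2 : (QuotientGroup.mk (Quotient.out (QuotientGroup.mk u : Q)) : Q) = QuotientGroup.mk u :=
    QuotientGroup.out_eq' _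
  rw [QuotientGroup.eq] at h2
  obtain ⟨w, hw⟩ := h2
  refine ⟨w, ?_⟩
  have hw' : w ^ 2 = (Quotient.out (QuotientGroup.mk u : Q))⁻¹ * u := hw
  rw [hw', mul_inv_cancel_left]

/-- **Finiteness of the 2-Selmer group of a number field.** -/
theorem exists_selmer_reps (T : Set (HeightOneSpectrum (𝓞 K))) (hT : T.Finite) :
    ∃ R : Set K, R.Finite ∧ ∀ a : K, a ≠ 0 → (∀ v ∉ T, Even (ord v a)) →
      ∃ r ∈ R, ∃ b : K, b ≠ 0 ∧ a = r * b ^ 2 := by
  classical
  obtain ⟨RU, hRU, hU⟩ := exists_unit_reps (K := K)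
  have hTfin : Finite T := hT
  let Cl := (FractionalIdeal (𝓞 K)⁰ K)ˣ ⧸ (toPrincipalIdeal (𝓞 K) K).range
  have hfin : Finite Cl := Finite.of_equiv _ (ClassGroup.equiv K (R := 𝓞 K)).toEquiv
  -- the half divisor
  let D : Kˣ → HeightOneSpectrum (𝓞 K) →₀ ℤ := fun a =>
    Finsupp.ofSupportFinite (fun v => ord v (a : K) / 2)
      ((finite_ord (a : K) a.ne_zero).subset fun v hv => by
        intro h0
        apply hv
        show ord v (a : K) / 2 = 0
        rw [h0]; rfl)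
  have hD : ∀ a v, D a v = ord v (a : K) / 2 := fun _ _ => rfl
  let I : Kˣ → FractionalIdeal (𝓞 K)⁰ K := fun a =>
    (D a).prod (fun v n => (v.asIdeal : FractionalIdeal (𝓞 K)⁰ K) ^ n)
  have hI0 : ∀ a, I a ≠ 0 := by
    intro a
    simp only [I, Finsupp.prod]
    rw [Finset.prod_ne_zero_iff]
    intro v _
    exact zpow_ne_zero _ (by
      rw [Ne, FractionalIdeal.coeIdeal_eq_zero]
      exact v.ne_bot)
  have hcount : ∀ a v, FractionalIdeal.count K v (I a) = ord v (a : K) / 2 := by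
    intro a v
    exact FractionalIdeal.count_finsuppProd K v (D a)
  let Iu : Kˣ → (FractionalIdeal (𝓞 K)⁰ K)ˣ := fun a => Units.mk0 (I a) (hI0 a)
  let X : Set Kˣ := {a | ∀ v ∉ T, Even (ord v (a : K))}
  let Ψ : Kˣ → Cl × (T → ZMod 2) := fun a =>
    (QuotientGroup.mk (Iu a), fun v => ((ord v.1 (a : K) : ℤ) : ZMod 2))
  -- representatives
  have hex : ∀ c : Ψ '' X, ∃ a ∈ X, Ψ a = c := fun c => c.2
  choose rep hrepX hrep using hex
  have hfinΨ : Finite (Ψ '' X) := (Set.toFinite (Ψ '' X))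
  refine ⟨(fun p : Kˣ × (𝓞 K)ˣ => (p.1 : K) * algebraMap (𝓞 K) K p.2) '' (Set.range rep ×ˢ RU),
    ((Set.finite_range rep).prod hRU).image _, fun a ha hev => ?_⟩
  let a' : Kˣ := Units.mk0 a ha
  have ha'X : a' ∈ X := hev
  let c : Ψ '' X := ⟨Ψ a', a', ha'X, rfl⟩
  have hc : Ψ (rep c) = Ψ a' := hrep c
  have hc1 : (QuotientGroup.mk (Iu (rep c)) : Cl) = QuotientGroup.mk (Iu a') :=
    congrArg Prod.fst hc
  have hc2 : ∀ v : T, ((ord v.1 ((rep c : Kˣ) : K) : ℤ) : ZMod 2) = ((ord v.1 a : ℤ) : ZMod 2) :=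
    fun v => congrFun (congrArg Prod.snd hc) v
  rw [QuotientGroup.eq] at hc1
  obtain ⟨x, hx⟩ := hc1
  have h1 : Iu (rep c) * toPrincipalIdeal (𝓞 K) K x = Iu a' := by
    rw [hx]; group
  have h2 : I (rep c) * FractionalIdeal.spanSingleton (𝓞 K)⁰ (x : K) = I a' := by
    have := congrArg (fun z : (FractionalIdeal (𝓞 K)⁰ K)ˣ => (z : FractionalIdeal (𝓞 K)⁰ K)) h1
    simpa [Iu] using this
  have h3 : ∀ v, ord v ((rep c : Kˣ) : K) / 2 + ord v (x : K) = ord v a / 2 := by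
    intro v
    have e1 := hcount a' v
    rw [← h2, FractionalIdeal.count_mul K v (hI0 _)
      (by rw [Ne, FractionalIdeal.spanSingleton_eq_zero_iff]; exact x.ne_zero),
      count_spanSingleton v x.ne_zero, hcount] at e1
    exact e1
  have hpar : ∀ v, ord v ((rep c : Kˣ) : K) % 2 = ord v a % 2 := by
    intro v
    by_cases hv : v ∈ T
    · have := hc2 ⟨v, hv⟩
      rw [ZMod.intCast_eq_intCast_iff] at this
      exact this
    · have e1 := Int.even_iff.mp (hrepX c v hv)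
      have e2 := Int.even_iff.mp (hev v hv)
      rw [e1, e2]
  have h4 : ∀ v, ord v (a / (((rep c : Kˣ) : K) * (x : K) ^ 2)) = 0 := by
    intro v
    rw [div_eq_mul_inv, ord_mul v ha (inv_ne_zero (mul_ne_zero (rep c).ne_zero
      (pow_ne_zero _ x.ne_zero))), ord_inv' v (mul_ne_zero (rep c).ne_zero
      (pow_ne_zero _ x.ne_zero)), ord_mul v (rep c).ne_zero (pow_ne_zero _ x.ne_zero),
      ord_pow' v x.ne_zero]
    have e1 := h3 v
    have e2 := hpar v
    push_cast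
    omega
  obtain ⟨u, hu⟩ := exists_unit_of_ord (div_ne_zero ha (mul_ne_zero (rep c).ne_zero
      (pow_ne_zero _ x.ne_zero))) h4
  obtain ⟨r, hr, w, hw⟩ := hU u
  refine ⟨((rep c : Kˣ) : K) * algebraMap (𝓞 K) K r, ⟨(rep c, r), ⟨⟨c, rfl⟩, hr⟩, rfl⟩,
    (x : K) * algebraMap (𝓞 K) K w, mul_ne_zero x.ne_zero ?_, ?_⟩
  · have : (w : 𝓞 K) ≠ 0 := w.ne_zero
    simpa using this
  · have hden : ((rep c : Kˣ) : K) * (x : K) ^ 2 ≠ 0 := mul_ne_zero (rep c).ne_zero
      (pow_ne_zero _ x.ne_zero)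
    have h5 : a = algebraMap (𝓞 K) K u * (((rep c : Kˣ) : K) * (x : K) ^ 2) := by
      rw [hu, div_mul_cancel₀ _ hden]
    rw [h5, hw, Units.val_mul, Units.val_pow_eq_pow_val, map_mul, map_pow]
    ring

end Fermat.Agent.MW
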