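import Fermat.Agent.MW.NormDom
import Fermat.Agent.MW.CoreVol

/-! # Heights of functions and heights of their zeros (block [C]) -/

set_option autoImplicit false
set_option linter.unusedSectionVars false
set_option linter.style.haveILetI false
set_option maxHeartbeats 1000000

noncomputable section

open AlgebraicCurve Polynomial
open Fermat.Agent.FunField (IsFF divOf)
open Fermat.Agent.S27C

namespace Fermat.Agent.MW

variable {F : Type*} [Field F] [Algebra Qb F] {P : Place Qb F} {N₀ : ℕ}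
variable [IsCurveOver Qb F] [IsFF Qb F]

theorem sum_bas_coe {n : ℕ} (f : V P n) :
    (∑ a, (bas P n).repr f a • ((bas P n a : V P n) : affRing P)) = (f : affRing P) := by
  have := congrArg (fun z : V P n => (z : affRing P)) ((bas P n).sum_repr f)
  simp only [Submodule.coe_sum, Submodule.coe_smul] at this
  exact this

/-- `|f|^{N₀} ≪ |N f|` -/
theorem dom_npoly_ge {x : affRing P} (hN : 0 < N₀) (hx : P.ord (x : F) = -(N₀ : ℤ)) (n : ℕ) :
    Dom (fun v (f : V P n) => nrm v ((bas P n).repr f) ^ N₀)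
      (fun v f => gn v (npoly x (f : affRing P))) := by
  have hx' : P.ord (x : F) < 0 := by rw [hx]; omega
  obtain ⟨L, Φ, hΦ, h⟩ := exists_generic_norm hx' (fun a => ((bas P n a : V P n) : affRing P))
  have hN' : (-P.ord (x : F)).toNat = N₀ := by rw [hx]; simp
  rw [hN'] at hΦ
  have h1 := dom_homog_ge Φ hN.ne' hΦ (by
    intro t ht
    by_contra ht0
    obtain ⟨hdeg, hco⟩ := h t
    have h2 : npoly x (∑ a, t a • ((bas P n a : V P n) : affRing P)) = 0 := by
      ext j
      by_cases hj : j < L + 1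
      · rw [hco ⟨j, hj⟩, ht, coeff_zero]
      · rw [coeff_eq_zero_of_natDegree_lt (by omega), coeff_zero]
    have h3 : (∑ a, t a • ((bas P n a : V P n) : affRing P)) = 0 := by
      by_contra h4
      exact npoly_ne_zero hx' h4 h2
    have h5 : (∑ a, t a • bas P n a) = 0 := by
      apply Subtype.ext
      simpa using h3
    apply ht0
    funext a
    have h6 := congrFun ((bas P n).repr_sum_self t) a
    rw [← h6, h5]
    simp)
  refine (h1.comp (fun f : V P n => ((bas P n).repr f : _ → Qb))).congr (fun _ _ => rfl) ?_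
  intro v f
  obtain ⟨hdeg, hco⟩ := h ((bas P n).repr f)
  rw [sum_bas_coe] at hdeg hco
  rw [gn_eq_nrm v hdeg]
  congr 1
  funext j
  exact hco j

/-- `|N f| ≪ |f|^{N₀}` -/
theorem dom_npoly_le {x : affRing P} (hN : 0 < N₀) (hx : P.ord (x : F) = -(N₀ : ℤ)) (n : ℕ) :
    Dom (fun v (f : V P n) => gn v (npoly x (f : affRing P)))
      (fun v f => nrm v ((bas P n).repr f) ^ N₀) := by
  have hx' : P.ord (x : F) < 0 := by rw [hx]; omega
  obtain ⟨L, Φ, hΦ, h⟩ := exists_generic_norm hx' (fun a => ((bas P n a : V P n) : affRing P))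
  have hN' : (-P.ord (x : F)).toNat = N₀ := by rw [hx]; simp
  rw [hN'] at hΦ
  have h1 := dom_homog_le Φ hN.ne' hΦ
  refine (h1.comp (fun f : V P n => ((bas P n).repr f : _ → Qb))).congr ?_ (fun _ _ => rfl)
  intro v f
  obtain ⟨hdeg, hco⟩ := h ((bas P n).repr f)
  rw [sum_bas_coe] at hdeg hco
  rw [gn_eq_nrm v hdeg]
  congr 1
  funext j
  exact hco j

/-! ### sizes of points -/

theorem pt_linear (n : ℕ) {f : affRing P} (hf : f ∈ V P n) :
    Dom (fun v (p : Pt P) => av v (p f)) (fun v p => nrm v (fun k => p (bas P n k))) := by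
  have h1 := dom_linear_comb (X := Pt P) (fun k => (bas P n).repr ⟨f, hf⟩ k)
    (fun p k => p (bas P n k))
  refine h1.congr (fun v p => ?_) (fun _ _ => rfl)
  congr 1
  have h2 := sum_bas_coe (P := P) (⟨f, hf⟩ : V P n)
  change _ = f at h2
  conv_lhs => rw [← h2]
  rw [map_sum]
  refine Finset.sum_congr rfl fun k _ => ?_
  rw [map_smul, smul_eq_mul]

/-- `max(1, |x(p)|) ≪ |p|` -/
theorem dom_max_le_pn {x : affRing P} (hx : P.ord (x : F) = -(N₀ : ℤ)) :
    Dom (fun v (p : Pt P) => max 1 (av v (p x))) (fun v p => pn N₀ v p) := by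
  refine Dom.max ?_ ?_ fun _ _ => pn_nonneg _ _
  · refine (pt_linear N₀ (one_mem_V N₀)).congr (fun v p => ?_) (fun _ _ => rfl)
    rw [map_one, map_one]
  · exact pt_linear N₀ (mem_V.mpr (Or.inr hx.ge))

/-- `|p| ≪ max(1, |x(p)|)` -/
theorem dom_pn_le_max {x : affRing P} (hx : P.ord (x : F) = -(N₀ : ℤ)) :
    Dom (fun v (p : Pt P) => pn N₀ v p) (fun v p => max 1 (av v (p x))) := by
  refine Dom.nrm' (b := fun (p : Pt P) k => p (bas P N₀ k)) (fun v p => by positivity) fun k => ?_
  have h0 : ∀ v (p : Pt P), nrm v (![1, p x] : Fin 2 → Qb) = max 1 (av v (p x)) := by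
    intro v p
    apply le_antisymm
    · refine nrm_le fun i => ?_
      fin_cases i
      · simp
      · simp
    · refine max_le ?_ ?_
      · have := le_nrm v (![1, p x] : Fin 2 → Qb) 0
        simpa using this
      · have := le_nrm v (![1, p x] : Fin 2 → Qb) 1
        simpa using this
  refine (Dom.of_exact (fun p : Pt P => p (bas P N₀ k)) (fun p => (![1, p x] : Fin 2 → Qb)) ?_).congr
    (fun _ _ => rfl) (fun v p => (h0 v p).symm)
  intro Ω _ _ O hO θ
  let q : affRing P →ₐ[Qb] Ω := θ.comp (AlgHom.pi (fun p : Pt P => p))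
  have hq : ∀ f, q f = θ (fun p => p f) := fun _ => rfl
  obtain ⟨R, hR⟩ := exists_red O hO q
  by_contra hcon
  push Not at hcon
  have h1 := hcon 0
  have h2 := hcon 1
  simp only [Matrix.cons_val_zero, Matrix.cons_val_one] at h1 h2
  have e1 : θ (fun _ : Pt P => (1 : Qb)) = q 1 := by rw [hq]; simp
  rw [e1] at h1
  have e2 : θ (fun p : Pt P => p x) = q x := (hq x).symm
  rw [e2] at h2
  set w : affRing P := ((bas P N₀ k : V P N₀) : affRing P) with hw
  have e3 : θ (fun p : Pt P => p w) = q w := (hq w).symm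
  rw [e3] at h1 h2
  have hqw : q w ≠ 0 := by
    intro h0
    rw [h0, map_zero] at h2
    exact absurd h2 (not_lt.mpr zero_le)
  have h3 := hR 1 w hqw h1
  have h4 := hR x w hqw h2
  have hw0 : (w : F) ≠ 0 := coe_ne_zero_of_map_ne hqw
  rw [adic_lt_one_iff] at h3 h4
  have h5 : 0 < R.ord (((1 : affRing P) : F) / w) := h3.resolve_left (div_ne_zero (by simp) hw0)
  rw [FunField.PlaceLemmas.ord_div _ (by simp) hw0] at h5
  have h6 : R.ord (((1 : affRing P) : F)) = 0 := by simp
  rw [h6] at h5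
  have hRP : R = P := by
    by_contra hne
    have := affRing_ord_nonneg w hne
    omega
  subst hRP
  have hx0 : (x : F) ≠ 0 := by
    intro h
    rw [h, Place.ord_zero] at hx
    have hN0 : (N₀ : ℤ) = 0 := by omega
    have h7 := (mem_V.mp (bas R N₀ k).2).resolve_left (fun h => hw0 (by rw [hw, h]; rfl))
    rw [← hw] at h7
    omega
  have h8 : 0 < R.ord ((x : F) / w) := h4.resolve_left (div_ne_zero hx0 hw0)
  rw [FunField.PlaceLemmas.ord_div _ hx0 hw0, hx] at h8
  have h7 := (mem_V.mp (bas R N₀ k).2).resolve_left (fun h => hw0 (by rw [hw, h]; rfl))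
  rw [← hw] at h7
  omega

/-! ### zeros -/

/-- `∏_Q max(1,|x(Q)|_v)^{D(Q)}` -/
def hv (x : F) (v : Pl) (D : Divisor Qb F) : ℝ :=
  D.prod fun Q n => (max 1 (av v (val Q x))) ^ n.toNat

theorem hv_eq (x : F) (v : Pl) (D : Divisor Qb F) :
    hv x v D = ((xset x D).map fun a => max 1 (av v a)).prod :=
  (prod_map_xset x D (fun a => max 1 (av v a))).symm

theorem one_le_hv (x : F) (v : Pl) (D : Divisor Qb F) : 1 ≤ hv x v D := by
  unfold hv
  rw [Finsupp.prod]
  refine Finset.prod_induction _ (fun t : ℝ => 1 ≤ t) (fun a b ha hb => ?_) le_rfl fun Q _ => ?_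
  · exact one_le_mul_of_one_le_of_one_le ha hb
  · exact one_le_pow₀ (le_max_left _ _)

theorem adm_max_one (a : Qb) : Adm (fun v => max 1 (av v a)) := by
  by_cases ha : a = 0
  · subst ha
    refine ⟨fun v => by positivity, ?_⟩
    simp
  · exact Adm.one.max (adm_av ha)

theorem adm_hv (x : F) (D : Divisor Qb F) : Adm (fun v => hv x v D) := by
  unfold hv
  simp only [Finsupp.prod]
  exact Adm.prod _ _ fun Q _ => (adm_max_one _).pow _

theorem S_hv (x : F) (D : Divisor Qb F) :
    S (fun v => hv x v D) = D.sum fun Q n => (n.toNat : ℝ) * S (fun v => max 1 (av v (val Q x))) := by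
  unfold hv
  simp only [Finsupp.prod]
  rw [S_prod _ _ fun Q _ => (adm_max_one _).pow _, Finsupp.sum]
  exact Finset.sum_congr rfl fun Q _ => S_pow _

theorem hv_add (x : F) (v : Pl) {D E : Divisor Qb F} (hD : 0 ≤ D) (hE : 0 ≤ E) :
    hv x v (D + E) = hv x v D * hv x v E := prod_add_of_nonneg _ hD hE

/-- `gn χ_D ≍ hv D` with constants depending only on the degree. -/
theorem exists_gn_chi (d : ℕ) : ∃ C : Pl → ℝ, Adm C ∧ (∀ v, 1 ≤ C v) ∧
    ∀ v (x : F) (D : Divisor Qb F), 0 ≤ D → Divisor.degree D ≤ d →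
      hv x v D ≤ C v * gn v (chi x D) ∧ gn v (chi x D) ≤ C v * hv x v D := by
  obtain ⟨C, hC, hC1, hC2⟩ := exists_gn_prod d
  refine ⟨C, hC, hC1, fun v x D hD hdeg => ?_⟩
  have hcard : (xset x D).card ≤ d := by
    have := card_xset_of_nonneg x hD
    omega
  rw [hv_eq, chi_eq_prod]
  exact hC2 v _ hcard

/-- **Heights of functions versus heights of their zeros.** -/
theorem exists_zeros {x : affRing P} (hN : 0 < N₀) (hx : P.ord (x : F) = -(N₀ : ℤ)) (n : ℕ) :
    ∃ C : Pl → ℝ, Adm C ∧ (∀ v, 1 ≤ C v) ∧ ∀ f : V P n, f ≠ 0 →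
      ∃ c : Qb, c ≠ 0 ∧
        npoly x (f : affRing P) = Polynomial.C c * chi (x : F) (zdiv P ((f : affRing P) : F)) ∧
        ∀ v, nrm v ((bas P n).repr f) ^ N₀ ≤
            C v * (av v c * hv (x : F) v (zdiv P ((f : affRing P) : F))) ∧
          av v c * hv (x : F) v (zdiv P ((f : affRing P) : F)) ≤
            C v * nrm v ((bas P n).repr f) ^ N₀ := by
  have hx' : P.ord (x : F) < 0 := by rw [hx]; omega
  obtain ⟨C, hC, hC1, hC2⟩ := dom_npoly_ge hN hx n
  obtain ⟨C', hC', hC1', hC2'⟩ := dom_npoly_le hN hx n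
  obtain ⟨E, hE, hE1, hE2⟩ := exists_gn_chi (F := F) n
  refine ⟨fun v => C v * C' v * E v, (hC.mul hC').mul hE, fun v =>
    one_le_mul_of_one_le_of_one_le (one_le_mul_of_one_le_of_one_le (hC1 v) (hC1' v)) (hE1 v), ?_⟩
  intro f hf
  have hf0 : (f : affRing P) ≠ 0 := fun h => hf (Subtype.ext h)
  obtain ⟨c, hc, hcf⟩ := npoly_eq hx' hf0
  refine ⟨c, hc, hcf, fun v => ?_⟩
  have hdeg : Divisor.degree (zdiv P ((f : affRing P) : F)) ≤ n := by
    rw [degree_zdiv]
    have := (mem_V.mp f.2).resolve_left hf0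
    omega
  obtain ⟨h1, h2⟩ := hE2 v (x : F) (zdiv P ((f : affRing P) : F)) (zdiv_nonneg _) hdeg
  have h3 := hC2 v f
  have h4 := hC2' v f
  dsimp only at h3 h4
  rw [hcf, gn_C_mul] at h3 h4
  have hc0 := (av v).nonneg c
  have hCv := zero_le_one.trans (hC1 v)
  have hCv' := zero_le_one.trans (hC1' v)
  have hEv := zero_le_one.trans (hE1 v)
  have hh := zero_le_one.trans (one_le_hv (x : F) v (zdiv P ((f : affRing P) : F)))
  have hnn : 0 ≤ nrm v ((bas P n).repr f) ^ N₀ := pow_nonneg (nrm_nonneg _ _) _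
  constructor
  · calc nrm v ((bas P n).repr f) ^ N₀
        ≤ C v * (av v c * gn v (chi (x : F) (zdiv P ((f : affRing P) : F)))) := h3
      _ ≤ C v * (av v c * (E v * hv (x : F) v (zdiv P ((f : affRing P) : F)))) := by gcongr
      _ = 1 * (C v * E v * (av v c * hv (x : F) v (zdiv P ((f : affRing P) : F)))) := by ring
      _ ≤ C' v * (C v * E v * (av v c * hv (x : F) v (zdiv P ((f : affRing P) : F)))) := by
          gcongr
          exact hC1' v
      _ = _ := by ring
  · calc av v c * hv (x : F) v (zdiv P ((f : affRing P) : F))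
        ≤ av v c * (E v * gn v (chi (x : F) (zdiv P ((f : affRing P) : F)))) := by gcongr
      _ = E v * (av v c * gn v (chi (x : F) (zdiv P ((f : affRing P) : F)))) := by ring
      _ ≤ E v * (C' v * nrm v ((bas P n).repr f) ^ N₀) := by gcongr
      _ = 1 * (C' v * E v * nrm v ((bas P n).repr f) ^ N₀) := by ring
      _ ≤ C v * (C' v * E v * nrm v ((bas P n).repr f) ^ N₀) := by
          gcongr
          exact hC1 v
      _ = _ := by ring

end Fermat.Agent.MW
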